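import Mathlib

/-!
# S14 / WP A2 (helper62), abstract part: counting quotients of free `ℤ`-modules

* `card_quot_range_eq_natAbs_det`: `|M / φ M| = |det φ|` for injective `φ` on a free finite `ℤ`-module.
* `card_quot_smul`: `|B / pB| = p ^ rank B`.
* `core_cyclotomic`: if `∑ i < p, τ ^ i = 0` on a free finite `ℤ`-module `C` then
  `|C / (τ - 1) C| ^ (p - 1) = p ^ rank C * k` with `k ≠ 0`.
-/

namespace Fermat.Agent.S14.H62

open Module Polynomial

section DetIndex

variable {M : Type*} [AddCommGroup M] [Module.Free ℤ M] [Module.Finite ℤ M]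

theorem card_quot_range_eq_natAbs_det (φ : M →ₗ[ℤ] M) (hφ : Function.Injective φ) :
    Nat.card (M ⧸ LinearMap.range φ) = (LinearMap.det φ).natAbs := by
  have h := Submodule.natAbs_det_equiv (LinearMap.range φ) (LinearEquiv.ofInjective φ hφ)
  rw [← h]
  congr 2

theorem det_ne_zero_of_injective (φ : M →ₗ[ℤ] M) (hφ : Function.Injective φ) :
    LinearMap.det φ ≠ 0 := by
  intro h
  rw [LinearMap.det_eq_zero_iff_ker_ne_bot] at h
  exact h (LinearMap.ker_eq_bot.mpr hφ)

theorem card_quot_range_ne_zero (φ : M →ₗ[ℤ] M) (hφ : Function.Injective φ) :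
    Nat.card (M ⧸ LinearMap.range φ) ≠ 0 := by
  rw [card_quot_range_eq_natAbs_det φ hφ]
  exact Int.natAbs_ne_zero.mpr (det_ne_zero_of_injective φ hφ)

end DetIndex

end Fermat.Agent.S14.H62

namespace Fermat.Agent.S14.H62

open Module Polynomial

section Poly

/-- `(X - 1) ^ (p - 1) = Φ_p + p * w` in `ℤ[X]`. -/
theorem exists_X_sub_one_pow_eq (p : ℕ) [hp : Fact p.Prime] :
    ∃ w : ℤ[X], (X - 1 : ℤ[X]) ^ (p - 1) = cyclotomic p ℤ + C (p : ℤ) * w := by
  have h0 : Polynomial.map (Int.castRingHom (ZMod p)) ((X - 1 : ℤ[X]) ^ (p - 1) - cyclotomic p ℤ) = 0 := by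
    rw [Polynomial.map_sub, Polynomial.map_pow, Polynomial.map_sub, Polynomial.map_X,
      Polynomial.map_one, map_cyclotomic]
    have h1 := cyclotomic_mul_prime_eq_pow_of_not_dvd (ZMod p) (p := p) (n := 1)
      (by simpa using hp.out.one_lt.ne')
    rw [one_mul, cyclotomic_one] at h1
    rw [h1, sub_self]
  have h2 : C (p : ℤ) ∣ ((X - 1 : ℤ[X]) ^ (p - 1) - cyclotomic p ℤ) := by
    rw [Polynomial.C_dvd_iff_dvd_coeff]
    intro i
    have := congrArg (fun q => q.coeff i) h0
    simp only [Polynomial.coeff_map, Polynomial.coeff_zero] at this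
    exact (ZMod.intCast_zmod_eq_zero_iff_dvd _ p).mp this
  obtain ⟨w, hw⟩ := h2
  exact ⟨w, by rw [← hw]; ring⟩

end Poly

section Core

variable {C : Type*} [AddCommGroup C] [Module.Free ℤ C] [Module.Finite ℤ C]

theorem sub_one_injective_of_sum_pow_eq_zero (p : ℕ) (hp : p ≠ 0) (τ : C →ₗ[ℤ] C)
    (hτ : ∑ i ∈ Finset.range p, τ ^ i = 0) : Function.Injective (τ - 1 : C →ₗ[ℤ] C) := by
  rw [← LinearMap.ker_eq_bot, LinearMap.ker_eq_bot']
  intro x hx
  have hx' : τ x = x := by
    have : τ x - x = 0 := by simpa using hx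
    exact sub_eq_zero.mp this
  have hpow : ∀ i : ℕ, (τ ^ i) x = x := by
    intro i
    induction i with
    | zero => simp
    | succ i ih => rw [pow_succ, Module.End.mul_apply, hx', ih]
  have h1 : (∑ i ∈ Finset.range p, τ ^ i) x = (p : ℤ) • x := by
    rw [LinearMap.sum_apply]
    simp [hpow]
  rw [hτ, LinearMap.zero_apply] at h1
  have := (smul_eq_zero.mp h1.symm)
  rcases this with h | h
  · exact absurd (by exact_mod_cast h) hp
  · exact h

/-- **Core count**: if `1 + τ + ... + τ^(p-1) = 0` on a free `ℤ`-module `C` of finite rank, then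
`|C / (τ - 1) C| ^ (p - 1) = p ^ rank C * k` with `k ≠ 0`. -/
theorem core_cyclotomic (p : ℕ) [hp : Fact p.Prime] (τ : C →ₗ[ℤ] C)
    (hτ : ∑ i ∈ Finset.range p, τ ^ i = 0) :
    ∃ k : ℕ, k ≠ 0 ∧
      Nat.card (C ⧸ LinearMap.range (τ - 1)) ^ (p - 1) = p ^ finrank ℤ C * k := by
  have hinj := sub_one_injective_of_sum_pow_eq_zero p hp.out.ne_zero τ hτ
  obtain ⟨w, hw⟩ := exists_X_sub_one_pow_eq p
  have h1 := congrArg (Polynomial.aeval τ) hw
  simp only [map_pow, map_sub, aeval_X, map_one, map_add, map_mul, aeval_C] at h1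
  rw [cyclotomic_prime, map_sum] at h1
  simp only [map_pow, aeval_X] at h1
  rw [hτ, zero_add] at h1
  have h2 : (τ - 1) ^ (p - 1) = (p : ℤ) • (Polynomial.aeval τ w) := by
    rw [h1]
    simp [Algebra.algebraMap_eq_smul_one]
  have h3 := congrArg LinearMap.det h2
  rw [map_pow, LinearMap.det_smul] at h3
  have hdet := det_ne_zero_of_injective (τ - 1) hinj
  refine ⟨(LinearMap.det (Polynomial.aeval τ w)).natAbs, ?_, ?_⟩
  · intro h0
    rw [Int.natAbs_eq_zero] at h0
    rw [h0, mul_zero] at h3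
    exact hdet (pow_eq_zero_iff (Nat.sub_ne_zero_of_lt hp.out.one_lt) |>.mp h3)
  · rw [card_quot_range_eq_natAbs_det _ hinj, ← Int.natAbs_pow, h3, Int.natAbs_mul,
      Int.natAbs_pow, Int.natAbs_natCast]

theorem card_quot_smul (B : Type*) [AddCommGroup B] [Module.Free ℤ B] [Module.Finite ℤ B]
    (p : ℕ) (hp : p ≠ 0) :
    Nat.card (B ⧸ LinearMap.range ((p : ℤ) • (LinearMap.id : B →ₗ[ℤ] B))) = p ^ finrank ℤ B := by
  have hinj : Function.Injective ((p : ℤ) • (LinearMap.id : B →ₗ[ℤ] B)) := by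
    intro x y hxy
    simp only [LinearMap.smul_apply, LinearMap.id_coe, id_eq] at hxy
    exact smul_right_injective B (by exact_mod_cast hp : (p : ℤ) ≠ 0) hxy
  rw [card_quot_range_eq_natAbs_det _ hinj, LinearMap.det_smul, LinearMap.det_id, mul_one,
    Int.natAbs_pow, Int.natAbs_natCast]

end Core

end Fermat.Agent.S14.H62
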