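import Fermat.Agent.S14.H62_Herbrand
import Fermat.Agent.S14.H62_RankCount

/-!
# S14 / WP A2 (helper62), abstract part: Herbrand quotient of a f.g. `ℤ[σ]`-module, `σ ^ p = 1`

`A` a finitely generated `ℤ`-module with an endomorphism `σ`, `σ ^ p = 1`, `N = ∑_{i<p} σ^i`,
`D = σ - 1`.  If `rank A = b + (p - 1) c` with `b = rank (ker D)`, then
`p ^ c * [ker D : N A] ≤ p ^ b * [ker N : D A]` and both indices are finite.
-/

namespace Fermat.Agent.S14.H62

open Module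

section Basic

variable {A : Type*} [AddCommGroup A]
variable (p : ℕ) (σ : Module.End ℤ A)

/-- The norm element `1 + σ + ... + σ^(p-1)`. -/
noncomputable def nrmE : Module.End ℤ A := ∑ i ∈ Finset.range p, σ ^ i

/-- `σ - 1`. -/
noncomputable def delE : Module.End ℤ A := σ - 1

variable {p σ}

theorem delE_mul_nrmE (hσ : σ ^ p = 1) : delE σ * nrmE p σ = 0 := by
  rw [delE, nrmE, mul_geom_sum, hσ, sub_self]

theorem nrmE_mul_delE (hσ : σ ^ p = 1) : nrmE p σ * delE σ = 0 := by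
  rw [delE, nrmE, geom_sum_mul, hσ, sub_self]

theorem delE_nrmE_apply (hσ : σ ^ p = 1) (x : A) : delE σ (nrmE p σ x) = 0 := by
  rw [← Module.End.mul_apply, delE_mul_nrmE hσ, LinearMap.zero_apply]

theorem nrmE_delE_apply (hσ : σ ^ p = 1) (x : A) : nrmE p σ (delE σ x) = 0 := by
  rw [← Module.End.mul_apply, nrmE_mul_delE hσ, LinearMap.zero_apply]

theorem delE_apply (x : A) : delE σ x = σ x - x := by
  simp [delE]

theorem pow_apply_of_delE_eq_zero {x : A} (hx : delE σ x = 0) (i : ℕ) : (σ ^ i) x = x := by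
  have hx' : σ x = x := sub_eq_zero.mp (by rwa [delE_apply] at hx)
  induction i with
  | zero => simp
  | succ i ih => rw [pow_succ, Module.End.mul_apply, hx', ih]

theorem nrmE_apply_of_delE_eq_zero {x : A} (hx : delE σ x = 0) :
    nrmE p σ x = (p : ℤ) • x := by
  rw [nrmE, LinearMap.sum_apply]
  simp [pow_apply_of_delE_eq_zero hx]

theorem nrmE_nrmE_apply (hσ : σ ^ p = 1) (x : A) :
    nrmE p σ (nrmE p σ x) = (p : ℤ) • nrmE p σ x :=
  nrmE_apply_of_delE_eq_zero (delE_nrmE_apply hσ x)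

theorem nrmE_sub_apply (hσ : σ ^ p = 1) (x : A) :
    nrmE p σ ((p : ℤ) • x - nrmE p σ x) = 0 := by
  rw [map_sub, map_smul, nrmE_nrmE_apply hσ, sub_self]

theorem commute_sigma_nrmE : Commute σ (nrmE p σ) := by
  rw [nrmE]
  exact Commute.sum_right _ _ _ (fun i _ => (Commute.refl σ).pow_right i)

theorem commute_sigma_delE : Commute σ (delE σ) := by
  rw [delE]
  exact (Commute.refl σ).sub_right (Commute.one_right σ)

end Basic

end Fermat.Agent.S14.H62

namespace Fermat.Agent.S14.H62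

open Module

section Sub

variable {A : Type*} [AddCommGroup A]

/-- `B = ker D ∩ A₁`. -/
noncomputable def subB (σ : Module.End ℤ A) (A₁ : Submodule ℤ A) : Submodule ℤ A :=
  LinearMap.ker (delE σ) ⊓ A₁

/-- `C = ker N ∩ A₁`. -/
noncomputable def subC (p : ℕ) (σ : Module.End ℤ A) (A₁ : Submodule ℤ A) : Submodule ℤ A :=
  LinearMap.ker (nrmE p σ) ⊓ A₁

/-- `A' = B + C`. -/
noncomputable def subA' (p : ℕ) (σ : Module.End ℤ A) (A₁ : Submodule ℤ A) : Submodule ℤ A :=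
  subB σ A₁ ⊔ subC p σ A₁

variable {p : ℕ} {σ : Module.End ℤ A} {A₁ : Submodule ℤ A}

theorem pow_mem_of_stable (hst : ∀ x ∈ A₁, σ x ∈ A₁) (i : ℕ) {x : A} (hx : x ∈ A₁) :
    (σ ^ i) x ∈ A₁ := by
  induction i with
  | zero => simpa using hx
  | succ i ih => rw [pow_succ', Module.End.mul_apply]; exact hst _ ih

theorem nrmE_mem_of_stable (hst : ∀ x ∈ A₁, σ x ∈ A₁) {x : A} (hx : x ∈ A₁) :
    nrmE p σ x ∈ A₁ := by
  rw [nrmE, LinearMap.sum_apply]
  exact Submodule.sum_mem _ (fun i _ => pow_mem_of_stable hst i hx)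

theorem delE_mem_of_stable (hst : ∀ x ∈ A₁, σ x ∈ A₁) {x : A} (hx : x ∈ A₁) :
    delE σ x ∈ A₁ := by
  rw [delE_apply]
  exact Submodule.sub_mem _ (hst x hx) hx

theorem eq_zero_of_mem_ker_ker (hp : p ≠ 0)
    (htf : ∀ x ∈ A₁, ∀ n : ℤ, n ≠ 0 → n • x = 0 → x = 0) {x : A}
    (hD : delE σ x = 0) (hN : nrmE p σ x = 0) (hx : x ∈ A₁) : x = 0 := by
  have h := nrmE_apply_of_delE_eq_zero (p := p) hD
  rw [hN] at h
  exact htf x hx (p : ℤ) (by exact_mod_cast hp) h.symm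

theorem mem_subB {x : A} : x ∈ subB σ A₁ ↔ delE σ x = 0 ∧ x ∈ A₁ := by
  simp [subB]

theorem mem_subC {x : A} : x ∈ subC p σ A₁ ↔ nrmE p σ x = 0 ∧ x ∈ A₁ := by
  simp [subC]

theorem subB_le_subA' : subB σ A₁ ≤ subA' p σ A₁ := le_sup_left

theorem subC_le_subA' : subC p σ A₁ ≤ subA' p σ A₁ := le_sup_right

theorem subA'_le : subA' p σ A₁ ≤ A₁ :=
  sup_le inf_le_right inf_le_right

theorem ker_delE_inf_subA' (hp : p ≠ 0)
    (htf : ∀ x ∈ A₁, ∀ n : ℤ, n ≠ 0 → n • x = 0 → x = 0) :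
    LinearMap.ker (delE σ) ⊓ subA' p σ A₁ = subB σ A₁ := by
  apply le_antisymm
  · rintro x ⟨hxD, hxA⟩
    obtain ⟨b, hb, c, hc, rfl⟩ := Submodule.mem_sup.mp hxA
    rw [mem_subB] at hb
    rw [mem_subC] at hc
    have hcD : delE σ c = 0 := by
      have : delE σ (b + c) = 0 := hxD
      rw [map_add, hb.1, zero_add] at this
      exact this
    have hc0 : c = 0 := eq_zero_of_mem_ker_ker hp htf hcD hc.1 hc.2
    rw [hc0, add_zero]
    exact mem_subB.mpr hb
  · exact le_inf inf_le_left subB_le_subA'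

theorem ker_nrmE_inf_subA' (hp : p ≠ 0)
    (htf : ∀ x ∈ A₁, ∀ n : ℤ, n ≠ 0 → n • x = 0 → x = 0) :
    LinearMap.ker (nrmE p σ) ⊓ subA' p σ A₁ = subC p σ A₁ := by
  apply le_antisymm
  · rintro x ⟨hxN, hxA⟩
    obtain ⟨b, hb, c, hc, rfl⟩ := Submodule.mem_sup.mp hxA
    rw [mem_subB] at hb
    rw [mem_subC] at hc
    have hbN : nrmE p σ b = 0 := by
      have : nrmE p σ (b + c) = 0 := hxN
      rw [map_add, hc.1, add_zero] at this
      exact this
    have hb0 : b = 0 := eq_zero_of_mem_ker_ker hp htf hb.1 hbN hb.2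
    rw [hb0, zero_add]
    exact mem_subC.mpr hc
  · exact le_inf inf_le_left subC_le_subA'

theorem map_nrmE_subA' :
    (subA' p σ A₁).map (nrmE p σ) = (subB σ A₁).map ((p : ℤ) • (LinearMap.id : A →ₗ[ℤ] A)) := by
  apply le_antisymm
  · rintro _ ⟨x, hxA, rfl⟩
    obtain ⟨b, hb, c, hc, rfl⟩ := Submodule.mem_sup.mp hxA
    refine ⟨b, hb, ?_⟩
    have hb' := mem_subB.mp hb
    have hc' := mem_subC.mp hc
    rw [map_add, hc'.1, add_zero, nrmE_apply_of_delE_eq_zero hb'.1]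
    simp
  · rintro _ ⟨b, hb, rfl⟩
    refine ⟨b, subB_le_subA' hb, ?_⟩
    have hb' := mem_subB.mp hb
    rw [nrmE_apply_of_delE_eq_zero hb'.1]
    simp

theorem map_delE_subA' :
    (subA' p σ A₁).map (delE σ) = (subC p σ A₁).map (delE σ) := by
  apply le_antisymm
  · rintro _ ⟨x, hxA, rfl⟩
    obtain ⟨b, hb, c, hc, rfl⟩ := Submodule.mem_sup.mp hxA
    refine ⟨c, hc, ?_⟩
    have hb' := mem_subB.mp hb
    rw [map_add, hb'.1, zero_add]
  · exact Submodule.map_mono subC_le_subA'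

theorem delE_mem_subC (hσ : σ ^ p = 1) (hst : ∀ x ∈ A₁, σ x ∈ A₁) {x : A}
    (hx : x ∈ subC p σ A₁) : delE σ x ∈ subC p σ A₁ := by
  rw [mem_subC] at hx ⊢
  exact ⟨nrmE_delE_apply hσ x, delE_mem_of_stable hst hx.2⟩

theorem smul_mem_subB {x : A} (n : ℤ) (hx : x ∈ subB σ A₁) : n • x ∈ subB σ A₁ :=
  Submodule.smul_mem _ n hx

theorem map_delE_subA'_le (hσ : σ ^ p = 1) (hst : ∀ x ∈ A₁, σ x ∈ A₁) :
    (subA' p σ A₁).map (delE σ) ≤ subA' p σ A₁ := by
  rw [map_delE_subA']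
  rintro _ ⟨c, hc, rfl⟩
  exact subC_le_subA' (delE_mem_subC hσ hst hc)

theorem map_nrmE_subA'_le :
    (subA' p σ A₁).map (nrmE p σ) ≤ subA' p σ A₁ := by
  rw [map_nrmE_subA']
  rintro _ ⟨b, hb, rfl⟩
  refine subB_le_subA' ?_
  simpa using smul_mem_subB (p : ℤ) hb

theorem smul_mem_subA' (hσ : σ ^ p = 1) (hst : ∀ x ∈ A₁, σ x ∈ A₁) {t : ℤ}
    (ht : ∀ x : A, t • x ∈ A₁) (x : A) : ((p : ℤ) * t) • x ∈ subA' p σ A₁ := by
  have hy := ht x
  set y := t • x with hy_def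
  have : ((p : ℤ) * t) • x = nrmE p σ y + ((p : ℤ) • y - nrmE p σ y) := by
    rw [mul_smul]; abel
  rw [this]
  refine Submodule.add_mem _ (subB_le_subA' ?_) (subC_le_subA' ?_)
  · exact mem_subB.mpr ⟨delE_nrmE_apply hσ y, nrmE_mem_of_stable hst hy⟩
  · exact mem_subC.mpr ⟨nrmE_sub_apply hσ y,
      Submodule.sub_mem _ (Submodule.smul_mem _ _ hy) (nrmE_mem_of_stable hst hy)⟩

end Sub

end Fermat.Agent.S14.H62

namespace Fermat.Agent.S14.H62

open Module

section Rank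

variable {A : Type*} [AddCommGroup A] [Module.Finite ℤ A]

theorem finrank_range_add_finrank_ker_int {A' : Type*} [AddCommGroup A'] (φ : A →ₗ[ℤ] A') :
    finrank ℤ (LinearMap.range φ) + finrank ℤ (LinearMap.ker φ) = finrank ℤ A := by
  rw [← (LinearMap.quotKerEquivRange φ).finrank_eq]
  exact Submodule.finrank_quotient_add_finrank (LinearMap.ker φ)

theorem finrank_eq_zero_of_smul_eq_zero {T : Type*} [AddCommGroup T] {n : ℤ} (hn : n ≠ 0)
    (h : ∀ x : T, n • x = 0) : finrank ℤ T = 0 := by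
  apply Module.IsTorsion.finrank_eq_zero
  intro x
  exact ⟨⟨n, mem_nonZeroDivisors_of_ne_zero hn⟩, h x⟩

/-- sandwich lemma: `n T ⊆ S ⊆ T` implies `rank S = rank T`. -/
theorem finrank_eq_of_smul_le {S T : Submodule ℤ A} (hST : S ≤ T) {n : ℤ} (hn : n ≠ 0)
    (h : ∀ x ∈ T, n • x ∈ S) : finrank ℤ S = finrank ℤ T := by
  apply le_antisymm (Submodule.finrank_mono hST)
  -- the map `T → S`, `x ↦ n • x`
  let φ : T →ₗ[ℤ] S :=
    { toFun := fun x => ⟨n • (x : A), h x x.2⟩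
      map_add' := fun x y => by ext; simp
      map_smul' := fun m x => by ext; simp [smul_comm n m] }
  have h1 := finrank_range_add_finrank_ker_int φ
  have h2 : finrank ℤ (LinearMap.ker φ) = 0 := by
    apply finrank_eq_zero_of_smul_eq_zero hn
    rintro ⟨x, hx⟩
    ext
    have : φ x = 0 := hx
    have := congrArg (fun y : S => (y : A)) this
    simpa [φ] using this
  rw [h2, add_zero] at h1
  rw [← h1]
  exact Submodule.finrank_le _

end Rank

end Fermat.Agent.S14.H62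

namespace Fermat.Agent.S14.H62

open Module

section Idx

variable {A : Type*} [AddCommGroup A]

/-- relative index of `φ S` in `S` as the cardinality of the cokernel of `φ|S`. -/
theorem relIndex_map_eq_card (S : Submodule ℤ A) (φ : Module.End ℤ A)
    (hφ : ∀ x ∈ S, φ x ∈ S) :
    ((S.map φ).toAddSubgroup).relIndex S.toAddSubgroup =
      Nat.card (S ⧸ LinearMap.range (φ.restrict hφ)) := by
  rw [AddSubgroup.relIndex, AddSubgroup.index]
  have : ((S.map φ).toAddSubgroup).addSubgroupOf S.toAddSubgroup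
      = (LinearMap.range (φ.restrict hφ)).toAddSubgroup := by
    ext ⟨x, hx⟩
    simp only [AddSubgroup.mem_addSubgroupOf, Submodule.mem_toAddSubgroup, Submodule.mem_map,
      LinearMap.mem_range]
    constructor
    · rintro ⟨y, hy, hyx⟩
      exact ⟨⟨y, hy⟩, Subtype.ext hyx⟩
    · rintro ⟨⟨y, hy⟩, hyx⟩
      exact ⟨y, hy, congrArg Subtype.val hyx⟩
  rw [this]
  rfl

end Idx

end Fermat.Agent.S14.H62

namespace Fermat.Agent.S14.H62

open Module

section Main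

variable {A : Type*} [AddCommGroup A] [Module.Finite ℤ A]
variable {p : ℕ} {σ : Module.End ℤ A} {A₁ : Submodule ℤ A}

theorem finrank_subB {t : ℤ} (ht0 : t ≠ 0) (ht : ∀ x : A, t • x ∈ A₁) :
    finrank ℤ (subB σ A₁) = finrank ℤ (LinearMap.ker (delE σ)) := by
  apply finrank_eq_of_smul_le inf_le_left ht0
  intro x hx
  exact mem_subB.mpr ⟨by rw [map_smul, LinearMap.mem_ker.mp hx, smul_zero], ht x⟩

theorem finrank_subC {t : ℤ} (ht0 : t ≠ 0) (ht : ∀ x : A, t • x ∈ A₁) :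
    finrank ℤ (subC p σ A₁) = finrank ℤ (LinearMap.ker (nrmE p σ)) := by
  apply finrank_eq_of_smul_le inf_le_left ht0
  intro x hx
  exact mem_subC.mpr ⟨by rw [map_smul, LinearMap.mem_ker.mp hx, smul_zero], ht x⟩

theorem finrank_range_nrmE (hp : p ≠ 0) (hσ : σ ^ p = 1) :
    finrank ℤ (LinearMap.range (nrmE p σ)) = finrank ℤ (LinearMap.ker (delE σ)) := by
  have hle : LinearMap.range (nrmE p σ) ≤ LinearMap.ker (delE σ) := by
    rintro _ ⟨x, rfl⟩
    exact delE_nrmE_apply hσ x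
  apply finrank_eq_of_smul_le hle (n := (p : ℤ)) (by exact_mod_cast hp)
  intro x hx
  exact ⟨x, nrmE_apply_of_delE_eq_zero (LinearMap.mem_ker.mp hx)⟩

theorem finrank_ker_nrmE (hp : p ≠ 0) (hσ : σ ^ p = 1) :
    finrank ℤ (LinearMap.ker (nrmE p σ)) + finrank ℤ (LinearMap.ker (delE σ)) = finrank ℤ A := by
  rw [← finrank_range_nrmE hp hσ, add_comm]
  exact finrank_range_add_finrank_ker_int (nrmE p σ)

theorem index_subA'_ne_zero (hp : p ≠ 0) (hσ : σ ^ p = 1) (hst : ∀ x ∈ A₁, σ x ∈ A₁) {t : ℤ}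
    (ht0 : t ≠ 0) (ht : ∀ x : A, t • x ∈ A₁) :
    (subA' p σ A₁).toAddSubgroup.index ≠ 0 := by
  have htors : Module.IsTorsion ℤ (A ⧸ subA' p σ A₁) := by
    intro x
    refine ⟨⟨(p : ℤ) * t, mem_nonZeroDivisors_of_ne_zero
      (mul_ne_zero (by exact_mod_cast hp) ht0)⟩, ?_⟩
    induction x using Submodule.Quotient.induction_on with
    | H y =>
      change ((p : ℤ) * t) • (Submodule.Quotient.mk y : A ⧸ subA' p σ A₁) = 0
      rw [← Submodule.Quotient.mk_smul, Submodule.Quotient.mk_eq_zero]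
      exact smul_mem_subA' hσ hst ht y
  have hfin : Finite (A ⧸ subA' p σ A₁) := Module.finite_of_fg_torsion _ htors
  have : Finite (A ⧸ (subA' p σ A₁).toAddSubgroup) := hfin
  exact AddSubgroup.index_ne_zero_of_finite

end Main

end Fermat.Agent.S14.H62

namespace Fermat.Agent.S14.H62

open Module

section Main3

variable {A : Type*} [AddCommGroup A] [Module.Finite ℤ A]
variable {p : ℕ} {σ : Module.End ℤ A} {A₁ : Submodule ℤ A}

theorem hIdx_submodule (f g : Module.End ℤ A) (S : Submodule ℤ A) :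
    hIdx f.toAddMonoidHom g.toAddMonoidHom S.toAddSubgroup =
      ((S.map g).toAddSubgroup).relIndex ((LinearMap.ker f ⊓ S).toAddSubgroup) := by
  rw [hIdx]
  congr 1

theorem isTorsionFree_of_le {S : Submodule ℤ A} (hS : S ≤ A₁)
    (htf : ∀ x ∈ A₁, ∀ n : ℤ, n ≠ 0 → n • x = 0 → x = 0) : Module.IsTorsionFree ℤ S := by
  refine ⟨fun r hr x y hxy => ?_⟩
  have hr0 : r ≠ 0 := hr.ne_zero
  have h1 : r • ((x : A) - y) = 0 := by
    have := congrArg (fun z : S => (z : A)) hxy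
    simp only [Submodule.coe_smul] at this
    rw [smul_sub, this, sub_self]
  have h2 := htf _ (Submodule.sub_mem _ (hS x.2) (hS y.2)) r hr0 h1
  exact Subtype.ext (sub_eq_zero.mp h2)

theorem sigma_mem_subC (hst : ∀ x ∈ A₁, σ x ∈ A₁) {x : A} (hx : x ∈ subC p σ A₁) :
    σ x ∈ subC p σ A₁ := by
  have hx' := mem_subC.mp hx
  refine mem_subC.mpr ⟨?_, hst x hx'.2⟩
  have := (commute_sigma_nrmE (p := p) (σ := σ)).eq
  have h2 : nrmE p σ (σ x) = σ (nrmE p σ x) := by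
    rw [← Module.End.mul_apply, ← Module.End.mul_apply, this]
  rw [h2, hx'.1, map_zero]

theorem hIdx_nrmE_delE_subA' [hpp : Fact p.Prime] (hσ : σ ^ p = 1)
    (htf : ∀ x ∈ A₁, ∀ n : ℤ, n ≠ 0 → n • x = 0 → x = 0) (hst : ∀ x ∈ A₁, σ x ∈ A₁) :
    ∃ k : ℕ, k ≠ 0 ∧
    hIdx (nrmE p σ).toAddMonoidHom (delE σ).toAddMonoidHom (subA' p σ A₁).toAddSubgroup ^ (p - 1)
      = p ^ finrank ℤ (subC p σ A₁) * k := by
  rw [hIdx_submodule, map_delE_subA', ker_nrmE_inf_subA' hpp.out.ne_zero htf]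
  have hD : ∀ x ∈ subC p σ A₁, delE σ x ∈ subC p σ A₁ := fun x hx => delE_mem_subC hσ hst hx
  rw [relIndex_map_eq_card (subC p σ A₁) (delE σ) hD]
  have : Module.IsTorsionFree ℤ (subC p σ A₁) := isTorsionFree_of_le inf_le_right htf
  have hS : ∀ x ∈ subC p σ A₁, σ x ∈ subC p σ A₁ := fun x hx => sigma_mem_subC hst hx
  set τ : Module.End ℤ (subC p σ A₁) := σ.restrict hS with hτ_def
  have h1 : (delE σ).restrict hD = τ - 1 := by
    ext x
    simp [τ, delE_apply]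
  have h2 : ∑ i ∈ Finset.range p, τ ^ i = 0 := by
    ext x
    rw [LinearMap.sum_apply]
    simp only [LinearMap.zero_apply, Submodule.coe_zero]
    rw [AddSubmonoidClass.coe_finsetSum]
    have : ∀ i, (((τ ^ i) x : subC p σ A₁) : A) = (σ ^ i) (x : A) := by
      intro i
      rw [hτ_def, Module.End.pow_restrict]
      rfl
    simp only [this]
    have := (mem_subC.mp x.2).1
    rw [nrmE, LinearMap.sum_apply] at this
    exact this
  rw [h1]
  exact core_cyclotomic p τ h2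

theorem hIdx_delE_nrmE_subA' (hp : p ≠ 0)
    (htf : ∀ x ∈ A₁, ∀ n : ℤ, n ≠ 0 → n • x = 0 → x = 0) :
    hIdx (delE σ).toAddMonoidHom (nrmE p σ).toAddMonoidHom (subA' p σ A₁).toAddSubgroup =
      p ^ finrank ℤ (subB σ A₁) := by
  rw [hIdx_submodule, map_nrmE_subA', ker_delE_inf_subA' hp htf]
  have hst : ∀ x ∈ subB σ A₁, ((p : ℤ) • (LinearMap.id : A →ₗ[ℤ] A)) x ∈ subB σ A₁ := by
    intro x hx
    simpa using smul_mem_subB (p : ℤ) hx
  rw [relIndex_map_eq_card (subB σ A₁) ((p : ℤ) • (LinearMap.id : A →ₗ[ℤ] A)) hst]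
  have : Module.IsTorsionFree ℤ (subB σ A₁) := isTorsionFree_of_le inf_le_right htf
  have : ((p : ℤ) • (LinearMap.id : A →ₗ[ℤ] A)).restrict hst
      = (p : ℤ) • (LinearMap.id : subB σ A₁ →ₗ[ℤ] subB σ A₁) := by
    ext x
    simp
  rw [this, card_quot_smul _ p hp]


/-- **Abstract Herbrand inequality.**  `A` a f.g. `ℤ`-module, `σ ^ p = 1`, `A₁` a `σ`-stable
torsion-free submodule containing `t • A`.  If `rank (ker (σ - 1)) = b` and
`rank A = b + (p - 1) * c`, then `[ker D : N A]` and `[ker N : D A]` are finite and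
`p ^ c * [ker D : N A] ≤ p ^ b * [ker N : D A]`. -/
theorem herbrand_abstract [hpp : Fact p.Prime] (hσ : σ ^ p = 1)
    (htf : ∀ x ∈ A₁, ∀ n : ℤ, n ≠ 0 → n • x = 0 → x = 0) (hst : ∀ x ∈ A₁, σ x ∈ A₁)
    {t : ℤ} (ht0 : t ≠ 0) (ht : ∀ x : A, t • x ∈ A₁)
    (b c : ℕ) (hb : finrank ℤ (LinearMap.ker (delE σ)) = b)
    (ha : finrank ℤ A = b + (p - 1) * c) :
    hIdx (delE σ).toAddMonoidHom (nrmE p σ).toAddMonoidHom ⊤ ≠ 0 ∧
    hIdx (nrmE p σ).toAddMonoidHom (delE σ).toAddMonoidHom ⊤ ≠ 0 ∧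
    p ^ c * hIdx (delE σ).toAddMonoidHom (nrmE p σ).toAddMonoidHom ⊤ ≤
      p ^ b * hIdx (nrmE p σ).toAddMonoidHom (delE σ).toAddMonoidHom ⊤ := by
  have hp0 : p ≠ 0 := hpp.out.ne_zero
  have hp1 : p - 1 ≠ 0 := Nat.sub_ne_zero_of_lt hpp.out.one_lt
  set f := (delE σ).toAddMonoidHom with hf
  set g := (nrmE p σ).toAddMonoidHom with hg
  set S := (subA' p σ A₁).toAddSubgroup with hS
  have hfg : ∀ x, f (g x) = 0 := fun x => delE_nrmE_apply hσ x
  have hgf : ∀ x, g (f x) = 0 := fun x => nrmE_delE_apply hσ x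
  have hfS : S.map f ≤ S := by
    have := map_delE_subA'_le (A₁ := A₁) hσ hst
    rintro _ ⟨x, hx, rfl⟩
    exact this ⟨x, hx, rfl⟩
  have hgS : S.map g ≤ S := by
    have := map_nrmE_subA'_le (p := p) (σ := σ) (A₁ := A₁)
    rintro _ ⟨x, hx, rfl⟩
    exact this ⟨x, hx, rfl⟩
  have hSi : S.index ≠ 0 := index_subA'_ne_zero hp0 hσ hst ht0 ht
  have key := hIdx_mul_eq_of_finiteIndex f g hfg hgf S hfS hgS hSi
  have h0' : hIdx f g S = p ^ b := by
    rw [hf, hg, hS, hIdx_delE_nrmE_subA' hp0 htf, finrank_subB ht0 ht, hb]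
  obtain ⟨k, hk0, hk⟩ := hIdx_nrmE_delE_subA' (p := p) (A₁ := A₁) hσ htf hst
  have hrC : finrank ℤ (subC p σ A₁) = (p - 1) * c := by
    have h1 := finrank_ker_nrmE (A := A) hp0 hσ
    rw [finrank_subC ht0 ht]
    omega
  rw [hrC] at hk
  have h1'ge : p ^ c ≤ hIdx g f S := by
    have h2 : (p ^ c) ^ (p - 1) ≤ hIdx g f S ^ (p - 1) := by
      rw [hk, ← pow_mul, mul_comm c (p - 1)]
      exact Nat.le_mul_of_pos_right _ (Nat.pos_of_ne_zero hk0)
    exact (Nat.pow_le_pow_iff_left hp1).mp h2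
  have h1'ne : hIdx g f S ≠ 0 := by
    intro h
    rw [h] at h1'ge
    exact absurd (Nat.le_zero.mp h1'ge) (pow_ne_zero _ hp0)
  have h0ne : hIdx f g ⊤ ≠ 0 := by
    rw [hIdx_ne_zero_iff_of_finiteIndex f g hfg S hgS hSi, h0']
    exact pow_ne_zero _ hp0
  have h1ne : hIdx g f ⊤ ≠ 0 := by
    rw [hIdx_ne_zero_iff_of_finiteIndex g f hgf S hfS hSi]
    exact h1'ne
  refine ⟨h0ne, h1ne, ?_⟩
  calc p ^ c * hIdx f g ⊤ ≤ hIdx g f S * hIdx f g ⊤ := Nat.mul_le_mul_right _ h1'ge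
    _ = hIdx f g ⊤ * hIdx g f S := mul_comm _ _
    _ = hIdx f g S * hIdx g f ⊤ := key
    _ = p ^ b * hIdx g f ⊤ := by rw [h0']

end Main3

end Fermat.Agent.S14.H62
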