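import Mathlib

/-!
# S14, package B3 (helper66): the abstract core of T2

Finite abelian group `G`, subgroup `U`, a family of "primes" `ι` with classes `c : ι → G` and
nonnegative weights `w i s`.  If
* the total weight is `≤ log (1/(s-1)) + O(1)`,
* the twisted sums for non-trivial characters have real part bounded above,
* `n` times the weight of the primes with class in `U` is `≥ log (1/(s-1)) - O(1)`,
then `U.index ≤ n`.
-/

namespace Fermat.Agent.S14.H66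

open scoped BigOperators

section Orthogonality

variable {G : Type*} [CommGroup G] [Finite G]

lemma norm_char_eq_one (χ : G →* ℂˣ) (g : G) : ‖((χ g : ℂˣ) : ℂ)‖ = 1 := by
  have h : ((χ g : ℂˣ) : ℂ) ^ (orderOf g) = 1 := by
    rw [← Units.val_pow_eq_pow_val, ← map_pow, pow_orderOf_eq_one, map_one, Units.val_one]
  exact Complex.norm_eq_one_of_pow_eq_one h (orderOf_pos g).ne'

variable (G) in
lemma finite_monoidHom_units : Finite (G →* ℂˣ) := by
  have := CommGroup.monoidHom_mulEquiv_of_hasEnoughRootsOfUnity G ℂ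
  exact Finite.of_equiv G this.some.symm.toEquiv

open Classical in
lemma sum_char_apply [Fintype (G →* ℂˣ)] (g : G) :
    ∑ χ : G →* ℂˣ, ((χ g : ℂˣ) : ℂ) = if g = 1 then (Nat.card G : ℂ) else 0 := by
  split_ifs with hg
  · subst hg
    simp only [map_one, Units.val_one, Finset.sum_const, Finset.card_univ, nsmul_eq_mul, mul_one]
    rw [← Nat.card_eq_fintype_card, CommGroup.card_monoidHom_of_hasEnoughRootsOfUnity G ℂ]
  · obtain ⟨χ₀, hχ₀⟩ := CommGroup.exists_apply_ne_one_of_hasEnoughRootsOfUnity G ℂ hg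
    have h1 : ∑ χ : G →* ℂˣ, ((χ g : ℂˣ) : ℂ)
        = ((χ₀ g : ℂˣ) : ℂ) * ∑ χ : G →* ℂˣ, ((χ g : ℂˣ) : ℂ) := by
      rw [Finset.mul_sum]
      refine (Fintype.sum_equiv (Equiv.mulLeft χ₀) _ _ fun χ => ?_).symm
      simp
    have h2 : ((χ₀ g : ℂˣ) : ℂ) ≠ 1 := fun h => hχ₀ (Units.ext h)
    have h3 : (1 - ((χ₀ g : ℂˣ) : ℂ)) * ∑ χ : G →* ℂˣ, ((χ g : ℂˣ) : ℂ) = 0 := by
      rw [sub_mul, one_mul, ← h1, sub_self]
    rcases mul_eq_zero.mp h3 with h | h
    · exact absurd (sub_eq_zero.mp h).symm h2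
    · exact h

end Orthogonality

end Fermat.Agent.S14.H66

namespace Fermat.Agent.S14.H66

open scoped BigOperators

section Core

variable {G : Type*} [CommGroup G] [Finite G] {ι : Type*}

lemma summable_char_mul (χ : G →* ℂˣ) (c : ι → G) (w : ι → ℝ) (hw0 : ∀ i, 0 ≤ w i)
    (hs : Summable w) : Summable (fun i => ((χ (c i) : ℂˣ) : ℂ) * ((w i : ℝ) : ℂ)) := by
  refine Summable.of_norm ?_
  have : (fun i => ‖((χ (c i) : ℂˣ) : ℂ) * ((w i : ℝ) : ℂ)‖) = w := by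
    funext i
    rw [norm_mul, norm_char_eq_one, one_mul, Complex.norm_real, Real.norm_of_nonneg (hw0 i)]
  rw [this]; exact hs

open Classical in
lemma sum_char_tsum (U : Subgroup G) (c : ι → G) (w : ι → ℝ) (hw0 : ∀ i, 0 ≤ w i)
    (hs : Summable w) [Fintype ((G ⧸ U) →* ℂˣ)] :
    ∑ ψ : (G ⧸ U) →* ℂˣ, ∑' i, (((ψ.comp (QuotientGroup.mk' U)) (c i) : ℂˣ) : ℂ) * ((w i : ℝ) : ℂ)
      = (U.index : ℂ) * ((∑' i : {i // c i ∈ U}, w i : ℝ) : ℂ) := by
  rw [← Summable.tsum_finsetSum (fun ψ _ => summable_char_mul _ c w hw0 hs)]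
  have h1 : ∀ i, ∑ ψ : (G ⧸ U) →* ℂˣ,
      (((ψ.comp (QuotientGroup.mk' U)) (c i) : ℂˣ) : ℂ) * ((w i : ℝ) : ℂ)
      = (U.index : ℂ) * (({i | c i ∈ U} : Set ι).indicator (fun i => ((w i : ℝ) : ℂ)) i) := by
    intro i
    rw [← Finset.sum_mul]
    have := sum_char_apply (G := G ⧸ U) (QuotientGroup.mk' U (c i))
    simp only [MonoidHom.coe_comp, Function.comp_apply]
    rw [this]
    by_cases hi : c i ∈ U
    · have : (QuotientGroup.mk' U (c i)) = 1 := by
        rw [QuotientGroup.mk'_apply, QuotientGroup.eq_one_iff]; exact hi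
      rw [if_pos this, Set.indicator_of_mem (by exact hi), Subgroup.index]
    · have : (QuotientGroup.mk' U (c i)) ≠ 1 := by
        rw [QuotientGroup.mk'_apply, Ne, QuotientGroup.eq_one_iff]; exact hi
      rw [if_neg this, Set.indicator_of_notMem (by exact hi)]
      simp
  simp_rw [h1]
  rw [tsum_mul_left]
  congr 1
  rw [Complex.ofReal_tsum]
  exact (tsum_subtype ({i | c i ∈ U} : Set ι) (fun i => ((w i : ℝ) : ℂ))).symm

theorem index_le_of_bounds (U : Subgroup G) (c : ι → G) (w : ι → ℝ → ℝ)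
    (hw0 : ∀ i s, 0 ≤ w i s)
    (hsum : ∀ s : ℝ, 1 < s → Summable (fun i => w i s))
    (hup : ∃ C : ℝ, ∀ᶠ s in nhdsWithin (1 : ℝ) (Set.Ioi 1),
      ∑' i, w i s ≤ Real.log (1 / (s - 1)) + C)
    (hchar : ∀ χ : G →* ℂˣ, χ ≠ 1 → ∃ C : ℝ, ∀ s : ℝ, 1 < s → s ≤ 2 →
      (∑' i, ((χ (c i) : ℂˣ) : ℂ) * ((w i s : ℝ) : ℂ)).re ≤ C)
    (n : ℕ)
    (hlow : ∃ C : ℝ, ∀ᶠ s in nhdsWithin (1 : ℝ) (Set.Ioi 1),
      Real.log (1 / (s - 1)) - C ≤ n * ∑' i : {i // c i ∈ U}, w i s) :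
    U.index ≤ n := by
  classical
  have hfin : Finite ((G ⧸ U) →* ℂˣ) := finite_monoidHom_units (G ⧸ U)
  have : Fintype ((G ⧸ U) →* ℂˣ) := Fintype.ofFinite _
  obtain ⟨C0, hC0⟩ := hup
  obtain ⟨C2, hC2⟩ := hlow
  -- uniform bound for the nontrivial characters
  have hchar' : ∀ ψ : (G ⧸ U) →* ℂˣ, ∃ C : ℝ, 0 ≤ C ∧ (ψ ≠ 1 → ∀ s : ℝ, 1 < s → s ≤ 2 →
      (∑' i, (((ψ.comp (QuotientGroup.mk' U)) (c i) : ℂˣ) : ℂ) * ((w i s : ℝ) : ℂ)).re ≤ C) := by
    intro ψ
    by_cases hψ : ψ = 1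
    · exact ⟨0, le_rfl, fun h => absurd hψ h⟩
    · have hne : ψ.comp (QuotientGroup.mk' U) ≠ 1 := by
        intro h
        apply hψ
        refine MonoidHom.ext fun x => ?_
        obtain ⟨g, hg⟩ := QuotientGroup.mk'_surjective U x
        have := congrArg (fun f : G →* ℂˣ => f g) h
        rw [← hg]
        simpa using this
      obtain ⟨C, hC⟩ := hchar _ hne
      exact ⟨max C 0, le_max_right _ _, fun _ s hs1 hs2 => (hC s hs1 hs2).trans (le_max_left _ _)⟩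
  choose Cψ hCψ0 hCψ using hchar'
  set C1 : ℝ := C0 + ∑ ψ : (G ⧸ U) →* ℂˣ, Cψ ψ with hC1
  -- the main inequality
  have hmain : ∀ s : ℝ, 1 < s → s ≤ 2 → ∑' i, w i s ≤ Real.log (1 / (s - 1)) + C0 →
      (U.index : ℝ) * ∑' i : {i // c i ∈ U}, w i s ≤ Real.log (1 / (s - 1)) + C1 := by
    intro s hs1 hs2 hC0s
    have hkey := sum_char_tsum U c (fun i => w i s) (fun i => hw0 i s) (hsum s hs1)
    have hre := congrArg Complex.re hkey
    rw [Complex.re_sum] at hre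
    have hR : ((U.index : ℂ) * ((∑' i : {i // c i ∈ U}, w i s : ℝ) : ℂ)).re
        = (U.index : ℝ) * ∑' i : {i // c i ∈ U}, w i s := by
      rw [← Complex.ofReal_natCast, ← Complex.ofReal_mul, Complex.ofReal_re]
    rw [hR] at hre
    rw [← hre]
    have hterm : ∀ ψ : (G ⧸ U) →* ℂˣ,
        (∑' i, (((ψ.comp (QuotientGroup.mk' U)) (c i) : ℂˣ) : ℂ) * ((w i s : ℝ) : ℂ)).re
          ≤ (if ψ = 1 then Real.log (1 / (s - 1)) + C0 else 0) + Cψ ψ := by
      intro ψ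
      by_cases hψ : ψ = 1
      · subst hψ
        rw [if_pos rfl]
        have : (∑' i, (((((1 : (G ⧸ U) →* ℂˣ)).comp (QuotientGroup.mk' U)) (c i) : ℂˣ) : ℂ)
            * ((w i s : ℝ) : ℂ)) = ((∑' i, w i s : ℝ) : ℂ) := by
          rw [Complex.ofReal_tsum]
          congr 1; funext i; simp
        rw [this, Complex.ofReal_re]
        linarith [hCψ0 (1 : (G ⧸ U) →* ℂˣ)]
      · rw [if_neg hψ, zero_add]
        exact hCψ ψ hψ s hs1 hs2
    calc ∑ ψ : (G ⧸ U) →* ℂˣ,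
          (∑' i, (((ψ.comp (QuotientGroup.mk' U)) (c i) : ℂˣ) : ℂ) * ((w i s : ℝ) : ℂ)).re
        ≤ ∑ ψ : (G ⧸ U) →* ℂˣ,
          ((if ψ = 1 then Real.log (1 / (s - 1)) + C0 else 0) + Cψ ψ) :=
          Finset.sum_le_sum fun ψ _ => hterm ψ
      _ = Real.log (1 / (s - 1)) + C1 := by
          rw [Finset.sum_add_distrib, Finset.sum_ite_eq' Finset.univ (1 : (G ⧸ U) →* ℂˣ),
            if_pos (Finset.mem_univ _), hC1]
          ring
  -- conclude
  by_contra hcon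
  rw [not_le] at hcon
  have hcon' : (n : ℝ) + 1 ≤ (U.index : ℝ) := by exact_mod_cast hcon
  set B : ℝ := n * C1 + U.index * C2 with hB
  -- `log (1/(s-1)) → ∞` as `s → 1⁺`
  have htend : Filter.Tendsto (fun s : ℝ => Real.log (1 / (s - 1)))
      (nhdsWithin (1 : ℝ) (Set.Ioi 1)) Filter.atTop := by
    have h1 : Filter.Tendsto (fun s : ℝ => s - 1) (nhdsWithin (1 : ℝ) (Set.Ioi 1))
        (nhdsWithin (0 : ℝ) (Set.Ioi 0)) := by
      refine tendsto_nhdsWithin_of_tendsto_nhds_of_eventually_within _ ?_ ?_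
      · have : Filter.Tendsto (fun s : ℝ => s - 1) (nhds (1 : ℝ)) (nhds (1 - 1)) :=
          (continuous_id.sub continuous_const).tendsto 1
        rw [sub_self] at this
        exact this.mono_left nhdsWithin_le_nhds
      · filter_upwards [self_mem_nhdsWithin] with s hs
        exact sub_pos.mpr (Set.mem_Ioi.mp hs)
    have h2 : Filter.Tendsto (fun s : ℝ => 1 / (s - 1)) (nhdsWithin (1 : ℝ) (Set.Ioi 1))
        Filter.atTop := by
      simp only [one_div]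
      exact Filter.Tendsto.comp tendsto_inv_nhdsGT_zero h1
    exact Real.tendsto_log_atTop.comp h2
  have hbig := htend.eventually (Filter.eventually_gt_atTop |B|)
  have h12 : ∀ᶠ s in nhdsWithin (1 : ℝ) (Set.Ioi 1), 1 < s ∧ s ≤ 2 := by
    have : Set.Ioc (1 : ℝ) 2 ∈ nhdsWithin (1 : ℝ) (Set.Ioi 1) :=
      Ioc_mem_nhdsGT (by norm_num)
    filter_upwards [this] with s hs using hs
  obtain ⟨s, hsbig, ⟨hs1, hs2⟩, hC0s, hC2s⟩ := (hbig.and (h12.and (hC0.and hC2))).exists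
  have h1 := hmain s hs1 hs2 hC0s
  set t : ℝ := Real.log (1 / (s - 1)) with ht
  set S₀ : ℝ := ∑' i : {i // c i ∈ U}, w i s with hS₀
  have hidx : (0 : ℝ) ≤ U.index := Nat.cast_nonneg _
  have hn0 : (0 : ℝ) ≤ n := Nat.cast_nonneg _
  have h3 : (U.index : ℝ) * (t - C2) ≤ n * (t + C1) := by
    calc (U.index : ℝ) * (t - C2) ≤ U.index * (n * S₀) :=
          mul_le_mul_of_nonneg_left hC2s hidx
      _ = n * (U.index * S₀) := by ring
      _ ≤ n * (t + C1) := mul_le_mul_of_nonneg_left h1 hn0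
  have h4 : ((U.index : ℝ) - n) * t ≤ B := by
    rw [hB]; linarith
  have ht0 : 0 ≤ t := (abs_nonneg B).trans hsbig.le
  have h5 : t ≤ ((U.index : ℝ) - n) * t := by
    have : (1 : ℝ) ≤ (U.index : ℝ) - n := by linarith
    nlinarith
  have h6 : B ≤ |B| := le_abs_self B
  linarith

end Core

end Fermat.Agent.S14.H66
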