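import Mathlib

/-!
# S14 (ExtVanishingCts): interfaces between the work packages

Coordinator: helper68.  Every work package proves ONE of the `Stmt_*` propositions below
(or a lemma feeding it) in its own file; the glue files only use these propositions.
All fields are in `Type` (universe 0).

* `cls I`             : class of the ideal `I` in the class group (`1` if `I = ⊥`)
* `normClasses K M`   : subgroup of `Cl(𝓞 K)` generated by the classes of norms of ideals of `𝓞 M`
* `UnramifiedEverywhere K M` : all inertia groups of `M/K` at nonzero primes of `𝓞 M` are trivial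
* `Stmt_T1`    (package A)  : first inequality, `normClasses K M ≠ ⊤`
* `Stmt_T2`    (package B)  : analytic inequality, index of split classes `≤ [L : F]`
* `Stmt_Stick` (package F)  : Stickelberger relation from the Jacobi sum
* `Stmt_Cross` (package X)  : Artin crossing
* `Stmt_NT`    (package H)  : the number field core, fed by G (plumbing)
-/

namespace Fermat.Agent.S14

open NumberField
open scoped Pointwise

/-- Class of an ideal in the class group; junk value `1` for the zero ideal. -/
noncomputable def cls {R : Type*} [CommRing R] [IsDedekindDomain R]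
    (I : Ideal R) : ClassGroup R :=
  open Classical in
  if h : I = ⊥ then 1 else ClassGroup.mk0 ⟨I, mem_nonZeroDivisors_of_ne_zero h⟩

/-- The subgroup of `Cl(𝓞 K)` generated by the classes of the relative norms of the nonzero
ideals of `𝓞 M`. -/
noncomputable def normClasses (K M : Type*) [Field K] [NumberField K] [Field M] [NumberField M]
    [Algebra K M] : Subgroup (ClassGroup (𝓞 K)) :=
  Subgroup.closure {c | ∃ J : Ideal (𝓞 M), J ≠ ⊥ ∧ c = cls (Ideal.relNorm (𝓞 K) J)}

/-- `M/K` is unramified at every finite prime: all inertia groups are trivial. -/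
def UnramifiedEverywhere (K M : Type*) [Field K] [NumberField K] [Field M] [NumberField M]
    [Algebra K M] : Prop :=
  ∀ P : Ideal (𝓞 M), P.IsPrime → P ≠ ⊥ → P.inertia (M ≃ₐ[K] M) = ⊥

/-- **T1** (first inequality, algebraic).  For `M/K` Galois of odd prime degree `p`, `K` totally
complex, `M/K` unramified everywhere: the norm classes do not fill the class group. -/
def Stmt_T1 : Prop :=
  ∀ (p : ℕ) [Fact p.Prime] (K M : Type) [Field K] [NumberField K] [Field M] [NumberField M]
    [Algebra K M] [IsGalois K M],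
    p ≠ 2 → Module.finrank K M = p → IsTotallyComplex K → UnramifiedEverywhere K M →
    normClasses K M ≠ ⊤

/-- **T2** (analytic inequality).  `F ⊆ L` number fields (no Galois hypothesis), `T` a finite set
of excluded norms.  If a subgroup `U` of the class group of `F` contains the classes of all primes
of `F` lying under a prime of `L` of absolute degree one (norm not in `T`), then `U` has index at
most `[L : F]`. -/
def Stmt_T2 : Prop :=
  ∀ (F L : Type) [Field F] [NumberField F] [Field L] [NumberField L] [Algebra F L]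
    (U : Subgroup (ClassGroup (𝓞 F))) (T : Finset ℕ),
    (∀ Q : Ideal (𝓞 L), Q.IsPrime → (Ideal.absNorm Q).Prime → Ideal.absNorm Q ∉ T →
      cls (Q.under (𝓞 F)) ∈ U) →
    U.index ≤ Module.finrank F L

/-- **Stickelberger relation** (from the Jacobi sum `J(χ⁻¹,χ⁻¹)`, `χ(x) = x^((q-1)/p) mod 𝔮`):
for a prime `𝔮` of `ℚ(ζ_p)` of absolute degree one not above `p`,
`∏_{p/2 < t < p} [σ_t⁻¹ 𝔮] = 1` in the class group, where `σ_t ζ = ζ ^ t`. -/
def Stmt_Stick : Prop :=
  ∀ (p : ℕ) [Fact p.Prime] (K : Type) [Field K] [NumberField K] [IsCyclotomicExtension {p} ℚ K],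
    p ≠ 2 → ∀ ζ : K, IsPrimitiveRoot ζ p →
    ∀ (𝔮 : Ideal (𝓞 K)), 𝔮.IsPrime → (Ideal.absNorm 𝔮).Prime → ¬ p ∣ Ideal.absNorm 𝔮 →
    ∀ σ : ℕ → (K ≃ₐ[ℚ] K), (∀ t ∈ Finset.Ioo (p / 2) p, σ t ζ = ζ ^ t) →
    ∏ t ∈ Finset.Ioo (p / 2) p, cls ((σ t)⁻¹ • 𝔮) = 1

/-- **Crossing** (Artin's trick).  `K = ℚ(ζ_p)`, `M/K` Galois of degree `p`, unramified everywhere.
If `Q`, `Q'` are primes of `M` over primes of `K` of absolute degree one not above `p`, with
Frobenius elements `τ`, `τ'` and `τ' = τ ^ b`, then `[𝔮'] ≡ [𝔮] ^ b` modulo norm classes. -/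
def Stmt_Cross : Prop :=
  ∀ (p : ℕ) [Fact p.Prime] (K M : Type) [Field K] [NumberField K] [Field M] [NumberField M]
    [Algebra K M] [IsGalois K M] [IsCyclotomicExtension {p} ℚ K],
    p ≠ 2 → Module.finrank K M = p → UnramifiedEverywhere K M →
    ∀ (Q Q' : Ideal (𝓞 M)), Q.IsPrime → Q'.IsPrime →
    (Ideal.absNorm (Q.under (𝓞 K))).Prime → (Ideal.absNorm (Q'.under (𝓞 K))).Prime →
    ¬ p ∣ Ideal.absNorm (Q.under (𝓞 K)) → ¬ p ∣ Ideal.absNorm (Q'.under (𝓞 K)) →
    ∀ (τ τ' : M ≃ₐ[K] M) (b : ℕ), IsArithFrobAt (𝓞 K) τ Q → IsArithFrobAt (𝓞 K) τ' Q' →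
    τ' = τ ^ b →
    cls (Q'.under (𝓞 K)) * (cls (Q.under (𝓞 K)) ^ b)⁻¹ ∈ normClasses K M

/-- The conjugation hypothesis: `Gal(K/ℚ)` acts on `Gal(M/K)` through the inverse of the
cyclotomic character, i.e. `s ζ = ζ ^ a → s t s⁻¹ = t ^ (1/a)`, written as `s * t ^ a = t * s`. -/
def ConjInvCyclo (p : ℕ) (K M : Type*) [Field K] [NumberField K] [Field M] [NumberField M]
    [Algebra K M] : Prop :=
  ∀ ζ : K, IsPrimitiveRoot ζ p → ∀ (s : M ≃ₐ[ℚ] M) (t : M ≃ₐ[K] M) (a : ℕ),
    s (algebraMap K M ζ) = algebraMap K M ζ ^ a →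
    s * (t.restrictScalars ℚ) ^ a = t.restrictScalars ℚ * s

/-- **Number field core**: there is no `M/ℚ` Galois, containing `K = ℚ(ζ_p)` with `[M : K] = p`,
unramified everywhere over `K`, on which `Gal(K/ℚ)` acts on `Gal(M/K)` through `χ⁻¹`. -/
def Stmt_NT : Prop :=
  ∀ (p : ℕ) [Fact p.Prime] (K M : Type) [Field K] [NumberField K] [Field M] [NumberField M]
    [Algebra K M] [IsGalois ℚ M] [IsCyclotomicExtension {p} ℚ K],
    p ≠ 2 → Module.finrank K M = p → UnramifiedEverywhere K M → ConjInvCyclo p K M → False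

end Fermat.Agent.S14
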