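import Mathlib
import Fermat.Agent.Lib.ZetaPrimesDefs
import Fermat.Agent.S14.Interfaces
import Fermat.Agent.S14.H66_T2Core

/-!
# S14, package B3 (helper66): T2 from the B2 interface

`Stmt_T2` (analytic inequality: a subgroup `U` of the class group of `F` containing the classes of
all primes of `F` below a prime of `L` of absolute degree one has index `≤ [L : F]`), deduced from
the prime-sum statements of `Fermat.Agent.Lib.ZetaPrimesDefs` (package B2), which are taken as
hypotheses here.
-/

namespace Fermat.Agent.S14.H66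

open NumberField IsDedekindDomain Ideal Fermat.Agent.Lib.ZetaPrimes
open scoped BigOperators

set_option linter.deprecated false

section Under

variable (F L : Type) [Field F] [NumberField F] [Field L] [NumberField L] [Algebra F L]

/-- The prime of `F` below a prime of `L`. -/
noncomputable def underSpec (w : HeightOneSpectrum (𝓞 L)) : HeightOneSpectrum (𝓞 F) where
  asIdeal := w.asIdeal.under (𝓞 F)
  isPrime := Ideal.IsPrime.under (𝓞 F) w.asIdeal
  ne_bot := Ideal.under_ne_bot (𝓞 F) w.ne_bot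

@[simp] lemma underSpec_asIdeal (w : HeightOneSpectrum (𝓞 L)) :
    (underSpec F L w).asIdeal = w.asIdeal.under (𝓞 F) := rfl

lemma absNorm_underSpec (w : HeightOneSpectrum (𝓞 L)) (hw : (absNorm w.asIdeal).Prime) :
    absNorm (underSpec F L w).asIdeal = absNorm w.asIdeal := by
  have hlies : w.asIdeal.LiesOver (underSpec F L w).asIdeal := Ideal.over_under w.asIdeal
  have h := absNorm_eq_pow_inertiaDeg'_of_liesOver w.asIdeal (underSpec F L w).asIdeal
    (underSpec F L w).isPrime (underSpec F L w).ne_bot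
  exact ((Nat.Prime.pow_eq_iff hw).mp h.symm).1

lemma primeTerm_underSpec (s : ℝ) (w : HeightOneSpectrum (𝓞 L))
    (hw : (absNorm w.asIdeal).Prime) :
    primeTerm F s (underSpec F L w) = primeTerm L s w := by
  rw [primeTerm, primeTerm, absNorm_underSpec F L w hw]

lemma card_fiber_le (v : HeightOneSpectrum (𝓞 F)) (A : Finset (HeightOneSpectrum (𝓞 L)))
    (hA : ∀ w ∈ A, underSpec F L w = v) : A.card ≤ Module.finrank F L := by
  classical
  have hmax : v.asIdeal.IsMaximal := v.isMaximal
  have : NoZeroSMulDivisors (𝓞 F) (𝓞 L) := ⟨fun {c x} h => by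
    rw [Algebra.smul_def, mul_eq_zero] at h
    rcases h with h | h
    · exact Or.inl ((map_eq_zero_iff _ (RingOfIntegers.algebraMap.injective F L)).mp h)
    · exact Or.inr h⟩
  refine le_trans ?_ (Ideal.card_primesOverFinset_le_finrank (𝓞 L) F L v.ne_bot)
  refine Finset.card_le_card_of_injOn (fun w => w.asIdeal) ?_ ?_
  · intro w hw
    rw [Finset.mem_coe, IsDedekindDomain.mem_primesOverFinset_iff v.ne_bot]
    refine ⟨w.isPrime, ?_⟩
    have := hA w hw
    rw [← this]
    exact Ideal.over_under w.asIdeal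
  · intro w _ w' _ h
    exact HeightOneSpectrum.ext h

lemma primeTerm_nonneg' (K : Type) [Field K] [NumberField K] (s : ℝ)
    (v : HeightOneSpectrum (𝓞 K)) : 0 ≤ primeTerm K s v := by
  rw [primeTerm]; positivity

lemma primeTerm_le_one (K : Type) [Field K] [NumberField K] {s : ℝ} (hs : 0 ≤ s)
    (v : HeightOneSpectrum (𝓞 K)) : primeTerm K s v ≤ 1 := by
  rw [primeTerm]
  refine Real.rpow_le_one_of_one_le_of_nonpos ?_ (by linarith)
  have : absNorm v.asIdeal ≠ 0 := by
    rw [Ne, Ideal.absNorm_eq_zero_iff]; exact v.ne_bot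
  exact_mod_cast Nat.one_le_iff_ne_zero.mpr this

/-- Transfer of the prime sums from `L` to `F`. -/
lemma tsum_le_finrank_mul (U : Subgroup (ClassGroup (𝓞 F)))
    (D : Set (HeightOneSpectrum (𝓞 L)))
    (hD : ∀ w ∈ D, (absNorm w.asIdeal).Prime ∧ primeClass F (underSpec F L w) ∈ U)
    (s : ℝ) (hsF : Summable (primeTerm F s)) (hsL : Summable (primeTerm L s)) :
    ∑' w : D, primeTerm L s w
      ≤ (Module.finrank F L : ℝ) * ∑' v : {v // primeClass F v ∈ U}, primeTerm F s v := by
  classical
  have hsD : Summable (fun w : D => primeTerm L s w) := hsL.subtype D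
  have hsU : Summable (fun v : {v // primeClass F v ∈ U} => primeTerm F s v) :=
    hsF.subtype _
  refine hsD.tsum_le_of_sum_le fun A => ?_
  let φ : D → {v // primeClass F v ∈ U} := fun w => ⟨underSpec F L w, (hD w w.2).2⟩
  have h1 : ∑ w ∈ A, primeTerm L s w = ∑ w ∈ A, primeTerm F s (φ w) := by
    refine Finset.sum_congr rfl fun w _ => ?_
    exact (primeTerm_underSpec F L s w (hD w w.2).1).symm
  rw [h1, Finset.sum_comp (fun v : {v // primeClass F v ∈ U} => primeTerm F s v) φ]
  have h2 : ∀ v ∈ A.image φ, ({w ∈ A | φ w = v}.card : ℕ) • primeTerm F s v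
      ≤ (Module.finrank F L : ℝ) * primeTerm F s v := by
    intro v _
    rw [nsmul_eq_mul]
    refine mul_le_mul_of_nonneg_right ?_ (primeTerm_nonneg' F s v)
    have hc : ({w ∈ A | φ w = v}.map ⟨Subtype.val, Subtype.val_injective⟩).card
        ≤ Module.finrank F L := by
      refine card_fiber_le F L v.1 _ ?_
      intro w hw
      rw [Finset.mem_map] at hw
      obtain ⟨w', hw', rfl⟩ := hw
      rw [Finset.mem_filter] at hw'
      exact congrArg Subtype.val hw'.2
    rw [Finset.card_map] at hc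
    exact_mod_cast hc
  refine (Finset.sum_le_sum h2).trans ?_
  rw [← Finset.mul_sum]
  refine mul_le_mul_of_nonneg_left ?_ (Nat.cast_nonneg _)
  exact hsU.sum_le_tsum _ fun v _ => primeTerm_nonneg' F s v

lemma finite_absNorm_mem (T : Finset ℕ) :
    {w : HeightOneSpectrum (𝓞 L) | absNorm w.asIdeal ∈ T}.Finite := by
  have hfin : (⋃ t ∈ T, {I : Ideal (𝓞 L) | absNorm I = t}).Finite :=
    Set.Finite.biUnion T.finite_toSet (fun t _ => Ideal.finite_setOfPred_absNorm_eq t)
  refine Set.Finite.of_finite_image (f := fun w : HeightOneSpectrum (𝓞 L) => w.asIdeal)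
    (hfin.subset ?_) ?_
  · rintro _ ⟨w, hw, rfl⟩
    simp only [Set.mem_iUnion, Set.mem_setOf_eq, exists_prop]
    exact ⟨_, hw, rfl⟩
  · intro w _ w' _ h
    exact HeightOneSpectrum.ext h

lemma cls_under_eq (w : HeightOneSpectrum (𝓞 L)) :
    cls (w.asIdeal.under (𝓞 F)) = primeClass F (underSpec F L w) := by
  have h : w.asIdeal.under (𝓞 F) ≠ ⊥ := (underSpec F L w).ne_bot
  rw [cls, dif_neg h]
  rfl

open Filter Topology in
/-- The lower bound needed by `index_le_of_bounds`. -/
lemma lower_bound (hsF : StmtSummablePrimeTerm F) (hsL : StmtSummablePrimeTerm L)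
    (hgeL : StmtPrimeSumGe L) (hnpL : StmtNotPrimeNormLe L)
    (U : Subgroup (ClassGroup (𝓞 F))) (T : Finset ℕ)
    (hU : ∀ Q : Ideal (𝓞 L), Q.IsPrime → (Ideal.absNorm Q).Prime → Ideal.absNorm Q ∉ T →
      cls (Q.under (𝓞 F)) ∈ U) :
    ∃ C : ℝ, ∀ᶠ s in 𝓝[>] (1 : ℝ), Real.log (1 / (s - 1)) - C
      ≤ (Module.finrank F L : ℝ) * ∑' v : {v // primeClass F v ∈ U}, primeTerm F s v := by
  classical
  obtain ⟨C1, hC1⟩ := hgeL
  obtain ⟨C2, hC2⟩ := hnpL
  set BT : Set (HeightOneSpectrum (𝓞 L)) := {w | absNorm w.asIdeal ∈ T} with hBT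
  set NP : Set (HeightOneSpectrum (𝓞 L)) := {w | ¬ (absNorm w.asIdeal).Prime} with hNP
  set D : Set (HeightOneSpectrum (𝓞 L)) :=
    {w | (absNorm w.asIdeal).Prime ∧ absNorm w.asIdeal ∉ T} with hD
  have hBTfin : BT.Finite := finite_absNorm_mem L T
  refine ⟨C1 + C2 + BT.ncard, ?_⟩
  filter_upwards [hC1, self_mem_nhdsWithin] with s hs hs1
  have hs1' : (1 : ℝ) < s := hs1
  have hSL := hsL s hs1'
  have hSF := hsF s hs1'
  have hsplit := hSL.tsum_subtype_add_tsum_subtype_compl D
  -- the complement of `D`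
  have hcompl : ∑' w : (Dᶜ : Set _), primeTerm L s w
      ≤ ∑' w : NP, primeTerm L s w + ∑' w : BT, primeTerm L s w := by
    rw [tsum_subtype (Dᶜ) (primeTerm L s), tsum_subtype NP (primeTerm L s),
      tsum_subtype BT (primeTerm L s), ← (hSL.indicator NP).tsum_add (hSL.indicator BT)]
    refine (hSL.indicator _).tsum_le_tsum (fun w => ?_)
      ((hSL.indicator NP).add (hSL.indicator BT))
    by_cases hw : w ∈ Dᶜ
    · rw [Set.indicator_of_mem hw]
      by_cases hw1 : w ∈ NP
      · rw [Set.indicator_of_mem hw1]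
        have := Set.indicator_nonneg (s := BT) (f := primeTerm L s)
          (fun w _ => primeTerm_nonneg' L s w) w
        linarith
      · have hw2 : w ∈ BT := by
          by_contra hw2
          exact hw ⟨not_not.mp hw1, hw2⟩
        rw [Set.indicator_of_mem hw2]
        have := Set.indicator_nonneg (s := NP) (f := primeTerm L s)
          (fun w _ => primeTerm_nonneg' L s w) w
        linarith
    · rw [Set.indicator_of_notMem hw]
      exact add_nonneg
        (Set.indicator_nonneg (fun w _ => primeTerm_nonneg' L s w) w)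
        (Set.indicator_nonneg (fun w _ => primeTerm_nonneg' L s w) w)
  have hNPle : ∑' w : NP, primeTerm L s w ≤ C2 := hC2 s hs1'
  have hBTle : ∑' w : BT, primeTerm L s w ≤ BT.ncard :=
    NumberField.Set.primeIdealZetaSum_le_card_of_finite hBTfin (by linarith)
  have hDle := tsum_le_finrank_mul F L U D (fun w hw =>
    ⟨hw.1, by
      rw [← cls_under_eq]
      exact hU w.asIdeal w.isPrime hw.1 hw.2⟩) s hSF hSL
  linarith

end Under

section Main

open Filter Topology

variable (F L : Type) [Field F] [NumberField F] [Field L] [NumberField L] [Algebra F L]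

/-- **T2** for a fixed pair `F ⊆ L`, from the prime-sum statements (package B2). -/
theorem T2_of_primeSums
    (hsF : StmtSummablePrimeTerm F) (hleF : StmtPrimeSumLe F)
    (hchF : ∀ χ : ClassGroup (𝓞 F) →* ℂˣ, χ ≠ 1 → ∃ C : ℝ, ∀ s : ℝ, 1 < s → s ≤ 2 →
        (∑' v, ((χ (primeClass F v) : ℂˣ) : ℂ) * ((primeTerm F s v : ℝ) : ℂ)).re ≤ C)
    (hsL : StmtSummablePrimeTerm L) (hgeL : StmtPrimeSumGe L) (hnpL : StmtNotPrimeNormLe L)
    (U : Subgroup (ClassGroup (𝓞 F))) (T : Finset ℕ)
    (hU : ∀ Q : Ideal (𝓞 L), Q.IsPrime → (Ideal.absNorm Q).Prime → Ideal.absNorm Q ∉ T →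
      cls (Q.under (𝓞 F)) ∈ U) :
    U.index ≤ Module.finrank F L := by
  refine index_le_of_bounds U (primeClass F) (fun v s => primeTerm F s v)
    (fun v s => primeTerm_nonneg' F s v) hsF hleF hchF (Module.finrank F L) ?_
  exact lower_bound F L hsF hsL hgeL hnpL U T hU

/-- **T2** (`Stmt_T2`) from packages B1 (counting bound) and B2 (prime sums). -/
theorem stmt_T2_of_B1_B2
    (hB1 : ∀ (K : Type) [Field K] [NumberField K], ∃ κ δ A : ℝ, 0 < δ ∧ CountingBound K κ δ A)
    (hsum : ∀ (K : Type) [Field K] [NumberField K], StmtSummablePrimeTerm K)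
    (hge : ∀ (K : Type) [Field K] [NumberField K], StmtPrimeSumGe K)
    (hle : ∀ (K : Type) [Field K] [NumberField K], StmtPrimeSumLe K)
    (hnp : ∀ (K : Type) [Field K] [NumberField K], StmtNotPrimeNormLe K)
    (hch : ∀ (K : Type) [Field K] [NumberField K], StmtCharPrimeSumLe K) :
    Stmt_T2 := by
  intro F L _ _ _ _ _ U T hU
  obtain ⟨κ, δ, A, hδ, hcb⟩ := hB1 F
  exact T2_of_primeSums F L (hsum F) (hle F) (hch F κ δ A hδ hcb) (hsum L) (hge L) (hnp L) U T hU

end Main

end Fermat.Agent.S14.H66
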