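import Fermat.Agent.S14.H64_D1Degree

/-!
# S14, crossing, piece D1 (helper64): unramified primes and the Galois group of `Top M r₁ r₂`

* `isUnramifiedAt_of_inertia_eq_bot` : trivial inertia group ⇒ `Algebra.IsUnramifiedAt`
* `not_dvd_discr_of_unramified` : `K = ℚ(ζ_p)`, `M/K` unramified everywhere, `r ≠ p` prime
  ⇒ `r ∤ discr M`
* `resChi_bijective` : `Gal(N/K) ≃ Gal(M/K) × (ℤ/n)ˣ` when `[N : M] = φ(n)`
* `isGalois_top`, `resM_chiTop_injective`, `resM_chiTop_surjective`, `resM_chiTop_bijective` :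
  the first two parts of `Stmt_Ram` for the crossing setup `Top M r₁ r₂`.
-/

set_option linter.unusedSectionVars false
set_option linter.style.haveILetI false

namespace Fermat.Agent.S14.H64

open NumberField IntermediateField

/-- If the inertia group of `P` in `Gal(M/K)` is trivial, then `P` is unramified over `𝓞 K`. -/
theorem isUnramifiedAt_of_inertia_eq_bot (K M : Type*) [Field K] [NumberField K] [Field M]
    [NumberField M] [Algebra K M] [IsGalois K M] (P : Ideal (𝓞 M)) [P.IsPrime]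
    (h : P.inertia (M ≃ₐ[K] M) = ⊥) : Algebra.IsUnramifiedAt (𝓞 K) P := by
  rw [← Ideal.ramificationIdx_eq_one_iff]
  have h1 := Ideal.card_inertia_eq_ramificationIdxIn (G := M ≃ₐ[K] M) (P.under (𝓞 K)) P
  rw [Ideal.ramificationIdxIn_eq_ramificationIdx (P.under (𝓞 K)) P (M ≃ₐ[K] M), h] at h1
  rw [← h1]
  simp

end Fermat.Agent.S14.H64

namespace Fermat.Agent.S14.H64

open NumberField IntermediateField

/-- `K = ℚ(ζ_p)`, `M/K` unramified everywhere: a prime `r ≠ p` does not divide `discr M`. -/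
theorem not_dvd_discr_of_unramified (p : ℕ) [Fact p.Prime] (K M : Type) [Field K] [NumberField K]
    [Field M] [NumberField M] [Algebra K M] [IsGalois K M] [IsCyclotomicExtension {p} ℚ K]
    (hU : UnramifiedEverywhere K M) (r : ℕ) [hr : Fact r.Prime] (hrp : r ≠ p) :
    ¬ (r : ℤ) ∣ discr M := by
  rw [NumberField.not_dvd_discr_iff_forall_mem M (𝓞 M) (Nat.prime_iff_prime_int.mp hr.out)]
  intro P hP hrP
  have hP0 : P ≠ ⊥ := by
    rintro rfl
    rw [Ideal.mem_bot] at hrP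
    have : (r : ℤ) = 0 := by exact_mod_cast hrP
    exact hr.out.ne_zero (by exact_mod_cast this)
  have : (P.under (𝓞 K)).LiesOver (Ideal.span {(r : ℤ)}) := by
    rw [Ideal.liesOver_span_iff (Ideal.IsPrime.ne_top inferInstance)
      (Nat.prime_iff_prime_int.mp hr.out)]
    rw [Ideal.under_def, Ideal.mem_comap]
    have e : (algebraMap (𝓞 K) (𝓞 M)) (((r : ℤ) : 𝓞 K)) = (((r : ℤ) : 𝓞 M)) := map_intCast _ _
    have e' : (algebraMap ℤ (𝓞 K)) (r : ℤ) = (((r : ℤ) : 𝓞 K)) := rfl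
    rw [e', e]
    exact hrP
  have h1 : Algebra.IsUnramifiedAt ℤ (P.under (𝓞 K)) := by
    rw [← Ideal.ramificationIdx_eq_one_iff]
    refine IsCyclotomicExtension.Rat.ramificationIdx_eq_of_not_dvd (m := p) r K (P.under (𝓞 K)) ?_
    intro hdvd
    exact hrp ((Nat.prime_dvd_prime_iff_eq hr.out Fact.out).mp hdvd)
  have h2 : Algebra.IsUnramifiedAt (𝓞 K) P := isUnramifiedAt_of_inertia_eq_bot K M P (hU P hP hP0)
  exact Algebra.IsUnramifiedAt.comp (P.under (𝓞 K)) P

end Fermat.Agent.S14.H64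

namespace Fermat.Agent.S14.H64

open NumberField IntermediateField

/-- `Gal(N/K) → Gal(M/K) × (ℤ/n)ˣ` is bijective when `[N : M] = φ(n)`. -/
theorem resChi_bijective (K M N : Type*) [Field K] [Field M] [Field N] [Algebra K M]
    [Algebra M N] [Algebra K N] [IsScalarTower K M N] (n : ℕ) [NeZero n]
    [IsCyclotomicExtension {n} M N] [IsGalois K M] [FiniteDimensional K M]
    [Algebra.IsSeparable K N]
    (hdeg : Module.finrank M N = n.totient) {ζ : N} (hζ : IsPrimitiveRoot ζ n) :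
    Function.Bijective (resChi K M N n hζ) := by
  haveI : FiniteDimensional M N := IsCyclotomicExtension.finiteDimensional {n} M N
  haveI : FiniteDimensional K N := FiniteDimensional.trans K M N
  haveI : IsGalois K N := isGalois_cyc K M N n
  have hcard : Nat.card (N ≃ₐ[K] N) = Nat.card ((M ≃ₐ[K] M) × (ZMod n)ˣ) := by
    rw [Nat.card_prod, IsGalois.card_aut_eq_finrank, IsGalois.card_aut_eq_finrank,
      Nat.card_eq_fintype_card, ZMod.card_units_eq_totient, ← hdeg,
      Module.finrank_mul_finrank]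
  exact (Nat.bijective_iff_injective_and_card _).mpr ⟨resChi_injective K M N n hζ, hcard⟩

section top

open _root_.Fermat.Agent.S14.Cross

variable (p : ℕ) [Fact p.Prime] (K M : Type) [Field K] [NumberField K] [Field M] [NumberField M]
  [Algebra K M] [IsGalois K M]
variable (r₁ r₂ : ℕ) [Fact r₁.Prime] [Fact r₂.Prime]

/-- `N = M(ζ_{r₁ r₂})` is Galois over `K`. -/
theorem isGalois_top : IsGalois K (Top M r₁ r₂) :=
  isGalois_cyc K M (Top M r₁ r₂) (r₁ * r₂)

theorem resM_chiTop_eq_resChi :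
    (resM K M r₁ r₂).prod (chiTop K M r₁ r₂) =
      resChi K M (Top M r₁ r₂) (r₁ * r₂) (zetaTop_spec M r₁ r₂) := rfl

/-- `γ ↦ (γ|M, χ γ)` is injective on `Gal(N/K)`. -/
theorem resM_chiTop_injective :
    Function.Injective ((resM K M r₁ r₂).prod (chiTop K M r₁ r₂)) :=
  resChi_injective K M (Top M r₁ r₂) (r₁ * r₂) (zetaTop_spec M r₁ r₂)

variable [IsCyclotomicExtension {p} ℚ K]

/-- `[M(ζ_{r₁ r₂}) : M] = φ(r₁ r₂)`. -/
theorem finrank_top (hU : UnramifiedEverywhere K M) (h1 : r₁ ≠ p) (h2 : r₂ ≠ p) :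
    Module.finrank M (Top M r₁ r₂) = (r₁ * r₂).totient := by
  refine finrank_cyc_of_coprime_discr M (Top M r₁ r₂) (r₁ * r₂) ?_
  have hd1 := not_dvd_discr_of_unramified p K M hU r₁ h1
  have hd2 := not_dvd_discr_of_unramified p K M hU r₂ h2
  rw [Nat.coprime_mul_iff_left]
  constructor
  · rw [Nat.Prime.coprime_iff_not_dvd Fact.out]
    intro h
    exact hd1 (Int.natCast_dvd.mpr h)
  · rw [Nat.Prime.coprime_iff_not_dvd Fact.out]
    intro h
    exact hd2 (Int.natCast_dvd.mpr h)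

/-- `γ ↦ (γ|M, χ γ)` is bijective `Gal(N/K) → Gal(M/K) × (ℤ/r₁r₂)ˣ`. -/
theorem resM_chiTop_bijective (hU : UnramifiedEverywhere K M) (h1 : r₁ ≠ p) (h2 : r₂ ≠ p) :
    Function.Bijective ((resM K M r₁ r₂).prod (chiTop K M r₁ r₂)) :=
  resChi_bijective K M (Top M r₁ r₂) (r₁ * r₂) (finrank_top p K M r₁ r₂ hU h1 h2)
    (zetaTop_spec M r₁ r₂)

/-- `γ ↦ (γ|M, χ γ)` is surjective `Gal(N/K) → Gal(M/K) × (ℤ/r₁r₂)ˣ`
(second part of `Stmt_Ram`). -/
theorem resM_chiTop_surjective (hU : UnramifiedEverywhere K M) (h1 : r₁ ≠ p) (h2 : r₂ ≠ p) :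
    Function.Surjective ((resM K M r₁ r₂).prod (chiTop K M r₁ r₂)) :=
  (resM_chiTop_bijective p K M r₁ r₂ hU h1 h2).surjective

end top

end Fermat.Agent.S14.H64
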