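import Fermat.Agent.S14.H64_D1Galois

/-!
# S14, `Stmt_Ram`, inertia part (d) + (e)  (split with helper48)

Setup: `K ⊆ M ⊆ N` number fields, `M/K` and `N/K` Galois.
`Fix K M γ s` : `γ ∈ Gal(N/K)` fixes `M` pointwise and fixes every `s`-th root of unity of `N`.

* `pow_eq_pow_of_sub_mem` : distinct `s`-th roots of unity stay distinct modulo an ideal not
  containing `s`.
* `inertia_fixes` (d): if `M/K` is unramified everywhere and `s ∉ 𝔓`, then every element of the
  inertia group of `𝔓` is in the fixer.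
* `card_fixer_le` (e): if `N = M(ζ_{r s})`, a subgroup of the fixer has at most `r - 1` elements.
-/

set_option autoImplicit false
set_option linter.unusedSectionVars false
set_option linter.style.haveILetI false

namespace Fermat.Agent.S14.H69

open NumberField IntermediateField
open scoped Pointwise

/-- Distinct `s`-th roots of unity are distinct modulo an ideal `Q` with `s ∉ Q`:
if `ξ ^ s = 1` and `ξ - 1 ∈ Q` then `ξ = 1`. -/
theorem eq_one_of_pow_eq_one_of_sub_one_mem {S : Type*} [CommRing S] [IsDomain S] (Q : Ideal S)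
    (s : ℕ) (hs : (s : S) ∉ Q) (ξ : S) (hξ : ξ ^ s = 1) (hmem : ξ - 1 ∈ Q) : ξ = 1 := by
  by_contra hne
  have h1 : (∑ t ∈ Finset.range s, ξ ^ t) * (ξ - 1) = 0 := by
    rw [geom_sum_mul, hξ, sub_self]
  have h2 : ∑ t ∈ Finset.range s, ξ ^ t = 0 := by
    rcases mul_eq_zero.mp h1 with h | h
    · exact h
    · exact absurd (sub_eq_zero.mp h) hne
  have h3 : ∀ t : ℕ, ξ ^ t - 1 ∈ Q := by
    intro t
    have : ξ ^ t - 1 = (∑ i ∈ Finset.range t, ξ ^ i) * (ξ - 1) := (geom_sum_mul ξ t).symm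
    rw [this]
    exact Q.mul_mem_left _ hmem
  have h4 : ∑ t ∈ Finset.range s, (ξ ^ t - 1) ∈ Q := Q.sum_mem fun t _ => h3 t
  rw [Finset.sum_sub_distrib, h2, Finset.sum_const, Finset.card_range, zero_sub,
    Ideal.neg_mem_iff, nsmul_eq_mul, mul_one] at h4
  exact hs h4

/-- Powers of an `s`-th root of unity which are congruent modulo `Q` (`s ∉ Q`) are equal. -/
theorem pow_eq_pow_of_sub_mem {S : Type*} [CommRing S] [IsDomain S] (Q : Ideal S)
    (s : ℕ) (hs : (s : S) ∉ Q) (η : S) (hη : η ^ s = 1) (i j : ℕ) (hmem : η ^ i - η ^ j ∈ Q) :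
    η ^ i = η ^ j := by
  have hsj : η ^ (s * j) = 1 := by rw [pow_mul, hη, one_pow]
  have hs0 : s ≠ 0 := by rintro rfl; exact hs (by simp)
  obtain ⟨s', rfl⟩ : ∃ s', s = s' + 1 := ⟨s - 1, by omega⟩
  have hξ : (η ^ i * η ^ (s' * j)) ^ (s' + 1) = 1 := by
    rw [mul_pow, ← pow_mul, ← pow_mul, mul_comm i, mul_comm (s' * j), pow_mul, pow_mul _ (s' + 1),
      hη, one_pow, one_pow, mul_one]
  have hmem' : η ^ i * η ^ (s' * j) - 1 ∈ Q := by
    have : η ^ i * η ^ (s' * j) - 1 = (η ^ i - η ^ j) * η ^ (s' * j) := by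
      rw [sub_mul, ← pow_add, ← pow_add]
      have : j + s' * j = (s' + 1) * j := by ring
      rw [this, hsj]
    rw [this]
    exact Q.mul_mem_right _ hmem
  have h1 := eq_one_of_pow_eq_one_of_sub_one_mem Q (s' + 1) hs _ hξ hmem'
  have h2 : η ^ i * η ^ (s' * j) * η ^ j = η ^ j := by rw [h1, one_mul]
  rw [mul_assoc, ← pow_add] at h2
  have : s' * j + j = (s' + 1) * j := by ring
  rwa [this, hsj, mul_one] at h2

variable (K M : Type) {N : Type} [Field K] [NumberField K] [Field M] [NumberField M]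
  [Field N] [NumberField N] [Algebra K M] [Algebra K N] [Algebra M N] [IsScalarTower K M N]

/-- `γ ∈ Gal(N/K)` fixes `M` pointwise and fixes every `s`-th root of unity of `N`. -/
def Fix (γ : N ≃ₐ[K] N) (s : ℕ) : Prop :=
  (∀ m : M, γ (algebraMap M N m) = algebraMap M N m) ∧ (∀ η : N, η ^ s = 1 → γ η = η)

variable [IsGalois K M] [IsGalois K N]

/-- restriction to `M` is compatible with the actions on the rings of integers. -/
theorem algebraMap_restrictNormalHom_smul (γ : N ≃ₐ[K] N) (x : 𝓞 M) :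
    algebraMap (𝓞 M) (𝓞 N) ((AlgEquiv.restrictNormalHom M γ) • x) =
      γ • algebraMap (𝓞 M) (𝓞 N) x := by
  apply RingOfIntegers.ext
  show algebraMap M N ((AlgEquiv.restrictNormalHom M γ) (x : M)) = γ (algebraMap M N (x : M))
  exact AlgEquiv.restrictNormal_commutes γ M (x : M)

/-- **(d)** The inertia group of `𝔓` is contained in the fixer of `M` and of the `s`-th roots of
unity, when `M/K` is unramified everywhere and `s ∉ 𝔓`. -/
theorem inertia_fixes (s : ℕ) [Fact s.Prime] (hunr : UnramifiedEverywhere K M)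
    (𝔓 : Ideal (𝓞 N)) (h𝔓 : 𝔓.IsPrime) (h0 : 𝔓 ≠ ⊥) (hs : (s : 𝓞 N) ∉ 𝔓)
    (γ : N ≃ₐ[K] N) (hγ : γ ∈ 𝔓.inertia (N ≃ₐ[K] N)) : Fix K M γ s := by
  constructor
  · -- `γ|M` is in the inertia group of `𝔓 ∩ 𝓞 M`, which is trivial
    set σ := AlgEquiv.restrictNormalHom M γ with hσ
    have hPM : (𝔓.under (𝓞 M)).IsPrime := inferInstance
    have hPM0 : 𝔓.under (𝓞 M) ≠ ⊥ := Ideal.under_ne_bot (𝓞 M) h0
    have hmem : σ ∈ (𝔓.under (𝓞 M)).inertia (M ≃ₐ[K] M) := by
      intro x
      show σ • x - x ∈ 𝔓.under (𝓞 M)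
      rw [Ideal.under_def, Ideal.mem_comap, map_sub, hσ, algebraMap_restrictNormalHom_smul]
      exact hγ _
    rw [hunr _ hPM hPM0, Subgroup.mem_bot] at hmem
    intro m
    rw [← AlgEquiv.restrictNormal_commutes γ M m]
    show algebraMap M N (σ m) = _
    rw [hmem]
    rfl
  · intro η hη
    have hsp : s.Prime := Fact.out
    have hint : IsIntegral ℤ η := IsIntegral.of_pow hsp.pos (by rw [hη]; exact isIntegral_one)
    set η' : 𝓞 N := ⟨η, hint⟩ with hη'
    have hη's : η' ^ s = 1 := by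
      apply RingOfIntegers.ext
      show algebraMap (𝓞 N) N (η' ^ s) = algebraMap (𝓞 N) N 1
      rw [map_pow, map_one]
      exact hη
    have hγs : (γ • η') ^ s = 1 := by rw [← smul_pow', hη's, smul_one]
    obtain ⟨s', hs'⟩ : ∃ s', s = s' + 1 := ⟨s - 1, by have := hsp.pos; omega⟩
    have hξ : ((γ • η') * η' ^ s') ^ s = 1 := by
      rw [mul_pow, hγs, one_mul, ← pow_mul, mul_comm, pow_mul, hη's, one_pow]
    have hmem : (γ • η') * η' ^ s' - 1 ∈ 𝔓 := by
      have : (γ • η') * η' ^ s' - 1 = (γ • η' - η') * η' ^ s' := by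
        rw [sub_mul, ← pow_succ', ← hs', hη's]
      rw [this]
      exact 𝔓.mul_mem_right _ (hγ η')
    have h1 := eq_one_of_pow_eq_one_of_sub_one_mem 𝔓 s hs _ hξ hmem
    have h2 : γ • η' = η' := by
      have := congrArg (· * η') h1
      simp only [one_mul] at this
      rwa [mul_assoc, ← pow_succ, ← hs', hη's, mul_one] at this
    have h3 := congrArg (fun x : 𝓞 N => (x : N)) h2
    exact h3

end Fermat.Agent.S14.H69

namespace Fermat.Agent.S14.H69

open NumberField IntermediateField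
open scoped Pointwise

variable (K M : Type) {N : Type} [Field K] [NumberField K] [Field M] [NumberField M]
  [Field N] [NumberField N] [Algebra K M] [Algebra K N] [Algebra M N] [IsScalarTower K M N]
  [IsGalois K M] [IsGalois K N]

/-- **(e)** If `N = M(ζ_{r s})` with primes `r ≠ s`, a subgroup of `Gal(N/K)` all of whose
elements fix `M` and the `s`-th roots of unity has at most `r - 1` elements. -/
theorem card_fixer_le (r s n : ℕ) [Fact r.Prime] [Fact s.Prime] (hrs : r ≠ s) (hn : n = r * s)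
    [IsCyclotomicExtension {n} M N] (H : Subgroup (N ≃ₐ[K] N))
    (hH : ∀ γ ∈ H, Fix K M γ s) : Nat.card H ≤ r - 1 := by
  have hr : r.Prime := Fact.out
  have hs : s.Prime := Fact.out
  haveI : NeZero n := ⟨by rw [hn]; exact Nat.mul_ne_zero hr.ne_zero hs.ne_zero⟩
  have hζ : IsPrimitiveRoot (IsCyclotomicExtension.zeta n M N) n :=
    IsCyclotomicExtension.zeta_spec n M N
  set ζ := IsCyclotomicExtension.zeta n M N with hζdef
  -- primitive `r`-th and `s`-th roots
  have hζr : IsPrimitiveRoot (ζ ^ s) r :=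
    hζ.pow (NeZero.pos n) (by rw [hn, mul_comm])
  have hζs : (ζ ^ r) ^ s = 1 := by rw [← pow_mul, ← hn]; exact hζ.pow_eq_one
  -- Bezout: `ζ = (ζ^s)^a * (ζ^r)^b`
  have hcop : Nat.Coprime s r := (Nat.coprime_primes hs hr).mpr (Ne.symm hrs)
  obtain ⟨a, b, hab⟩ : ∃ a b : ℕ, ζ = (ζ ^ s) ^ a * (ζ ^ r) ^ b := by
    obtain ⟨a, -, ha⟩ := Nat.exists_mul_mod_eq_one_of_coprime hcop hr.one_lt
    obtain ⟨b, -, hb⟩ := Nat.exists_mul_mod_eq_one_of_coprime hcop.symm hs.one_lt
    refine ⟨a, b, ?_⟩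
    have h1 : s * a + r * b ≡ 1 [MOD r] := by
      have : (s * a + r * b) % r = 1 % r := by
        rw [Nat.add_mul_mod_self_left, ha, Nat.mod_eq_of_lt hr.one_lt]
      exact this
    have h2 : s * a + r * b ≡ 1 [MOD s] := by
      have : (s * a + r * b) % s = 1 % s := by
        rw [add_comm, Nat.add_mul_mod_self_left, hb, Nat.mod_eq_of_lt hs.one_lt]
      exact this
    have h3 : s * a + r * b ≡ 1 [MOD n] := by
      rw [hn]
      exact (Nat.modEq_and_modEq_iff_modEq_mul hcop.symm).mp ⟨h1, h2⟩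
    have h4 : ζ ^ (s * a + r * b) = ζ ^ 1 := by
      have hge : 1 ≤ s * a + r * b := by
        rcases Nat.eq_zero_or_pos (s * a) with h0 | h0
        · rw [h0] at ha; simp at ha
        · omega
      obtain ⟨k, hk⟩ := (Nat.modEq_iff_dvd' hge).mp h3.symm
      have : s * a + r * b = 1 + n * k := by omega
      rw [this, pow_add, pow_mul, hζ.pow_eq_one, one_pow, mul_one]
    rw [← pow_mul, ← pow_mul, ← pow_add, h4, pow_one]
  -- the map `γ ↦ exponent on ζ^s` is injective on `H`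
  let f : H → (ZMod r)ˣ := fun γ => hζr.autToPow K (γ : N ≃ₐ[K] N)
  have hf : Function.Injective f := by
    intro γ γ' h
    apply Subtype.ext
    have e1 : (γ : N ≃ₐ[K] N) (ζ ^ s) = (γ' : N ≃ₐ[K] N) (ζ ^ s) := by
      rw [← hζr.autToPow_spec K γ, ← hζr.autToPow_spec K γ']
      exact congrArg (fun u : (ZMod r)ˣ => (ζ ^ s) ^ ((u : ZMod r).val)) h
    have e2 : (γ : N ≃ₐ[K] N) (ζ ^ r) = (γ' : N ≃ₐ[K] N) (ζ ^ r) := by
      rw [(hH γ γ.2).2 _ hζs, (hH γ' γ'.2).2 _ hζs]
    refine H64.algEquiv_ext_cyc K M N n hζ (fun m => ?_) ?_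
    · rw [(hH γ γ.2).1 m, (hH γ' γ'.2).1 m]
    · have key : ∀ g : N ≃ₐ[K] N, g ζ = (g (ζ ^ s)) ^ a * (g (ζ ^ r)) ^ b := fun g => by
        conv_lhs => rw [hab]
        rw [map_mul, map_pow, map_pow (g : N ≃ₐ[K] N) (ζ ^ r) b]
      rw [key γ, key γ', e1, e2]
  calc Nat.card H ≤ Nat.card (ZMod r)ˣ := Nat.card_le_card_of_injective f hf
    _ = r - 1 := by rw [Nat.card_eq_fintype_card, ZMod.card_units]

end Fermat.Agent.S14.H69
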