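import Fermat.Agent.S14.H48_RamInertia
import Fermat.Agent.S14.H64_D1Unram
import Fermat.Agent.S14.H69_RamFix

/-!
# S14, crossing: `Stmt_Ram` (assembly, helper48)

Pieces: `H64.isGalois_top`, `H64.resM_chiTop_surjective` (helper64), `H69.inertia_fixes`,
`H69.card_fixer_le` (helper69), `H48.card_inertia_ge` (helper48).

For a prime `𝔓` of `N = M(ζ_{r s})` above `r`: the inertia group `I` in `Gal(N/K)` is contained in
the fixer `H` of `M(ζ_s)`, `|H| ≤ r - 1 ≤ |I|`, hence `I = H`.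
-/

set_option autoImplicit false
set_option linter.unusedSectionVars false

namespace Fermat.Agent.S14.H48

open NumberField

/-- If `g ζ = ζ ^ a` for a primitive `n`-th root of unity `ζ`, `n = r * s`, and `a ≡ 1 mod s`,
then `g` fixes every `s`-th root of unity. -/
theorem fixes_roots_of_modEq {N : Type*} [Field N] {F : Type*} [FunLike F N N]
    [MonoidHomClass F N N] (g : F) {n r s a : ℕ} (hn : n = r * s) (hn0 : 0 < n) {ζ : N}
    (hζ : IsPrimitiveRoot ζ n) (hg : g ζ = ζ ^ a) (ha : a ≡ 1 [MOD s]) (η : N)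
    (hη : η ^ s = 1) : g η = η := by
  have hs0 : s ≠ 0 := by
    rintro rfl
    simp at hn
    omega
  haveI : NeZero s := ⟨hs0⟩
  have hζ2 : IsPrimitiveRoot (ζ ^ r) s := hζ.pow hn0 hn
  obtain ⟨j, -, rfl⟩ := hζ2.eq_pow_of_pow_eq_one hη
  have h1 : (ζ ^ r) ^ a = ζ ^ r := by
    have h2 : (ζ ^ r) ^ (a % s) = (ζ ^ r) ^ (1 % s) := by rw [ha]
    have h3 : ∀ k : ℕ, (ζ ^ r) ^ (k % s) = (ζ ^ r) ^ k := by
      intro k
      conv_rhs => rw [← Nat.mod_add_div k s, pow_add, pow_mul, hζ2.pow_eq_one, one_pow, mul_one]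
    rw [h3, h3, pow_one] at h2
    exact h2
  have h4 : (ζ ^ a) ^ r = (ζ ^ r) ^ a := by
    rw [← pow_mul, ← pow_mul, mul_comm]
  rw [map_pow, map_pow, hg, h4, h1]

end Fermat.Agent.S14.H48

namespace Fermat.Agent.S14.H48

open NumberField

section generic

variable (K M N : Type) [Field K] [NumberField K] [Field M] [NumberField M]
  [Field N] [NumberField N] [Algebra K M] [Algebra K N] [Algebra M N] [IsScalarTower K M N]

/-- The subgroup of `Gal(N/K)` fixing `M` and the `s`-th roots of unity. -/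
def fixerSubgroup (s : ℕ) : Subgroup (N ≃ₐ[K] N) where
  carrier := {γ | H69.Fix K M γ s}
  mul_mem' := by
    intro a b ha hb
    refine ⟨fun m => ?_, fun η hη => ?_⟩
    · rw [AlgEquiv.mul_apply, hb.1 m, ha.1 m]
    · rw [AlgEquiv.mul_apply, hb.2 η hη, ha.2 η hη]
  one_mem' := ⟨fun _ => rfl, fun _ _ => rfl⟩
  inv_mem' := by
    intro a ha
    refine ⟨fun m => ?_, fun η hη => ?_⟩
    · have h := ha.1 m
      calc a⁻¹ (algebraMap M N m) = a⁻¹ (a (algebraMap M N m)) := by rw [h]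
        _ = algebraMap M N m := by rw [← AlgEquiv.mul_apply, inv_mul_cancel, AlgEquiv.one_apply]
    · have h := ha.2 η hη
      calc a⁻¹ η = a⁻¹ (a η) := by rw [h]
        _ = η := by rw [← AlgEquiv.mul_apply, inv_mul_cancel, AlgEquiv.one_apply]

theorem mem_fixerSubgroup {s : ℕ} {γ : N ≃ₐ[K] N} :
    γ ∈ fixerSubgroup K M N s ↔ H69.Fix K M γ s := Iff.rfl

/-- Generic form of the inertia part of `Stmt_Ram`: in `N = M(ζ_{r s})`, every element of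
`Gal(N/K)` fixing `M` and the `s`-th roots of unity lies in every inertia group above `r`. -/
theorem fix_mem_inertia (p r s n : ℕ) [Fact p.Prime] [Fact r.Prime] [Fact s.Prime]
    [IsGalois K M] [IsGalois K N] [IsCyclotomicExtension {p} ℚ K]
    [IsCyclotomicExtension {n} M N] (hn : n = r * s) (hrs : r ≠ s) (hrp : r ≠ p)
    (hU : UnramifiedEverywhere K M)
    (𝔓 : Ideal (𝓞 N)) (h𝔓 : 𝔓.IsPrime) (hr : (r : 𝓞 N) ∈ 𝔓)
    (γ : N ≃ₐ[K] N) (hγ : H69.Fix K M γ s) : γ ∈ 𝔓.inertia (N ≃ₐ[K] N) := by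
  have hrprime : r.Prime := Fact.out
  have hsprime : s.Prime := Fact.out
  have hn0 : 0 < n := by
    rw [hn]; exact Nat.mul_pos hrprime.pos hsprime.pos
  haveI : NeZero n := ⟨hn0.ne'⟩
  -- a primitive `r`-th root of unity in `N`
  have hζ : IsPrimitiveRoot (IsCyclotomicExtension.zeta n M N) n :=
    IsCyclotomicExtension.zeta_spec n M N
  have hη : IsPrimitiveRoot (IsCyclotomicExtension.zeta n M N ^ s) r :=
    hζ.pow hn0 (by rw [hn, mul_comm])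
  -- `𝔓 ≠ ⊥` and `s ∉ 𝔓`
  have h0 : 𝔓 ≠ ⊥ := by
    rintro rfl
    rw [Ideal.mem_bot] at hr
    exact hrprime.ne_zero (by exact_mod_cast hr)
  have hs : (s : 𝓞 N) ∉ 𝔓 := by
    intro hs
    have hcop : Nat.Coprime r s := (Nat.coprime_primes hrprime hsprime).mpr hrs
    have hbez : (r : ℤ) * Nat.gcdA r s + (s : ℤ) * Nat.gcdB r s = 1 := by
      have := Nat.gcd_eq_gcd_ab r s
      rw [Nat.Coprime.gcd_eq_one hcop] at this
      exact_mod_cast this.symm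
    have hbez' : (r : 𝓞 N) * ((Nat.gcdA r s : ℤ) : 𝓞 N) + (s : 𝓞 N) * ((Nat.gcdB r s : ℤ) : 𝓞 N)
        = 1 := by
      exact_mod_cast congrArg (Int.cast : ℤ → 𝓞 N) hbez
    have h1 : (1 : 𝓞 N) ∈ 𝔓 := by
      rw [← hbez']
      exact 𝔓.add_mem (𝔓.mul_mem_right _ hr) (𝔓.mul_mem_right _ hs)
    exact h𝔓.ne_top ((Ideal.eq_top_iff_one 𝔓).mpr h1)
  -- compare the two subgroups
  have hle : 𝔓.inertia (N ≃ₐ[K] N) ≤ fixerSubgroup K M N s :=
    fun γ hγ => H69.inertia_fixes K M s hU 𝔓 h𝔓 h0 hs γ hγ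
  have hcard : Nat.card (fixerSubgroup K M N s) ≤ Nat.card (𝔓.inertia (N ≃ₐ[K] N)) :=
    (H69.card_fixer_le K M r s n hrs hn (fixerSubgroup K M N s) (fun γ hγ => hγ)).trans
      (card_inertia_ge p r K N hrp _ hη 𝔓 h𝔓 hr)
  have heq : 𝔓.inertia (N ≃ₐ[K] N) = fixerSubgroup K M N s :=
    Subgroup.eq_of_le_of_card_ge hle hcard
  rw [heq]
  exact hγ

end generic

section top

open _root_.Fermat.Agent.S14.Cross

variable (K M : Type) [Field K] [NumberField K] [Field M] [NumberField M] [Algebra K M]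
  [IsGalois K M]
variable (r₁ r₂ : ℕ) [Fact r₁.Prime] [Fact r₂.Prime]

theorem zetaTop_map (γ : Top M r₁ r₂ ≃ₐ[K] Top M r₁ r₂) :
    γ (zetaTop M r₁ r₂) =
      zetaTop M r₁ r₂ ^ ((chiTop K M r₁ r₂ γ : (ZMod (r₁ * r₂))ˣ) : ZMod (r₁ * r₂)).val :=
  ((zetaTop_spec M r₁ r₂).autToPow_spec K γ).symm

theorem resM_fixes {γ : Top M r₁ r₂ ≃ₐ[K] Top M r₁ r₂} (h : resM K M r₁ r₂ γ = 1) (m : M) :
    γ (algebraMap M (Top M r₁ r₂) m) = algebraMap M (Top M r₁ r₂) m := by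
  have h1 := AlgEquiv.restrictNormal_commutes γ M m
  have h2 : γ.restrictNormal M = 1 := h
  rw [← h1, h2, AlgEquiv.one_apply]

/-- If the image of `u` in `(ℤ/s)ˣ` is trivial then `val u ≡ 1 mod s`. -/
theorem val_modEq_one_of_unitsMap_eq_one {n s : ℕ} [NeZero n] (hs : 1 < s) (h : s ∣ n)
    (u : (ZMod n)ˣ) (hu : ZMod.unitsMap h u = 1) : ((u : ZMod n)).val ≡ 1 [MOD s] := by
  have h1 : ((ZMod.unitsMap h u : (ZMod s)ˣ) : ZMod s) = 1 := by rw [hu]; rfl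
  rw [ZMod.unitsMap_def, Units.coe_map] at h1
  have h2 : (((u : ZMod n).val : ℕ) : ZMod s) = ((1 : ℕ) : ZMod s) := by
    rw [ZMod.natCast_val, Nat.cast_one]
    exact h1
  exact (ZMod.natCast_eq_natCast_iff _ _ _).mp h2

theorem fix_of_mem_ker_chi2 {γ : Top M r₁ r₂ ≃ₐ[K] Top M r₁ r₂}
    (hγ : γ ∈ ((resM K M r₁ r₂).prod (chi2 K M r₁ r₂)).ker) : H69.Fix K M γ r₂ := by
  rw [MonoidHom.mem_ker, MonoidHom.prod_apply, Prod.mk_eq_one] at hγ
  obtain ⟨h1, h2⟩ := hγ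
  refine ⟨resM_fixes K M r₁ r₂ h1, fun η hη => ?_⟩
  have hr₂ : r₂.Prime := Fact.out
  have hmod := val_modEq_one_of_unitsMap_eq_one hr₂.one_lt (Nat.dvd_mul_left r₂ r₁)
    (chiTop K M r₁ r₂ γ) h2
  exact fixes_roots_of_modEq γ rfl (Nat.pos_of_ne_zero (NeZero.ne _)) (zetaTop_spec M r₁ r₂)
    (zetaTop_map K M r₁ r₂ γ) hmod η hη

theorem fix_of_mem_ker_chi1 {γ : Top M r₁ r₂ ≃ₐ[K] Top M r₁ r₂}
    (hγ : γ ∈ ((resM K M r₁ r₂).prod (chi1 K M r₁ r₂)).ker) : H69.Fix K M γ r₁ := by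
  rw [MonoidHom.mem_ker, MonoidHom.prod_apply, Prod.mk_eq_one] at hγ
  obtain ⟨h1, h2⟩ := hγ
  refine ⟨resM_fixes K M r₁ r₂ h1, fun η hη => ?_⟩
  have hr₁ : r₁.Prime := Fact.out
  have hmod := val_modEq_one_of_unitsMap_eq_one hr₁.one_lt (Nat.dvd_mul_right r₁ r₂)
    (chiTop K M r₁ r₂ γ) h2
  exact fixes_roots_of_modEq γ (mul_comm r₁ r₂) (Nat.pos_of_ne_zero (NeZero.ne _))
    (zetaTop_spec M r₁ r₂) (zetaTop_map K M r₁ r₂ γ) hmod η hη

end top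

open _root_.Fermat.Agent.S14.Cross in
/-- **Ram**: ramification in `N = M(ζ_{r₁ r₂})` over `K = ℚ(ζ_p)`. -/
theorem stmt_Ram : Stmt_Ram := by
  intro p _ K M _ _ _ _ _ _ _ r₁ r₂ _ _ _hp2 hU h12 h1p h2p
  haveI hgal : IsGalois K (Top M r₁ r₂) := H64.isGalois_top K M r₁ r₂
  refine ⟨hgal, H64.resM_chiTop_surjective p K M r₁ r₂ hU h1p h2p, ?_, ?_⟩
  · intro 𝔓 h𝔓 hr γ hγ
    exact fix_mem_inertia K M (Top M r₁ r₂) p r₁ r₂ (r₁ * r₂) rfl h12 h1p hU 𝔓 h𝔓 hr γ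
      (fix_of_mem_ker_chi2 K M r₁ r₂ hγ)
  · intro 𝔓 h𝔓 hr γ hγ
    exact fix_mem_inertia K M (Top M r₁ r₂) p r₂ r₁ (r₁ * r₂) (mul_comm r₁ r₂) (Ne.symm h12) h2p
      hU 𝔓 h𝔓 hr γ (fix_of_mem_ker_chi1 K M r₁ r₂ hγ)

end Fermat.Agent.S14.H48
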