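import Fermat.Agent.S14.H56_Frob

/-!
# S14: residue field bounds from Frobenius-type congruences (helper56)

Common lemma for the `SN-*` pieces of the crossing: if `x ^ n ≡ x` modulo a nonzero prime `P`
for all `x`, then `absNorm P ≤ n`, and if moreover `absNorm P = m ^ f` and `n = m ^ g` then `f ∣ g`.
Also the versions for `P = 𝔓.under (𝓞 F)` with the congruence checked in `𝓞 N`.
-/

namespace Fermat.Agent.S14.ResidueBound

open NumberField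

variable {F : Type*} [Field F] [NumberField F]

omit [NumberField F] in
/-- The residue field of a nonzero prime of `𝓞 F`, as a finite field: every element is killed by
`x ↦ x ^ n - x` as soon as this holds modulo `P` on `𝓞 F`. -/
lemma quot_pow_eq (P : Ideal (𝓞 F)) {n : ℕ} (h : ∀ x : 𝓞 F, x ^ n - x ∈ P) :
    ∀ y : 𝓞 F ⧸ P, y ^ n = y := by
  intro y
  obtain ⟨a, rfl⟩ := Ideal.Quotient.mk_surjective y
  rw [← map_pow]
  exact (Ideal.Quotient.eq).mpr (h a)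

/-- If `x ^ n ≡ x` modulo the nonzero prime `P` for all `x` (`2 ≤ n`), then `absNorm P ≤ n`. -/
theorem absNorm_le (P : Ideal (𝓞 F)) [hP : P.IsPrime] (hP0 : P ≠ ⊥) {n : ℕ} (hn : 2 ≤ n)
    (h : ∀ x : 𝓞 F, x ^ n - x ∈ P) : Ideal.absNorm P ≤ n := by
  have hmax : P.IsMaximal := Ideal.isMaximal_of_isPrime_of_ne_bot P hP0
  letI := Ideal.Quotient.field P
  have hfin : Finite (𝓞 F ⧸ P) := Ideal.finiteQuotientOfFreeOfNeBot P hP0
  rw [Ideal.absNorm_apply P, Submodule.cardQuot_apply]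
  exact H56.card_le_of_forall_pow_eq (by omega) (quot_pow_eq P h)

/-- In a finite field with `m ^ f` elements in which `x ^ (m ^ g) = x` for all `x`
(`2 ≤ m`), `f ∣ g`. -/
lemma dvd_of_card_eq_pow {k : Type*} [Field k] [Finite k] {m f g : ℕ} (hm : 2 ≤ m)
    (hcard : Nat.card k = m ^ f) (h : ∀ x : k, x ^ (m ^ g) = x) : f ∣ g := by
  have hf0 : f ≠ 0 := by
    rintro rfl
    have := Finite.one_lt_card (α := k)
    rw [pow_zero] at hcard
    omega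
  have hfpos : 0 < f := Nat.pos_of_ne_zero hf0
  -- `x ^ (m ^ f) = x` for all `x`
  have hfrob : ∀ x : k, x ^ (m ^ f) = x := by
    intro x
    have := Fintype.ofFinite k
    rw [← hcard, Nat.card_eq_fintype_card]
    exact FiniteField.pow_card x
  have hiter : ∀ (a : ℕ) (x : k), x ^ (m ^ (f * a)) = x := by
    intro a
    induction a with
    | zero => intro x; simp
    | succ a ih =>
      intro x
      rw [Nat.mul_succ, pow_add, pow_mul, ih, hfrob]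
  -- division with remainder
  have hdiv : g = f * (g / f) + g % f := (Nat.div_add_mod g f).symm
  have hb : ∀ x : k, x ^ (m ^ (g % f)) = x := by
    intro x
    have h1 := h x
    rw [hdiv, pow_add, pow_mul, hiter] at h1
    exact h1
  by_contra hnd
  have hb0 : g % f ≠ 0 := fun h0 => hnd (Nat.dvd_of_mod_eq_zero h0)
  have hblt : g % f < f := Nat.mod_lt g hfpos
  have h1lt : 1 < m ^ (g % f) := Nat.one_lt_pow hb0 (by omega)
  have hle := H56.card_le_of_forall_pow_eq h1lt hb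
  rw [hcard] at hle
  have hlt : m ^ (g % f) < m ^ f := Nat.pow_lt_pow_right (by omega) hblt
  omega

/-- If `absNorm P = m ^ f` and `x ^ (m ^ g) ≡ x` modulo `P` for all `x` (`2 ≤ m`),
then `f ∣ g`. -/
theorem dvd_of_absNorm_eq_pow (P : Ideal (𝓞 F)) [hP : P.IsPrime] (hP0 : P ≠ ⊥) {m f g : ℕ}
    (hm : 2 ≤ m) (hN : Ideal.absNorm P = m ^ f)
    (h : ∀ x : 𝓞 F, x ^ (m ^ g) - x ∈ P) : f ∣ g := by
  have hmax : P.IsMaximal := Ideal.isMaximal_of_isPrime_of_ne_bot P hP0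
  letI := Ideal.Quotient.field P
  have hfin : Finite (𝓞 F ⧸ P) := Ideal.finiteQuotientOfFreeOfNeBot P hP0
  rw [Ideal.absNorm_apply P, Submodule.cardQuot_apply] at hN
  exact dvd_of_card_eq_pow hm hN (quot_pow_eq P h)

section Under

variable {N : Type*} [Field N] [NumberField N] [Algebra F N]

omit [NumberField N] in
/-- Version for `𝔓 ∩ 𝓞 F`, the congruence being checked in `𝓞 N`. -/
theorem absNorm_under_le (𝔓 : Ideal (𝓞 N)) [h𝔓 : 𝔓.IsPrime] (h𝔓0 : 𝔓 ≠ ⊥) {n : ℕ} (hn : 2 ≤ n)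
    (h : ∀ x : 𝓞 F, algebraMap (𝓞 F) (𝓞 N) x ^ n - algebraMap (𝓞 F) (𝓞 N) x ∈ 𝔓) :
    Ideal.absNorm (𝔓.under (𝓞 F)) ≤ n := by
  have hu0 : 𝔓.under (𝓞 F) ≠ ⊥ := Ideal.IsIntegral.comap_ne_bot (𝓞 F) h𝔓0
  refine absNorm_le _ hu0 hn fun x => ?_
  rw [Ideal.under_def, Ideal.mem_comap, map_sub, map_pow]
  exact h x

omit [NumberField N] in
/-- Version for `𝔓 ∩ 𝓞 F`, the congruence being checked in `𝓞 N`. -/
theorem dvd_of_absNorm_under_eq_pow (𝔓 : Ideal (𝓞 N)) [h𝔓 : 𝔓.IsPrime] (h𝔓0 : 𝔓 ≠ ⊥)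
    {m f g : ℕ} (hm : 2 ≤ m) (hN : Ideal.absNorm (𝔓.under (𝓞 F)) = m ^ f)
    (h : ∀ x : 𝓞 F, algebraMap (𝓞 F) (𝓞 N) x ^ (m ^ g) - algebraMap (𝓞 F) (𝓞 N) x ∈ 𝔓) :
    f ∣ g := by
  have hu0 : 𝔓.under (𝓞 F) ≠ ⊥ := Ideal.IsIntegral.comap_ne_bot (𝓞 F) h𝔓0
  refine dvd_of_absNorm_eq_pow _ hu0 hm hN fun x => ?_
  rw [Ideal.under_def, Ideal.mem_comap, map_sub, map_pow]
  exact h x

/-- If `x ^ N(𝔓 ∩ 𝓞 F) ≡ x` modulo `𝔓` on all of `𝓞 N`, then `𝔓` has the same norm as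
`𝔓 ∩ 𝓞 F`, and its relative norm is `𝔓 ∩ 𝓞 F`. -/
theorem relNorm_eq_under (𝔓 : Ideal (𝓞 N)) [h𝔓 : 𝔓.IsPrime] (h𝔓0 : 𝔓 ≠ ⊥)
    (h : ∀ x : 𝓞 N, x - x ^ Ideal.absNorm (𝔓.under (𝓞 F)) ∈ 𝔓) :
    Ideal.absNorm 𝔓 = Ideal.absNorm (𝔓.under (𝓞 F)) ∧
      Ideal.relNorm (𝓞 F) 𝔓 = 𝔓.under (𝓞 F) :=
  ⟨H56.absNorm_eq_of_pow_congr 𝔓 h𝔓0 h, H56.relNorm_eq_under_of_pow_congr 𝔓 h𝔓0 h⟩

end Under

end Fermat.Agent.S14.ResidueBound
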