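import Fermat.Agent.S14.SideDefs
import Fermat.Agent.S14.ResidueBound

/-!
# S14, crossing, pieces SN-d and SN-e (helper66)

* `sne_core`: for an intermediate field `E` of `N/K`, a nonzero prime `𝔓` of `𝓞 N` and `γ ∈ Gal(N/K)`
  fixing `E` with `γ x ≡ x ^ (N𝔟 ^ g)` mod `𝔓` (`𝔟 = 𝔓 ∩ K`), the ideal `B = (𝔓 ∩ E) ^ (g / f)`
  has absolute norm `N𝔟 ^ g` and relative norm `𝔟 ^ g`.
* `stmt_SNe : Side.Stmt_SNe`.
-/

namespace Fermat.Agent.S14.H66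

open NumberField

section Core

variable {K N : Type} [Field K] [NumberField K] [Field N] [NumberField N] [Algebra K N]

/-- The coercion of `γ • x` for `x : 𝓞 N`. -/
lemma coe_galSmul (γ : N ≃ₐ[K] N) (x : 𝓞 N) : ((γ • x : 𝓞 N) : N) = γ (x : N) := rfl

/-- Core of SN-e, for an arbitrary intermediate field `E` fixed by `γ`. -/
theorem sne_core (E : IntermediateField K N) (𝔓 : Ideal (𝓞 N)) [h𝔓 : 𝔓.IsPrime]
    (γ : N ≃ₐ[K] N) (hγ : ∀ x : E, γ (x : N) = x) (g : ℕ) (hg : g ≠ 0)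
    (hfrob : ∀ x : 𝓞 N, γ • x - x ^ (Ideal.absNorm (𝔓.under (𝓞 K)) ^ g) ∈ 𝔓) :
    ∃ B : Ideal (𝓞 E),
      Ideal.absNorm B = Ideal.absNorm (𝔓.under (𝓞 K)) ^ g ∧
      Ideal.relNorm (𝓞 K) B = (𝔓.under (𝓞 K)) ^ g := by
  -- `𝔓 ≠ ⊥`
  have h𝔓0 : 𝔓 ≠ ⊥ := by
    rintro rfl
    have hb : (⊥ : Ideal (𝓞 N)).under (𝓞 K) = ⊥ := by
      rw [Ideal.under_def]
      exact Ideal.comap_bot_of_injective _ (RingOfIntegers.algebraMap.injective K N)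
    have h0 := hfrob 0
    rw [hb, Ideal.absNorm_bot, zero_pow hg, pow_zero, smul_zero, zero_sub,
      Ideal.mem_bot, neg_eq_zero] at h0
    exact one_ne_zero h0
  set 𝔅 : Ideal (𝓞 E) := 𝔓.under (𝓞 E) with h𝔅
  set 𝔟 : Ideal (𝓞 K) := 𝔓.under (𝓞 K) with h𝔟
  have h𝔅0 : 𝔅 ≠ ⊥ := Ideal.IsIntegral.comap_ne_bot (𝓞 E) h𝔓0
  have h𝔟0 : 𝔟 ≠ ⊥ := Ideal.IsIntegral.comap_ne_bot (𝓞 K) h𝔓0
  have h𝔅p : 𝔅.IsPrime := Ideal.IsPrime.under (𝓞 E) 𝔓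
  have h𝔟p : 𝔟.IsPrime := Ideal.IsPrime.under (𝓞 K) 𝔓
  have h𝔅m : 𝔅.IsMaximal := Ideal.isMaximal_of_isPrime_of_ne_bot 𝔅 h𝔅0
  have h𝔟m : 𝔟.IsMaximal := Ideal.isMaximal_of_isPrime_of_ne_bot 𝔟 h𝔟0
  have hunder : 𝔅.under (𝓞 K) = 𝔟 := Ideal.under_under 𝔓
  have hlies : 𝔅.LiesOver 𝔟 := ⟨hunder.symm⟩
  set m := Ideal.absNorm 𝔟 with hm
  have hm2 : 2 ≤ m := H56.one_lt_absNorm_of_isPrime 𝔟 h𝔟0
  set f := 𝔅.inertiaDeg (𝓞 K) with hf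
  have hrel : Ideal.relNorm (𝓞 K) 𝔅 = 𝔟 ^ f := Ideal.relNorm_eq_pow_of_isMaximal 𝔅 𝔟
  have hN𝔅 : Ideal.absNorm 𝔅 = m ^ f := by
    rw [← Ideal.absNorm_relNorm (𝓞 K) (𝓞 E) 𝔅, hrel, map_pow]
  -- the congruence on `𝓞 E`
  have hcong : ∀ x : 𝓞 E, algebraMap (𝓞 E) (𝓞 N) x ^ (m ^ g) - algebraMap (𝓞 E) (𝓞 N) x ∈ 𝔓 := by
    intro x
    have h1 := hfrob (algebraMap (𝓞 E) (𝓞 N) x)
    have h2 : γ • (algebraMap (𝓞 E) (𝓞 N) x) = algebraMap (𝓞 E) (𝓞 N) x := by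
      apply RingOfIntegers.ext
      rw [coe_galSmul]
      exact hγ ⟨(x : E), (x : E).2⟩
    rw [h2] at h1
    have := 𝔓.neg_mem h1
    rwa [neg_sub] at this
  have hfg : f ∣ g := ResidueBound.dvd_of_absNorm_under_eq_pow 𝔓 h𝔓0 hm2 hN𝔅 hcong
  obtain ⟨c, hc⟩ := hfg
  refine ⟨𝔅 ^ c, ?_, ?_⟩
  · rw [map_pow, hN𝔅, ← pow_mul, ← hc]
  · rw [map_pow, hrel, ← pow_mul, ← hc]

end Core

section SNe

open Side

theorem stmt_SNe : Side.Stmt_SNe := by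
  intro p _ K M N _ _ _ _ _ _ _ _ _ _ _ _ _ r _ χ ζ I Q τ u _ 𝔓 γ g h𝔓 hg hfrob hγ
  haveI := h𝔓
  refine sne_core (EE K M N χ τ u) 𝔓 γ ?_ g hg hfrob
  intro x
  exact (IntermediateField.mem_fixedField_iff _ _).mp x.2 γ hγ

end SNe

section SNd

open Side

variable {p : ℕ} {K M N : Type} [Field K] [NumberField K] [Field M] [NumberField M]
  [Field N] [NumberField N] [Algebra K M] [Algebra K N] [Algebra M N] [IsScalarTower K M N]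
  [IsGalois K M] [IsGalois K N] {r : ℕ} [Fact r.Prime] {χ : (N ≃ₐ[K] N) →* (ZMod r)ˣ} {ζ : N}
  {I : Subgroup (N ≃ₐ[K] N)} {Q : Ideal (𝓞 M)} {τ : M ≃ₐ[K] M} {u : (ZMod r)ˣ}

/-- `Q ≠ ⊥` under `SideHyp`. -/
lemma Q_ne_bot (h : SideHyp p K M N r χ ζ I Q τ u) : Q ≠ ⊥ := by
  rintro rfl
  have hb : (⊥ : Ideal (𝓞 M)).under (𝓞 K) = ⊥ := by
    rw [Ideal.under_def]
    exact Ideal.comap_bot_of_injective _ (RingOfIntegers.algebraMap.injective K M)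
  have := h.hq
  rw [hb, Ideal.absNorm_bot] at this
  exact Nat.not_prime_zero this

/-- The restriction to `M` of a Frobenius of `N/K` at a prime over `Q` is a Frobenius at `Q`. -/
lemma isArithFrobAt_res (𝔓₀ : Ideal (𝓞 N)) (hover : 𝔓₀.under (𝓞 M) = Q) (φ₀ : N ≃ₐ[K] N)
    (hφ : IsArithFrobAt (𝓞 K) φ₀ 𝔓₀) : IsArithFrobAt (𝓞 K) (resN K M N φ₀) Q := by
  rw [H56.isArithFrobAt_iff] at hφ ⊢
  intro x
  have h1 := hφ (algebraMap (𝓞 M) (𝓞 N) x)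
  have hu : 𝔓₀.under (𝓞 K) = Q.under (𝓞 K) := by
    rw [← hover, Ideal.under_under]
  rw [hu] at h1
  have h2 : algebraMap (𝓞 M) (𝓞 N) (resN K M N φ₀ • x) = φ₀ • (algebraMap (𝓞 M) (𝓞 N) x) := by
    apply RingOfIntegers.ext
    exact AlgEquiv.restrictNormal_commutes φ₀ M (x : M)
  have h3 : resN K M N φ₀ • x - x ^ Ideal.absNorm (Q.under (𝓞 K)) ∈ 𝔓₀.under (𝓞 M) := by
    rw [Ideal.under_def, Ideal.mem_comap, map_sub, map_pow, h2]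
    exact h1
  rwa [hover] at h3

/-- Under `SideHyp`, a Frobenius of `N/K` at a prime over `Q` lies in `HH`. -/
lemma frob_mem_HH (h : SideHyp p K M N r χ ζ I Q τ u) (𝔓₀ : Ideal (𝓞 N)) [h𝔓 : 𝔓₀.IsPrime]
    (hover : 𝔓₀.under (𝓞 M) = Q) (φ₀ : N ≃ₐ[K] N) (hφ : IsArithFrobAt (𝓞 K) φ₀ 𝔓₀) :
    resN K M N φ₀ = τ ∧ χ φ₀ = u ∧ φ₀ ∈ HH K M N χ τ u := by
  have hQp : Q.IsPrime := h.hQ
  have hQ0 : Q ≠ ⊥ := Q_ne_bot h
  have hres : resN K M N φ₀ = τ :=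
    H56.frob_unique h.hunr Q hQ0 (isArithFrobAt_res 𝔓₀ hover φ₀ hφ) h.hτ
  have hu : 𝔓₀.under (𝓞 K) = Q.under (𝓞 K) := by
    rw [← hover, Ideal.under_under]
  set q := Ideal.absNorm (Q.under (𝓞 K)) with hq
  have hrprime : r.Prime := Fact.out
  -- `r ≠ q`
  have hrq : ¬ r ∣ q := by
    intro hdvd
    have h0 : ((q : ℕ) : ZMod r) = 0 := (ZMod.natCast_eq_zero_iff q r).mpr hdvd
    have hu0 : (u : ZMod r) = 0 := by rw [h.hu, h0]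
    exact u.ne_zero hu0
  -- `(r : 𝓞 N) ∉ 𝔓₀`
  have hr𝔓 : ((r : ℕ) : 𝓞 N) ∉ 𝔓₀ := by
    intro hr
    have hqmem : ((q : ℕ) : 𝓞 N) ∈ 𝔓₀ := by
      have h1 : ((q : ℕ) : 𝓞 K) ∈ Q.under (𝓞 K) := Ideal.absNorm_mem _
      rw [← hu, Ideal.under_def, Ideal.mem_comap] at h1
      simpa using h1
    have hcop : Nat.Coprime r q := (Nat.Prime.coprime_iff_not_dvd hrprime).mpr hrq
    obtain ⟨a, b, hab⟩ : ∃ a b : ℤ, a * r + b * q = 1 := by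
      have := Nat.Coprime.isCoprime hcop
      obtain ⟨a, b, hab⟩ := this
      exact ⟨a, b, by exact_mod_cast hab⟩
    have h1 : (1 : 𝓞 N) ∈ 𝔓₀ := by
      have hcast : ((a : 𝓞 N) * ((r : ℕ) : 𝓞 N) + (b : 𝓞 N) * ((q : ℕ) : 𝓞 N)) = 1 := by
        have := congrArg (fun z : ℤ => (z : 𝓞 N)) hab
        push_cast at this
        exact this
      rw [← hcast]
      exact 𝔓₀.add_mem (𝔓₀.mul_mem_left _ hr) (𝔓₀.mul_mem_left _ hqmem)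
    exact h𝔓.ne_top ((Ideal.eq_top_iff_one _).mpr h1)
  -- `ζ` as an element of `𝓞 N`
  have hrpos : 0 < r := hrprime.pos
  set ζ' : 𝓞 N := ⟨ζ, h.hζ.isIntegral hrpos⟩ with hζ'
  have hζ'pow : ζ' ^ r = 1 := by
    apply RingOfIntegers.ext
    simp only [hζ', map_one]
    exact h.hζ.pow_eq_one
  have hfrobζ := AlgHom.IsArithFrobAt.apply_of_pow_eq_one hφ hζ'pow hr𝔓
  have hcard : Nat.card (𝓞 K ⧸ 𝔓₀.under (𝓞 K)) = q := by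
    rw [hu, hq, Ideal.absNorm_apply, Submodule.cardQuot_apply]
  rw [hcard] at hfrobζ
  have hζq : φ₀ ζ = ζ ^ q := by
    have h1 : ((φ₀ • ζ' : 𝓞 N) : N) = ((ζ' ^ q : 𝓞 N) : N) :=
      congrArg (fun z : 𝓞 N => (z : N)) hfrobζ
    rw [coe_galSmul] at h1
    have h2 : ((ζ' ^ q : 𝓞 N) : N) = ζ ^ q :=
      map_pow (algebraMap (𝓞 N) N) ζ' q
    rw [h2] at h1
    exact h1
  have hχval : ζ ^ ((χ φ₀ : ZMod r).val) = ζ ^ q := by rw [← h.hχ φ₀, hζq]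
  have hfin : IsOfFinOrder ζ := isOfFinOrder_iff_pow_eq_one.mpr ⟨r, hrpos, h.hζ.pow_eq_one⟩
  have hmod := hfin.pow_eq_pow_iff_modEq.mp hχval
  rw [← h.hζ.eq_orderOf] at hmod
  have hχu : χ φ₀ = u := by
    apply Units.ext
    rw [h.hu]
    have := (ZMod.natCast_eq_natCast_iff _ _ r).mpr hmod
    rwa [ZMod.natCast_zmod_val] at this
  refine ⟨hres, hχu, ?_⟩
  rw [HH, Subgroup.mem_comap]
  have : ((resN K M N).prod χ) φ₀ = (τ, u) := by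
    rw [MonoidHom.prod_apply, hres, hχu]
  rw [this]
  exact Subgroup.mem_zpowers _

theorem stmt_SNd : Side.Stmt_SNd := by
  intro p _ K M N _ _ _ _ _ _ _ _ _ _ _ _ _ r _ χ ζ I Q τ u h
  have hQp : Q.IsPrime := h.hQ
  have hQ0 : Q ≠ ⊥ := Q_ne_bot h
  -- a prime of `N` over `Q`
  obtain ⟨𝔓₀, -, h𝔓p, hover⟩ :=
    Ideal.exists_ideal_over_prime_of_isIntegral (S := 𝓞 N) Q (⊥ : Ideal (𝓞 N)) (by
      rw [Ideal.comap_bot_of_injective _ (RingOfIntegers.algebraMap.injective M N)]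
      exact bot_le)
  have hover' : 𝔓₀.under (𝓞 M) = Q := hover
  have h𝔓0 : 𝔓₀ ≠ ⊥ := by
    rintro rfl
    apply hQ0
    rw [← hover', Ideal.under_def]
    exact Ideal.comap_bot_of_injective _ (RingOfIntegers.algebraMap.injective M N)
  obtain ⟨φ₀, hφ⟩ := H56.exists_frob (K := K) 𝔓₀ h𝔓0
  obtain ⟨-, -, hHH⟩ := frob_mem_HH h 𝔓₀ hover' φ₀ hφ
  have hu : 𝔓₀.under (𝓞 K) = Q.under (𝓞 K) := by
    rw [← hover', Ideal.under_under]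
  have hfrob : ∀ x : 𝓞 N, φ₀ • x - x ^ (Ideal.absNorm (𝔓₀.under (𝓞 K)) ^ 1) ∈ 𝔓₀ := by
    intro x
    rw [pow_one]
    exact (H56.isArithFrobAt_iff 𝔓₀ φ₀).mp hφ x
  obtain ⟨B, hB1, hB2⟩ := sne_core (EE K M N χ τ u) 𝔓₀ φ₀
    (fun x => (IntermediateField.mem_fixedField_iff _ _).mp x.2 φ₀ hHH) 1 one_ne_zero hfrob
  refine ⟨B, ?_, ?_⟩
  · rw [hB1, pow_one, hu]
  · rw [hB2, pow_one, hu]

end SNd

end Fermat.Agent.S14.H66
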