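import Fermat.Agent.S14.H68_Final2
import Fermat.Agent.S14.H66_SNde

/-!
# S14: final assembly, third stage

Everything except `Stmt_Ram`.
-/

namespace Fermat.Agent.S14.H68

open NumberField Fermat.Agent.S14

/-- The side relation in `N`. -/
theorem stmt_SideN : Stmt_SideN :=
  stmt_SideN_of_SNde H66.stmt_SNd H66.stmt_SNe

/-- The target from the last remaining package. -/
theorem extVanishingCts_of_Ram (hRam : Stmt_Ram)
    {p : ℕ} [Fact p.Prime] (h3 : 3 ≤ p) : ExtCitation.ExtVanishingCts p :=
  extVanishingCts_of_Ram_SideN hRam stmt_SideN h3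

end Fermat.Agent.S14.H68
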