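import Fermat.Agent.S14.Interfaces

/-!
# S14: basic lemmas on `cls` and `normClasses` (shared by all packages)
-/

namespace Fermat.Agent.S14

open NumberField
open scoped nonZeroDivisors

section cls

variable {R : Type*} [CommRing R] [IsDedekindDomain R]

lemma cls_bot : cls (⊥ : Ideal R) = 1 := by
  simp [cls]

lemma cls_of_ne_bot {I : Ideal R} (h : I ≠ ⊥) :
    cls I = ClassGroup.mk0 ⟨I, mem_nonZeroDivisors_of_ne_zero h⟩ := by
  simp [cls, h]

lemma cls_mk0 (I : (Ideal R)⁰) : cls (I : Ideal R) = ClassGroup.mk0 I := by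
  rw [cls_of_ne_bot (nonZeroDivisors.coe_ne_zero I)]

lemma cls_surjective (c : ClassGroup R) : ∃ I : Ideal R, I ≠ ⊥ ∧ cls I = c := by
  obtain ⟨I, rfl⟩ := ClassGroup.mk0_surjective c
  exact ⟨I, nonZeroDivisors.coe_ne_zero I, cls_mk0 I⟩

lemma cls_mul {I J : Ideal R} (hI : I ≠ ⊥) (hJ : J ≠ ⊥) : cls (I * J) = cls I * cls J := by
  have hIJ : I * J ≠ ⊥ := mul_ne_zero hI hJ
  rw [cls_of_ne_bot hI, cls_of_ne_bot hJ, cls_of_ne_bot hIJ, ← map_mul]
  rfl

lemma cls_top : cls (⊤ : Ideal R) = 1 := by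
  have h : (⊤ : Ideal R) ≠ ⊥ := top_ne_bot
  have := cls_mul h h
  rw [Ideal.mul_top] at this
  exact (mul_eq_left (a := cls (⊤ : Ideal R))).mp this.symm

lemma cls_pow {I : Ideal R} (hI : I ≠ ⊥) (n : ℕ) : cls (I ^ n) = cls I ^ n := by
  induction n with
  | zero => simp [Ideal.one_eq_top, cls_top]
  | succ n ih =>
    rw [pow_succ, pow_succ, cls_mul (pow_ne_zero n hI) hI, ih]

lemma cls_span_singleton (x : R) : cls (Ideal.span {x}) = 1 := by
  by_cases hx : x = 0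
  · subst hx
    simp [cls]
  · have h : Ideal.span {x} ≠ (⊥ : Ideal R) := by
      simpa [Ideal.span_singleton_eq_bot] using hx
    rw [cls_of_ne_bot h]
    exact (ClassGroup.mk0_eq_one_iff _).mpr ⟨x, rfl⟩

lemma cls_eq_cls_iff {I J : Ideal R} (hI : I ≠ ⊥) (hJ : J ≠ ⊥) :
    cls I = cls J ↔ ∃ x y : R, x ≠ 0 ∧ y ≠ 0 ∧ Ideal.span {x} * I = Ideal.span {y} * J := by
  rw [cls_of_ne_bot hI, cls_of_ne_bot hJ, ClassGroup.mk0_eq_mk0_iff]
  constructor
  · rintro ⟨x, y, hx, hy, h⟩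
    exact ⟨x, y, hx, hy, h⟩
  · rintro ⟨x, y, hx, hy, h⟩
    exact ⟨x, y, hx, hy, h⟩

/-- A subgroup of the class group containing the classes of all nonzero primes is everything. -/
lemma eq_top_of_forall_prime_mem (U : Subgroup (ClassGroup R))
    (h : ∀ P : Ideal R, P.IsPrime → P ≠ ⊥ → cls P ∈ U) : U = ⊤ := by
  classical
  rw [eq_top_iff]
  rintro c -
  obtain ⟨I, hI, rfl⟩ := cls_surjective c
  induction I using UniqueFactorizationMonoid.induction_on_prime with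
  | h₁ => exact absurd rfl hI
  | h₂ x hx =>
    rw [Ideal.isUnit_iff] at hx
    rw [hx, cls_top]
    exact U.one_mem
  | h₃ a P ha hP ih =>
    have hPne : P ≠ ⊥ := hP.ne_zero
    have hPprime : P.IsPrime := Ideal.isPrime_of_prime hP
    rw [cls_mul hPne ha]
    exact U.mul_mem (h P hPprime hPne) (ih ha)

end cls

section normClasses

variable (K M : Type*) [Field K] [NumberField K] [Field M] [NumberField M] [Algebra K M]

lemma cls_relNorm_mem {J : Ideal (𝓞 M)} (hJ : J ≠ ⊥) :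
    cls (Ideal.relNorm (𝓞 K) J) ∈ normClasses K M :=
  Subgroup.subset_closure ⟨J, hJ, rfl⟩

/-- `[𝔞] ^ [M : K]` is a norm class. -/
lemma cls_pow_finrank_mem (𝔞 : Ideal (𝓞 K)) :
    cls 𝔞 ^ Module.finrank K M ∈ normClasses K M := by
  by_cases h : 𝔞 = ⊥
  · subst h
    simp [cls_bot]
  · have hmap : 𝔞.map (algebraMap (𝓞 K) (𝓞 M)) ≠ ⊥ := by
      intro h0
      apply h
      rw [Ideal.map_eq_bot_iff_of_injective (RingOfIntegers.algebraMap.injective K M)] at h0
      exact h0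
    have h1 := cls_relNorm_mem K M hmap
    rw [Ideal.relNorm_algebraMap, cls_pow h] at h1
    have hfr : Module.finrank K M = Module.finrank (𝓞 K) (𝓞 M) :=
      IsFractionRing.finrank_eq (𝓞 K) K (𝓞 M) M
    rwa [← hfr] at h1

lemma relNorm_ne_bot {J : Ideal (𝓞 M)} (hJ : J ≠ ⊥) : Ideal.relNorm (𝓞 K) J ≠ ⊥ := by
  rw [Ne, Ideal.relNorm_eq_bot_iff]
  exact hJ

/-- The relative norm is compatible with ideal classes. -/
lemma cls_relNorm_congr {I J : Ideal (𝓞 M)} (hI : I ≠ ⊥) (hJ : J ≠ ⊥) (h : cls I = cls J) :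
    cls (Ideal.relNorm (𝓞 K) I) = cls (Ideal.relNorm (𝓞 K) J) := by
  obtain ⟨x, y, hx, hy, hxy⟩ := (cls_eq_cls_iff hI hJ).mp h
  have h2 := congrArg (Ideal.relNorm (𝓞 K)) hxy
  rw [map_mul, map_mul, Ideal.relNorm_singleton, Ideal.relNorm_singleton] at h2
  have hx' : Algebra.intNorm (𝓞 K) (𝓞 M) x ≠ 0 := by
    rwa [Ne, Algebra.intNorm_eq_zero]
  have hy' : Algebra.intNorm (𝓞 K) (𝓞 M) y ≠ 0 := by
    rwa [Ne, Algebra.intNorm_eq_zero]
  exact (cls_eq_cls_iff (relNorm_ne_bot K M hI) (relNorm_ne_bot K M hJ)).mpr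
    ⟨_, _, hx', hy', h2⟩

/-- A chosen nonzero ideal in a class. -/
noncomputable def clsRep {R : Type*} [CommRing R] [IsDedekindDomain R] (c : ClassGroup R) :
    Ideal R := (cls_surjective c).choose

lemma clsRep_ne_bot {R : Type*} [CommRing R] [IsDedekindDomain R] (c : ClassGroup R) :
    clsRep c ≠ ⊥ := (cls_surjective c).choose_spec.1

lemma cls_clsRep {R : Type*} [CommRing R] [IsDedekindDomain R] (c : ClassGroup R) :
    cls (clsRep c) = c := (cls_surjective c).choose_spec.2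

/-- The norm map on class groups. -/
noncomputable def clsNorm : ClassGroup (𝓞 M) →* ClassGroup (𝓞 K) where
  toFun c := cls (Ideal.relNorm (𝓞 K) (clsRep c))
  map_one' := by
    have h : cls (clsRep (1 : ClassGroup (𝓞 M))) = cls (⊤ : Ideal (𝓞 M)) := by
      rw [cls_clsRep, cls_top]
    rw [cls_relNorm_congr K M (clsRep_ne_bot _) top_ne_bot h]
    rw [← Ideal.one_eq_top, map_one, Ideal.one_eq_top, cls_top]
  map_mul' c c' := by
    have h : cls (clsRep (c * c')) = cls (clsRep c * clsRep c') := by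
      rw [cls_clsRep, cls_mul (clsRep_ne_bot _) (clsRep_ne_bot _), cls_clsRep, cls_clsRep]
    rw [cls_relNorm_congr K M (clsRep_ne_bot _)
      (mul_ne_zero (clsRep_ne_bot _) (clsRep_ne_bot _)) h, map_mul,
      cls_mul (relNorm_ne_bot K M (clsRep_ne_bot _)) (relNorm_ne_bot K M (clsRep_ne_bot _))]

lemma clsNorm_cls {J : Ideal (𝓞 M)} (hJ : J ≠ ⊥) :
    clsNorm K M (cls J) = cls (Ideal.relNorm (𝓞 K) J) :=
  cls_relNorm_congr K M (clsRep_ne_bot _) hJ (cls_clsRep _)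

/-- The norm classes are the range of the norm map on class groups. -/
lemma normClasses_eq_range : normClasses K M = (clsNorm K M).range := by
  apply le_antisymm
  · rw [normClasses, Subgroup.closure_le]
    rintro c ⟨J, hJ, rfl⟩
    exact ⟨cls J, clsNorm_cls K M hJ⟩
  · rintro c ⟨d, rfl⟩
    exact cls_relNorm_mem K M (clsRep_ne_bot d)

lemma mem_normClasses_iff (c : ClassGroup (𝓞 K)) :
    c ∈ normClasses K M ↔ ∃ J : Ideal (𝓞 M), J ≠ ⊥ ∧ c = cls (Ideal.relNorm (𝓞 K) J) := by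
  rw [normClasses_eq_range]
  constructor
  · rintro ⟨d, rfl⟩
    exact ⟨clsRep d, clsRep_ne_bot d, rfl⟩
  · rintro ⟨J, hJ, rfl⟩
    exact ⟨cls J, clsNorm_cls K M hJ⟩

end normClasses

end Fermat.Agent.S14
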