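import Fermat.Agent.S14.Interfaces

/-!
# S14, crossing (package X): setup and interfaces of the sub-packages

Coordinator: helper68.  `Stmt_Cross` (see `Interfaces.lean`) is proved from
`Stmt_T1`, `Stmt_T2` and the propositions below.

Generic pieces (no setup needed):
* `Stmt_C0`   : every ideal class contains an integral ideal of norm prime to `n`
* `Stmt_D0`   : auxiliary primes `r` with `p ∣ orderOf (x : ZMod r)`
* `Stmt_Side` : abstract one-sided crossing (pure Dedekind/class group algebra + T2)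
* `Stmt_E2`   : local norm lemma: norms from `E = N^H` are `[I : I ⊓ H]`-th powers mod `r`
                when `I` lies in all inertia groups above `r`

Setup: `N = Top M r₁ r₂ = M(ζ_{r₁ r₂})`, `resM : Gal(N/K) → Gal(M/K)`,
`chi1, chi2 : Gal(N/K) → (ℤ/r_i)ˣ`, subgroups `H1 τ q`, `H2 τ' q'`, `GM`.
* `Stmt_Ram`  : `N/K` is Galois, `(resM, chiTop)` is surjective, and the inertia groups above
                `r₁` (resp. `r₂`) contain `ker (resM, chi2)` (resp. `ker (resM, chi1)`).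
-/

namespace Fermat.Agent.S14

open NumberField

/-- **C0**: every ideal class contains a nonzero integral ideal of absolute norm prime to `n`. -/
def Stmt_C0 : Prop :=
  ∀ (E : Type) [Field E] [NumberField E] (c : ClassGroup (𝓞 E)) (n : ℕ), n ≠ 0 →
    ∃ I : Ideal (𝓞 E), I ≠ ⊥ ∧ cls I = c ∧ (Ideal.absNorm I).Coprime n

/-- **D0**: auxiliary primes.  For an odd prime `p`, `x > 1` and a finite set `B`, there is a
prime `r ∉ B`, `r ∤ x`, such that `p` divides the multiplicative order of `x` modulo `r`.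
(Take `r ∣ Φ_{p^k}(x)`, `r ≠ p`, for a suitable `k ≥ 1`.) -/
def Stmt_D0 : Prop :=
  ∀ (p : ℕ), p.Prime → p ≠ 2 → ∀ (x : ℕ), 1 < x → ∀ B : Finset ℕ,
    ∃ r : ℕ, r.Prime ∧ r ∉ B ∧ ¬ r ∣ x ∧ p ∣ orderOf (x : ZMod r)

/-- The subgroup of the class group of `E` generated by the classes of the primes of `E` lying
under a prime of `L` of absolute degree one whose norm is not in `T`. -/
noncomputable def splitClasses (E L : Type) [Field E] [NumberField E] [Field L] [NumberField L]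
    [Algebra E L] (T : Finset ℕ) : Subgroup (ClassGroup (𝓞 E)) :=
  Subgroup.closure {c | ∃ Q : Ideal (𝓞 L), Q.IsPrime ∧ (Ideal.absNorm Q).Prime ∧
    Ideal.absNorm Q ∉ T ∧ c = cls (Q.under (𝓞 E))}

/-- **Side** (abstract one-sided crossing).  `E ⊆ L` of prime degree `p`, `r` a prime,
`W ≤ (ℤ/r)ˣ`.  Assume (h1) the norm of every element of `𝓞 E` prime to `r` lies in `W`,
(h2) the norm of every prime of `L` of absolute degree one (not in `T ∋ r`) lies in `W`.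
If `A`, `B` are ideals of `𝓞 E` prime to `r` with norms `a`, `b` mod `r`,
`a ∉ W`, `a ^ p ∈ W` and `b ≡ a ^ j` mod `W`, then `[B] ≡ [A] ^ j` modulo `splitClasses`. -/
def Stmt_Side : Prop :=
  ∀ (p : ℕ) [Fact p.Prime] (E L : Type) [Field E] [NumberField E] [Field L] [NumberField L]
    [Algebra E L] (r : ℕ) [Fact r.Prime] (W : Subgroup (ZMod r)ˣ) (T : Finset ℕ),
    r ∈ T → Module.finrank E L = p →
    (∀ (y : 𝓞 E) (u : (ZMod r)ˣ),
      (u : ZMod r) = (Ideal.absNorm (Ideal.span {y}) : ZMod r) → u ∈ W) →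
    (∀ (Q : Ideal (𝓞 L)), Q.IsPrime → (Ideal.absNorm Q).Prime → Ideal.absNorm Q ∉ T →
      ∀ u : (ZMod r)ˣ, (u : ZMod r) = (Ideal.absNorm Q : ZMod r) → u ∈ W) →
    ∀ (A B : Ideal (𝓞 E)) (a b : (ZMod r)ˣ) (j : ℕ),
      (a : ZMod r) = (Ideal.absNorm A : ZMod r) → (b : ZMod r) = (Ideal.absNorm B : ZMod r) →
      a ∉ W → a ^ p ∈ W → b * (a ^ j)⁻¹ ∈ W →
      cls B * (cls A ^ j)⁻¹ ∈ splitClasses E L T

/-- **E2** (local norm lemma).  `N/K` abelian Galois, `K/ℚ` Galois, `r` a prime all of whose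
primes in `K` have degree one, `I ≤ Gal(N/K)` contained in the inertia group of every prime of
`N` above `r`, `H ≤ Gal(N/K)`, `E = N^H`.  Then the absolute norm of every `y ∈ 𝓞 E` prime to
`r` is an `[I : I ⊓ H]`-th power modulo `r`. -/
def Stmt_E2 : Prop :=
  ∀ (K N : Type) [Field K] [NumberField K] [Field N] [NumberField N] [Algebra K N]
    [IsGalois ℚ K] [IsGalois K N] (r : ℕ) [Fact r.Prime] (H I : Subgroup (N ≃ₐ[K] N)),
    (∀ σ τ : N ≃ₐ[K] N, σ * τ = τ * σ) →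
    (∀ 𝔯 : Ideal (𝓞 K), 𝔯.IsPrime → (r : 𝓞 K) ∈ 𝔯 → Ideal.absNorm 𝔯 = r) →
    (∀ 𝔓 : Ideal (𝓞 N), 𝔓.IsPrime → (r : 𝓞 N) ∈ 𝔓 → I ≤ 𝔓.inertia (N ≃ₐ[K] N)) →
    ∀ y : 𝓞 (IntermediateField.fixedField H), (Ideal.absNorm (Ideal.span {y})).Coprime r →
      ∃ w : ZMod r, ((Algebra.norm ℤ y : ℤ) : ZMod r) = w ^ H.relIndex I

namespace Cross

variable (K M : Type) [Field K] [NumberField K] [Field M] [NumberField M] [Algebra K M]
  [IsGalois K M]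
variable (r₁ r₂ : ℕ) [Fact r₁.Prime] [Fact r₂.Prime]

instance neZeroMul : NeZero (r₁ * r₂) :=
  ⟨Nat.mul_ne_zero (Fact.out : r₁.Prime).ne_zero (Fact.out : r₂.Prime).ne_zero⟩

/-- The top field `N = M(ζ_{r₁ r₂})`. -/
abbrev Top : Type := CyclotomicField (r₁ * r₂) M

/-- A primitive `r₁ r₂`-th root of unity in `N`. -/
noncomputable def zetaTop : Top M r₁ r₂ :=
  IsCyclotomicExtension.zeta (r₁ * r₂) M (Top M r₁ r₂)

lemma zetaTop_spec : IsPrimitiveRoot (zetaTop M r₁ r₂) (r₁ * r₂) :=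
  IsCyclotomicExtension.zeta_spec (r₁ * r₂) M (Top M r₁ r₂)

/-- The cyclotomic character `Gal(N/K) → (ℤ/r₁r₂)ˣ`: `γ ζ = ζ ^ (chiTop γ)`. -/
noncomputable def chiTop : (Top M r₁ r₂ ≃ₐ[K] Top M r₁ r₂) →* (ZMod (r₁ * r₂))ˣ :=
  (zetaTop_spec M r₁ r₂).autToPow K

/-- The `r₁`-component of the cyclotomic character. -/
noncomputable def chi1 : (Top M r₁ r₂ ≃ₐ[K] Top M r₁ r₂) →* (ZMod r₁)ˣ :=
  (ZMod.unitsMap (Nat.dvd_mul_right r₁ r₂)).comp (chiTop K M r₁ r₂)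

/-- The `r₂`-component of the cyclotomic character. -/
noncomputable def chi2 : (Top M r₁ r₂ ≃ₐ[K] Top M r₁ r₂) →* (ZMod r₂)ˣ :=
  (ZMod.unitsMap (Nat.dvd_mul_left r₂ r₁)).comp (chiTop K M r₁ r₂)

/-- Restriction `Gal(N/K) → Gal(M/K)`. -/
noncomputable def resM : (Top M r₁ r₂ ≃ₐ[K] Top M r₁ r₂) →* (M ≃ₐ[K] M) :=
  AlgEquiv.restrictNormalHom M

/-- `H₁ = {γ : (γ|M, χ₁ γ) ∈ ⟨(τ, q)⟩}`; its fixed field is `E₁`. -/
noncomputable def H1 (τ : M ≃ₐ[K] M) (q : (ZMod r₁)ˣ) :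
    Subgroup (Top M r₁ r₂ ≃ₐ[K] Top M r₁ r₂) :=
  (Subgroup.zpowers (τ, q)).comap ((resM K M r₁ r₂).prod (chi1 K M r₁ r₂))

/-- `H₂ = {γ : (γ|M, χ₂ γ) ∈ ⟨(τ', q')⟩}`; its fixed field is `E₂`. -/
noncomputable def H2 (τ' : M ≃ₐ[K] M) (q' : (ZMod r₂)ˣ) :
    Subgroup (Top M r₁ r₂ ≃ₐ[K] Top M r₁ r₂) :=
  (Subgroup.zpowers (τ', q')).comap ((resM K M r₁ r₂).prod (chi2 K M r₁ r₂))

/-- `Gal(N/M)` inside `Gal(N/K)`. -/
noncomputable def GM : Subgroup (Top M r₁ r₂ ≃ₐ[K] Top M r₁ r₂) := (resM K M r₁ r₂).ker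

end Cross

open _root_.Fermat.Agent.S14.Cross in
/-- **Ram** (ramification in `N = M(ζ_{r₁ r₂})` over `K = ℚ(ζ_p)`, `M/K` unramified):
`N/K` is Galois, `Gal(N/K) → Gal(M/K) × (ℤ/r₁r₂)ˣ` is surjective, and for every prime `𝔓` of `N`
above `r₁` the inertia group contains `{γ | γ|M = 1 ∧ χ₂ γ = 1}` (resp. above `r₂`, with `χ₁`). -/
def Stmt_Ram : Prop :=
  ∀ (p : ℕ) [Fact p.Prime] (K M : Type) [Field K] [NumberField K] [Field M] [NumberField M]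
    [Algebra K M] [IsGalois K M] [IsCyclotomicExtension {p} ℚ K]
    (r₁ r₂ : ℕ) [Fact r₁.Prime] [Fact r₂.Prime],
    p ≠ 2 → UnramifiedEverywhere K M → r₁ ≠ r₂ → r₁ ≠ p → r₂ ≠ p →
    IsGalois K (Top M r₁ r₂) ∧
    Function.Surjective ((resM K M r₁ r₂).prod (chiTop K M r₁ r₂)) ∧
    (∀ 𝔓 : Ideal (𝓞 (Top M r₁ r₂)), 𝔓.IsPrime → (r₁ : 𝓞 (Top M r₁ r₂)) ∈ 𝔓 →
      ((resM K M r₁ r₂).prod (chi2 K M r₁ r₂)).ker ≤
        𝔓.inertia (Top M r₁ r₂ ≃ₐ[K] Top M r₁ r₂)) ∧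
    (∀ 𝔓 : Ideal (𝓞 (Top M r₁ r₂)), 𝔓.IsPrime → (r₂ : 𝓞 (Top M r₁ r₂)) ∈ 𝔓 →
      ((resM K M r₁ r₂).prod (chi1 K M r₁ r₂)).ker ≤
        𝔓.inertia (Top M r₁ r₂ ≃ₐ[K] Top M r₁ r₂))

end Fermat.Agent.S14
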