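import Fermat.Agent.S14.CrossInterfaces

/-!
# S14, crossing (package X): the two big lemmas `Stmt_SideN` and `Stmt_Link`

`Stmt_Cross` = `Stmt_D0` (twice) + `Stmt_Ram` + `Stmt_Link` + `Stmt_SideN` (twice) + algebra.

Both are stated with ideals of `𝓞 K`, primes of `𝓞 N` and elements of `Gal(N/K)` only; the
auxiliary fields `E₁, E₂, E` are internal to the proofs.
-/

namespace Fermat.Agent.S14

open NumberField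

/-- **SideN** (one side of the crossing, generic in the cyclotomic character).

`N/K` abelian Galois containing `M`; `r` a prime, `ζ ∈ N` a primitive `r`-th root of unity,
`χ : Gal(N/K) → (ℤ/r)ˣ` with `γ ζ = ζ ^ χ γ`; `I ≤ Gal(N/M)` contained in every inertia group
above `r`, with `χ(I) = (ℤ/r)ˣ`.
`Q` a prime of `M` with Frobenius `τ ≠ 1` over a prime `𝔮` of `K` of absolute degree one whose
norm `u` mod `r` has order divisible by `p`.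
`𝔓` a prime of `N` not above `r`, `γ ∈ Gal(N/K)` with `γ x ≡ x ^ (N𝔟 ^ g)` mod `𝔓`
(`𝔟 = 𝔓 ∩ K`), `(γ|M, χ γ) ∈ ⟨(τ, u)⟩` and `γ|M = τ ^ c`.
Then `[𝔟 ^ g] ≡ [𝔮] ^ c` modulo norm classes.

Proof: `E₁ := N^H`, `H := {γ | (γ|M, χ γ) ∈ ⟨(τ,u)⟩}`, `L₁ := M E₁ = N^(H ⊓ Gal(N/M))`;
`Stmt_Side` for `(E₁, L₁, r, W := ⟨u ^ p⟩)` with `h1` from `Stmt_E2`, `h2` from the Frobenius
of `N/L₁`; `A := 𝔓₀ ∩ E₁` (`𝔓₀ ∣ Q`), `B := (𝔓 ∩ E₁) ^ k`; then apply the norm `E₁ → K`. -/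
def Stmt_SideN : Prop :=
  ∀ (p : ℕ) [Fact p.Prime] (K M N : Type) [Field K] [NumberField K] [Field M] [NumberField M]
    [Field N] [NumberField N] [Algebra K M] [Algebra K N] [Algebra M N] [IsScalarTower K M N]
    [IsGalois K M] [IsGalois K N] [IsCyclotomicExtension {p} ℚ K]
    (r : ℕ) [Fact r.Prime] (χ : (N ≃ₐ[K] N) →* (ZMod r)ˣ) (ζ : N) (I : Subgroup (N ≃ₐ[K] N)),
    p ≠ 2 → Module.finrank K M = p → UnramifiedEverywhere K M →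
    (∀ σ τ : N ≃ₐ[K] N, σ * τ = τ * σ) → r ≠ p →
    IsPrimitiveRoot ζ r → (∀ γ : N ≃ₐ[K] N, γ ζ = ζ ^ ((χ γ : ZMod r).val)) →
    I ≤ (AlgEquiv.restrictNormalHom M : (N ≃ₐ[K] N) →* (M ≃ₐ[K] M)).ker →
    (∀ 𝔓 : Ideal (𝓞 N), 𝔓.IsPrime → (r : 𝓞 N) ∈ 𝔓 → I ≤ 𝔓.inertia (N ≃ₐ[K] N)) →
    (∀ u : (ZMod r)ˣ, ∃ γ ∈ I, χ γ = u) →
    ∀ (Q : Ideal (𝓞 M)) (τ : M ≃ₐ[K] M) (u : (ZMod r)ˣ), Q.IsPrime →
      IsArithFrobAt (𝓞 K) τ Q → τ ≠ 1 → (Ideal.absNorm (Q.under (𝓞 K))).Prime →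
      (u : ZMod r) = (Ideal.absNorm (Q.under (𝓞 K)) : ZMod r) → p ∣ orderOf u →
    ∀ (𝔓 : Ideal (𝓞 N)) (γ : N ≃ₐ[K] N) (g c : ℕ), 𝔓.IsPrime → (r : 𝓞 N) ∉ 𝔓 → g ≠ 0 →
      (∀ x : 𝓞 N, γ • x - x ^ (Ideal.absNorm (𝔓.under (𝓞 K)) ^ g) ∈ 𝔓) →
      ((AlgEquiv.restrictNormalHom M γ : M ≃ₐ[K] M), χ γ) ∈ Subgroup.zpowers (τ, u) →
      (AlgEquiv.restrictNormalHom M γ : M ≃ₐ[K] M) = τ ^ c →
      cls ((𝔓.under (𝓞 K)) ^ g) * (cls (Q.under (𝓞 K)) ^ c)⁻¹ ∈ normClasses K M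

open _root_.Fermat.Agent.S14.Cross in
/-- **Link** (the linking prime).  In the setup `N = M(ζ_{r₁ r₂})`, with `τ ≠ 1`, `τ' ≠ 1` in
`Gal(M/K)` (cyclic of order `p`): there is a prime `𝔓` of `N` not above `r₁ r₂` and
`γ ∈ H₁ ⊓ H₂` with `γ x ≡ x ^ (N𝔟 ^ g)` mod `𝔓` and `γ|M ≠ 1`.

Proof: `E := N^(H₁ ⊓ H₂)`, `L := M E`; `L/E` is Galois of degree `p`, unramified, `E` totally
complex; `Stmt_T1` gives a class of `E` which is not a norm class, `Stmt_C0` a prime `𝔅` of `E`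
prime to `r₁ r₂` in such a class; `γ` := Frobenius of `N/E` at a prime `𝔓` above `𝔅`.  If
`γ|M = 1` then `𝔅` splits in `L`, so it is a norm. -/
def Stmt_Link : Prop :=
  ∀ (p : ℕ) [Fact p.Prime] (K M : Type) [Field K] [NumberField K] [Field M] [NumberField M]
    [Algebra K M] [IsGalois K M] [IsCyclotomicExtension {p} ℚ K]
    (r₁ r₂ : ℕ) [Fact r₁.Prime] [Fact r₂.Prime],
    p ≠ 2 → Module.finrank K M = p → UnramifiedEverywhere K M → r₁ ≠ r₂ → r₁ ≠ p → r₂ ≠ p →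
    ∀ (τ τ' : M ≃ₐ[K] M) (u₁ : (ZMod r₁)ˣ) (u₂ : (ZMod r₂)ˣ), τ ≠ 1 → τ' ≠ 1 →
    ∃ (𝔓 : Ideal (𝓞 (Top M r₁ r₂))) (γ : Top M r₁ r₂ ≃ₐ[K] Top M r₁ r₂) (g : ℕ),
      𝔓.IsPrime ∧ (r₁ : 𝓞 (Top M r₁ r₂)) ∉ 𝔓 ∧ (r₂ : 𝓞 (Top M r₁ r₂)) ∉ 𝔓 ∧ g ≠ 0 ∧
      (∀ x : 𝓞 (Top M r₁ r₂), γ • x - x ^ (Ideal.absNorm (𝔓.under (𝓞 K)) ^ g) ∈ 𝔓) ∧
      γ ∈ H1 K M r₁ r₂ τ u₁ ⊓ H2 K M r₁ r₂ τ' u₂ ∧ resM K M r₁ r₂ γ ≠ 1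

end Fermat.Agent.S14
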