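import Mathlib.NumberTheory.NumberField.Basic
import Mathlib.FieldTheory.Galois.Basic
import Mathlib.RingTheory.RootsOfUnity.PrimitiveRoots

/-!
# S14: the arithmetic core statement (interface between plumbing and class field theory)

`Stmt_core p` says: there is no Galois number field `M/ℚ` containing a primitive `p`-th root of
unity `ζ` such that `M/ℚ(ζ)` is cyclic of degree `p`, unramified at every prime, and
`Gal(ℚ(ζ)/ℚ)` acts on `Gal(M/ℚ(ζ))` through the inverse of the cyclotomic character.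

Everything is phrased inside `Gal(M/ℚ)`; `Gal(M/ℚ(ζ))` is `{σ | σ ζ = ζ}`.
-/

namespace Fermat.Agent.S14.H13

open NumberField

/-- The inertia condition: `σ` acts trivially on `𝓞 M / P`. -/
def ActsTriviallyMod {M : Type} [Field M] [NumberField M] (P : Ideal (𝓞 M))
    (σ : M ≃ₐ[ℚ] M) : Prop :=
  ∀ x : 𝓞 M, ∃ y ∈ P, σ (x : M) - (x : M) = ((y : 𝓞 M) : M)

/-- The hypotheses on the number field `M` produced from a non-split admissible extension. -/
structure CoreData (p : ℕ) (M : Type) [Field M] [NumberField M] (ζ : M) : Prop where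
  /-- `M/ℚ` is Galois -/
  gal : IsGalois ℚ M
  /-- `ζ` is a primitive `p`-th root of unity -/
  prim : IsPrimitiveRoot ζ p
  /-- `Gal(M/ℚ(ζ))` has order `p` -/
  card : Nat.card {σ : M ≃ₐ[ℚ] M // σ ζ = ζ} = p
  /-- `M/ℚ(ζ)` is unramified at every nonzero prime: all inertia groups are trivial -/
  unram : ∀ P : Ideal (𝓞 M), P.IsPrime → P ≠ ⊥ →
    ∀ σ : M ≃ₐ[ℚ] M, σ ζ = ζ → ActsTriviallyMod P σ → σ = 1
  /-- `s t s⁻¹ = t ^ (1/a)` whenever `s ζ = ζ ^ a` and `t` fixes `ζ` -/
  equiv : ∀ (s t : M ≃ₐ[ℚ] M) (a : ℕ), t ζ = ζ → s ζ = ζ ^ a → s * t ^ a = t * s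

/-- CORE: no such number field exists (class field theory + Stickelberger). -/
def Stmt_core (p : ℕ) : Prop :=
  ∀ (M : Type) [Field M] [NumberField M] (ζ : M), CoreData p M ζ → False

end Fermat.Agent.S14.H13
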