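import Fermat.Agent.S14.Interfaces
import Fermat.Agent.S14.H13_CoreStmt

/-!
# S14 (helper13): bridge from the two-field core `Stmt_NT` to the one-field core `Stmt_core`

Given `M` with `CoreData p M ζ`, put `K := ℚ(ζ) ⊆ M`; then `(K, M)` satisfies the hypotheses
of `Stmt_NT`.
-/

set_option autoImplicit false
set_option linter.unusedSectionVars false
set_option linter.style.haveILetI false
set_option linter.unusedVariables false

namespace Fermat.Agent.S14.H13

open NumberField IntermediateField

section

variable {M : Type} [Field M] [NumberField M]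

/-- An automorphism fixes `ℚ(ζ)` pointwise iff it fixes `ζ`. -/
theorem mem_fixingSubgroup_adjoin_iff (ζ : M) (σ : M ≃ₐ[ℚ] M) :
    σ ∈ (IntermediateField.adjoin ℚ {ζ}).fixingSubgroup ↔ σ ζ = ζ := by
  rw [IntermediateField.mem_fixingSubgroup_iff]
  constructor
  · intro h
    exact h ζ (IntermediateField.mem_adjoin_simple_self ℚ ζ)
  · intro h x hx
    have hle : IntermediateField.adjoin ℚ {ζ} ≤
        IntermediateField.fixedField (Subgroup.zpowers σ) := by
      rw [IntermediateField.adjoin_le_iff]
      intro y hy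
      rw [Set.mem_singleton_iff] at hy
      subst hy
      rw [SetLike.mem_coe, IntermediateField.mem_fixedField_iff]
      intro τ hτ
      obtain ⟨n, rfl⟩ := Subgroup.mem_zpowers_iff.mp hτ
      have hfix : σ ∈ MulAction.stabilizer (M ≃ₐ[ℚ] M) y := h
      exact (Subgroup.zpow_mem _ hfix n)
    have := hle hx
    rw [IntermediateField.mem_fixedField_iff] at this
    exact this σ (Subgroup.mem_zpowers σ)

end

/-- **Bridge.** The two-field number field core implies the one-field core. -/
theorem stmt_core_of_NT (hNT : Stmt_NT) (p : ℕ) [Fact p.Prime] (hp2 : p ≠ 2) : Stmt_core p := by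
  intro M _ _ ζ hcore
  haveI := hcore.gal
  haveI : NeZero p := ⟨(Fact.out : p.Prime).ne_zero⟩
  haveI : IsCyclotomicExtension {p} ℚ (IntermediateField.adjoin ℚ {ζ}) :=
    hcore.prim.intermediateField_adjoin_isCyclotomicExtension ℚ
  have hζK : ζ ∈ IntermediateField.adjoin ℚ {ζ} := IntermediateField.mem_adjoin_simple_self ℚ ζ
  refine hNT p (IntermediateField.adjoin ℚ {ζ}) M hp2 ?_ ?_ ?_
  · -- degree
    rw [← IsGalois.card_fixingSubgroup_eq_finrank, ← hcore.card]
    exact Nat.card_congr (Equiv.subtypeEquivRight (mem_fixingSubgroup_adjoin_iff ζ))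
  · -- unramified
    intro P hP hP0
    rw [eq_bot_iff]
    intro σ hσ
    rw [Subgroup.mem_bot]
    have h1 : σ.restrictScalars ℚ = 1 := by
      apply hcore.unram P hP hP0
      · exact σ.commutes ⟨ζ, hζK⟩
      · intro x
        exact ⟨σ • x - x, hσ x, rfl⟩
    ext x
    exact DFunLike.congr_fun h1 x
  · -- conjugation
    intro ζ' hζ' s t a hs
    apply hcore.equiv
    · exact t.commutes ⟨ζ, hζK⟩
    · have hprim : IsPrimitiveRoot (algebraMap (IntermediateField.adjoin ℚ {ζ}) M ζ') p :=
        hζ'.map_of_injective (algebraMap (IntermediateField.adjoin ℚ {ζ}) M).injective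
      obtain ⟨i, -, hi⟩ := hprim.eq_pow_of_pow_eq_one hcore.prim.pow_eq_one
      rw [← hi, map_pow, hs, ← pow_mul, ← pow_mul, mul_comm]

end Fermat.Agent.S14.H13
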