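import Fermat.Agent.S14.H13_Module

/-!
# S14, package G/H (helper13): the cyclotomic character on a primitive root
-/

set_option autoImplicit false
set_option linter.unusedSectionVars false
set_option linter.style.haveILetI false
set_option linter.unusedVariables false

namespace Fermat.Agent.S14.H13

open ExtCitation

variable {p : ℕ} [Fact p.Prime]

theorem qbar_isAlgebraic : Algebra.IsAlgebraic ℚ (AlgebraicClosure ℚ) :=
  AlgebraicClosure.isAlgebraic ℚ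

theorem qbar_isAlgClosure : IsAlgClosure ℚ (AlgebraicClosure ℚ) :=
  letI := qbar_isAlgebraic
  ⟨inferInstance, inferInstance⟩

theorem qbar_isGalois : IsGalois ℚ (AlgebraicClosure ℚ) :=
  letI := qbar_isAlgebraic
  letI := qbar_isAlgClosure
  inferInstance

theorem qbar_normal : Normal ℚ (AlgebraicClosure ℚ) :=
  letI := qbar_isGalois
  IsGalois.to_normal

/-- There is a primitive `p`-th root of unity in `ℚ̄`. -/
theorem exists_primitiveRoot (p : ℕ) [Fact p.Prime] :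
    ∃ ζ₀ : AlgebraicClosure ℚ, IsPrimitiveRoot ζ₀ p := by
  haveI : NeZero p := ⟨(Fact.out : p.Prime).ne_zero⟩
  haveI : NeZero (p : AlgebraicClosure ℚ) := ⟨Nat.cast_ne_zero.mpr (NeZero.ne p)⟩
  exact HasEnoughRootsOfUnity.exists_primitiveRoot (AlgebraicClosure ℚ) p

/-- The defining property of the cyclotomic exponent. -/
theorem map_zeta_eq_pow {ζ₀ : AlgebraicClosure ℚ} (hζ : IsPrimitiveRoot ζ₀ p) (σ : GQ) :
    σ ζ₀ = ζ₀ ^ (cycloExp p σ) := by
  haveI : NeZero p := ⟨(Fact.out : p.Prime).ne_zero⟩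
  have hu : IsUnit ζ₀ := hζ.isUnit (Fact.out : p.Prime).ne_zero
  obtain ⟨u, hu'⟩ := hu
  have hmem : u ∈ rootsOfUnity p (AlgebraicClosure ℚ) := by
    rw [mem_rootsOfUnity]
    ext
    rw [Units.val_pow_eq_pow_val, hu', Units.val_one]
    exact hζ.pow_eq_one
  have := modularCyclotomicCharacter.spec (AlgebraicClosure ℚ) (card_rootsOfUnity_eq_self p)
    (σ : AlgebraicClosure ℚ ≃+* AlgebraicClosure ℚ) hmem
  rw [hu'] at this
  exact this

theorem prim_pow_eq_pow_iff {K : Type*} [Field K] {ζ : K} {k : ℕ}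
    (hζ : IsPrimitiveRoot ζ k) (hk : k ≠ 0) (m n : ℕ) :
    ζ ^ m = ζ ^ n ↔ m ≡ n [MOD k] := by
  obtain ⟨u, hu⟩ := hζ.isUnit hk
  have hu' : IsPrimitiveRoot u k := by
    rw [← IsPrimitiveRoot.coe_units_iff, hu]; exact hζ
  rw [← hu, ← Units.val_pow_eq_pow_val, ← Units.val_pow_eq_pow_val, Units.val_inj,
    pow_eq_pow_iff_modEq, ← hu'.eq_orderOf]

theorem chi_eq_natCast_iff {ζ₀ : AlgebraicClosure ℚ} (hζ : IsPrimitiveRoot ζ₀ p) (σ : GQ)
    (a : ℕ) : chi p σ = (a : ZMod p) ↔ σ ζ₀ = ζ₀ ^ a := by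
  unfold chi
  rw [coe_cycloChar, map_zeta_eq_pow hζ σ, ZMod.natCast_eq_natCast_iff]
  exact (prim_pow_eq_pow_iff hζ (Fact.out : p.Prime).ne_zero _ _).symm

theorem chi_eq_one_iff {ζ₀ : AlgebraicClosure ℚ} (hζ : IsPrimitiveRoot ζ₀ p) (σ : GQ) :
    chi p σ = 1 ↔ σ ζ₀ = ζ₀ := by
  have := chi_eq_natCast_iff hζ σ 1
  rwa [Nat.cast_one, pow_one] at this

/-- The cyclotomic character is nontrivial for `p ≥ 3`. -/
theorem exists_chi_ne_one (h3 : 3 ≤ p) : ∃ σ₀ : GQ, chi p σ₀ ≠ 1 := by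
  obtain ⟨ζ₀, hζ⟩ := exists_primitiveRoot p
  have hp : p.Prime := Fact.out
  have hcop : Nat.Coprime 2 p := by
    rw [Nat.coprime_comm, Nat.Prime.coprime_iff_not_dvd hp]
    intro h2
    have := Nat.le_of_dvd (by norm_num) h2
    omega
  have hζ2 : IsPrimitiveRoot (ζ₀ ^ 2) p := hζ.pow_of_coprime 2 hcop
  have hmin : minpoly ℚ (ζ₀ ^ 2) = Polynomial.cyclotomic p ℚ :=
    (Polynomial.cyclotomic_eq_minpoly_rat hζ2 hp.pos).symm
  have hroot : Polynomial.aeval ζ₀ (minpoly ℚ (ζ₀ ^ 2)) = 0 := by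
    rw [hmin, Polynomial.aeval_def, Polynomial.eval₂_eq_eval_map, Polynomial.map_cyclotomic]
    exact hζ.isRoot_cyclotomic hp.pos
  haveI := qbar_isAlgebraic
  haveI := qbar_normal
  have halg : IsAlgebraic ℚ (ζ₀ ^ 2) := Algebra.IsAlgebraic.isAlgebraic _
  obtain ⟨σ, hσ⟩ := minpoly.exists_algEquiv_of_root halg hroot
  refine ⟨σ, ?_⟩
  intro h1
  have h2 : chi p σ = ((2 : ℕ) : ZMod p) := (chi_eq_natCast_iff hζ σ 2).mpr hσ
  rw [h1] at h2
  have h4 : ((1 : ℕ) : ZMod p) = ((2 : ℕ) : ZMod p) := by rw [Nat.cast_one]; exact h2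
  rw [ZMod.natCast_eq_natCast_iff] at h4
  have h5 := (Nat.modEq_iff_dvd' (by norm_num : 1 ≤ 2)).mp h4
  have := Nat.le_of_dvd (by norm_num) h5
  omega

end Fermat.Agent.S14.H13
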