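import Fermat.Agent.S14.H13_Cyclo
import Fermat.Agent.S14.H13_CoreStmt

/-!
# S14, package G (helper13): the number field cut out by a non-split admissible extension

`splitField V` is the fixed field of the kernel of the Galois action on `V`; it is a finite
Galois extension of `ℚ` when the kernel is open.  We establish the restriction API and the
group-theoretic fields (`card`, `equiv`) of `CoreData`.
-/

set_option autoImplicit false
set_option linter.unusedSectionVars false
set_option linter.style.haveILetI false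
set_option linter.unusedVariables false

namespace Fermat.Agent.S14.H13

open ExtCitation NumberField

/-- The field cut out by `V`. -/
noncomputable def splitField (V : Type) [AddCommGroup V] [DistribMulAction GQ V] :
    IntermediateField ℚ (AlgebraicClosure ℚ) :=
  IntermediateField.fixedField (fixer V)

section Basic

variable (V : Type) [AddCommGroup V] [DistribMulAction GQ V]

theorem fixingSubgroup_splitField (hopen : IsOpen (fixer V : Set GQ)) :
    (splitField V).fixingSubgroup = fixer V := by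
  haveI := qbar_isGalois
  have hclosed : IsClosed (fixer V : Set GQ) := Subgroup.isClosed_of_isOpen _ hopen
  exact InfiniteGalois.fixingSubgroup_fixedField ⟨fixer V, hclosed⟩

theorem splitField_finiteDimensional (hopen : IsOpen (fixer V : Set GQ)) :
    FiniteDimensional ℚ (splitField V) := by
  haveI := qbar_isGalois
  have h1 : IsOpen (splitField V).fixingSubgroup.carrier := by
    rw [fixingSubgroup_splitField V hopen]
    exact hopen
  exact (InfiniteGalois.isOpen_iff_finite _).mp h1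

theorem splitField_isGalois (hopen : IsOpen (fixer V : Set GQ)) :
    IsGalois ℚ (splitField V) := by
  haveI := qbar_isGalois
  have h1 : (splitField V).fixingSubgroup.Normal := by
    rw [fixingSubgroup_splitField V hopen]
    exact fixer_normal V
  exact (InfiniteGalois.normal_iff_isGalois _).mp h1

theorem splitField_numberField (hopen : IsOpen (fixer V : Set GQ)) :
    NumberField (splitField V) :=
  { to_charZero := inferInstance
    to_finiteDimensional := splitField_finiteDimensional V hopen }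

theorem mem_fixer_iff_splitField (hopen : IsOpen (fixer V : Set GQ)) (σ : GQ) :
    σ ∈ fixer V ↔ ∀ x ∈ splitField V, σ x = x := by
  rw [← fixingSubgroup_splitField V hopen]
  constructor
  · intro h x hx
    exact (IntermediateField.mem_fixingSubgroup_iff _ _).mp h x hx
  · intro h
    exact (IntermediateField.mem_fixingSubgroup_iff _ _).mpr h

end Basic

section Restriction

variable (M : IntermediateField ℚ (AlgebraicClosure ℚ)) [IsGalois ℚ M]

/-- Restriction to `M`. -/
noncomputable def res : GQ →* (M ≃ₐ[ℚ] M) := AlgEquiv.restrictNormalHom M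

theorem res_apply (σ : GQ) (x : M) : ((res M σ x : M) : AlgebraicClosure ℚ) = σ (x : AlgebraicClosure ℚ) :=
  AlgEquiv.restrictNormal_commutes σ M x

theorem res_surjective : Function.Surjective (res M) := by
  haveI := qbar_normal
  exact AlgEquiv.restrictNormalHom_surjective (AlgebraicClosure ℚ)

theorem res_eq_one_iff (σ : GQ) : res M σ = 1 ↔ ∀ x ∈ M, σ x = x := by
  constructor
  · intro h x hx
    have := res_apply M σ ⟨x, hx⟩
    rw [h] at this
    exact this.symm
  · intro h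
    ext x
    rw [res_apply]
    exact h x x.2

theorem res_eq_iff (σ τ : GQ) : res M σ = res M τ ↔ ∀ x ∈ M, σ x = τ x := by
  constructor
  · intro h x hx
    have h1 := res_apply M σ ⟨x, hx⟩
    have h2 := res_apply M τ ⟨x, hx⟩
    rw [h] at h1
    exact h1.symm.trans h2
  · intro h
    ext x
    rw [res_apply, res_apply]
    exact h x x.2

end Restriction

section Core

variable {p : ℕ} [Fact p.Prime]
variable {V : Type} [AddCommGroup V] [Module (ZMod p) V]
  [DistribMulAction GQ V] [SMulCommClass GQ (ZMod p) V]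
variable {C : Submodule (ZMod p) V}

/-- Powers of an element of the kernel of the cyclotomic character act by translation. -/
theorem pow_smul_eq (hadm : IsAdmissibleExtension p V C) (t : GQ) (ht : chi p t = 1) (x : V)
    (n : ℕ) : t ^ n • x = x + (n : ZMod p) • (t • x - x) := by
  have hd : t • x - x ∈ C := smul_sub_mem_of_chi_eq_one hadm t ht x
  induction n with
  | zero => simp
  | succ n ih =>
    have h1 : t ^ (n + 1) • x = t ^ n • (x + (t • x - x)) := by
      rw [pow_succ, mul_smul]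
      congr 1
      abel
    rw [h1, smul_add, ih, hadm.fixed_sub (t ^ n) _ hd, Nat.cast_succ, add_smul, one_smul]
    abel

variable (M : IntermediateField ℚ (AlgebraicClosure ℚ)) [IsGalois ℚ M]

theorem res_eq_one_iff_mem_fixer (hM : ∀ σ : GQ, σ ∈ fixer V ↔ ∀ x ∈ M, σ x = x) (σ : GQ) :
    res M σ = 1 ↔ σ ∈ fixer V := by
  rw [res_eq_one_iff, hM]

theorem smul_eq_of_res_eq (hM : ∀ σ : GQ, σ ∈ fixer V ↔ ∀ x ∈ M, σ x = x) {σ τ : GQ}
    (h : res M σ = res M τ) (v : V) : σ • v = τ • v := by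
  have h1 : res M (τ⁻¹ * σ) = 1 := by
    rw [map_mul, map_inv, h, inv_mul_cancel]
  have h2 := (res_eq_one_iff_mem_fixer M hM _).mp h1 v
  rw [mul_smul, inv_smul_eq_iff] at h2
  exact h2

theorem res_eq_of_smul_eq (hadm : IsAdmissibleExtension p V C)
    (hM : ∀ σ : GQ, σ ∈ fixer V ↔ ∀ x ∈ M, σ x = x) {x₀ : V} (hx₀ : x₀ ∉ C) {σ τ : GQ}
    (h : σ • x₀ = τ • x₀) : res M σ = res M τ := by
  have h1 : (τ⁻¹ * σ) • x₀ = x₀ := by
    rw [mul_smul, inv_smul_eq_iff]; exact h
  have h2 := mem_fixer_of_fix hadm hx₀ _ h1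
  have h3 := (res_eq_one_iff_mem_fixer M hM _).mpr h2
  rw [map_mul, map_inv, inv_mul_eq_one] at h3
  exact h3.symm

theorem chi_eq_natCast_iff_res {ζ₀ : AlgebraicClosure ℚ} (hζ : IsPrimitiveRoot ζ₀ p)
    (hζM : ζ₀ ∈ M) (σ : GQ) (a : ℕ) :
    chi p σ = (a : ZMod p) ↔ res M σ ⟨ζ₀, hζM⟩ = (⟨ζ₀, hζM⟩ : M) ^ a := by
  rw [chi_eq_natCast_iff hζ]
  constructor
  · intro h
    apply Subtype.ext
    rw [res_apply]
    exact h
  · intro h
    have := congrArg Subtype.val h
    rw [res_apply] at this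
    exact this

theorem chi_eq_one_iff_res {ζ₀ : AlgebraicClosure ℚ} (hζ : IsPrimitiveRoot ζ₀ p)
    (hζM : ζ₀ ∈ M) (σ : GQ) :
    chi p σ = 1 ↔ res M σ ⟨ζ₀, hζM⟩ = (⟨ζ₀, hζM⟩ : M) := by
  have := chi_eq_natCast_iff_res M hζ hζM σ 1
  rwa [Nat.cast_one, pow_one] at this

/-- `Gal(M/ℚ(ζ))` has order `p` in the non-split case. -/
theorem card_stabilizer (hadm : IsAdmissibleExtension p V C)
    (hM : ∀ σ : GQ, σ ∈ fixer V ↔ ∀ x ∈ M, σ x = x)
    {ζ₀ : AlgebraicClosure ℚ} (hζ : IsPrimitiveRoot ζ₀ p) (hζM : ζ₀ ∈ M)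
    (τ₀ : GQ) (hτ₀ : chi p τ₀ = 1) (hτ₀' : τ₀ ∉ fixer V) :
    Nat.card {σ : M ≃ₐ[ℚ] M // σ ⟨ζ₀, hζM⟩ = (⟨ζ₀, hζM⟩ : M)} = p := by
  obtain ⟨x₀, hx₀⟩ := exists_not_mem hadm
  rw [← hadm.card_sub]
  have hlift : ∀ σ : M ≃ₐ[ℚ] M, ∃ σ' : GQ, res M σ' = σ := res_surjective M
  choose lift hlift using hlift
  have hchi : ∀ σ : {σ : M ≃ₐ[ℚ] M // σ ⟨ζ₀, hζM⟩ = (⟨ζ₀, hζM⟩ : M)},
      chi p (lift σ.1) = 1 := by
    intro σ
    rw [chi_eq_one_iff_res M hζ hζM, hlift]
    exact σ.2
  let f : {σ : M ≃ₐ[ℚ] M // σ ⟨ζ₀, hζM⟩ = (⟨ζ₀, hζM⟩ : M)} → C := fun σ =>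
    ⟨lift σ.1 • x₀ - x₀, smul_sub_mem_of_chi_eq_one hadm _ (hchi σ) x₀⟩
  apply Nat.card_eq_of_bijective f
  constructor
  · intro σ τ hστ
    have h1 : lift σ.1 • x₀ - x₀ = lift τ.1 • x₀ - x₀ := congrArg Subtype.val hστ
    have h2 : lift σ.1 • x₀ = lift τ.1 • x₀ := sub_left_injective h1
    have h3 := res_eq_of_smul_eq M hadm hM hx₀ h2
    rw [hlift, hlift] at h3
    exact Subtype.ext h3
  · intro c
    -- the basic nonzero element
    have hc₀C : τ₀ • x₀ - x₀ ∈ C := smul_sub_mem_of_chi_eq_one hadm τ₀ hτ₀ x₀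
    have hc₀ne : (⟨τ₀ • x₀ - x₀, hc₀C⟩ : C) ≠ 0 := by
      intro h0
      apply hτ₀'
      apply mem_fixer_of_fix hadm hx₀
      have := congrArg Subtype.val h0
      exact sub_eq_zero.mp this
    obtain ⟨k, hk⟩ := (finrank_eq_one_iff_of_nonzero' _ hc₀ne).mp (finrank_sub hadm) c
    have hk' : (k.val : ZMod p) • (τ₀ • x₀ - x₀) = (c : V) := by
      have := congrArg Subtype.val hk
      rw [ZMod.natCast_val, ZMod.cast_id]
      exact this
    have hfix : res M (τ₀ ^ k.val) ⟨ζ₀, hζM⟩ = (⟨ζ₀, hζM⟩ : M) := by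
      rw [← chi_eq_one_iff_res M hζ hζM]
      have : chi p (τ₀ ^ k.val) = (chi p τ₀) ^ k.val := by
        induction k.val with
        | zero => simp [chi_one]
        | succ n ih => rw [pow_succ, chi_mul, ih, pow_succ]
      rw [this, hτ₀, one_pow]
    refine ⟨⟨res M (τ₀ ^ k.val), hfix⟩, ?_⟩
    apply Subtype.ext
    show lift (res M (τ₀ ^ k.val)) • x₀ - x₀ = (c : V)
    rw [smul_eq_of_res_eq M hM (hlift (res M (τ₀ ^ k.val))) x₀, pow_smul_eq hadm τ₀ hτ₀, ← hk']
    abel

/-- The conjugation action of `Gal(M/ℚ)` on `Gal(M/ℚ(ζ))` is through the inverse of the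
cyclotomic character. -/
theorem equivariance (hadm : IsAdmissibleExtension p V C)
    (hM : ∀ σ : GQ, σ ∈ fixer V ↔ ∀ x ∈ M, σ x = x)
    {ζ₀ : AlgebraicClosure ℚ} (hζ : IsPrimitiveRoot ζ₀ p) (hζM : ζ₀ ∈ M)
    (s t : M ≃ₐ[ℚ] M) (a : ℕ) (ht : t ⟨ζ₀, hζM⟩ = (⟨ζ₀, hζM⟩ : M))
    (hs : s ⟨ζ₀, hζM⟩ = (⟨ζ₀, hζM⟩ : M) ^ a) : s * t ^ a = t * s := by
  obtain ⟨x₀, hx₀⟩ := exists_not_mem hadm
  obtain ⟨s', rfl⟩ := res_surjective M s
  obtain ⟨t', rfl⟩ := res_surjective M t
  have hchit : chi p t' = 1 := (chi_eq_one_iff_res M hζ hζM t').mpr ht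
  have hchis : chi p s' = (a : ZMod p) := (chi_eq_natCast_iff_res M hζ hζM s' a).mpr hs
  rw [← map_pow, ← map_mul, ← map_mul]
  apply res_eq_of_smul_eq M hadm hM hx₀
  have hc : t' • x₀ - x₀ ∈ C := smul_sub_mem_of_chi_eq_one hadm t' hchit x₀
  have he : s' • x₀ - (a : ZMod p) • x₀ ∈ C := by
    have := smul_sub_chi_mem hadm s' x₀
    rwa [hchis] at this
  have hac : (a : ZMod p) • (t' • x₀ - x₀) ∈ C := C.smul_mem _ hc
  rw [mul_smul, mul_smul, pow_smul_eq hadm t' hchit, smul_add, hadm.fixed_sub s' _ hac]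
  have h1 : s' • x₀ = (a : ZMod p) • x₀ + (s' • x₀ - (a : ZMod p) • x₀) := by abel
  have h2 : t' • s' • x₀ = t' • ((a : ZMod p) • x₀ + (s' • x₀ - (a : ZMod p) • x₀)) := by
    rw [← h1]
  rw [h2, smul_add, hadm.fixed_sub t' _ he, smul_comm t' (a : ZMod p) x₀]
  rw [smul_sub]
  abel

end Core

end Fermat.Agent.S14.H13
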