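import Fermat.Agent.S14.H13_Unram

/-!
# S14, package G (helper13): from the arithmetic core to `ExtVanishingCts`

`extVanishingCts_of_core : 3 ≤ p → Stmt_core p → ExtVanishingCts p`.

If the kernel of the cyclotomic character acts trivially, the extension splits by Maschke
(`splitsGlobally_of_trivial`).  Otherwise the field cut out by `V` satisfies `CoreData`,
which `Stmt_core` forbids.
-/

set_option autoImplicit false
set_option linter.unusedSectionVars false
set_option linter.style.haveILetI false
set_option linter.unusedVariables false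

namespace Fermat.Agent.S14.H13

open ExtCitation NumberField

variable {p : ℕ} [Fact p.Prime]
variable {V : Type} [AddCommGroup V] [Module (ZMod p) V]
  [DistribMulAction GQ V] [SMulCommClass GQ (ZMod p) V]
variable {C : Submodule (ZMod p) V}

theorem zeta_mem_splitField (hadm : IsAdmissibleExtension p V C)
    {ζ₀ : AlgebraicClosure ℚ} (hζ : IsPrimitiveRoot ζ₀ p) : ζ₀ ∈ splitField V := by
  unfold splitField
  rw [IntermediateField.mem_fixedField_iff]
  intro σ hσ
  exact (chi_eq_one_iff hζ σ).mp (chi_eq_one_of_mem_fixer hadm σ hσ)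

/-- In the non-split case the field cut out by `V` satisfies the hypotheses of the core. -/
theorem coreData_of_nontrivial (hadm : IsAdmissibleExtensionCts p V C)
    {ζ₀ : AlgebraicClosure ℚ} (hζ : IsPrimitiveRoot ζ₀ p)
    (τ₀ : GQ) (hτ₀ : chi p τ₀ = 1) (hτ₀' : τ₀ ∉ fixer V) :
    letI := splitField_numberField V hadm.open_kernel
    CoreData p (splitField V)
      ⟨ζ₀, zeta_mem_splitField hadm.toIsAdmissibleExtension hζ⟩ := by
  have hopen : IsOpen (fixer V : Set GQ) := hadm.open_kernel
  letI := splitField_numberField V hopen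
  haveI := splitField_isGalois V hopen
  have hadm' := hadm.toIsAdmissibleExtension
  have hM := mem_fixer_iff_splitField V hopen
  have hζM := zeta_mem_splitField hadm' hζ
  refine ⟨inferInstance, ?_, ?_, ?_, ?_⟩
  · exact (IsPrimitiveRoot.coe_submonoidClass_iff (N := splitField V)
      (ζ := ⟨ζ₀, hζM⟩)).mp hζ
  · exact card_stabilizer (splitField V) hadm' hM hζ hζM τ₀ hτ₀ hτ₀'
  · intro P hP hP0 σ hσζ hσ
    exact unramified (splitField V) hadm' hM hζ hζM P hP hP0 σ hσζ hσ
  · intro s t a ht hs
    exact equivariance (splitField V) hadm' hM hζ hζM s t a ht hs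

/-- **Package G.** The arithmetic core implies `ExtVanishingCts p` for `p ≥ 3`. -/
theorem extVanishingCts_of_core (h3 : 3 ≤ p) (hcore : Stmt_core p) : ExtVanishingCts p := by
  intro V _ _ _ _ C hadm
  by_cases htriv : ∀ τ : GQ, chi p τ = 1 → τ ∈ fixer V
  · obtain ⟨σ₀, hσ₀⟩ := exists_chi_ne_one h3
    exact splitsGlobally_of_trivial hadm.toIsAdmissibleExtension htriv σ₀ hσ₀
  · exfalso
    push Not at htriv
    obtain ⟨τ₀, hτ₀, hτ₀'⟩ := htriv
    obtain ⟨ζ₀, hζ⟩ := exists_primitiveRoot p
    letI := splitField_numberField V hadm.open_kernel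
    exact hcore (splitField V) _ (coreData_of_nontrivial hadm hζ τ₀ hτ₀ hτ₀')

end Fermat.Agent.S14.H13
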