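import Fermat.Agent.S14.H13_Bridge
import Fermat.Agent.S14.H13_Plumbing

/-!
# S14 (helper13): `Stmt_NT → ExtVanishingCts p` for every prime `p ≥ 3`

This is the complete reduction of the frozen statement S14 to the number field core `Stmt_NT`
of `Fermat/Agent/S14/Interfaces.lean`.
-/

set_option autoImplicit false

namespace Fermat.Agent.S14.H13

/-- S14 from the number field core. -/
theorem extVanishingCts_of_NT (hNT : Stmt_NT) {p : ℕ} [Fact p.Prime] (h3 : 3 ≤ p) :
    ExtCitation.ExtVanishingCts p :=
  extVanishingCts_of_core h3 (stmt_core_of_NT hNT p (by omega))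

end Fermat.Agent.S14.H13
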