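import Fermat.Prelude.Def_ExtCitation_AdmissibleExtension_v2
import Fermat.Prelude.Def_ExtCitation_KummerBridge

/-!
# S14, package G/H (helper13): the module-theoretic part

`V` is an admissible extension with sub `C`.  We extract
* `fixer V`, the kernel of the Galois action on `V` (a normal subgroup);
* `chi_eq_one_of_mem_fixer`: the kernel of the action lies in the kernel of the cyclotomic
  character;
* `mem_fixer_of_fix`: an element fixing one vector outside `C` and with trivial cyclotomic
  character acts trivially;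
* `splitsGlobally_of_trivial`: Maschke; if the kernel of the cyclotomic character acts trivially
  and the cyclotomic character is nontrivial, the extension splits.
-/

set_option autoImplicit false
set_option linter.unusedSectionVars false
set_option linter.style.haveILetI false
set_option linter.unusedVariables false

namespace Fermat.Agent.S14.H13

open ExtCitation

/-- The absolute Galois group of `ℚ`. -/
abbrev GQ : Type := AlgebraicClosure ℚ ≃ₐ[ℚ] AlgebraicClosure ℚ

/-- The kernel of the action on `V`. -/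
def fixer (V : Type) [AddCommGroup V] [DistribMulAction GQ V] : Subgroup GQ where
  carrier := {σ | ∀ v : V, σ • v = v}
  one_mem' := fun v => one_smul _ v
  mul_mem' := fun {a b} ha hb v => by rw [mul_smul, hb v, ha v]
  inv_mem' := fun {a} ha v => by
    rw [inv_smul_eq_iff]; exact (ha v).symm

theorem mem_fixer {V : Type} [AddCommGroup V] [DistribMulAction GQ V] (σ : GQ) :
    σ ∈ fixer V ↔ ∀ v : V, σ • v = v := Iff.rfl

theorem fixer_normal (V : Type) [AddCommGroup V] [DistribMulAction GQ V] :
    (fixer V).Normal :=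
  ⟨fun n hn g v => by
    rw [mul_smul, mul_smul, (mem_fixer n).mp hn, smul_inv_smul]⟩

section Module

variable {p : ℕ} [Fact p.Prime]
variable {V : Type} [AddCommGroup V] [Module (ZMod p) V]
  [DistribMulAction GQ V] [SMulCommClass GQ (ZMod p) V]
variable {C : Submodule (ZMod p) V}

/-- The cyclotomic character as an element of `ZMod p`. -/
noncomputable def chi (p : ℕ) [Fact p.Prime] (σ : GQ) : ZMod p :=
  ((cycloChar p σ : (ZMod p)ˣ) : ZMod p)

theorem chi_mul (σ τ : GQ) : chi p (σ * τ) = chi p σ * chi p τ := by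
  unfold chi; rw [map_mul]; rfl

theorem chi_one : chi p (1 : GQ) = 1 := by
  unfold chi; rw [map_one]; rfl

theorem chi_ne_zero (σ : GQ) : chi p σ ≠ 0 := by
  unfold chi; exact Units.ne_zero _

theorem chi_inv (σ : GQ) : chi p σ⁻¹ = (chi p σ)⁻¹ := by
  have h : chi p σ⁻¹ * chi p σ = 1 := by rw [← chi_mul, inv_mul_cancel, chi_one]
  exact eq_inv_of_mul_eq_one_left h

theorem smul_sub_chi_mem (h : IsAdmissibleExtension p V C) (σ : GQ) (x : V) :
    σ • x - chi p σ • x ∈ C := by
  unfold chi; rw [coe_cycloChar]; exact h.cyclo_quot σ x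

theorem smul_sub_mem_of_chi_eq_one (h : IsAdmissibleExtension p V C) (σ : GQ)
    (hσ : chi p σ = 1) (x : V) : σ • x - x ∈ C := by
  have := smul_sub_chi_mem h σ x
  rwa [hσ, one_smul] at this

theorem finite_of_adm (h : IsAdmissibleExtension p V C) : Finite V := by
  apply Nat.finite_of_card_ne_zero
  rw [h.card_total]
  exact pow_ne_zero 2 (Fact.out : p.Prime).ne_zero

theorem finrank_total (h : IsAdmissibleExtension p V C) : Module.finrank (ZMod p) V = 2 := by
  haveI := finite_of_adm h
  haveI : Module.Finite (ZMod p) V := Module.Finite.of_finite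
  have h1 := Module.natCard_eq_pow_finrank (K := ZMod p) (V := V)
  rw [h.card_total, Nat.card_zmod] at h1
  exact (Nat.pow_right_injective (Fact.out : p.Prime).two_le h1).symm

theorem finrank_sub (h : IsAdmissibleExtension p V C) : Module.finrank (ZMod p) C = 1 := by
  haveI := finite_of_adm h
  haveI : Module.Finite (ZMod p) C := Module.Finite.of_finite
  have h1 := Module.natCard_eq_pow_finrank (K := ZMod p) (V := C)
  rw [h.card_sub, Nat.card_zmod] at h1
  have h2 : p ^ 1 = p ^ Module.finrank (ZMod p) C := by rw [pow_one]; exact h1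
  exact (Nat.pow_right_injective (Fact.out : p.Prime).two_le h2).symm

/-- Every submodule strictly containing `C` is everything. -/
theorem eq_top_of_lt (h : IsAdmissibleExtension p V C) {F : Submodule (ZMod p) V}
    (hF : C < F) : F = ⊤ := by
  haveI := finite_of_adm h
  haveI : Module.Finite (ZMod p) V := Module.Finite.of_finite
  apply Submodule.eq_top_of_finrank_eq
  have h1 := Submodule.finrank_lt_finrank_of_lt hF
  have h2 := Submodule.finrank_le F
  rw [finrank_sub h] at h1
  rw [finrank_total h] at h2 ⊢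
  omega

/-- There is a vector outside `C`. -/
theorem exists_not_mem (h : IsAdmissibleExtension p V C) : ∃ x : V, x ∉ C := by
  by_contra hcon
  push Not at hcon
  have htop : C = ⊤ := by
    rw [eq_top_iff]; intro x _; exact hcon x
  have h1 := finrank_sub h
  rw [htop, finrank_top, finrank_total h] at h1
  omega

/-- The set of vectors fixed by `σ`, as a submodule. -/
def fixedSub (p : ℕ) [Fact p.Prime] (V : Type) [AddCommGroup V] [Module (ZMod p) V]
    [DistribMulAction GQ V] [SMulCommClass GQ (ZMod p) V] (σ : GQ) : Submodule (ZMod p) V where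
  carrier := {v | σ • v = v}
  add_mem' := fun {a b} ha hb => by
    show σ • (a + b) = a + b
    rw [smul_add, ha, hb]
  zero_mem' := smul_zero σ
  smul_mem' := fun c x hx => by
    show σ • (c • x) = c • x
    rw [smul_comm, hx]

theorem mem_fixedSub (σ : GQ) (v : V) : v ∈ fixedSub p V σ ↔ σ • v = v := Iff.rfl

/-- An element fixing a vector outside `C` acts trivially. -/
theorem mem_fixer_of_fix (h : IsAdmissibleExtension p V C) {x : V} (hx : x ∉ C) (σ : GQ)
    (hσ : σ • x = x) : σ ∈ fixer V := by
  have hle : C ≤ fixedSub p V σ := fun c hc => h.fixed_sub σ c hc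
  have hlt : C < fixedSub p V σ := by
    refine lt_of_le_of_ne hle ?_
    intro heq
    apply hx
    rw [heq]
    exact hσ
  have htop := eq_top_of_lt h hlt
  intro v
  have : v ∈ fixedSub p V σ := by rw [htop]; trivial
  exact this

/-- The kernel of the action is contained in the kernel of the cyclotomic character. -/
theorem chi_eq_one_of_mem_fixer (h : IsAdmissibleExtension p V C) (σ : GQ)
    (hσ : σ ∈ fixer V) : chi p σ = 1 := by
  obtain ⟨x, hx⟩ := exists_not_mem h
  by_contra hne
  apply hx
  have h1 := smul_sub_chi_mem h σ x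
  rw [hσ x] at h1
  have h2 : x - chi p σ • x = (1 - chi p σ) • x := by rw [sub_smul, one_smul]
  rw [h2] at h1
  have h3 : (1 - chi p σ) ≠ 0 := fun h0 => hne (sub_eq_zero.mp h0).symm
  have h4 := C.smul_mem (1 - chi p σ)⁻¹ h1
  rwa [smul_smul, inv_mul_cancel₀ h3, one_smul] at h4

/-- A submodule meeting `C` trivially and nonzero is a complement. -/
theorem isCompl_of_inf_eq_bot (h : IsAdmissibleExtension p V C) {C' : Submodule (ZMod p) V}
    (hinf : C ⊓ C' = ⊥) (hne : C' ≠ ⊥) : IsCompl C C' := by
  refine ⟨disjoint_iff.mpr hinf, codisjoint_iff.mpr ?_⟩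
  apply eq_top_of_lt h
  refine lt_of_le_of_ne le_sup_left ?_
  intro heq
  apply hne
  have hle : C' ≤ C := by
    rw [heq]; exact le_sup_right
  rw [← hinf]
  exact (inf_eq_right.mpr hle).symm

/-- The eigenspace of `σ₀` for the eigenvalue `chi σ₀`. -/
def eigenSub (p : ℕ) [Fact p.Prime] (V : Type) [AddCommGroup V] [Module (ZMod p) V]
    [DistribMulAction GQ V] [SMulCommClass GQ (ZMod p) V] (σ : GQ) : Submodule (ZMod p) V where
  carrier := {v | σ • v = chi p σ • v}
  add_mem' := fun {a b} ha hb => by
    show σ • (a + b) = chi p σ • (a + b)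
    rw [smul_add, smul_add]
    rw [show σ • a = chi p σ • a from ha, show σ • b = chi p σ • b from hb]
  zero_mem' := by
    show σ • (0 : V) = chi p σ • (0 : V)
    rw [smul_zero, smul_zero]
  smul_mem' := fun c x hx => by
    show σ • (c • x) = chi p σ • (c • x)
    rw [smul_comm σ c x, show σ • x = chi p σ • x from hx, smul_comm]

theorem mem_eigenSub (σ : GQ) (v : V) : v ∈ eigenSub p V σ ↔ σ • v = chi p σ • v := Iff.rfl

/-- **Maschke.** If the kernel of the cyclotomic character acts trivially on `V` and the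
cyclotomic character is nontrivial, then the extension splits. -/
theorem splitsGlobally_of_trivial (h : IsAdmissibleExtension p V C)
    (htriv : ∀ τ : GQ, chi p τ = 1 → τ ∈ fixer V)
    (σ₀ : GQ) (hσ₀ : chi p σ₀ ≠ 1) : SplitsGlobally C := by
  refine ⟨eigenSub p V σ₀, ?_, ?_⟩
  · -- stability
    intro σ x hx
    rw [mem_eigenSub] at hx ⊢
    -- σ₀ σ x = σ (σ⁻¹ σ₀ σ σ₀⁻¹) σ₀ x
    have hτ : chi p (σ⁻¹ * σ₀ * σ * σ₀⁻¹) = 1 := by
      rw [chi_mul, chi_mul, chi_mul, chi_inv, chi_inv]
      field_simp [chi_ne_zero σ, chi_ne_zero σ₀]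
    have hfix := htriv _ hτ
    have h1 : σ₀ • σ • x = σ • ((σ⁻¹ * σ₀ * σ * σ₀⁻¹) • (σ₀ • x)) := by
      rw [← mul_smul, ← mul_smul, ← mul_smul]
      congr 1
      group
    rw [h1, hfix (σ₀ • x), hx, smul_comm]
  · apply isCompl_of_inf_eq_bot h
    · rw [eq_bot_iff]
      intro x ⟨hxC, hxE⟩
      have hxC' : x ∈ C := hxC
      have hxE' : σ₀ • x = chi p σ₀ • x := hxE
      rw [h.fixed_sub σ₀ x hxC'] at hxE'
      have h3 : (1 - chi p σ₀) ≠ 0 := fun h0 => hσ₀ (sub_eq_zero.mp h0).symm
      have h4 : (1 - chi p σ₀) • x = 0 := by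
        rw [sub_smul, one_smul, ← hxE', sub_self]
      rcases smul_eq_zero.mp h4 with h5 | h5
      · exact absurd h5 h3
      · rw [h5]; exact Submodule.zero_mem _
    · obtain ⟨x, hx⟩ := exists_not_mem h
      have h3 : (1 - chi p σ₀) ≠ 0 := fun h0 => hσ₀ (sub_eq_zero.mp h0).symm
      obtain ⟨c, hc⟩ : ∃ c : V, c = σ₀ • x - chi p σ₀ • x := ⟨_, rfl⟩
      have hcC : c ∈ C := by rw [hc]; exact smul_sub_chi_mem h σ₀ x
      obtain ⟨y, hy⟩ : ∃ y : V, y = x - (1 - chi p σ₀)⁻¹ • c := ⟨_, rfl⟩
      have hσx : σ₀ • x = chi p σ₀ • x + c := by rw [hc]; abel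
      have hyE : y ∈ eigenSub p V σ₀ := by
        rw [mem_eigenSub, hy, smul_sub, smul_sub, smul_comm σ₀ _ c, h.fixed_sub σ₀ c hcC]
        rw [hσx, smul_smul]
        have h6 : chi p σ₀ • x + c - (1 - chi p σ₀)⁻¹ • c
            - (chi p σ₀ • x - (chi p σ₀ * (1 - chi p σ₀)⁻¹) • c) = 0 := by
          have h7 : chi p σ₀ • x + c - (1 - chi p σ₀)⁻¹ • c
            - (chi p σ₀ • x - (chi p σ₀ * (1 - chi p σ₀)⁻¹) • c)
            = (1 - (1 - chi p σ₀)⁻¹ + chi p σ₀ * (1 - chi p σ₀)⁻¹) • c := by
            rw [add_smul, sub_smul, one_smul]; abel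
          rw [h7]
          have h8 : (1 - (1 - chi p σ₀)⁻¹ + chi p σ₀ * (1 - chi p σ₀)⁻¹) = 0 := by
            field_simp
            ring
          rw [h8, zero_smul]
        exact sub_eq_zero.mp h6
      intro hbot
      have hy0 : y = 0 := by
        have : y ∈ (⊥ : Submodule (ZMod p) V) := by rw [← hbot]; exact hyE
        simpa using this
      apply hx
      have hxeq : x = (1 - chi p σ₀)⁻¹ • c := by
        have := hy0
        rw [hy] at this
        exact sub_eq_zero.mp this
      rw [hxeq]
      exact C.smul_mem _ hcC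

end Module

end Fermat.Agent.S14.H13
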