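import Mathlib

/-!
# S14 (helper13): the norm of a nonzero element of a totally complex number field is positive
-/

set_option autoImplicit false
set_option linter.unusedSectionVars false
set_option linter.style.haveILetI false
set_option linter.unusedVariables false

namespace Fermat.Agent.S14.H13

open NumberField

/-- On a totally complex number field the norm to `ℚ` of a nonzero element is positive:
the complex embeddings come in conjugate pairs. -/
theorem norm_pos_of_isTotallyComplex (L : Type*) [Field L] [NumberField L] [IsTotallyComplex L]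
    (x : L) (hx : x ≠ 0) : 0 < Algebra.norm ℚ x := by
  classical
  have h1 : (algebraMap ℚ ℂ (Algebra.norm ℚ x)) = ∏ σ : L →ₐ[ℚ] ℂ, σ x :=
    Algebra.norm_eq_prod_embeddings ℚ ℂ x
  have h2 : ∏ σ : L →ₐ[ℚ] ℂ, σ x = ∏ φ : L →+* ℂ, φ x :=
    (Fintype.prod_equiv (RingHom.equivRatAlgHom L ℂ) (fun φ : L →+* ℂ => φ x)
      (fun σ : L →ₐ[ℚ] ℂ => σ x) (fun _ => rfl)).symm
  have hne : ∀ φ : L →+* ℂ, φ x ≠ 0 := fun φ => (map_ne_zero φ).mpr hx
  have hne' : ∀ φ : L →+* ℂ, ((‖φ x‖ : ℝ) : ℂ) ≠ 0 := fun φ =>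
    Complex.ofReal_ne_zero.mpr (norm_ne_zero_iff.mpr (hne φ))
  have h3 : ∏ φ : L →+* ℂ, (φ x / ((‖φ x‖ : ℝ) : ℂ)) = 1 := by
    apply Finset.prod_involution (fun φ _ => NumberField.ComplexEmbedding.conjugate φ)
    · intro φ _
      have hc : (NumberField.ComplexEmbedding.conjugate φ) x = (starRingEnd ℂ) (φ x) := rfl
      rw [hc, RCLike.norm_conj, div_mul_div_comm, Complex.mul_conj, Complex.normSq_eq_norm_sq]
      rw [div_eq_one_iff_eq (mul_ne_zero (hne' φ) (hne' φ))]
      push_cast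
      ring
    · intro φ _ _ h
      exact IsTotallyComplex.complexEmbedding_not_isReal φ
        (NumberField.ComplexEmbedding.isReal_iff.mpr h)
    · intros; exact Finset.mem_univ _
    · intro φ _
      exact star_star φ
  have h4 : ∏ φ : L →+* ℂ, φ x = ∏ φ : L →+* ℂ, ((‖φ x‖ : ℝ) : ℂ) := by
    rw [Finset.prod_div_distrib] at h3
    exact (div_eq_one_iff_eq (Finset.prod_ne_zero_iff.mpr (fun φ _ => hne' φ))).mp h3
  have h5 : ((Algebra.norm ℚ x : ℚ) : ℂ) = ((∏ φ : L →+* ℂ, ‖φ x‖ : ℝ) : ℂ) := by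
    have : ((Algebra.norm ℚ x : ℚ) : ℂ) = algebraMap ℚ ℂ (Algebra.norm ℚ x) := rfl
    rw [this, h1, h2, h4]
    push_cast
    rfl
  have h6 : ((Algebra.norm ℚ x : ℚ) : ℝ) = ∏ φ : L →+* ℂ, ‖φ x‖ := by
    exact_mod_cast h5
  have h7 : 0 < ∏ φ : L →+* ℂ, ‖φ x‖ :=
    Finset.prod_pos (fun φ _ => norm_pos_iff.mpr (hne φ))
  rw [← h6] at h7
  exact_mod_cast h7

/-- Integral version. -/
theorem intNorm_pos_of_isTotallyComplex (L : Type*) [Field L] [NumberField L]
    [IsTotallyComplex L] (y : 𝓞 L) (hy : y ≠ 0) : 0 < Algebra.norm ℤ y := by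
  have h1 : 0 < Algebra.norm ℚ (y : L) :=
    norm_pos_of_isTotallyComplex L (y : L) (by
      intro h0
      apply hy
      exact RingOfIntegers.ext (by rw [h0]; rfl))
  rw [← Algebra.coe_norm_int] at h1
  exact_mod_cast h1

/-- On a totally complex field, the absolute norm of a principal ideal is the norm of the
generator. -/
theorem absNorm_span_singleton_of_isTotallyComplex (L : Type*) [Field L] [NumberField L]
    [IsTotallyComplex L] (y : 𝓞 L) :
    (Ideal.absNorm (Ideal.span {y}) : ℤ) = Algebra.norm ℤ y := by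
  rw [Ideal.absNorm_span_singleton]
  by_cases hy : y = 0
  · subst hy
    simp
  · have := intNorm_pos_of_isTotallyComplex L y hy
    rw [Int.natCast_natAbs, abs_of_pos this]

end Fermat.Agent.S14.H13
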