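import Fermat.Agent.S14.SideDefs
import Fermat.Agent.S14.H13_NormPos

/-!
# S14, crossing, SN-b (helper13): `Stmt_E2 → Stmt_SNb`

The norm of an element of `𝓞 EE` prime to `r` lies in `⟨u ^ p⟩` modulo `r`.
-/

set_option autoImplicit false
set_option linter.unusedSectionVars false
set_option linter.style.haveILetI false
set_option linter.unusedVariables false

namespace Fermat.Agent.S14.H13

open NumberField Fermat.Agent.S14 Fermat.Agent.S14.Side

section Group

variable {p : ℕ} [Fact p.Prime] {K M N : Type} [Field K] [NumberField K] [Field M]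
  [NumberField M] [Field N] [NumberField N] [Algebra K M] [Algebra K N] [Algebra M N]
  [IsScalarTower K M N] [IsGalois K M] [IsGalois K N]
  {r : ℕ} {χ : (N ≃ₐ[K] N) →* (ZMod r)ˣ} {ζ : N} {I : Subgroup (N ≃ₐ[K] N)}
  {Q : Ideal (𝓞 M)} {τ : M ≃ₐ[K] M} {u : (ZMod r)ˣ}

/-- `τ` has order `p`. -/
theorem orderOf_tau (hyp : SideHyp p K M N r χ ζ I Q τ u) : orderOf τ = p := by
  have hcard : Nat.card (M ≃ₐ[K] M) = p := by
    rw [IsGalois.card_aut_eq_finrank, hyp.hdeg]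
  apply orderOf_eq_prime
  · rw [← hcard]
    exact pow_card_eq_one'
  · exact hyp.hτ1

/-- Every `[I : I ⊓ HH]`-th power in `(ℤ/r)ˣ` lies in `⟨u ^ p⟩`. -/
theorem pow_relIndex_mem_zpowers (hyp : SideHyp p K M N r χ ζ I Q τ u) (w : (ZMod r)ˣ) :
    w ^ ((HH K M N χ τ u).relIndex I) ∈ Subgroup.zpowers (u ^ p) := by
  obtain ⟨γ, hγI, hγ⟩ := hyp.hI_surj w
  haveI : (HH K M N χ τ u).Normal :=
    ⟨fun n hn g => by rw [hyp.hab g n, mul_inv_cancel_right]; exact hn⟩
  have h1 : γ ^ ((HH K M N χ τ u).relIndex I) ∈ HH K M N χ τ u :=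
    Subgroup.pow_relIndex_mem _ hγI
  have h2 : ((resN K M N).prod χ) (γ ^ ((HH K M N χ τ u).relIndex I)) ∈
      Subgroup.zpowers (τ, u) := h1
  obtain ⟨n, hn⟩ := Subgroup.mem_zpowers_iff.mp h2
  have hres : resN K M N γ = 1 := hyp.hI_res hγI
  have hn1 : τ ^ n = 1 := by
    have := congrArg Prod.fst hn
    rw [Prod.pow_fst, MonoidHom.prod_apply, map_pow, hres, one_pow] at this
    exact this
  have hn2 : u ^ n = w ^ ((HH K M N χ τ u).relIndex I) := by
    have := congrArg Prod.snd hn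
    rw [Prod.pow_snd, MonoidHom.prod_apply] at this
    have h3 : χ (γ ^ (HH K M N χ τ u).relIndex I) = w ^ (HH K M N χ τ u).relIndex I := by
      rw [map_pow, hγ]
    exact this.trans h3
  have hdvd : (p : ℤ) ∣ n := by
    rw [← orderOf_tau hyp]
    exact orderOf_dvd_iff_zpow_eq_one.mpr hn1
  obtain ⟨m, rfl⟩ := hdvd
  rw [← hn2, Subgroup.mem_zpowers_iff]
  refine ⟨m, ?_⟩
  rw [zpow_mul, zpow_natCast]

end Group

section DegreeOne

/-- A prime of the `p`-th cyclotomic field above a rational prime `r ≡ 1 mod p` has norm `r`. -/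
theorem absNorm_eq_of_modEq_one (p : ℕ) [Fact p.Prime] (K : Type) [Field K] [NumberField K]
    [IsCyclotomicExtension {p} ℚ K] (r : ℕ) [Fact r.Prime] (hrp : r ≠ p)
    (hr1 : (r : ZMod p) = 1) (𝔯 : Ideal (𝓞 K)) (h𝔯 : 𝔯.IsPrime) (hmem : (r : 𝓞 K) ∈ 𝔯) :
    Ideal.absNorm 𝔯 = r := by
  haveI := h𝔯
  haveI : NeZero p := ⟨(Fact.out : p.Prime).ne_zero⟩
  haveI : 𝔯.LiesOver (Ideal.span {(r : ℤ)}) := by
    rw [Ideal.liesOver_iff]
    have hmax : (Ideal.span {(r : ℤ)}).IsMaximal := Int.ideal_span_isMaximal_of_prime r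
    apply hmax.eq_of_le
    · exact (Ideal.IsPrime.under ℤ 𝔯).ne_top
    · rw [Ideal.span_singleton_le_iff_mem, Ideal.under_def, Ideal.mem_comap]
      simpa using hmem
  have hndvd : ¬ r ∣ p := by
    intro h
    exact hrp ((Nat.prime_dvd_prime_iff_eq (Fact.out : r.Prime) (Fact.out : p.Prime)).mp h)
  have h1 := IsCyclotomicExtension.Rat.inertiaDeg_eq_of_not_dvd r K 𝔯 (m := p) hndvd
  have h2 := Ideal.pow_inertiaDeg r 𝔯
  rw [h1, hr1, orderOf_one, pow_one] at h2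
  exact h2.symm

end DegreeOne

/-- **SN-b** from the local norm lemma `Stmt_E2`. -/
theorem stmt_SNb_of_E2 (hE2 : Stmt_E2) : Stmt_SNb := by
  intro p _ K M N _ _ _ _ _ _ _ _ _ _ _ _ _ r _ χ ζ I Q τ u hyp y v hv
  have hp : p.Prime := Fact.out
  have hr : r.Prime := Fact.out
  have hp3 : 2 < p := lt_of_le_of_ne hp.two_le (Ne.symm hyp.hp2)
  haveI : IsGalois ℚ K := IsCyclotomicExtension.isGalois {p} ℚ K
  haveI : IsTotallyComplex K := IsCyclotomicExtension.Rat.isTotallyComplex K hp3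
  haveI : IsTotallyComplex (EE K M N χ τ u) := isTotallyComplex_of_algebra K _
  -- `r ≡ 1 mod p`
  have hr1 : (r : ZMod p) = 1 := by
    have h1 : p ∣ r - 1 := hyp.hord.trans (ZMod.orderOf_units_dvd_card_sub_one u)
    have h2 : ((r - 1 : ℕ) : ZMod p) = 0 := (ZMod.natCast_eq_zero_iff _ _).mpr h1
    have h3 : r = (r - 1) + 1 := (Nat.sub_add_cancel hr.one_le).symm
    rw [h3, Nat.cast_add, h2, Nat.cast_one, zero_add]
  have hdeg1 : ∀ 𝔯 : Ideal (𝓞 K), 𝔯.IsPrime → (r : 𝓞 K) ∈ 𝔯 → Ideal.absNorm 𝔯 = r :=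
    fun 𝔯 h𝔯 hmem => absNorm_eq_of_modEq_one p K r hyp.hrp hr1 𝔯 h𝔯 hmem
  have hcop : (Ideal.absNorm (Ideal.span {y})).Coprime r := by
    rw [← ZMod.isUnit_iff_coprime, ← hv]
    exact v.isUnit
  obtain ⟨w, hw⟩ := hE2 K N r (HH K M N χ τ u) I hyp.hab hdeg1 hyp.hI_in y hcop
  have hvw : (v : ZMod r) = w ^ ((HH K M N χ τ u).relIndex I) := by
    rw [hv, ← hw, ← absNorm_span_singleton_of_isTotallyComplex]
    push_cast
    rfl
  by_cases he : (HH K M N χ τ u).relIndex I = 0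
  · rw [he, pow_zero] at hvw
    have hv1 : v = 1 := Units.ext (by rw [hvw, Units.val_one])
    rw [hv1]
    exact Subgroup.one_mem _
  · have hw0 : w ≠ 0 := by
      intro hw0
      rw [hw0, zero_pow he] at hvw
      exact v.ne_zero hvw
    obtain ⟨w', rfl⟩ := IsUnit.mk0 w hw0
    have hvw' : v = w' ^ ((HH K M N χ τ u).relIndex I) := by
      apply Units.ext
      rw [hvw, Units.val_pow_eq_pow_val]
    rw [hvw']
    exact pow_relIndex_mem_zpowers hyp w'

end Fermat.Agent.S14.H13
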