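import Fermat.Agent.S14.H13_Field
import Fermat.Agent.Lib.InertiaLift

/-!
# S14, package G (helper13): the field cut out by an admissible extension is unramified
over `ℚ(ζ_p)`
-/

set_option autoImplicit false
set_option linter.unusedSectionVars false
set_option linter.style.haveILetI false
set_option linter.unusedVariables false

namespace Fermat.Agent.S14.H13

open ExtCitation NumberField

section Place

variable (M : IntermediateField ℚ (AlgebraicClosure ℚ)) [NumberField M]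

/-- The embedding of the ring of integers of `M` into `ℚ̄`. -/
noncomputable def intToQbar : 𝓞 M →+* AlgebraicClosure ℚ :=
  (algebraMap M (AlgebraicClosure ℚ)).comp (algebraMap (𝓞 M) M)

theorem intToQbar_apply (x : 𝓞 M) : intToQbar M x = ((x : M) : AlgebraicClosure ℚ) := rfl

theorem intToQbar_injective : Function.Injective (intToQbar M) := by
  intro x y h
  have h1 : ((x : M) : AlgebraicClosure ℚ) = ((y : M) : AlgebraicClosure ℚ) := h
  exact RingOfIntegers.ext (Subtype.ext h1)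

/-- Every proper ideal of `𝓞 M` lies under a valuation subring of `ℚ̄`. -/
theorem exists_valuationSubring_above (P : Ideal (𝓞 M)) (hP : P ≠ ⊤) :
    ∃ A : ValuationSubring (AlgebraicClosure ℚ),
      ∀ y ∈ P, intToQbar M y ∈ A.nonunits := by
  classical
  let f := intToQbar M
  let e : 𝓞 M ≃+* f.range := RingEquiv.ofBijective f.rangeRestrict
    ⟨fun x y h => intToQbar_injective M
      (show f x = f y from congrArg (Subtype.val : f.range → AlgebraicClosure ℚ) h),
      f.rangeRestrict_surjective⟩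
  let I : Ideal f.range := Ideal.comap (e.symm : f.range →+* 𝓞 M) P
  have hI : I ≠ ⊤ := Ideal.comap_ne_top _ hP
  obtain ⟨B, -, hB⟩ := Ideal.image_subset_nonunits_valuationSubring I hI
  refine ⟨B, fun y hy => ?_⟩
  apply hB
  refine ⟨e y, ?_, rfl⟩
  show (e.symm : f.range →+* 𝓞 M) (e y) ∈ P
  have : (e.symm : f.range →+* 𝓞 M) (e y) = y := e.symm_apply_apply y
  rw [this]
  exact hy

/-- A nonzero prime of `𝓞 M` contains a rational prime. -/
theorem exists_prime_mem (P : Ideal (𝓞 M)) (hP : P.IsPrime) (hP0 : P ≠ ⊥) :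
    ∃ ℓ : ℕ, ℓ.Prime ∧ ((ℓ : ℕ) : 𝓞 M) ∈ P := by
  haveI := hP
  haveI : NeZero P := ⟨hP0⟩
  exact ⟨_, Nat.absNorm_under_prime P, Int.absNorm_under_mem P⟩

end Place

section Unram

variable {p : ℕ} [Fact p.Prime]
variable {V : Type} [AddCommGroup V] [Module (ZMod p) V]
  [DistribMulAction GQ V] [SMulCommClass GQ (ZMod p) V]
variable {C : Submodule (ZMod p) V}

/-- An element of an inertia group over `p` with trivial cyclotomic character acts trivially:
this is where the local splitting at `p` enters. -/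
theorem mem_fixer_of_inertia_p (hadm : IsAdmissibleExtension p V C)
    (A : ValuationSubring (AlgebraicClosure ℚ)) (hA : A.LiesOverPrime p) (σ : GQ)
    (hσ : σ ∈ A.inertiaSubgroupIn ℚ) (hχ : chi p σ = 1) : σ ∈ fixer V := by
  obtain ⟨C', hstab, hcompl⟩ := hadm.locally_split A hA
  have hσD : σ ∈ A.decompositionSubgroup ℚ := by
    obtain ⟨τ, hτ, rfl⟩ := hσ
    exact τ.2
  intro v
  have hv : v ∈ C ⊔ C' := by rw [hcompl.sup_eq_top]; trivial
  obtain ⟨c, hc, c', hc', rfl⟩ := Submodule.mem_sup.mp hv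
  rw [smul_add, hadm.fixed_sub σ c hc]
  congr 1
  have h1 : σ • c' - c' ∈ C := smul_sub_mem_of_chi_eq_one hadm σ hχ c'
  have h2 : σ • c' - c' ∈ C' := C'.sub_mem (hstab σ hσD c' hc') hc'
  have h3 : σ • c' - c' ∈ C ⊓ C' := ⟨h1, h2⟩
  rw [hcompl.inf_eq_bot] at h3
  exact sub_eq_zero.mp ((Submodule.mem_bot _).mp h3)

variable (M : IntermediateField ℚ (AlgebraicClosure ℚ)) [NumberField M] [IsGalois ℚ M]

/-- `M/ℚ(ζ)` is unramified at every nonzero prime. -/
theorem unramified (hadm : IsAdmissibleExtension p V C)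
    (hM : ∀ σ : GQ, σ ∈ fixer V ↔ ∀ x ∈ M, σ x = x)
    {ζ₀ : AlgebraicClosure ℚ} (hζ : IsPrimitiveRoot ζ₀ p) (hζM : ζ₀ ∈ M)
    (P : Ideal (𝓞 M)) (hP : P.IsPrime) (hP0 : P ≠ ⊥) (σ : M ≃ₐ[ℚ] M)
    (hσζ : σ ⟨ζ₀, hζM⟩ = (⟨ζ₀, hζM⟩ : M)) (hσ : ActsTriviallyMod P σ) : σ = 1 := by
  obtain ⟨ℓ, hℓ, hℓP⟩ := exists_prime_mem M P hP hP0
  obtain ⟨A, hA⟩ := exists_valuationSubring_above M P hP.ne_top
  have hAℓ : A.LiesOverPrime ℓ := by
    have := hA _ hℓP
    rwa [map_natCast] at this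
  obtain ⟨σ₀, rfl⟩ := res_surjective M σ
  haveI : Normal ℚ M := IsGalois.to_normal
  have hcong : ∀ x : AlgebraicClosure ℚ, x ∈ M → IsIntegral ℤ x → σ₀ x - x ∈ A.nonunits := by
    intro x hx hxi
    have hxi' : IsIntegral ℤ (⟨x, hx⟩ : M) := by
      have hinj : Function.Injective (algebraMap M (AlgebraicClosure ℚ)) :=
        (algebraMap M (AlgebraicClosure ℚ)).injective
      exact (isIntegral_algebraMap_iff hinj).mp hxi
    obtain ⟨y, hy, hxy⟩ := hσ (⟨⟨x, hx⟩, hxi'⟩ : 𝓞 M)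
    have h1 := hA y hy
    have h2 : intToQbar M y = σ₀ x - x := by
      rw [intToQbar_apply, ← hxy]
      show (((res M σ₀) (⟨x, hx⟩ : M) : M) : AlgebraicClosure ℚ) - x = σ₀ x - x
      rw [res_apply]
    rw [← h2]
    exact h1
  obtain ⟨σ', hσ'I, hσ'⟩ :=
    Fermat.Agent.Lib.InertiaLift.exists_mem_inertiaSubgroupIn_eqOn ℓ hℓ A hAℓ M σ₀ hcong
  have hres : res M σ' = res M σ₀ := (res_eq_iff M σ' σ₀).mpr hσ'
  rw [← hres, res_eq_one_iff_mem_fixer M hM]
  have hχ : chi p σ' = 1 := by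
    rw [chi_eq_one_iff_res M hζ hζM, hres]; exact hσζ
  by_cases hℓp : ℓ = p
  · subst hℓp
    exact mem_fixer_of_inertia_p hadm A hAℓ σ' hσ'I hχ
  · exact hadm.unramified_outside ℓ hℓ hℓp A hAℓ σ' hσ'I

end Unram

end Fermat.Agent.S14.H13
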