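import Mathlib.FieldTheory.Finite.Basic
import Mathlib.Algebra.CharP.CharAndCard
import Mathlib.Data.Nat.Choose.Sum
import Mathlib.Data.Nat.Choose.Dvd

/-!
# A power sum over a finite prime field (helper24, S14 work package F)

For a finite field `F` with a prime number `q` of elements and `0 < e < q - 1`:
`∑ x : F, x ^ e * (1 - x) ^ e = 0  ↔  2 * e < q - 1`.

This is the residue of a Jacobi sum `J(χ^c, χ^c)` modulo a degree-one prime above `q`.
-/

namespace Fermat.Agent.S14.H24

open Finset

/-- Power sums over a finite field: `∑ x, x ^ k = if (#F - 1) ∣ k then -1 else 0` for `k ≠ 0`. -/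
theorem sum_pow_field {F : Type*} [Field F] [Fintype F] (k : ℕ) (hk : k ≠ 0) :
    (∑ x : F, x ^ k) = if Fintype.card F - 1 ∣ k then -1 else 0 := by
  classical
  rw [← FiniteField.sum_pow_units (K := F) k]
  let φ : Fˣ ↪ F := ⟨fun x ↦ x, Units.val_injective⟩
  have hmap : univ.map φ = univ \ {0} := by
    ext x
    simp only [mem_map, mem_univ, Function.Embedding.coeFn_mk, true_and, mem_sdiff,
      mem_singleton, φ]
    constructor
    · rintro ⟨a, rfl⟩
      exact a.ne_zero
    · intro hx
      exact ⟨Units.mk0 x hx, rfl⟩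
  calc ∑ x : F, x ^ k = ∑ x ∈ univ \ {(0 : F)}, x ^ k := by
        rw [← sum_sdiff ({0} : Finset F).subset_univ, sum_singleton, zero_pow hk, add_zero]
    _ = ∑ x : Fˣ, ((x : F) ^ k) := by
        rw [← hmap, sum_map]; rfl

/-- A binomial coefficient `e.choose j` with `e < q` is nonzero in characteristic `q`. -/
theorem choose_ne_zero_of_charP {F : Type*} [Field F] {q : ℕ} (hq : q.Prime) [CharP F q]
    {e j : ℕ} (he : e < q) (hj : j ≤ e) :
    ((e.choose j : ℕ) : F) ≠ 0 := by
  intro h
  rw [CharP.cast_eq_zero_iff F q] at h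
  have h1 : q ∣ e.factorial := by
    rw [← Nat.choose_mul_factorial_mul_factorial hj]
    exact Dvd.dvd.mul_right (Dvd.dvd.mul_right h _) _
  have := (Nat.Prime.dvd_factorial hq).1 h1
  omega

/-- Expansion of `x ^ e * (1 - x) ^ e`. -/
theorem pow_mul_one_sub_pow {R : Type*} [CommRing R] (x : R) (e : ℕ) :
    x ^ e * (1 - x) ^ e = ∑ j ∈ range (e + 1), ((-1) ^ j * (e.choose j : R)) * x ^ (e + j) := by
  have h : (1 - x) ^ e = ∑ j ∈ range (e + 1), (-x) ^ j * 1 ^ (e - j) * (e.choose j : R) := by
    rw [← add_pow, add_comm, sub_eq_add_neg]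
  rw [h, mul_sum]
  refine sum_congr rfl fun j _ => ?_
  rw [one_pow, mul_one, neg_pow, pow_add]
  ring

/-- The key finite-field sum. -/
theorem sum_pow_mul_one_sub_pow_eq_zero_iff {F : Type*} [Field F] [Fintype F] {q : ℕ}
    (hq : q.Prime) (hF : Fintype.card F = q) {e : ℕ} (he0 : 0 < e) (he : e < q - 1) :
    (∑ x : F, x ^ e * (1 - x) ^ e) = 0 ↔ 2 * e < q - 1 := by
  have : Fact q.Prime := ⟨hq⟩
  have : CharP F q := charP_of_card_eq_prime hF
  have hexp : (∑ x : F, x ^ e * (1 - x) ^ e) =
      ∑ j ∈ range (e + 1), ((-1) ^ j * (e.choose j : F)) *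
        (if q - 1 ∣ e + j then (-1 : F) else 0) := by
    simp_rw [pow_mul_one_sub_pow]
    rw [sum_comm]
    refine sum_congr rfl fun j _ => ?_
    rw [← mul_sum, sum_pow_field (e + j) (by omega), hF]
  rw [hexp]
  constructor
  · intro h
    by_contra hlt
    rw [not_lt] at hlt
    -- the unique `j` with `q - 1 ∣ e + j` is `j₀ = q - 1 - e`
    have hj0 : q - 1 - e ∈ range (e + 1) := by
      rw [mem_range]; omega
    rw [sum_eq_single_of_mem (q - 1 - e) hj0] at h
    · have hd : q - 1 ∣ e + (q - 1 - e) := by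
        have : e + (q - 1 - e) = q - 1 := by omega
        rw [this]
      rw [if_pos hd] at h
      have hc := choose_ne_zero_of_charP (F := F) hq (e := e) (j := q - 1 - e)
        (by omega) (by omega)
      have hu : ((-1 : F)) ^ (q - 1 - e) ≠ 0 := pow_ne_zero _ (neg_ne_zero.2 one_ne_zero)
      have : ((-1 : F)) ^ (q - 1 - e) * ((e.choose (q - 1 - e) : ℕ) : F) * (-1) ≠ 0 :=
        mul_ne_zero (mul_ne_zero hu hc) (neg_ne_zero.2 one_ne_zero)
      exact this h
    · intro j hj hne
      rw [mem_range] at hj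
      have hnd : ¬ (q - 1 ∣ e + j) := by
        intro hd
        obtain ⟨c, hc⟩ := hd
        have hc1 : c = 1 := by
          rcases Nat.lt_trichotomy c 1 with h0 | h1 | h2
          · have : c = 0 := by omega
            subst this
            omega
          · exact h1
          · have : 2 * (q - 1) ≤ (q - 1) * c := by
              calc 2 * (q - 1) = (q - 1) * 2 := by ring
                _ ≤ (q - 1) * c := Nat.mul_le_mul_left _ h2
            omega
        subst hc1
        apply hne
        omega
      rw [if_neg hnd, mul_zero]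
  · intro hlt
    refine sum_eq_zero fun j hj => ?_
    rw [mem_range] at hj
    have hnd : ¬ (q - 1 ∣ e + j) := by
      intro hd
      have := Nat.le_of_dvd (by omega) hd
      omega
    rw [if_neg hnd, mul_zero]

end Fermat.Agent.S14.H24
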