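import Mathlib.NumberTheory.JacobiSum.Basic
import Mathlib.NumberTheory.MulChar.Lemmas
import Fermat.Agent.S14.H24_FiniteFieldSum

/-!
# Residues of Jacobi sums (helper24, S14 work package F)

Abstract setting: `R` a domain, `F` a finite field with a prime number `q` of elements,
`φ : R →+* F` a ring homomorphism, `ζ : R` a primitive `p`-th root of unity whose image `φ ζ`
is still a primitive `p`-th root of unity.

* `exists_residue_character`: there is a multiplicative character `χ : F → R` with `χ ^ p = 1`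
  and `φ (χ x) = x ^ ((q - 1) / p)` (the `p`-th power residue character).
* `residue_jacobiSum_eq_zero_iff`: for `0 < c < p`,
  `φ (J(χ ^ c, χ ^ c)) = 0 ↔ 2 * c < p`.
-/

namespace Fermat.Agent.S14.H24

open Finset

section Abstract

variable {R : Type*} [CommRing R] {F : Type*} [Field F] [Fintype F]

/-- If `F` contains a primitive `p`-th root of unity (`0 < p`), then `p ∣ #F - 1`. -/
theorem dvd_card_sub_one_of_isPrimitiveRoot {p : ℕ} (hp : 0 < p) {ω : F}
    (hω : IsPrimitiveRoot ω p) : p ∣ Fintype.card F - 1 := by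
  apply hω.dvd_of_pow_eq_one
  apply FiniteField.pow_card_sub_one_eq_one
  intro h0
  have h1 := hω.pow_eq_one
  rw [h0, zero_pow hp.ne'] at h1
  exact zero_ne_one h1

/-- Existence of the `p`-th power residue character attached to `φ : R →+* F`. -/
theorem exists_residue_character {p : ℕ} (hp : 0 < p) (φ : R →+* F) {ζ : R}
    (hζ : IsPrimitiveRoot ζ p) (hζ' : IsPrimitiveRoot (φ ζ) p) :
    ∃ χ : MulChar F R, χ ^ p = 1 ∧ ∀ x : F, φ (χ x) = x ^ ((Fintype.card F - 1) / p) := by
  classical
  have : NeZero p := ⟨hp.ne'⟩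
  have hdvd : p ∣ Fintype.card F - 1 := dvd_card_sub_one_of_isPrimitiveRoot hp hζ'
  set e := (Fintype.card F - 1) / p with he
  have hpe : p * e = Fintype.card F - 1 := Nat.mul_div_cancel' hdvd
  have hcard : 1 < Fintype.card F := Fintype.one_lt_card
  have he0 : 0 < e := by
    rcases Nat.eq_zero_or_pos e with h | h
    · rw [h, mul_zero] at hpe; omega
    · exact h
  obtain ⟨g, hg⟩ := IsCyclic.exists_generator (α := Fˣ)
  -- the image of the generator
  have hω : ((g ^ e : Fˣ) : F) ^ p = 1 := by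
    rw [Units.val_pow_eq_pow_val, ← pow_mul, mul_comm, hpe]
    exact FiniteField.pow_card_sub_one_eq_one _ g.ne_zero
  obtain ⟨k, -, hk⟩ := hζ'.eq_pow_of_pow_eq_one hω
  -- the root of unity `ζ ^ k` as a unit
  let ζu : Rˣ := (hζ.isUnit hp.ne').unit
  have hζu : (ζu : R) = ζ := IsUnit.unit_spec _
  have hmem : ζu ^ k ∈ rootsOfUnity (Fintype.card Fˣ) R := by
    rw [mem_rootsOfUnity, Fintype.card_units, ← hpe, ← pow_mul, mul_comm, mul_assoc, pow_mul]
    have : ζu ^ p = 1 := by
      apply Units.ext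
      rw [Units.val_pow_eq_pow_val, hζu, hζ.pow_eq_one, Units.val_one]
    rw [this, one_pow]
  refine ⟨MulChar.ofRootOfUnity hmem hg, ?_, ?_⟩
  · rw [MulChar.eq_iff hg, MulChar.pow_apply_coe, MulChar.ofRootOfUnity_spec,
      MulChar.one_apply_coe, Units.val_pow_eq_pow_val, hζu, ← pow_mul, mul_comm, pow_mul,
      hζ.pow_eq_one, one_pow]
  · intro x
    by_cases hx : x = 0
    · subst hx
      rw [MulChar.map_zero, map_zero, zero_pow he0.ne']
    · let xu : Fˣ := Units.mk0 x hx
      have key : (Units.map (φ : R →* F)).comp (MulChar.ofRootOfUnity hmem hg).toUnitHom =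
          powMonoidHom e := by
        rw [MonoidHom.eq_iff_eq_on_generator hg]
        apply Units.ext
        simp only [MonoidHom.coe_comp, Function.comp_apply, Units.coe_map, MonoidHom.coe_coe,
          MulChar.coe_toUnitHom, powMonoidHom_apply, Units.val_pow_eq_pow_val]
        rw [MulChar.ofRootOfUnity_spec, Units.val_pow_eq_pow_val, hζu, map_pow, hk,
          Units.val_pow_eq_pow_val]
      have := congrArg (fun f : Fˣ →* Fˣ => ((f xu : Fˣ) : F)) key
      simpa [xu] using this

/-- Residue of the Jacobi sum `J(χ ^ c, χ ^ c)` for a character with `φ (χ x) = x ^ e`. -/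
theorem residue_jacobiSum (φ : R →+* F) (χ : MulChar F R) (e : ℕ)
    (hχ : ∀ x : F, φ (χ x) = x ^ e) {c : ℕ} (hc : c ≠ 0) :
    φ (jacobiSum (χ ^ c) (χ ^ c)) = ∑ x : F, x ^ (c * e) * (1 - x) ^ (c * e) := by
  rw [jacobiSum, map_sum]
  refine sum_congr rfl fun x _ => ?_
  rw [map_mul, MulChar.pow_apply' χ hc, MulChar.pow_apply' χ hc, map_pow, map_pow, hχ, hχ,
    ← pow_mul, ← pow_mul, mul_comm e c]

/-- The residue criterion: for `0 < c < p`, the Jacobi sum `J(χ ^ c, χ ^ c)` of the `p`-th power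
residue character vanishes modulo the prime iff `2 * c < p`. -/
theorem residue_jacobiSum_eq_zero_iff {q : ℕ} (hq : q.Prime) (hF : Fintype.card F = q) {p : ℕ}
    (hdvd : p ∣ q - 1) (φ : R →+* F) (χ : MulChar F R)
    (hχ : ∀ x : F, φ (χ x) = x ^ ((q - 1) / p)) {c : ℕ} (hc0 : 0 < c) (hcp : c < p) :
    φ (jacobiSum (χ ^ c) (χ ^ c)) = 0 ↔ 2 * c < p := by
  have hpe : p * ((q - 1) / p) = q - 1 := Nat.mul_div_cancel' hdvd
  have hq2 : 2 ≤ q := hq.two_le
  set e := (q - 1) / p with he
  have he0 : 0 < e := by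
    rcases Nat.eq_zero_or_pos e with h | h
    · rw [h, mul_zero] at hpe; omega
    · exact h
  rw [residue_jacobiSum φ χ e hχ hc0.ne',
    sum_pow_mul_one_sub_pow_eq_zero_iff hq hF (Nat.mul_pos hc0 he0)
      (by rw [← hpe]; exact Nat.mul_lt_mul_of_pos_right hcp he0),
    ← hpe, ← mul_assoc]
  exact Nat.mul_lt_mul_right he0

/-- The powers `χ ^ c`, `0 < c < p`, of the `p`-th power residue character are nontrivial. -/
theorem residue_character_pow_ne_one {q : ℕ} (hF : Fintype.card F = q) {p : ℕ}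
    (hdvd : p ∣ q - 1) (φ : R →+* F) (χ : MulChar F R)
    (hχ : ∀ x : F, φ (χ x) = x ^ ((q - 1) / p)) {c : ℕ} (hc0 : 0 < c) (hcp : c < p) :
    χ ^ c ≠ 1 := by
  classical
  intro h1
  have hpe : p * ((q - 1) / p) = q - 1 := Nat.mul_div_cancel' hdvd
  have hq2 : 1 < q := hF ▸ Fintype.one_lt_card
  set e := (q - 1) / p with he
  have he0 : 0 < e := by
    rcases Nat.eq_zero_or_pos e with h | h
    · rw [h, mul_zero] at hpe; omega
    · exact h
  obtain ⟨g, hg⟩ := IsCyclic.exists_generator (α := Fˣ)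
  have hord : orderOf g = q - 1 := by
    rw [orderOf_eq_card_of_forall_mem_zpowers hg, Nat.card_eq_fintype_card, Fintype.card_units, hF]
  have h2 : (g : F) ^ (e * c) = 1 := by
    have := congrArg (fun ψ : MulChar F R => φ (ψ (g : F))) h1
    simp only [MulChar.pow_apply_coe, MulChar.one_apply_coe, map_pow, map_one, hχ] at this
    rw [pow_mul]; exact this
  have h3 : g ^ (e * c) = 1 := by
    apply Units.ext
    rw [Units.val_pow_eq_pow_val, h2, Units.val_one]
  have h4 := orderOf_dvd_of_pow_eq_one h3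
  rw [hord, ← hpe, mul_comm p e] at h4
  have h5 : p ∣ c := (Nat.mul_dvd_mul_iff_left he0).1 h4
  have := Nat.le_of_dvd hc0 h5
  omega

end Abstract

end Fermat.Agent.S14.H24
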