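import Fermat.Agent.S14.CrossInterfaces
import Fermat.Agent.S14.ClsLemmas

/-!
# S14, crossing: the abstract one-sided crossing `Stmt_Side` (helper24)

`Stmt_T2 → Stmt_C0 → Stmt_Side`.

Idea: the norm residue `𝔄 ↦ N𝔄 mod r` induces a homomorphism `ψ : Cl(E) → (ℤ/r)ˣ / W`
(well defined by `h1`, defined everywhere by `C0`).  By `h2` the split classes lie in `ker ψ`,
by `T2` they have index `≤ p`, and `ψ [A]` has order `p`; hence `splitClasses = ker ψ`.
-/

namespace Fermat.Agent.S14.H24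

open NumberField

section AbsNormUnder

variable {E L : Type*} [Field E] [NumberField E] [Field L] [NumberField L] [Algebra E L]

/-- A prime of `L` of prime absolute norm lies over a prime of `E` of the same norm. -/
theorem absNorm_under_of_prime (Q : Ideal (𝓞 L)) (hQ : (Ideal.absNorm Q).Prime) :
    Ideal.absNorm (Q.under (𝓞 E)) = Ideal.absNorm Q := by
  have hinj : Function.Injective
      (Ideal.quotientMap Q (algebraMap (𝓞 E) (𝓞 L)) (le_refl (Q.comap _))) :=
    Ideal.quotientMap_injective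
  have hdvd : Nat.card (𝓞 E ⧸ Q.under (𝓞 E)) ∣ Nat.card (𝓞 L ⧸ Q) :=
    AddSubgroup.card_dvd_of_injective
      (Ideal.quotientMap Q (algebraMap (𝓞 E) (𝓞 L)) (le_refl (Q.comap _))).toAddMonoidHom hinj
  have h1 : Ideal.absNorm (Q.under (𝓞 E)) ∣ Ideal.absNorm Q := by
    rw [Ideal.absNorm_apply, Ideal.absNorm_apply, Submodule.cardQuot_apply,
      Submodule.cardQuot_apply]
    exact hdvd
  rcases (Nat.dvd_prime hQ).1 h1 with h | h
  · exfalso
    rw [Ideal.absNorm_eq_one_iff] at h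
    have h2 : (1 : 𝓞 L) ∈ Q := by
      have : (1 : 𝓞 E) ∈ Q.under (𝓞 E) := by rw [h]; trivial
      rw [Ideal.under_def, Ideal.mem_comap, map_one] at this
      exact this
    have h3 : Q = ⊤ := (Ideal.eq_top_iff_one Q).2 h2
    rw [h3, Ideal.absNorm_top] at hQ
    exact Nat.not_prime_one hQ
  · exact h

end AbsNormUnder

section Nu

variable {E : Type*} [Field E] [NumberField E] (r : ℕ) [hr : Fact r.Prime]

/-- The norm residue of an ideal modulo `r`, as a unit (junk value `1` if not coprime to `r`). -/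
noncomputable def nu (I : Ideal (𝓞 E)) : (ZMod r)ˣ :=
  open Classical in
  if h : (Ideal.absNorm I).Coprime r then ZMod.unitOfCoprime _ h else 1

theorem nu_val {I : Ideal (𝓞 E)} (h : (Ideal.absNorm I).Coprime r) :
    ((nu r I : (ZMod r)ˣ) : ZMod r) = (Ideal.absNorm I : ZMod r) := by
  rw [nu, dif_pos h, ZMod.coe_unitOfCoprime]

theorem nu_mul {I J : Ideal (𝓞 E)} (hI : (Ideal.absNorm I).Coprime r)
    (hJ : (Ideal.absNorm J).Coprime r) : nu r (I * J) = nu r I * nu r J := by
  have hIJ : (Ideal.absNorm (I * J)).Coprime r := by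
    rw [map_mul]; exact Nat.Coprime.mul_left hI hJ
  apply Units.ext
  rw [Units.val_mul, nu_val r hI, nu_val r hJ, nu_val r hIJ, map_mul, Nat.cast_mul]

theorem coprime_of_unit_eq {I : Ideal (𝓞 E)} (u : (ZMod r)ˣ)
    (h : (u : ZMod r) = (Ideal.absNorm I : ZMod r)) : (Ideal.absNorm I).Coprime r := by
  rw [← ZMod.isUnit_iff_coprime, ← h]
  exact u.isUnit

theorem nu_eq_of_unit_eq {I : Ideal (𝓞 E)} (u : (ZMod r)ˣ)
    (h : (u : ZMod r) = (Ideal.absNorm I : ZMod r)) : nu r I = u :=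
  Units.ext (by rw [nu_val r (coprime_of_unit_eq r u h), h])

theorem ne_bot_of_coprime {I : Ideal (𝓞 E)} (h : (Ideal.absNorm I).Coprime r) : I ≠ ⊥ := by
  rintro rfl
  rw [Ideal.absNorm_bot, Nat.coprime_zero_left] at h
  exact hr.out.one_lt.ne' h

/-- The norm residue modulo `W` only depends on the ideal class. -/
theorem nu_div_mem (W : Subgroup (ZMod r)ˣ)
    (h1 : ∀ (y : 𝓞 E) (u : (ZMod r)ˣ),
      (u : ZMod r) = (Ideal.absNorm (Ideal.span {y}) : ZMod r) → u ∈ W)
    {I I' : Ideal (𝓞 E)} (hI : (Ideal.absNorm I).Coprime r) (hI' : (Ideal.absNorm I').Coprime r)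
    (hcls : cls I = cls I') : nu r I * (nu r I')⁻¹ ∈ W := by
  have hI0 := ne_bot_of_coprime r hI
  have hI'0 := ne_bot_of_coprime r hI'
  obtain ⟨x, y, hx, hy, hxy⟩ := (cls_eq_cls_iff hI0 hI'0).1 hcls
  set n := Ideal.absNorm I with hn
  have hnmem : (n : 𝓞 E) ∈ I := Ideal.absNorm_mem I
  obtain ⟨C, hC⟩ : I ∣ Ideal.span {(n : 𝓞 E)} :=
    Ideal.dvd_iff_le.2 ((Ideal.span_singleton_le_iff_mem _).2 hnmem)
  have hcop_span : (Ideal.absNorm (Ideal.span {(n : 𝓞 E)})).Coprime r := by
    rw [Ideal.absNorm_span_natCast]; exact Nat.Coprime.pow_left _ hI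
  have hnC : Ideal.absNorm (Ideal.span {(n : 𝓞 E)}) = Ideal.absNorm I * Ideal.absNorm C := by
    rw [hC, map_mul]
  have hCcop : (Ideal.absNorm C).Coprime r := by
    rw [hnC] at hcop_span
    exact Nat.Coprime.coprime_mul_left hcop_span
  have ha : nu r I * nu r C ∈ W := by
    rw [← nu_mul r hI hCcop, ← hC]
    exact h1 n _ (nu_val r hcop_span)
  -- `I' * C` is principal
  have hspan : Ideal.span {x * (n : 𝓞 E)} = Ideal.span {y} * (I' * C) := by
    rw [← Ideal.span_singleton_mul_span_singleton, hC, ← mul_assoc, hxy, mul_assoc]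
  have hle : Ideal.span {x * (n : 𝓞 E)} ≤ Ideal.span {y} :=
    Ideal.dvd_iff_le.1 ⟨_, hspan⟩
  obtain ⟨z, hz⟩ := Ideal.span_singleton_le_span_singleton.1 hle
  have hy0 : Ideal.span {y} ≠ (0 : Ideal (𝓞 E)) := by
    rw [Ne, Ideal.zero_eq_bot, Ideal.span_singleton_eq_bot]; exact hy
  have hprin : Ideal.span {z} = I' * C := by
    apply mul_left_cancel₀ hy0
    rw [Ideal.span_singleton_mul_span_singleton, ← hz, hspan]
  have hI'C : (Ideal.absNorm (I' * C)).Coprime r := by
    rw [map_mul]; exact Nat.Coprime.mul_left hI' hCcop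
  have hb : nu r I' * nu r C ∈ W := by
    rw [← nu_mul r hI' hCcop, ← hprin]
    exact h1 z _ (nu_val r (hprin ▸ hI'C))
  have hfin := W.mul_mem ha (W.inv_mem hb)
  have heq : nu r I * nu r C * (nu r I' * nu r C)⁻¹ = nu r I * (nu r I')⁻¹ := by
    rw [mul_inv, mul_mul_mul_comm, mul_inv_cancel, mul_one]
  rwa [heq] at hfin

end Nu

/-- The abstract one-sided crossing. -/
theorem stmt_Side (hT2 : Stmt_T2) (hC0 : Stmt_C0) : Stmt_Side := by
  intro p hp E L _ _ _ _ _ r hr W T hrT hdeg h1 h2 A B a b j ha hb haW hapW hbaW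
  classical
  have hr0 : r ≠ 0 := hr.out.ne_zero
  -- representatives prime to `r`
  choose rep hrep0 hrepc hrepcop using fun c : ClassGroup (𝓞 E) => hC0 E c r hr0
  have hψ_cls : ∀ I : Ideal (𝓞 E), (Ideal.absNorm I).Coprime r →
      (QuotientGroup.mk (nu r (rep (cls I))) : (ZMod r)ˣ ⧸ W) = QuotientGroup.mk (nu r I) := by
    intro I hI
    rw [QuotientGroup.eq, mul_comm]
    exact nu_div_mem r W h1 hI (hrepcop _) (hrepc _).symm
  let ψ : ClassGroup (𝓞 E) →* (ZMod r)ˣ ⧸ W :=
    MonoidHom.mk' (fun c => (QuotientGroup.mk (nu r (rep c)) : (ZMod r)ˣ ⧸ W)) (by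
      intro c c'
      have hcop : (Ideal.absNorm (rep c * rep c')).Coprime r := by
        rw [map_mul]; exact Nat.Coprime.mul_left (hrepcop c) (hrepcop c')
      have := hψ_cls (rep c * rep c') hcop
      rw [Fermat.Agent.S14.cls_mul (hrep0 c) (hrep0 c'), hrepc, hrepc] at this
      rw [this, nu_mul r (hrepcop c) (hrepcop c'), QuotientGroup.mk_mul])
  have hψ : ∀ I : Ideal (𝓞 E), (Ideal.absNorm I).Coprime r →
      ψ (cls I) = QuotientGroup.mk (nu r I) := hψ_cls
  -- the split classes lie in the kernel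
  have hSle : splitClasses E L T ≤ ψ.ker := by
    rw [splitClasses, Subgroup.closure_le]
    rintro c ⟨Q, hQ, hQp, hQT, rfl⟩
    have hnorm : Ideal.absNorm (Q.under (𝓞 E)) = Ideal.absNorm Q := absNorm_under_of_prime Q hQp
    have hne : Ideal.absNorm Q ≠ r := fun h => hQT (h ▸ hrT)
    have hcop : (Ideal.absNorm (Q.under (𝓞 E))).Coprime r := by
      rw [hnorm]; exact (Nat.coprime_primes hQp hr.out).2 hne
    rw [SetLike.mem_coe, MonoidHom.mem_ker, hψ _ hcop, QuotientGroup.eq_one_iff]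
    exact h2 Q hQ hQp hQT _ (by rw [nu_val r hcop, hnorm])
  -- index bounds
  have hidx : (splitClasses E L T).index ≤ p := by
    rw [← hdeg]
    exact hT2 E L (splitClasses E L T) T fun Q hQ hQp hQT =>
      Subgroup.subset_closure ⟨Q, hQ, hQp, hQT, rfl⟩
  have hAcop := coprime_of_unit_eq r a ha
  have hBcop := coprime_of_unit_eq r b hb
  have hνA : nu r A = a := nu_eq_of_unit_eq r a ha
  have hνB : nu r B = b := nu_eq_of_unit_eq r b hb
  have hψA : ψ (cls A) = QuotientGroup.mk a := by rw [hψ A hAcop, hνA]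
  have hψB : ψ (cls B) = QuotientGroup.mk b := by rw [hψ B hBcop, hνB]
  have hord : orderOf (ψ (cls A)) = p := by
    refine orderOf_eq_prime ?_ ?_
    · rw [hψA, ← QuotientGroup.mk_pow, QuotientGroup.eq_one_iff]; exact hapW
    · rw [hψA, Ne, QuotientGroup.eq_one_iff]; exact haW
  have hle : p ≤ ψ.ker.index := by
    rw [Subgroup.index_ker, ← hord]
    have hmem : ψ (cls A) ∈ ψ.range := ⟨_, rfl⟩
    have h3 : orderOf (⟨ψ (cls A), hmem⟩ : ψ.range) = orderOf (ψ (cls A)) :=
      Subgroup.orderOf_mk _ hmem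
    rw [← h3]
    exact orderOf_le_card
  have hS0 : (splitClasses E L T).index ≠ 0 := Subgroup.index_ne_zero_of_finite
  have hdvd : ψ.ker.index ∣ (splitClasses E L T).index := Subgroup.index_dvd_of_le hSle
  have hle2 : ψ.ker.index ≤ (splitClasses E L T).index :=
    Nat.le_of_dvd (Nat.pos_of_ne_zero hS0) hdvd
  have heq : (splitClasses E L T).index = ψ.ker.index := by omega
  have hrel := Subgroup.relIndex_mul_index hSle
  have hk0 : ψ.ker.index ≠ 0 := by omega
  have hrel1 : (splitClasses E L T).relIndex ψ.ker = 1 := by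
    rw [heq] at hrel
    exact (Nat.mul_eq_right hk0).1 hrel
  have hker_le : ψ.ker ≤ splitClasses E L T := Subgroup.relIndex_eq_one.1 hrel1
  apply hker_le
  rw [MonoidHom.mem_ker, map_mul, map_inv, map_pow, hψA, hψB, ← QuotientGroup.mk_pow,
    ← QuotientGroup.mk_inv, ← QuotientGroup.mk_mul, QuotientGroup.eq_one_iff]
  exact hbaW

end Fermat.Agent.S14.H24
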