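import Mathlib.NumberTheory.NumberField.Cyclotomic.Galois
import Mathlib.RingTheory.Ideal.Norm.AbsNorm
import Mathlib.RingTheory.ClassGroup.Basic
import Fermat.Agent.S14.H24_JacobiResidue

/-!
# Stickelberger's theorem for Jacobi sums in `ℚ(ζ_p)` (helper24, S14 work package F)

Let `p` be an odd prime, `K = ℚ(ζ_p)`, `𝔮` a prime of `𝓞 K` of absolute norm a prime `q ≠ p`.
For `σ ∈ Gal(K/ℚ)` write `t(σ) ∈ {1, …, p - 1}` for the exponent with `σ ζ = ζ ^ t(σ)`.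
Then
  `∏_{σ : p < 2 t(σ)} σ⁻¹ • 𝔮 = (J)`,
where `J = J(χ⁻¹, χ⁻¹)` is the Jacobi sum of the inverse of the `p`-th power residue character
`χ` modulo `𝔮`.  In particular the product is principal.
-/

namespace Fermat.Agent.S14.H24

open Finset NumberField IsCyclotomicExtension IsCyclotomicExtension.Rat
open scoped Pointwise

section Norm

variable {K : Type*} [Field K] [NumberField K]

/-- The absolute norm is invariant under the Galois action on ideals. -/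
theorem absNorm_galois_smul (σ : Gal(K/ℚ)) (I : Ideal (𝓞 K)) :
    Ideal.absNorm (σ • I) = Ideal.absNorm I := by
  rw [Ideal.absNorm_apply, Ideal.absNorm_apply, Submodule.cardQuot_apply,
    Submodule.cardQuot_apply]
  refine (Nat.card_congr (Ideal.quotientEquiv I (σ • I)
    (MulSemiringAction.toRingAut Gal(K/ℚ) (𝓞 K) σ) ?_).toEquiv).symm
  rfl

end Norm

section Galois

variable (p : ℕ) [hp : Fact p.Prime] (K : Type*) [Field K] [NumberField K]
  [hK : IsCyclotomicExtension {p} ℚ K]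

/-- The exponent `t(σ)` with `σ ζ = ζ ^ t(σ)`, as a natural number in `{1, …, p - 1}`. -/
noncomputable def galExp (σ : Gal(K/ℚ)) : ℕ := (galEquivZMod p K σ).val.val

theorem galExp_pos (σ : Gal(K/ℚ)) : 0 < galExp p K σ := by
  rw [galExp, Nat.pos_iff_ne_zero, Ne, ZMod.val_eq_zero]
  exact (galEquivZMod p K σ).ne_zero

theorem galExp_lt (σ : Gal(K/ℚ)) : galExp p K σ < p := ZMod.val_lt _

variable {F : Type*} [Field F] [Fintype F]

/-- Galois action on Jacobi sums of characters of order dividing `p`. -/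
theorem galois_smul_jacobiSum (σ : Gal(K/ℚ)) (ψ : MulChar F (𝓞 K)) (hψ : ψ ^ p = 1) :
    σ • jacobiSum ψ ψ = jacobiSum (ψ ^ galExp p K σ) (ψ ^ galExp p K σ) := by
  have ht := (galExp_pos p K σ).ne'
  have key : ∀ x : F, σ • ψ x = (ψ ^ galExp p K σ) x := by
    intro x
    rw [MulChar.pow_apply' ψ ht]
    by_cases hx : x = 0
    · subst hx
      rw [MulChar.map_zero, smul_zero, zero_pow ht]
    · have h1 : (ψ x) ^ p = 1 := by
        rw [← MulChar.pow_apply' ψ hp.out.ne_zero, hψ]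
        exact MulChar.one_apply (isUnit_iff_ne_zero.2 hx)
      exact galEquivZMod_smul_of_pow_eq p K σ h1
  rw [jacobiSum, jacobiSum, Finset.smul_sum]
  refine sum_congr rfl fun x _ => ?_
  rw [smul_mul', key, key]

end Galois

section Main

variable (p : ℕ) [hp : Fact p.Prime] (K : Type*) [Field K] [NumberField K]
  [hK : IsCyclotomicExtension {p} ℚ K]

/-- The stabilizer of a degree-one prime `𝔮` (of norm `q ≠ p`) in `Gal(ℚ(ζ_p)/ℚ)` is trivial. -/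
theorem galois_smul_eq_self_imp (𝔮 : Ideal (𝓞 K)) {q : ℕ} (hq : q.Prime) (hqp : q ≠ p)
    (hN : Ideal.absNorm 𝔮 = q) (ρ : Gal(K/ℚ)) (hρ : ρ • 𝔮 = 𝔮) : ρ = 1 := by
  classical
  have hqI : Irreducible (Ideal.absNorm 𝔮) := by rw [hN]; exact hq
  have h𝔮p : 𝔮.IsPrime := Ideal.isPrime_of_irreducible_absNorm hqI
  have h𝔮0 : 𝔮 ≠ ⊥ := by
    rintro rfl
    rw [Ideal.absNorm_bot] at hN
    exact hq.ne_zero hN.symm
  have h𝔮m : 𝔮.IsMaximal := h𝔮p.isMaximal h𝔮0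
  let _ : Field (𝓞 K ⧸ 𝔮) := Ideal.Quotient.field 𝔮
  have hfin : Finite (𝓞 K ⧸ 𝔮) := (Ideal.absNorm_ne_zero_iff 𝔮).1 (by rw [hN]; exact hq.ne_zero)
  let _ : Fintype (𝓞 K ⧸ 𝔮) := Fintype.ofFinite _
  have hF : Fintype.card (𝓞 K ⧸ 𝔮) = q := by
    rw [← Nat.card_eq_fintype_card, ← hN]; rfl
  have hζ := (zeta_spec p ℚ K).toInteger_isPrimitiveRoot
  have hcop : (Ideal.absNorm 𝔮).Coprime p := by
    rw [hN]; exact (Nat.coprime_primes hq hp.out).2 hqp
  have hζ' : IsPrimitiveRoot (Ideal.Quotient.mk 𝔮 (zeta_spec p ℚ K).toInteger) p :=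
    hζ.idealQuotient_mk (by rw [hN]; exact hq.one_lt.ne') hcop
  -- every element of `𝓞 K` is congruent to an integer mod `𝔮`
  have hint : ∀ x : 𝓞 K, ∃ n : ℕ, x - (n : 𝓞 K) ∈ 𝔮 := by
    intro x
    have : Fact q.Prime := ⟨hq⟩
    have : CharP (𝓞 K ⧸ 𝔮) q := charP_of_card_eq_prime hF
    have hbij := ZMod.castHom_bijective (𝓞 K ⧸ 𝔮) hF
    obtain ⟨a, ha⟩ := hbij.2 (Ideal.Quotient.mk 𝔮 x)
    refine ⟨a.val, ?_⟩
    rw [← Ideal.Quotient.eq_zero_iff_mem, map_sub, map_natCast, ← ha, sub_eq_zero]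
    rw [← ZMod.natCast_zmod_val a, map_natCast]
    simp
  -- hence `ρ` acts trivially on the residue field
  have htriv : ∀ x : 𝓞 K, ρ • x - x ∈ 𝔮 := by
    intro x
    obtain ⟨n, hn⟩ := hint x
    have h1 : ρ • (x - (n : 𝓞 K)) ∈ 𝔮 := by
      have := Ideal.smul_mem_pointwise_smul ρ _ 𝔮 hn
      rwa [hρ] at this
    have h2 : ρ • (x - (n : 𝓞 K)) = ρ • x - (n : 𝓞 K) := by
      rw [smul_sub]
      congr 1
      exact map_natCast (MulSemiringAction.toRingHom Gal(K/ℚ) (𝓞 K) ρ) n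
    rw [h2] at h1
    have := 𝔮.sub_mem h1 hn
    simpa using this
  have h3 := htriv (zeta_spec p ℚ K).toInteger
  rw [galEquivZMod_smul_of_pow_eq p K ρ hζ.pow_eq_one, ← Ideal.Quotient.eq_zero_iff_mem, map_sub,
    map_pow, sub_eq_zero] at h3
  have h4 : (Ideal.Quotient.mk 𝔮 (zeta_spec p ℚ K).toInteger) ^ (galEquivZMod p K ρ).val.val =
      (Ideal.Quotient.mk 𝔮 (zeta_spec p ℚ K).toInteger) ^ 1 := by rw [h3, pow_one]
  have h5 := hζ'.pow_inj (ZMod.val_lt _) hp.out.one_lt h4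
  apply (galEquivZMod p K).injective
  rw [map_one]
  apply Units.ext
  rw [Units.val_one, ← ZMod.natCast_zmod_val (galEquivZMod p K ρ).val, h5, Nat.cast_one]

/-- The two Jacobi sums `J = J(χ⁻¹, χ⁻¹)`, `J' = J(χ, χ)` attached to a degree-one prime `𝔮`,
with `J * J' = q` and the description of the conjugates of `𝔮` containing them. -/
theorem exists_jacobi_pair (hp2 : p ≠ 2) (𝔮 : Ideal (𝓞 K)) {q : ℕ} (hq : q.Prime) (hqp : q ≠ p)
    (hN : Ideal.absNorm 𝔮 = q) :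
    ∃ J J' : 𝓞 K, J * J' = (q : 𝓞 K) ∧
      (∀ σ : Gal(K/ℚ), J ∈ σ⁻¹ • 𝔮 ↔ p < 2 * galExp p K σ) ∧
      (∀ σ : Gal(K/ℚ), J' ∈ σ⁻¹ • 𝔮 ↔ 2 * galExp p K σ < p) := by
  classical
  have hp3 : 3 ≤ p := by
    have := hp.out.two_le
    omega
  have hqI : Irreducible (Ideal.absNorm 𝔮) := by rw [hN]; exact hq
  have h𝔮p : 𝔮.IsPrime := Ideal.isPrime_of_irreducible_absNorm hqI
  have h𝔮0 : 𝔮 ≠ ⊥ := by
    rintro rfl
    rw [Ideal.absNorm_bot] at hN
    exact hq.ne_zero hN.symm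
  have h𝔮m : 𝔮.IsMaximal := h𝔮p.isMaximal h𝔮0
  let _ : Field (𝓞 K ⧸ 𝔮) := Ideal.Quotient.field 𝔮
  have hfin : Finite (𝓞 K ⧸ 𝔮) := (Ideal.absNorm_ne_zero_iff 𝔮).1 (by rw [hN]; exact hq.ne_zero)
  let _ : Fintype (𝓞 K ⧸ 𝔮) := Fintype.ofFinite _
  have hF : Fintype.card (𝓞 K ⧸ 𝔮) = q := by
    rw [← Nat.card_eq_fintype_card, ← hN]; rfl
  have hζ := (zeta_spec p ℚ K).toInteger_isPrimitiveRoot
  have hcop : (Ideal.absNorm 𝔮).Coprime p := by
    rw [hN]; exact (Nat.coprime_primes hq hp.out).2 hqp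
  have hζ' : IsPrimitiveRoot (Ideal.Quotient.mk 𝔮 (zeta_spec p ℚ K).toInteger) p :=
    hζ.idealQuotient_mk (by rw [hN]; exact hq.one_lt.ne') hcop
  have hdvd : p ∣ q - 1 := hF ▸ dvd_card_sub_one_of_isPrimitiveRoot hp.out.pos hζ'
  obtain ⟨χ, hχp, hχ⟩ := exists_residue_character hp.out.pos (Ideal.Quotient.mk 𝔮) hζ hζ'
  rw [hF] at hχ
  have crit : ∀ c : ℕ, 0 < c → c < p → (jacobiSum (χ ^ c) (χ ^ c) ∈ 𝔮 ↔ 2 * c < p) := by
    intro c hc0 hcp
    rw [← Ideal.Quotient.eq_zero_iff_mem]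
    exact residue_jacobiSum_eq_zero_iff hq hF hdvd (Ideal.Quotient.mk 𝔮) χ hχ hc0 hcp
  have hne : ∀ c : ℕ, 0 < c → c < p → χ ^ c ≠ 1 := fun c hc0 hcp =>
    residue_character_pow_ne_one hF hdvd (Ideal.Quotient.mk 𝔮) χ hχ hc0 hcp
  refine ⟨jacobiSum (χ ^ (p - 1)) (χ ^ (p - 1)), jacobiSum χ χ, ?_, ?_, ?_⟩
  · -- the product formula, proved in `K`
    have hinj : Function.Injective (algebraMap (𝓞 K) K) := RingOfIntegers.coe_injective
    apply hinj
    have hχ1 : χ ≠ 1 := by simpa using hne 1 one_pos (by omega)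
    have hχ2 : χ * χ ≠ 1 := by simpa [pow_two] using hne 2 (by omega) (by omega)
    have hinv : χ⁻¹ = χ ^ (p - 1) := by
      rw [inv_eq_iff_eq_inv, eq_inv_iff_mul_eq_one, ← pow_succ', Nat.sub_add_cancel (by omega)]
      exact hχp
    have hchar : ringChar K ≠ ringChar (𝓞 K ⧸ 𝔮) := by
      have : Fact q.Prime := ⟨hq⟩
      have : CharP (𝓞 K ⧸ 𝔮) q := charP_of_card_eq_prime hF
      rw [ringChar.eq_zero, ringChar.eq (𝓞 K ⧸ 𝔮) q]
      exact hq.ne_zero.symm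
    have key := jacobiSum_mul_jacobiSum_inv hchar
      (χ := χ.ringHomComp (algebraMap (𝓞 K) K)) (φ := χ.ringHomComp (algebraMap (𝓞 K) K))
      ((MulChar.ringHomComp_ne_one_iff hinj).2 hχ1) ((MulChar.ringHomComp_ne_one_iff hinj).2 hχ1)
      (by rw [← MulChar.ringHomComp_mul]; exact (MulChar.ringHomComp_ne_one_iff hinj).2 hχ2)
    rw [MulChar.ringHomComp_inv, hinv, jacobiSum_ringHomComp, jacobiSum_ringHomComp, hF] at key
    rw [map_mul, map_natCast, mul_comm]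
    exact key
  · intro σ
    have ht0 := galExp_pos p K σ
    have htp := galExp_lt p K σ
    rw [Ideal.mem_inv_pointwise_smul_iff,
      galois_smul_jacobiSum p K σ (χ ^ (p - 1)) (by rw [← pow_mul, mul_comm, pow_mul, hχp, one_pow])]
    have hpow : (χ ^ (p - 1)) ^ galExp p K σ = χ ^ (p - galExp p K σ) := by
      have h1 : (p - 1) * galExp p K σ = p * (galExp p K σ - 1) + (p - galExp p K σ) := by
        obtain ⟨t, ht⟩ : ∃ t, galExp p K σ = t + 1 := ⟨galExp p K σ - 1, by omega⟩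
        obtain ⟨r, hr⟩ : ∃ r, p = t + 1 + r := ⟨p - (t + 1), by omega⟩
        rw [ht, hr]
        have e1 : t + 1 + r - 1 = t + r := by omega
        have e2 : t + 1 - 1 = t := by omega
        have e3 : t + 1 + r - (t + 1) = r := by omega
        rw [e1, e2, e3]
        ring
      rw [← pow_mul, h1, pow_add, pow_mul, hχp, one_pow, one_mul]
    rw [hpow, crit _ (by omega) (by omega)]
    omega
  · intro σ
    have ht0 := galExp_pos p K σ
    have htp := galExp_lt p K σ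
    rw [Ideal.mem_inv_pointwise_smul_iff, galois_smul_jacobiSum p K σ χ hχp, crit _ ht0 htp]

/-- **Stickelberger's theorem for Jacobi sums** in `ℚ(ζ_p)`: for a degree-one prime `𝔮` of norm
`q ≠ p`, the product of the conjugates `σ⁻¹ • 𝔮` over the `σ` with `p/2 < t(σ) < p`
(`σ ζ = ζ ^ t(σ)`) is the principal ideal generated by a Jacobi sum. -/
theorem stickelberger_jacobi (hp2 : p ≠ 2) (𝔮 : Ideal (𝓞 K)) {q : ℕ} (hq : q.Prime) (hqp : q ≠ p)
    (hN : Ideal.absNorm 𝔮 = q) :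
    ∃ J : 𝓞 K, Ideal.span {J} =
      ∏ σ ∈ (univ : Finset Gal(K/ℚ)).filter (fun σ => p < 2 * galExp p K σ), σ⁻¹ • 𝔮 := by
  classical
  obtain ⟨J, J', hJJ', hJ, hJ'⟩ := exists_jacobi_pair p K hp2 𝔮 hq hqp hN
  refine ⟨J, ?_⟩
  have hodd : ∀ σ : Gal(K/ℚ), ¬ (p < 2 * galExp p K σ) → 2 * galExp p K σ < p := by
    intro σ h
    rcases hp.out.eq_two_or_odd with h2 | h2
    · exact absurd h2 hp2
    · omega
  -- the conjugates of `𝔮`
  have hnorm : ∀ σ : Gal(K/ℚ), Ideal.absNorm (σ⁻¹ • 𝔮) = q := fun σ => by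
    rw [absNorm_galois_smul, hN]
  have hmax : ∀ σ : Gal(K/ℚ), (σ⁻¹ • 𝔮).IsMaximal := by
    intro σ
    have h1 : (σ⁻¹ • 𝔮).IsPrime :=
      Ideal.isPrime_of_irreducible_absNorm (by rw [hnorm]; exact hq)
    refine h1.isMaximal ?_
    intro h0
    have := hnorm σ
    rw [h0, Ideal.absNorm_bot] at this
    exact hq.ne_zero this.symm
  have hinj : ∀ σ τ : Gal(K/ℚ), σ⁻¹ • 𝔮 = τ⁻¹ • 𝔮 → σ = τ := by
    intro σ τ h
    have h1 : (σ * τ⁻¹) • 𝔮 = 𝔮 := by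
      rw [mul_smul, ← h, smul_inv_smul]
    have h2 := galois_smul_eq_self_imp p K 𝔮 hq hqp hN _ h1
    exact mul_inv_eq_one.1 h2
  have hcop : ∀ s : Finset Gal(K/ℚ),
      (s : Set Gal(K/ℚ)).Pairwise (Function.onFun IsCoprime fun σ : Gal(K/ℚ) => σ⁻¹ • 𝔮) := by
    intro s σ _ τ _ hne
    rw [Function.onFun, Ideal.isCoprime_iff_sup_eq]
    exact Ideal.IsMaximal.coprime_of_ne (hmax σ) (hmax τ) fun h => hne (hinj σ τ h)
  set s := (univ : Finset Gal(K/ℚ)).filter (fun σ => p < 2 * galExp p K σ) with hs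
  set s' := (univ : Finset Gal(K/ℚ)).filter (fun σ => ¬ (p < 2 * galExp p K σ)) with hs'
  have hle : Ideal.span {J} ≤ ∏ σ ∈ s, σ⁻¹ • 𝔮 := by
    rw [Ideal.prod_eq_iInf_of_pairwise_isCoprime (hcop s)]
    refine le_iInf₂ fun σ hσ => ?_
    rw [Ideal.span_singleton_le_iff_mem, hJ]
    exact (mem_filter.1 hσ).2
  have hle' : Ideal.span {J'} ≤ ∏ σ ∈ s', σ⁻¹ • 𝔮 := by
    rw [Ideal.prod_eq_iInf_of_pairwise_isCoprime (hcop s')]
    refine le_iInf₂ fun σ hσ => ?_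
    rw [Ideal.span_singleton_le_iff_mem, hJ']
    exact hodd σ (mem_filter.1 hσ).2
  obtain ⟨A, hA⟩ := Ideal.dvd_iff_le.2 hle
  obtain ⟨A', hA'⟩ := Ideal.dvd_iff_le.2 hle'
  -- compare norms
  have hG : IsGalois ℚ K := IsCyclotomicExtension.isGalois {p} ℚ K
  have hcard : Fintype.card Gal(K/ℚ) = Module.finrank ℤ (𝓞 K) := by
    rw [RingOfIntegers.rank, ← IsGalois.card_aut_eq_finrank, Nat.card_eq_fintype_card]
  have hprod : (∏ σ ∈ s, σ⁻¹ • 𝔮) * (∏ σ ∈ s', σ⁻¹ • 𝔮) = ∏ σ : Gal(K/ℚ), σ⁻¹ • 𝔮 :=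
    Finset.prod_filter_mul_prod_filter_not _ _ _
  have hn1 : Ideal.absNorm (Ideal.span {J} * Ideal.span {J'}) = q ^ Module.finrank ℤ (𝓞 K) := by
    rw [Ideal.span_singleton_mul_span_singleton, hJJ', Ideal.absNorm_span_natCast]
  have hn2 : Ideal.absNorm (Ideal.span {J} * Ideal.span {J'}) =
      q ^ Module.finrank ℤ (𝓞 K) * (Ideal.absNorm A * Ideal.absNorm A') := by
    rw [hA, hA', mul_mul_mul_comm, hprod, map_mul, map_mul, map_prod]
    simp only [hnorm, Finset.prod_const, Finset.card_univ, hcard]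
  have hn3 : Ideal.absNorm A * Ideal.absNorm A' = 1 := by
    have h := hn1.symm.trans hn2
    have hpos : 0 < q ^ Module.finrank ℤ (𝓞 K) := pow_pos hq.pos _
    exact (Nat.eq_of_mul_eq_mul_left hpos (by rw [mul_one]; exact h)).symm
  have hA1 : A = ⊤ := by
    rw [← Ideal.absNorm_eq_one_iff]
    exact Nat.eq_one_of_mul_eq_one_right hn3
  rw [hA, hA1, Ideal.mul_top]

/-- Principal-ideal form of `stickelberger_jacobi`. -/
theorem stickelberger_isPrincipal (hp2 : p ≠ 2) (𝔮 : Ideal (𝓞 K)) {q : ℕ} (hq : q.Prime)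
    (hqp : q ≠ p) (hN : Ideal.absNorm 𝔮 = q) :
    (∏ σ ∈ (univ : Finset Gal(K/ℚ)).filter (fun σ => p < 2 * galExp p K σ),
      σ⁻¹ • 𝔮).IsPrincipal := by
  obtain ⟨J, hJ⟩ := stickelberger_jacobi p K hp2 𝔮 hq hqp hN
  exact ⟨⟨J, hJ.symm⟩⟩

end Main

end Fermat.Agent.S14.H24
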