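import Fermat.Agent.S14.Interfaces
import Fermat.Agent.S14.H24_StickelbergerJacobi

/-!
# S14 work package F: proof of `Stmt_Stick` (helper24)

Glue between `Fermat.Agent.S14.H24.stickelberger_jacobi` and the interface `Stmt_Stick`.
-/

namespace Fermat.Agent.S14.H24

open Finset NumberField IsCyclotomicExtension IsCyclotomicExtension.Rat
open scoped Pointwise

section Cls

variable {R : Type*} [CommRing R] [IsDedekindDomain R]

theorem cls_of_ne_bot {I : Ideal R} (h : I ≠ ⊥) :
    cls I = ClassGroup.mk0 ⟨I, mem_nonZeroDivisors_of_ne_zero h⟩ := by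
  rw [cls, dif_neg h]

theorem cls_mul {I J : Ideal R} (hI : I ≠ ⊥) (hJ : J ≠ ⊥) : cls (I * J) = cls I * cls J := by
  have hIJ : I * J ≠ ⊥ := mul_ne_zero hI hJ
  rw [cls_of_ne_bot hI, cls_of_ne_bot hJ, cls_of_ne_bot hIJ, ← map_mul]
  rfl

theorem cls_prod {ι : Type*} (s : Finset ι) (f : ι → Ideal R) (hf : ∀ i ∈ s, f i ≠ ⊥) :
    cls (∏ i ∈ s, f i) = ∏ i ∈ s, cls (f i) := by
  classical
  induction s using Finset.induction_on with
  | empty =>
    rw [prod_empty, prod_empty, cls_of_ne_bot (by rw [Ideal.one_eq_top]; exact top_ne_bot)]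
    exact map_one _
  | insert a s ha ih =>
    rw [prod_insert ha, prod_insert ha, cls_mul (hf a (mem_insert_self a s))
      (by
        rw [← Ideal.zero_eq_bot, Finset.prod_ne_zero_iff]
        exact fun i hi => hf i (mem_insert_of_mem hi)),
      ih fun i hi => hf i (mem_insert_of_mem hi)]

theorem cls_span_singleton (x : R) : cls (Ideal.span {x}) = 1 := by
  by_cases h : Ideal.span {x} = ⊥
  · rw [cls, dif_pos h]
  · rw [cls_of_ne_bot h, ClassGroup.mk0_eq_one_iff]
    exact ⟨⟨x, rfl⟩⟩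

end Cls

/-- Package F: the Stickelberger relation in the class group of `ℚ(ζ_p)`. -/
theorem stmt_Stick : Stmt_Stick := by
  intro p hp K _ _ hK hp2 ζ hζ 𝔮 _ hqprime hpq σ hσ
  classical
  set q := Ideal.absNorm 𝔮 with hqdef
  have hqp : q ≠ p := by
    intro h
    exact hpq (h ▸ dvd_refl _)
  obtain ⟨J, hJ⟩ := stickelberger_jacobi p K hp2 𝔮 hqprime hqp rfl
  have hpodd : p % 2 = 1 := by
    rcases hp.out.eq_two_or_odd with h2 | h2
    · exact absurd h2 hp2
    · exact h2
  -- `galExp (σ t) = t`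
  have hexp : ∀ t ∈ Finset.Ioo (p / 2) p, galExp p K (σ t) = t := by
    intro t ht
    rw [Finset.mem_Ioo] at ht
    have h1 := galEquivZMod_apply_of_pow_eq p K (σ t) hζ.pow_eq_one
    rw [hσ t (Finset.mem_Ioo.2 ht)] at h1
    exact (hζ.pow_inj (galExp_lt p K (σ t)) ht.2 h1.symm)
  have h𝔮0 : 𝔮 ≠ ⊥ := by
    rintro rfl
    rw [hqdef, Ideal.absNorm_bot] at hqprime
    exact Nat.not_prime_zero hqprime
  have hne : ∀ τ : Gal(K/ℚ), τ⁻¹ • 𝔮 ≠ ⊥ := by
    intro τ h
    apply h𝔮0
    have := congrArg (fun I => τ • I) h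
    simpa using this
  -- reindex the product
  have hbij : ∏ t ∈ Finset.Ioo (p / 2) p, cls ((σ t)⁻¹ • 𝔮) =
      ∏ τ ∈ (univ : Finset Gal(K/ℚ)).filter (fun τ => p < 2 * galExp p K τ), cls (τ⁻¹ • 𝔮) := by
    refine Finset.prod_bij (fun t _ => σ t) ?_ ?_ ?_ ?_
    · intro t ht
      rw [mem_filter]
      refine ⟨mem_univ _, ?_⟩
      rw [hexp t ht]
      rw [Finset.mem_Ioo] at ht
      omega
    · intro t ht t' ht' h
      rw [← hexp t ht, ← hexp t' ht', h]
    · intro τ hτ
      rw [mem_filter] at hτ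
      have hlt := galExp_lt p K τ
      have hmem : galExp p K τ ∈ Finset.Ioo (p / 2) p := by
        rw [Finset.mem_Ioo]
        omega
      refine ⟨galExp p K τ, hmem, ?_⟩
      have h1 := hexp _ hmem
      apply (galEquivZMod p K).injective
      apply Units.ext
      apply ZMod.val_injective
      exact h1
    · intro t ht
      rfl
  rw [hbij, ← cls_prod _ _ (fun τ _ => hne τ), ← hJ, cls_span_singleton]

end Fermat.Agent.S14.H24
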