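import Fermat.Agent.S14.SideDefs

/-!
# S14, crossing, sub-package SN-c

The norm of a prime of `LL` of absolute degree one (different from `r`) lies in `⟨u ^ p⟩`
modulo `r`: Frobenius of `N/LL` at a prime above.
-/

namespace Fermat.Agent.S14.H31

open NumberField Fermat.Agent.S14 Fermat.Agent.S14.Side

/-- In a group of prime order `p`, a power `τ ^ k` of a nontrivial element is trivial only if
`p ∣ k`. -/
lemma dvd_of_zpow_eq_one {G : Type*} [Group G] [Finite G] {p : ℕ} (hp : p.Prime)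
    (hcard : Nat.card G = p) {τ : G} (hτ : τ ≠ 1) {k : ℤ} (hk : τ ^ k = 1) : (p : ℤ) ∣ k := by
  have h1 : orderOf τ ∣ p := hcard ▸ orderOf_dvd_natCard τ
  have h2 : orderOf τ = p := by
    rcases (Nat.dvd_prime hp).mp h1 with h | h
    · exact absurd (orderOf_eq_one_iff.mp h) hτ
    · exact h
  rw [← h2]
  exact orderOf_dvd_iff_zpow_eq_one.mpr hk

/-- `u ^ k ∈ ⟨u ^ p⟩` when `p ∣ k`. -/
lemma zpow_mem_zpowers_pow {G : Type*} [Group G] (u : G) {p : ℕ} {k : ℤ} (h : (p : ℤ) ∣ k) :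
    u ^ k ∈ Subgroup.zpowers (u ^ p) := by
  obtain ⟨m, rfl⟩ := h
  refine ⟨m, ?_⟩
  simp only
  rw [zpow_mul, zpow_natCast]

/-- **SN-c**. -/
theorem stmt_SNc : Stmt_SNc := by
  intro p _ K M N _ _ _ _ _ _ _ _ _ _ _ _ _ r _ χ ζ I Q τ u hyp Q' hQ'prime hQ'norm hQ'r v hv
  classical
  have hp : p.Prime := Fact.out
  have hr : r.Prime := Fact.out
  set ℓ : ℕ := Ideal.absNorm Q' with hℓ
  have hℓr : ℓ ≠ r := by simpa using hQ'r
  -- `Q'` is a nonzero prime, hence maximal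
  have hQ'ne : Q' ≠ ⊥ := by
    rintro rfl
    rw [hℓ, Ideal.absNorm_bot] at hQ'norm
    exact Nat.not_prime_zero hQ'norm
  have hQ'max : Q'.IsMaximal := hQ'prime.isMaximal hQ'ne
  -- a prime of `N` above `Q'`
  obtain ⟨𝔓, h𝔓max, h𝔓over⟩ :=
    Ideal.exists_maximal_ideal_liesOver_of_isIntegral (S := 𝓞 N) Q'
  have h𝔓prime : 𝔓.IsPrime := h𝔓max.isPrime
  have h𝔓under : 𝔓.under (𝓞 (LL K M N χ τ u)) = Q' := h𝔓over.over.symm
  have h𝔓ne : 𝔓 ≠ ⊥ := by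
    intro h
    apply hQ'ne
    rw [← h𝔓under, h]
    exact Ideal.under_bot _ _
  have : Finite (𝓞 N ⧸ 𝔓) := Ideal.finiteQuotientOfFreeOfNeBot 𝔓 h𝔓ne
  -- the Frobenius
  set φ : N ≃ₐ[LL K M N χ τ u] N := arithFrobAt (𝓞 (LL K M N χ τ u)) (N ≃ₐ[LL K M N χ τ u] N) 𝔓
    with hφdef
  have hφ : IsArithFrobAt (𝓞 (LL K M N χ τ u)) φ 𝔓 := IsArithFrobAt.arithFrobAt _ _ _
  -- `ℓ ∈ 𝔓` and `r ∉ 𝔓`
  have hℓmem : ((ℓ : ℕ) : 𝓞 N) ∈ 𝔓 := by
    have h1 : ((ℓ : ℕ) : 𝓞 (LL K M N χ τ u)) ∈ Q' := Ideal.absNorm_mem Q'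
    have h2 : algebraMap (𝓞 (LL K M N χ τ u)) (𝓞 N) ((ℓ : ℕ) : 𝓞 (LL K M N χ τ u)) ∈ 𝔓 := by
      rw [← Ideal.mem_comap]
      have : 𝔓.comap (algebraMap (𝓞 (LL K M N χ τ u)) (𝓞 N)) = Q' := h𝔓under
      rw [this]
      exact h1
    simpa using h2
  have hrmem : ((r : ℕ) : 𝓞 N) ∉ 𝔓 := by
    intro h
    have hcop : Nat.Coprime ℓ r := (Nat.coprime_primes hQ'norm hr).mpr hℓr
    have h1 : ((1 : ℕ) : 𝓞 N) ∈ 𝔓 := by
      have hb := Nat.gcd_eq_gcd_ab ℓ r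
      rw [hcop.gcd_eq_one] at hb
      have h2 : ((1 : ℤ) : 𝓞 N) = ((ℓ : ℤ) : 𝓞 N) * ((Nat.gcdA ℓ r : ℤ) : 𝓞 N) +
          ((r : ℤ) : 𝓞 N) * ((Nat.gcdB ℓ r : ℤ) : 𝓞 N) := by
        rw [← Int.cast_mul, ← Int.cast_mul, ← Int.cast_add]
        exact_mod_cast congrArg (fun z : ℤ ↦ (z : 𝓞 N)) hb
      have h3 : ((1 : ℤ) : 𝓞 N) ∈ 𝔓 := by
        rw [h2]
        refine 𝔓.add_mem (𝔓.mul_mem_right _ ?_) (𝔓.mul_mem_right _ ?_)
        · simpa using hℓmem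
        · simpa using h
      simpa using h3
    exact h𝔓prime.ne_top ((Ideal.eq_top_iff_one 𝔓).mpr (by simpa using h1))
  -- the root of unity as an integer of `N`
  have : NeZero r := ⟨hr.ne_zero⟩
  set ζ' : 𝓞 N := hyp.hζ.toInteger with hζ'def
  have hζ'coe : (ζ' : N) = ζ := hyp.hζ.coe_toInteger
  have hζ'pow : ζ' ^ r = 1 := hyp.hζ.toInteger_isPrimitiveRoot.pow_eq_one
  -- `φ ζ = ζ ^ ℓ`
  have hcard : Nat.card (𝓞 (LL K M N χ τ u) ⧸ 𝔓.under (𝓞 (LL K M N χ τ u))) = ℓ := by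
    rw [h𝔓under, hℓ, Ideal.absNorm_apply, Submodule.cardQuot_apply]
  have hfrob : φ • ζ' = ζ' ^ ℓ := by
    have := hφ.apply_of_pow_eq_one hζ'pow hrmem
    rw [hcard] at this
    exact this
  have hfrobN : φ ζ = ζ ^ ℓ := by
    have h1 := congrArg (fun x : 𝓞 N ↦ (x : N)) hfrob
    simp only [map_pow, hζ'coe] at h1
    rw [← h1, ← hζ'coe]
    rfl
  -- `φ` as an element of `Gal(N/K)`
  have hfix : ∀ x : N, x ∈ LL K M N χ τ u → φ x = x := fun x hx ↦ φ.commutes ⟨x, hx⟩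
  have hcomm : ∀ x : K, φ.toRingEquiv (algebraMap K N x) = algebraMap K N x := by
    intro x
    have hmemE : algebraMap K N x ∈ EE K M N χ τ u := (EE K M N χ τ u).algebraMap_mem x
    have hmemL : algebraMap K N x ∈ LL K M N χ τ u :=
      (LL K M N χ τ u).algebraMap_mem ⟨algebraMap K N x, hmemE⟩
    exact hfix _ hmemL
  set φK : N ≃ₐ[K] N := AlgEquiv.ofRingEquiv (f := φ.toRingEquiv) hcomm with hφK
  have hφKapp : ∀ x : N, φK x = φ x := fun x ↦ rfl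
  have hmem : φK ∈ HH K M N χ τ u ⊓ (resN K M N).ker := by
    rw [← IntermediateField.fixingSubgroup_fixedField (HH K M N χ τ u ⊓ (resN K M N).ker)]
    rw [IntermediateField.mem_fixingSubgroup_iff]
    intro x hx
    have hx' : x ∈ LL K M N χ τ u := by
      rw [IntermediateField.mem_extendScalars]
      exact hx
    rw [hφKapp]
    exact hfix x hx'
  obtain ⟨hHH, hker⟩ := hmem
  -- unpack membership in `HH`
  have hHH' : ((resN K M N) φK, χ φK) ∈ Subgroup.zpowers (τ, u) := hHH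
  obtain ⟨k, hk⟩ := Subgroup.mem_zpowers_iff.mp hHH'
  have hk1 : τ ^ k = (resN K M N) φK := by
    have := congrArg Prod.fst hk
    simpa using this
  have hk2 : u ^ k = χ φK := by
    have := congrArg Prod.snd hk
    simpa using this
  have hres : (resN K M N) φK = 1 := hker
  have hcardG : Nat.card (M ≃ₐ[K] M) = p := by
    rw [IsGalois.card_aut_eq_finrank, hyp.hdeg]
  have hpk : (p : ℤ) ∣ k := dvd_of_zpow_eq_one hp hcardG hyp.hτ1 (hk1.trans hres)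
  have hχmem : χ φK ∈ Subgroup.zpowers (u ^ p) := hk2 ▸ zpow_mem_zpowers_pow u hpk
  -- `χ φK = v`
  have hχζ : ζ ^ ((χ φK : ZMod r).val) = ζ ^ ℓ := by
    rw [← hyp.hχ φK, hφKapp, hfrobN]
  have hmod : ((χ φK : ZMod r).val : ZMod r) = (ℓ : ZMod r) := by
    rw [ZMod.natCast_eq_natCast_iff]
    have h1 := ((hyp.hζ.isOfFinOrder hr.ne_zero).pow_eq_pow_iff_modEq).mp hχζ
    rwa [← hyp.hζ.eq_orderOf] at h1
  have hv' : v = χ φK := by
    apply Units.ext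
    rw [hv, ← hmod, ZMod.natCast_zmod_val]
  rw [hv']
  exact hχmem

end Fermat.Agent.S14.H31
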