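import Fermat.Agent.S14.H66_T2
import Fermat.Agent.Lib.ZetaPrimes
import Fermat.Agent.Lib.ZetaPrimesDeg
import Fermat.Agent.Lib.ClassLSeriesBound

/-!
# S14: `Stmt_T2` from the counting bound B1 alone

Glue of package B3 (helper66, `H66.stmt_T2_of_B1_B2`) with package B2 (helper31,
`Fermat.Agent.Lib.ZetaPrimes`).
-/

namespace Fermat.Agent.S14.H31

open NumberField Fermat.Agent.Lib.ZetaPrimes

/-- **T2** from the ideal counting bound with error term (package B1). -/
theorem stmt_T2_of_B1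
    (hB1 : ∀ (K : Type) [Field K] [NumberField K], ∃ κ δ A : ℝ, 0 < δ ∧ CountingBound K κ δ A) :
    Stmt_T2 :=
  H66.stmt_T2_of_B1_B2 hB1 (fun K _ _ ↦ summable_primeTerm K) (fun K _ _ ↦ primeSum_ge K)
    (fun K _ _ ↦ primeSum_le K) (fun K _ _ ↦ notPrimeNorm_le K) (fun K _ _ ↦ charPrimeSum_le K)

end Fermat.Agent.S14.H31
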