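import Fermat.Agent.S14.H98_NormLeOneFrontier

/-
S14 package B1b-ii (helper43): number of integral ideals of norm `≤ t` in a fixed ideal class,
with a power-saving error term.

Main results (namespace `Fermat.Agent.S14.H43`):
* `idealDensity K`: the constant `2^r₁ (2π)^r₂ Reg / (w √|d|)`.
* `exists_card_norm_le_and_mk_eq_sub_le K`:
  `∃ A, ∀ C t, 1 ≤ t → |#{I ∈ C, N I ≤ t} - idealDensity K * t| ≤ A * t ^ (1 - 1/n)`.
-/

set_option autoImplicit false

namespace Fermat.Agent.S14.H43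

open NumberField InfinitePlace Ideal nonZeroDivisors
open NumberField.mixedEmbedding NumberField.mixedEmbedding.euclidean
  NumberField.mixedEmbedding.fundamentalCone NumberField.Units
open Fermat.Agent.S14.H98 Submodule

noncomputable section

open scoped Classical

variable (K : Type*) [Field K] [NumberField K]

/-- The density of integral ideals in a fixed ideal class. -/
def idealDensity : ℝ :=
  (2 ^ nrRealPlaces K * (2 * Real.pi) ^ nrComplexPlaces K * regulator K) /
    (torsionOrder K * Real.sqrt |discr K|)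

theorem idealDensity_pos : 0 < idealDensity K := by
  unfold idealDensity
  have h1 : (0 : ℝ) < torsionOrder K := Nat.cast_pos.mpr (Nat.pos_of_ne_zero (torsionOrder_ne_zero K))
  have h2 : (0 : ℝ) < Real.sqrt |discr K| := by
    apply Real.sqrt_pos.mpr
    exact_mod_cast abs_pos.mpr (discr_ne_zero K)
  have h3 := regulator_pos K
  positivity

variable {K}

theorem card_mk_eq_aux₁ {C : ClassGroup (𝓞 K)} {J : (Ideal (𝓞 K))⁰} {s : ℝ}
    (hJ : ClassGroup.mk0 J = C⁻¹) :
    Nat.card {I : (Ideal (𝓞 K))⁰ // absNorm (I : Ideal (𝓞 K)) ≤ s ∧ ClassGroup.mk0 I = C}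
      = Nat.card {I : (Ideal (𝓞 K))⁰ // (J : Ideal (𝓞 K)) ∣ I ∧ IsPrincipal (I : Ideal (𝓞 K)) ∧
        absNorm (I : Ideal (𝓞 K)) ≤ s * absNorm (J : Ideal (𝓞 K))} := by
  simp_rw [← nonZeroDivisors_dvd_iff_dvd_coe]
  refine Nat.card_congr ?_
  refine ((Equiv.dvd J).subtypeEquiv fun I ↦ ?_).trans
    (Equiv.subtypeSubtypeEquivSubtypeInter (fun I : (Ideal (𝓞 K))⁰ ↦ J ∣ I) _)
  rw [← ClassGroup.mk0_eq_one_iff (SetLike.coe_mem _)]
  simp_rw [Equiv.dvd_apply, Submonoid.coe_mul, ← Submonoid.mul_def, _root_.map_mul, hJ,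
    inv_mul_eq_one, Nat.cast_mul, mul_comm s, eq_comm, and_comm, and_congr_left_iff]
  exact fun _ ↦
    (mul_le_mul_iff_of_pos_left (Nat.cast_pos.mpr (absNorm_pos_of_nonZeroDivisors J))).symm

def card_mk_eq_aux₂ {J : (Ideal (𝓞 K))⁰} {s : ℝ} :
    ↑({x | x ∈ (toMixed K) ⁻¹' fundamentalCone K ∧ mixedEmbedding.norm ((toMixed K) x) ≤ s} ∩
      (ZLattice.comap ℝ (idealLattice K ((FractionalIdeal.mk0 K) J)) (toMixed K).toLinearMap))
        ≃ {a : idealSet K J // mixedEmbedding.norm (a : mixedSpace K) ≤ s} := by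
  rw [ZLattice.coe_comap]
  refine (((toMixed K).toEquiv.image _).trans (Equiv.subtypeEquivProp ?_)).trans
    (Equiv.subtypeSubtypeEquivSubtypeInter _ (mixedEmbedding.norm · ≤ s)).symm
  ext
  simp_rw [mem_idealSet, Set.mem_image, Set.mem_inter_iff, Set.mem_preimage, SetLike.mem_coe,
    mem_idealLattice, FractionalIdeal.coe_mk0]
  constructor
  · rintro ⟨_, ⟨⟨hx₁, hx₂⟩, _, ⟨x, hx₃, rfl⟩, h⟩, rfl⟩
    exact ⟨⟨hx₁, x, hx₃, h⟩, hx₂⟩
  · rintro ⟨⟨hx₁, ⟨x, hx₂, rfl⟩⟩, hx₃⟩
    exact ⟨(toMixed K).symm (mixedEmbedding K x), ⟨⟨hx₁, hx₃⟩, ⟨(x : K), by simp [hx₂], rfl⟩⟩, rfl⟩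

variable (K) in
/-- The lattice attached to the ideal `J` in the euclidean mixed space. -/
abbrev latticeOf (J : (Ideal (𝓞 K))⁰) : Submodule ℤ (euclidean.mixedSpace K) :=
  ZLattice.comap ℝ (idealLattice K ((FractionalIdeal.mk0 K) J)) (toMixed K).toLinearMap

variable (K) in
/-- The cone (preimage of the fundamental cone in the euclidean mixed space). -/
abbrev coneOf : Set (euclidean.mixedSpace K) := (toMixed K) ⁻¹' fundamentalCone K

variable (K) in
/-- The norm on the euclidean mixed space. -/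
abbrev normOf : euclidean.mixedSpace K → ℝ := fun x ↦ mixedEmbedding.norm ((toMixed K) x)

/-- The exact counting identity behind Mathlib's `tendsto_norm_le_and_mk_eq_div_atTop`. -/
theorem card_mk_eq_mul_torsionOrder {C : ClassGroup (𝓞 K)} {J : (Ideal (𝓞 K))⁰}
    (hJ : ClassGroup.mk0 J = C⁻¹) (s : ℝ) :
    Nat.card {I : (Ideal (𝓞 K))⁰ // absNorm (I : Ideal (𝓞 K)) ≤ s ∧ ClassGroup.mk0 I = C}
        * torsionOrder K =
      Nat.card ({x ∈ coneOf K | normOf K x ≤ s * absNorm (J : Ideal (𝓞 K))} ∩ latticeOf K J :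
        Set (euclidean.mixedSpace K)) := by
  rw [card_mk_eq_aux₁ hJ, card_isPrincipal_dvd_norm_le]
  exact (Nat.card_congr card_mk_eq_aux₂).symm

variable (K) in
theorem setOf_cone_norm_le_one :
    {x ∈ coneOf K | normOf K x ≤ 1} = (toMixed K) ⁻¹' normLeOne K := by
  ext x
  simp [coneOf, normOf]

variable (K) in
theorem gridBoundIn_frontier_cone :
    ∃ C, GridBoundIn Set.univ (frontier {x ∈ coneOf K | normOf K x ≤ 1})
      (Module.finrank ℚ K - 1) C := by
  obtain ⟨C, hC⟩ := exists_gridBoundIn_frontier_normLeOne K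
  have hlip : LipschitzOnWith ‖((toMixed K).symm : mixedSpace K →L[ℝ] euclidean.mixedSpace K)‖₊
      (toMixed K).symm Set.univ :=
    (((toMixed K).symm : mixedSpace K →L[ℝ] euclidean.mixedSpace K).lipschitz).lipschitzOnWith
  have h := hC.image hlip (Set.subset_univ _)
  refine ⟨_, h.mono (Set.subset_univ _) ?_⟩
  rw [setOf_cone_norm_le_one, ← (toMixed K).coe_toHomeomorph, ← Homeomorph.preimage_frontier,
    (toMixed K).coe_toHomeomorph, ← (toMixed K).image_symm_eq_preimage]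

theorem volume_div_covolume_mul (J : (Ideal (𝓞 K))⁰) :
    MeasureTheory.volume.real {x ∈ coneOf K | normOf K x ≤ 1} /
        ZLattice.covolume (latticeOf K J) * (absNorm (J : Ideal (𝓞 K)) : ℝ) =
      idealDensity K * torsionOrder K := by
  have h₃ : (absNorm J.1 : ℝ) ≠ 0 := (Nat.cast_ne_zero.mpr (absNorm_ne_zero_of_nonZeroDivisors J))
  have h₄ : (torsionOrder K : ℝ) ≠ 0 := Nat.cast_ne_zero.mpr (torsionOrder_ne_zero K)
  rw [setOf_cone_norm_le_one, MeasureTheory.measureReal_def,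
    (volumePreserving_toMixed K).measure_preimage
      (measurableSet_normLeOne K).nullMeasurableSet, volume_normLeOne, ZLattice.covolume_comap
      _ _ _ (volumePreserving_toMixed K), covolume_idealLattice, ENNReal.toReal_mul,
      ENNReal.toReal_mul, ENNReal.toReal_pow, ENNReal.toReal_pow, ENNReal.toReal_ofNat,
      ENNReal.coe_toReal, NNReal.coe_real_pi, ENNReal.toReal_ofReal (regulator_pos K).le,
      FractionalIdeal.coe_mk0, FractionalIdeal.coeIdeal_absNorm, Rat.cast_natCast, idealDensity]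
  have h₅ : (0 : ℝ) < Real.sqrt |(discr K : ℝ)| := by
    apply Real.sqrt_pos.mpr
    exact_mod_cast abs_pos.mpr (discr_ne_zero K)
  rw [inv_pow, mul_pow]
  field_simp

variable (K) in
/-- Lattice point count in the cone for the lattice of the ideal `J`, with error term. -/
theorem exists_abs_card_cone_sub_le (J : (Ideal (𝓞 K))⁰) :
    ∃ A : ℝ, ∀ c : ℝ, 1 ≤ c →
      |(Nat.card ({x ∈ coneOf K | normOf K x ≤ c} ∩ latticeOf K J :
          Set (euclidean.mixedSpace K)) : ℝ)
        - c * (MeasureTheory.volume.real {x ∈ coneOf K | normOf K x ≤ 1} /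
            ZLattice.covolume (latticeOf K J))|
        ≤ A * c ^ (1 - (Module.finrank ℚ K : ℝ)⁻¹) := by
  let b := Module.Free.chooseBasis ℤ (latticeOf K J)
  have hcard : Fintype.card (Module.Free.ChooseBasisIndex ℤ (latticeOf K J)) =
      Module.finrank ℚ K := by
    rw [← Module.finrank_eq_card_chooseBasisIndex, ZLattice.rank ℝ (latticeOf K J),
      euclidean.finrank]
  have hn : 0 < Module.finrank ℚ K := Module.finrank_pos
  have : Nonempty (Module.Free.ChooseBasisIndex ℤ (latticeOf K J)) := by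
    rw [← Fintype.card_pos_iff, hcard]; exact hn
  have hmeas : MeasurableSet {x ∈ coneOf K | normOf K x ≤ 1} := by
    rw [setOf_cone_norm_le_one]
    exact (toMixed K).continuous.measurable (measurableSet_normLeOne K)
  obtain ⟨C, hC⟩ := gridBoundIn_frontier_cone K
  have hX : ∀ ⦃x : euclidean.mixedSpace K⦄ ⦃r : ℝ⦄, x ∈ coneOf K → 0 < r → r • x ∈ coneOf K := by
    intro x r hx hr
    rwa [Set.mem_preimage, map_smul, smul_mem_iff_mem hr.ne']
  have h₁ : ∀ (x : euclidean.mixedSpace K) ⦃r : ℝ⦄, 0 ≤ r → normOf K (r • x) =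
      r ^ Fintype.card (Module.Free.ChooseBasisIndex ℤ (latticeOf K J)) * normOf K x := by
    intro x r hr
    rw [hcard]
    simp only [normOf]
    rw [map_smul, mixedEmbedding.norm_smul, abs_of_nonneg hr]
  have h₂ : Bornology.IsBounded {x ∈ coneOf K | normOf K x ≤ 1} := by
    rw [setOf_cone_norm_le_one]
    exact (toMixed K).antilipschitz.isBounded_preimage (isBounded_normLeOne K)
  obtain ⟨A, hA⟩ := exists_abs_card_le_sub_le (L := latticeOf K J) b
    (X := coneOf K) (F := normOf K) hX h₁ h₂ hmeas hC (Set.subset_univ _)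
  · refine ⟨A, fun c hc ↦ ?_⟩
    have := hA c hc
    rw [hcard] at this
    rw [MeasureTheory.measureReal_def,
      ZLattice.volume_image_eq_volume_div_covolume' (latticeOf K J) b
      hmeas.nullMeasurableSet, ENNReal.toReal_div,
      ENNReal.toReal_ofReal (ZLattice.covolume_pos (latticeOf K J) MeasureTheory.volume).le,
      ← MeasureTheory.measureReal_def] at this
    have hexp : ((Module.finrank ℚ K - 1 : ℕ) : ℝ) / (Module.finrank ℚ K : ℝ) =
        1 - (Module.finrank ℚ K : ℝ)⁻¹ := by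
      have hn' : (Module.finrank ℚ K : ℝ) ≠ 0 := Nat.cast_ne_zero.mpr hn.ne'
      rw [Nat.cast_sub hn, Nat.cast_one]
      field_simp
    rwa [hexp] at this

variable (K) in
/-- Ideal count in a fixed class, with error term (constant depending on the class). -/
theorem exists_card_sub_le_class (C : ClassGroup (𝓞 K)) :
    ∃ A : ℝ, ∀ t : ℝ, 1 ≤ t →
      |(Nat.card {I : (Ideal (𝓞 K))⁰ //
          absNorm (I : Ideal (𝓞 K)) ≤ t ∧ ClassGroup.mk0 I = C} : ℝ)
        - idealDensity K * t| ≤ A * t ^ (1 - (Module.finrank ℚ K : ℝ)⁻¹) := by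
  obtain ⟨J, hJ⟩ := ClassGroup.mk0_surjective C⁻¹
  obtain ⟨A, hA⟩ := exists_abs_card_cone_sub_le K J
  have hN1 : (1 : ℝ) ≤ (absNorm (J : Ideal (𝓞 K)) : ℝ) := by
    exact_mod_cast (absNorm_pos_of_nonZeroDivisors J)
  have hN0 : (0 : ℝ) ≤ (absNorm (J : Ideal (𝓞 K)) : ℝ) := zero_le_one.trans hN1
  have hw : (0 : ℝ) < (torsionOrder K : ℝ) :=
    Nat.cast_pos.mpr (Nat.pos_of_ne_zero (torsionOrder_ne_zero K))
  refine ⟨A * (absNorm (J : Ideal (𝓞 K)) : ℝ) ^ (1 - (Module.finrank ℚ K : ℝ)⁻¹) /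
    (torsionOrder K : ℝ), fun t ht ↦ ?_⟩
  have ht0 : (0 : ℝ) ≤ t := zero_le_one.trans ht
  have hc : 1 ≤ t * (absNorm (J : Ideal (𝓞 K)) : ℝ) := one_le_mul_of_one_le_of_one_le ht hN1
  have h := hA (t * (absNorm (J : Ideal (𝓞 K)) : ℝ)) hc
  have hid := card_mk_eq_mul_torsionOrder hJ t
  rw [← hid, Nat.cast_mul] at h
  have hV := volume_div_covolume_mul J
  have hrew : (Nat.card {I : (Ideal (𝓞 K))⁰ //
          absNorm (I : Ideal (𝓞 K)) ≤ t ∧ ClassGroup.mk0 I = C} : ℝ) * (torsionOrder K : ℝ) -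
      t * (absNorm (J : Ideal (𝓞 K)) : ℝ) *
        (MeasureTheory.volume.real {x ∈ coneOf K | normOf K x ≤ 1} /
            ZLattice.covolume (latticeOf K J)) =
      (torsionOrder K : ℝ) * ((Nat.card {I : (Ideal (𝓞 K))⁰ //
          absNorm (I : Ideal (𝓞 K)) ≤ t ∧ ClassGroup.mk0 I = C} : ℝ) - idealDensity K * t) := by
    have : t * (absNorm (J : Ideal (𝓞 K)) : ℝ) *
        (MeasureTheory.volume.real {x ∈ coneOf K | normOf K x ≤ 1} /
            ZLattice.covolume (latticeOf K J)) = t * (idealDensity K * torsionOrder K) := by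
      rw [← hV]; ring
    rw [this]; ring
  rw [hrew, abs_mul, abs_of_pos hw, Real.mul_rpow ht0 hN0] at h
  rw [div_mul_eq_mul_div, le_div_iff₀ hw]
  calc _ = (torsionOrder K : ℝ) * |(Nat.card {I : (Ideal (𝓞 K))⁰ //
          absNorm (I : Ideal (𝓞 K)) ≤ t ∧ ClassGroup.mk0 I = C} : ℝ) - idealDensity K * t| := by
        ring
    _ ≤ _ := h
    _ = _ := by ring

variable (K) in
/-- **Number of integral ideals of norm `≤ t` in a fixed ideal class, with a power-saving
error term**, uniformly in the class. -/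
theorem exists_card_norm_le_and_mk_eq_sub_le :
    ∃ A : ℝ, ∀ (C : ClassGroup (𝓞 K)) (t : ℝ), 1 ≤ t →
      |(Nat.card {I : (Ideal (𝓞 K))⁰ //
          absNorm (I : Ideal (𝓞 K)) ≤ t ∧ ClassGroup.mk0 I = C} : ℝ)
        - idealDensity K * t| ≤ A * t ^ (1 - (Module.finrank ℚ K : ℝ)⁻¹) := by
  choose A hA using exists_card_sub_le_class K
  refine ⟨∑ C, |A C|, fun C t ht ↦ (hA C t ht).trans ?_⟩
  have ht0 : (0 : ℝ) ≤ t ^ (1 - (Module.finrank ℚ K : ℝ)⁻¹) :=
    Real.rpow_nonneg (zero_le_one.trans ht) _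
  refine mul_le_mul_of_nonneg_right ?_ ht0
  exact (le_abs_self _).trans
    (Finset.single_le_sum (f := fun C ↦ |A C|) (fun _ _ ↦ abs_nonneg _) (Finset.mem_univ C))

end

end Fermat.Agent.S14.H43
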