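import Fermat.Agent.S14.H43_IdealCount
import Fermat.Agent.S14.H31_T2

/-
S14 package B (helper43): `Stmt_T2` proved outright, by plugging the ideal counting bound
`H43.exists_card_norm_le_and_mk_eq_sub_le` (package B1) into `H31.stmt_T2_of_B1` (packages B2, B3).
-/

set_option autoImplicit false

namespace Fermat.Agent.S14.H43

open NumberField

/-- The counting bound of package B1 in the form used by packages B2 and B3. -/
theorem exists_countingBound (K : Type*) [Field K] [NumberField K] :
    ∃ κ δ A : ℝ, 0 < δ ∧ Fermat.Agent.Lib.ZetaPrimes.CountingBound K κ δ A := by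
  obtain ⟨A, hA⟩ := exists_card_norm_le_and_mk_eq_sub_le K
  have hn : 0 < Module.finrank ℚ K := Module.finrank_pos
  exact ⟨idealDensity K, (Module.finrank ℚ K : ℝ)⁻¹, A,
    inv_pos.mpr (Nat.cast_pos.mpr hn), hA⟩

/-- **T2** (analytic inequality), unconditionally. -/
theorem stmt_T2 : Stmt_T2 :=
  H31.stmt_T2_of_B1 (fun K _ _ ↦ exists_countingBound K)

end Fermat.Agent.S14.H43
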