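import Fermat.Agent.S14.CrossInterfaces

/-!
# S14, crossing, piece RAM (inertia part), helper48

* `card_inertia_ge` : for `K = ℚ(ζ_p)`, `N/K` Galois containing a primitive `r`-th root of unity
  (`r ≠ p` prime), the inertia group in `Gal(N/K)` of any prime of `N` above `r` has at least
  `r - 1` elements.

Proof: `|I| = e(𝔓/𝔯)` (Mathlib), `e(𝔓/r) = e(𝔯/r) e(𝔓/𝔯)`, `e(𝔯/r) = 1` (cyclotomic field,
`r ≠ p`), and `e(𝔓/r) ≥ r - 1` because `r = ∏_{0<k<r} (1 - η^k) ∈ 𝔓^(r-1)`.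
-/

set_option autoImplicit false

namespace Fermat.Agent.S14.H48

open NumberField

/-- In a domain, if a prime ideal contains the prime number `r` and `η` is a primitive `r`-th root
of unity, then `1 - η` lies in the ideal. -/
theorem one_sub_mem_of_natCast_mem {R : Type*} [CommRing R] [IsDomain R] {r : ℕ} (hr : r.Prime)
    {η : R} (hη : IsPrimitiveRoot η r) (P : Ideal R) [P.IsPrime] (hrP : (r : R) ∈ P) :
    1 - η ∈ P := by
  obtain ⟨n, rfl⟩ : ∃ n, r = n + 1 := ⟨r - 1, (Nat.succ_pred_eq_of_pos hr.pos).symm⟩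
  have hprod := hη.prod_one_sub_pow_eq_order
  have hmem : ∏ k ∈ Finset.range n, (1 - η ^ (k + 1)) ∈ P := by
    rw [hprod]
    exact_mod_cast hrP
  rw [Ideal.IsPrime.prod_mem_iff] at hmem
  obtain ⟨k, hk, hkP⟩ := hmem
  rw [Finset.mem_range] at hk
  -- `η = (η ^ (k+1)) ^ m`
  have hcop : (k + 1).Coprime (n + 1) := by
    rw [Nat.coprime_comm]
    exact (Nat.Prime.coprime_iff_not_dvd hr).mpr
      (fun h => absurd (Nat.le_of_dvd (Nat.succ_pos k) h) (by omega))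
  obtain ⟨m, -, hm⟩ := Nat.exists_mul_mod_eq_one_of_coprime hcop hr.one_lt
  have hpow : (η ^ (k + 1)) ^ m = η := by
    rw [← pow_mul, ← Nat.mod_add_div ((k + 1) * m) (n + 1), hm, pow_add, pow_one, pow_mul,
      hη.pow_eq_one, one_pow, mul_one]
  have hdvd : (1 - η ^ (k + 1)) ∣ 1 - η := by
    have := sub_dvd_pow_sub_pow (1 : R) (η ^ (k + 1)) m
    rwa [one_pow, hpow] at this
  exact P.mem_of_dvd hdvd hkP

/-- If a prime ideal contains the prime number `r` and the ring contains a primitive `r`-th root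
of unity, then `r` lies in the `(r-1)`-st power of the ideal. -/
theorem natCast_mem_pow_of_natCast_mem {R : Type*} [CommRing R] [IsDomain R] {r : ℕ} (hr : r.Prime)
    {η : R} (hη : IsPrimitiveRoot η r) (P : Ideal R) [P.IsPrime] (hrP : (r : R) ∈ P) :
    (r : R) ∈ P ^ (r - 1) := by
  have h1 : 1 - η ∈ P := one_sub_mem_of_natCast_mem hr hη P hrP
  obtain ⟨n, rfl⟩ : ∃ n, r = n + 1 := ⟨r - 1, (Nat.succ_pred_eq_of_pos hr.pos).symm⟩
  have hprod := hη.prod_one_sub_pow_eq_order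
  have hcast : ((n + 1 : ℕ) : R) = ∏ k ∈ Finset.range n, (1 - η ^ (k + 1)) := by
    rw [hprod]; push_cast; rfl
  rw [hcast, Nat.add_sub_cancel]
  have : ∏ k ∈ Finset.range n, (1 - η ^ (k + 1)) ∈ ∏ _k ∈ Finset.range n, P := by
    refine Ideal.prod_mem_prod (fun k _ => ?_)
    have hdvd : (1 - η) ∣ 1 - η ^ (k + 1) := by
      have := sub_dvd_pow_sub_pow (1 : R) η (k + 1)
      rwa [one_pow] at this
    exact P.mem_of_dvd hdvd h1
  rwa [Finset.prod_const, Finset.card_range] at this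

end Fermat.Agent.S14.H48

namespace Fermat.Agent.S14.H48

open NumberField

/-- The inertia group (in `Gal(N/K)`, `K = ℚ(ζ_p)`) of a prime of `N` above `r ≠ p` has at least
`r - 1` elements as soon as `N` contains a primitive `r`-th root of unity. -/
theorem card_inertia_ge (p r : ℕ) [Fact p.Prime] [Fact r.Prime] (K N : Type)
    [Field K] [NumberField K] [Field N] [NumberField N] [Algebra K N] [IsGalois K N]
    [IsCyclotomicExtension {p} ℚ K] (hrp : r ≠ p) (η : N) (hη : IsPrimitiveRoot η r)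
    (𝔓 : Ideal (𝓞 N)) (h𝔓 : 𝔓.IsPrime) (hr : (r : 𝓞 N) ∈ 𝔓) :
    r - 1 ≤ Nat.card (𝔓.inertia (N ≃ₐ[K] N)) := by
  have hrprime : r.Prime := Fact.out
  have hpprime : p.Prime := Fact.out
  haveI := h𝔓
  haveI : NeZero r := ⟨hrprime.ne_zero⟩
  -- the primes below
  let 𝔯 : Ideal (𝓞 K) := 𝔓.under (𝓞 K)
  haveI : 𝔓.LiesOver 𝔯 := ⟨rfl⟩
  haveI : 𝔯.IsPrime := Ideal.IsPrime.under (𝓞 K) 𝔓
  have hmemℤ : ∀ P : Ideal (𝓞 N), P.IsPrime → (r : 𝓞 N) ∈ P →
      P.under ℤ = Ideal.span {(r : ℤ)} := by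
    intro P hP hrP
    have hle : Ideal.span {(r : ℤ)} ≤ P.under ℤ := by
      rw [Ideal.span_singleton_le_iff_mem, Ideal.under_def, Ideal.mem_comap]
      simpa using hrP
    have hmax : (Ideal.span {(r : ℤ)}).IsMaximal :=
      Int.ideal_span_isMaximal_of_prime r
    have hne : P.under ℤ ≠ ⊤ := by
      haveI := hP
      exact (Ideal.IsPrime.under ℤ P).ne_top
    exact (hmax.eq_of_le hne hle).symm
  have h𝔓ℤ : 𝔓.under ℤ = Ideal.span {(r : ℤ)} := hmemℤ 𝔓 h𝔓 hr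
  haveI : 𝔓.LiesOver (Ideal.span {(r : ℤ)}) := ⟨h𝔓ℤ.symm⟩
  haveI : 𝔯.LiesOver (Ideal.span {(r : ℤ)}) := Ideal.LiesOver.tower_bot 𝔓 𝔯 _
  -- ramification indices
  have e1 : 𝔯.ramificationIdx ℤ = 1 :=
    IsCyclotomicExtension.Rat.ramificationIdx_eq_of_not_dvd r K 𝔯 (m := p)
      (fun h => hrp ((Nat.prime_dvd_prime_iff_eq hrprime hpprime).mp h))
  have e2 : 𝔓.ramificationIdx ℤ = 𝔯.ramificationIdx ℤ * 𝔓.ramificationIdx (𝓞 K) :=
    Ideal.ramificationIdx_tower 𝔯 𝔓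
  have e3 : Nat.card (𝔓.inertia (N ≃ₐ[K] N)) = 𝔓.ramificationIdx (𝓞 K) := by
    rw [Ideal.card_inertia_eq_ramificationIdxIn (G := (N ≃ₐ[K] N)) 𝔯 𝔓,
      Ideal.ramificationIdxIn_eq_ramificationIdx 𝔯 𝔓 (N ≃ₐ[K] N)]
  have e4 : 𝔓.ramificationIdx (𝓞 K) = 𝔓.ramificationIdx ℤ := by
    rw [e2, e1, one_mul]
  rw [e3, e4]
  -- lower bound for the absolute ramification index
  have hmap : (Ideal.span {(r : ℤ)}).map (algebraMap ℤ (𝓞 N)) = Ideal.span {(r : 𝓞 N)} := by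
    rw [Ideal.map_span, Set.image_singleton]
    simp
  have hne : (Ideal.span {(r : ℤ)}).map (algebraMap ℤ (𝓞 N)) ≠ ⊥ := by
    rw [hmap, Ne, Ideal.span_singleton_eq_bot]
    exact_mod_cast hrprime.ne_zero
  rw [Ideal.IsDedekindDomain.ramificationIdx_eq_multiplicity (Ideal.span {(r : ℤ)}) 𝔓 hne]
  have hη' : IsPrimitiveRoot hη.toInteger r := hη.toInteger_isPrimitiveRoot
  have hpow : (r : 𝓞 N) ∈ 𝔓 ^ (r - 1) := natCast_mem_pow_of_natCast_mem hrprime hη' 𝔓 hr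
  have hdvd : 𝔓 ^ (r - 1) ∣ (Ideal.span {(r : ℤ)}).map (algebraMap ℤ (𝓞 N)) := by
    rw [Ideal.dvd_iff_le, hmap, Ideal.span_singleton_le_iff_mem]
    exact hpow
  have hfin : FiniteMultiplicity 𝔓 ((Ideal.span {(r : ℤ)}).map (algebraMap ℤ (𝓞 N))) := by
    apply FiniteMultiplicity.of_not_isUnit
    · rw [Ideal.isUnit_iff]
      exact h𝔓.ne_top
    · exact hne
  exact hfin.le_multiplicity_of_pow_dvd hdvd

end Fermat.Agent.S14.H48
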