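import Fermat.Agent.S14.Interfaces

/-!
# S14, piece C1: Frobenius facts for `M/K` (helper56)

Elementary facts about `IsArithFrobAt (𝓞 K) τ Q` for a Galois extension `M/K` of number fields:
existence, uniqueness when the inertia group is trivial, the split case
(`τ = 1 ⇒ relNorm Q = Q.under`), classes of primes generate the class group.
-/

namespace Fermat.Agent.S14.H56

open NumberField
open scoped Pointwise

section Basic

variable {K M : Type*} [Field K] [NumberField K] [Field M] [NumberField M] [Algebra K M]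

omit [NumberField M] in
/-- Unfolded form of the Frobenius congruence, with the exponent written as an absolute norm. -/
lemma isArithFrobAt_iff {G : Type*} [Group G] [MulSemiringAction G (𝓞 M)]
    [SMulCommClass G (𝓞 K) (𝓞 M)] (Q : Ideal (𝓞 M)) (τ : G) :
    IsArithFrobAt (𝓞 K) τ Q ↔
      ∀ x : 𝓞 M, τ • x - x ^ Ideal.absNorm (Q.under (𝓞 K)) ∈ Q := by
  rw [Ideal.absNorm_apply, Submodule.cardQuot_apply]
  rfl

/-- A nonzero prime of `𝓞 M` has a Frobenius element in `Gal(M/K)`. -/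
lemma exists_frob [IsGalois K M] (Q : Ideal (𝓞 M)) [Q.IsPrime] (hQ : Q ≠ ⊥) :
    ∃ τ : M ≃ₐ[K] M, IsArithFrobAt (𝓞 K) τ Q := by
  haveI : Finite (𝓞 M ⧸ Q) := Ideal.finiteQuotientOfFreeOfNeBot Q hQ
  exact IsArithFrobAt.exists_of_isInvariant (𝓞 K) (M ≃ₐ[K] M) Q

/-- Uniqueness of the Frobenius element when the inertia group is trivial. -/
lemma frob_unique [IsGalois K M] (hunr : UnramifiedEverywhere K M) (Q : Ideal (𝓞 M))
    [hQp : Q.IsPrime] (hQ : Q ≠ ⊥) {τ τ' : M ≃ₐ[K] M}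
    (h : IsArithFrobAt (𝓞 K) τ Q) (h' : IsArithFrobAt (𝓞 K) τ' Q) : τ = τ' := by
  have h1 := IsArithFrobAt.mul_inv_mem_inertia h h'
  rw [hunr Q hQp hQ, Subgroup.mem_bot] at h1
  exact mul_inv_eq_one.mp h1

end Basic

section Split

variable {K M : Type*} [Field K] [NumberField K] [Field M] [NumberField M] [Algebra K M]

/-- In a finite field in which every element satisfies `x ^ q = x` (`1 < q`), there are at most
`q` elements. -/
lemma card_le_of_forall_pow_eq {F : Type*} [Field F] [Finite F] {q : ℕ} (hq : 1 < q)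
    (h : ∀ x : F, x ^ q = x) : Nat.card F ≤ q := by
  classical
  have := Fintype.ofFinite F
  have hne : (Polynomial.X ^ q - Polynomial.X : Polynomial F) ≠ 0 :=
    FiniteField.X_pow_card_sub_X_ne_zero F hq
  have hdeg : (Polynomial.X ^ q - Polynomial.X : Polynomial F).natDegree = q :=
    FiniteField.X_pow_card_sub_X_natDegree_eq F hq
  have hsub : (Finset.univ : Finset F) ⊆
      (Polynomial.X ^ q - Polynomial.X : Polynomial F).roots.toFinset := by
    intro x _
    rw [Multiset.mem_toFinset, Polynomial.mem_roots hne]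
    simp [h x]
  calc Nat.card F = (Finset.univ : Finset F).card := by
        rw [Nat.card_eq_fintype_card, Finset.card_univ]
    _ ≤ (Polynomial.X ^ q - Polynomial.X : Polynomial F).roots.toFinset.card :=
        Finset.card_le_card hsub
    _ ≤ Multiset.card (Polynomial.X ^ q - Polynomial.X : Polynomial F).roots :=
        Multiset.toFinset_card_le _
    _ ≤ (Polynomial.X ^ q - Polynomial.X : Polynomial F).natDegree :=
        Polynomial.card_roots' _
    _ = q := hdeg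

omit [Field M] [NumberField M] [Algebra K M] in
lemma one_lt_absNorm_of_isPrime (P : Ideal (𝓞 K)) [hP : P.IsPrime]
    (hP0 : P ≠ ⊥) : 1 < Ideal.absNorm P := by
  have h0 : Ideal.absNorm P ≠ 0 := by
    rw [Ne, Ideal.absNorm_eq_zero_iff]; exact hP0
  have h1 : Ideal.absNorm P ≠ 1 := by
    rw [Ne, Ideal.absNorm_eq_one_iff]; exact hP.ne_top
  omega

/-- If `x ^ N𝔭 ≡ x` modulo `Q` for all `x`, then `Q` has the same norm as the prime below. -/
lemma absNorm_eq_of_pow_congr (Q : Ideal (𝓞 M)) [hQp : Q.IsPrime] (hQ : Q ≠ ⊥)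
    (h : ∀ x : 𝓞 M, x - x ^ Ideal.absNorm (Q.under (𝓞 K)) ∈ Q) :
    Ideal.absNorm Q = Ideal.absNorm (Q.under (𝓞 K)) := by
  have hmax : Q.IsMaximal := Ideal.isMaximal_of_isPrime_of_ne_bot Q hQ
  letI := Ideal.Quotient.field Q
  have hfin : Finite (𝓞 M ⧸ Q) := Ideal.finiteQuotientOfFreeOfNeBot Q hQ
  have hu0 : Q.under (𝓞 K) ≠ ⊥ := Ideal.IsIntegral.comap_ne_bot (𝓞 K) hQ
  have hq : 1 < Ideal.absNorm (Q.under (𝓞 K)) := one_lt_absNorm_of_isPrime _ hu0
  have hpow : ∀ x : 𝓞 M ⧸ Q, x ^ Ideal.absNorm (Q.under (𝓞 K)) = x := by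
    intro x
    obtain ⟨a, rfl⟩ := Ideal.Quotient.mk_surjective x
    rw [← map_pow, eq_comm]
    exact (Ideal.Quotient.eq).mpr (h a)
  have h1 : Ideal.absNorm Q ≤ Ideal.absNorm (Q.under (𝓞 K)) := by
    rw [Ideal.absNorm_apply Q, Submodule.cardQuot_apply]
    exact card_le_of_forall_pow_eq hq hpow
  have h2 : Ideal.absNorm (Q.under (𝓞 K)) ≤ Ideal.absNorm Q := by
    rw [Ideal.absNorm_apply Q, Submodule.cardQuot_apply, Ideal.absNorm_apply,
      Submodule.cardQuot_apply]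
    exact Nat.card_le_card_of_injective _
      (Ideal.algebraMap_quotient_injective (R := 𝓞 K) (I := Q))
  exact le_antisymm h1 h2

/-- If `x ^ N𝔭 ≡ x` modulo `Q` for all `x`, then the relative norm of `Q` is the prime below. -/
lemma relNorm_eq_under_of_pow_congr (Q : Ideal (𝓞 M)) [hQp : Q.IsPrime] (hQ : Q ≠ ⊥)
    (h : ∀ x : 𝓞 M, x - x ^ Ideal.absNorm (Q.under (𝓞 K)) ∈ Q) :
    Ideal.relNorm (𝓞 K) Q = Q.under (𝓞 K) := by
  have hmax : Q.IsMaximal := Ideal.isMaximal_of_isPrime_of_ne_bot Q hQ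
  have hu0 : Q.under (𝓞 K) ≠ ⊥ := Ideal.IsIntegral.comap_ne_bot (𝓞 K) hQ
  have : (Q.under (𝓞 K)).IsMaximal := Ideal.isMaximal_of_isPrime_of_ne_bot _ hu0
  have hq : 1 < Ideal.absNorm (Q.under (𝓞 K)) := one_lt_absNorm_of_isPrime _ hu0
  have hrel := Ideal.relNorm_eq_pow_of_isMaximal Q (Q.under (𝓞 K))
  have habs := Ideal.absNorm_relNorm (𝓞 K) (𝓞 M) Q
  rw [hrel, map_pow, absNorm_eq_of_pow_congr Q hQ h] at habs
  have hf : Q.inertiaDeg (𝓞 K) = 1 :=
    Nat.pow_right_injective hq (habs.trans (pow_one _).symm)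
  rw [hrel, hf, pow_one]

/-- Split case: if the Frobenius element at `Q` is trivial, the relative norm of `Q` is the
prime below. -/
lemma relNorm_eq_under_of_frob_one [IsGalois K M] (Q : Ideal (𝓞 M)) [hQp : Q.IsPrime]
    (hQ : Q ≠ ⊥)
    (h : IsArithFrobAt (𝓞 K) (1 : M ≃ₐ[K] M) Q) :
    Ideal.relNorm (𝓞 K) Q = Q.under (𝓞 K) := by
  refine relNorm_eq_under_of_pow_congr Q hQ fun x => ?_
  have := (isArithFrobAt_iff Q (1 : M ≃ₐ[K] M)).mp h x
  rwa [one_smul] at this

end Split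

section Cls

variable {R : Type*} [CommRing R] [IsDedekindDomain R]

lemma cls_of_ne_bot {I : Ideal R} (h : I ≠ ⊥) :
    cls I = ClassGroup.mk0 ⟨I, mem_nonZeroDivisors_of_ne_zero h⟩ := by
  simp [cls, h]

lemma cls_mul {I J : Ideal R} (hI : I ≠ ⊥) (hJ : J ≠ ⊥) : cls (I * J) = cls I * cls J := by
  have hIJ : I * J ≠ ⊥ := mul_ne_zero hI hJ
  rw [cls_of_ne_bot hI, cls_of_ne_bot hJ, cls_of_ne_bot hIJ, ← map_mul]
  rfl

lemma cls_pow {I : Ideal R} (hI : I ≠ ⊥) (n : ℕ) : cls (I ^ n) = cls I ^ n := by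
  have hIn : I ^ n ≠ ⊥ := pow_ne_zero n hI
  rw [cls_of_ne_bot hI, cls_of_ne_bot hIn, ← map_pow]
  rfl

lemma cls_top : cls (⊤ : Ideal R) = 1 := by
  rw [cls_of_ne_bot (by simp : (⊤ : Ideal R) ≠ ⊥)]
  have : (⟨(⊤ : Ideal R), mem_nonZeroDivisors_of_ne_zero (by simp : (⊤ : Ideal R) ≠ ⊥)⟩ :
      nonZeroDivisors (Ideal R)) = 1 := by
    ext1; exact Ideal.one_eq_top.symm
  rw [this, map_one]

lemma cls_span_singleton (x : R) : cls (Ideal.span {x}) = 1 := by
  by_cases hx : x = 0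
  · simp [cls, hx]
  · have h : Ideal.span {x} ≠ ⊥ := by simpa using hx
    rw [cls_of_ne_bot h, ClassGroup.mk0_eq_one_iff]
    exact ⟨⟨x, rfl⟩⟩

lemma cls_surjective (c : ClassGroup R) : ∃ I : Ideal R, I ≠ ⊥ ∧ cls I = c := by
  obtain ⟨I, rfl⟩ := ClassGroup.mk0_surjective c
  have h : (I : Ideal R) ≠ ⊥ := nonZeroDivisors.coe_ne_zero I
  exact ⟨I, h, by rw [cls_of_ne_bot h]⟩

/-- The classes of the nonzero prime ideals generate the class group. -/
lemma eq_top_of_forall_prime (U : Subgroup (ClassGroup R))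
    (h : ∀ P : Ideal R, P.IsPrime → P ≠ ⊥ → cls P ∈ U) : U = ⊤ := by
  have key : ∀ I : Ideal R, I ≠ ⊥ → cls I ∈ U := by
    intro I hI
    induction I using UniqueFactorizationMonoid.induction_on_prime with
    | h₁ => exact absurd rfl hI
    | h₂ x hx =>
      rw [Ideal.isUnit_iff] at hx
      rw [hx, cls_top]; exact U.one_mem
    | h₃ a p ha hp ih =>
      have hp0 : p ≠ ⊥ := hp.ne_zero
      rw [cls_mul hp0 ha]
      exact U.mul_mem (h p (Ideal.isPrime_of_prime hp) hp0) (ih ha)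
  rw [eq_top_iff]
  intro c _
  obtain ⟨I, hI, rfl⟩ := cls_surjective c
  exact key I hI

end Cls

section Conj

/-- The absolute norm is invariant under ring automorphisms. -/
lemma absNorm_smul {R : Type*} [CommRing R] [IsDedekindDomain R]
    [Module.Free ℤ R] {G : Type*} [Group G] [MulSemiringAction G R] (g : G) (I : Ideal R) :
    Ideal.absNorm (g • I) = Ideal.absNorm I := by
  rw [Ideal.absNorm_apply, Ideal.absNorm_apply, Submodule.cardQuot_apply,
    Submodule.cardQuot_apply]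
  have e : (R ⧸ I) ≃+* (R ⧸ (g • I)) :=
    Ideal.quotientEquiv I (g • I) (MulSemiringAction.toRingEquiv G R g)
      (by rw [Ideal.pointwise_smul_def]; rfl)
  exact (Nat.card_congr e.toEquiv).symm

variable {K M : Type*} [Field K] [NumberField K] [Field M] [NumberField M] [Algebra K M]

/-- Compatibility of the Galois actions on `𝓞 K` and `𝓞 M`. -/
lemma algebraMap_restrictNormal_smul [Normal ℚ K] (s : M ≃ₐ[ℚ] M) (x : 𝓞 K) :
    algebraMap (𝓞 K) (𝓞 M) ((s.restrictNormal K) • x) = s • (algebraMap (𝓞 K) (𝓞 M) x) := by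
  apply RingOfIntegers.ext
  show algebraMap K M ((s.restrictNormal K) (x : K)) = s (algebraMap K M (x : K))
  exact AlgEquiv.restrictNormal_commutes s K (x : K)

/-- The prime below a conjugate prime is the conjugate of the prime below. -/
lemma under_smul [Normal ℚ K] (s : M ≃ₐ[ℚ] M) (Q : Ideal (𝓞 M)) :
    (s • Q).under (𝓞 K) = (s.restrictNormal K) • (Q.under (𝓞 K)) := by
  ext x
  rw [Ideal.mem_pointwise_smul_iff_inv_smul_mem, Ideal.under_def, Ideal.mem_comap,
    Ideal.under_def, Ideal.mem_comap, Ideal.mem_pointwise_smul_iff_inv_smul_mem]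
  have h1 : (s.restrictNormal K)⁻¹ = (s⁻¹).restrictNormal K :=
    (map_inv (AlgEquiv.restrictNormalHom (F := ℚ) (K₁ := M) K) s).symm
  rw [h1, algebraMap_restrictNormal_smul]

lemma absNorm_under_smul [Normal ℚ K] (s : M ≃ₐ[ℚ] M) (Q : Ideal (𝓞 M)) :
    Ideal.absNorm ((s • Q).under (𝓞 K)) = Ideal.absNorm (Q.under (𝓞 K)) := by
  rw [under_smul, absNorm_smul]

/-- Conjugating a Frobenius element by an automorphism of `M/ℚ`. -/
lemma frob_conj [IsGalois K M] [Normal ℚ K] (s : M ≃ₐ[ℚ] M) (τ τ' : M ≃ₐ[K] M)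
    (Q : Ideal (𝓞 M))
    (hconj : ∀ x : M, τ' x = s (τ (s⁻¹ x)))
    (hτ : IsArithFrobAt (𝓞 K) τ Q) : IsArithFrobAt (𝓞 K) τ' (s • Q) := by
  rw [isArithFrobAt_iff] at hτ ⊢
  intro x
  rw [absNorm_under_smul, Ideal.mem_pointwise_smul_iff_inv_smul_mem]
  have h1 : s⁻¹ • (τ' • x - x ^ Ideal.absNorm (Q.under (𝓞 K))) =
      τ • (s⁻¹ • x) - (s⁻¹ • x) ^ Ideal.absNorm (Q.under (𝓞 K)) := by
    rw [smul_sub, smul_pow']
    congr 1
    apply RingOfIntegers.ext
    show s⁻¹ (τ' (x : M)) = τ (s⁻¹ (x : M))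
    rw [hconj]
    show s⁻¹ (s (τ (s⁻¹ (x : M)))) = _
    exact AlgEquiv.symm_apply_apply s _
  rw [h1]
  exact hτ _

end Conj

end Fermat.Agent.S14.H56
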