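import Fermat.Agent.S14.H56_Frob

/-!
# S14, piece H: `Stmt_T1 → Stmt_Cross → Stmt_Stick → Stmt_NT` (helper56)

The number field core: there is no Galois `M/ℚ` containing `K = ℚ(ζ_p)` with `[M : K] = p`,
unramified everywhere over `K`, on which `Gal(K/ℚ)` acts on `Gal(M/K)` through the inverse of the
cyclotomic character.
-/

namespace Fermat.Agent.S14.H56

open NumberField
open scoped Pointwise

/-- `2 * ∑_{k < t < 2k+1} t = k (3k+1)`. -/
lemma two_mul_sum_Ioo (k : ℕ) : 2 * ∑ t ∈ Finset.Ioo k (2 * k + 1), t = k * (3 * k + 1) := by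
  have h1 : Finset.Ioo k (2 * k + 1) = Finset.Ico (k + 1) (2 * k + 1) := by
    ext t; simp only [Finset.mem_Ioo, Finset.mem_Ico]; omega
  have h2 : ∑ t ∈ Finset.range (k + 1), t + ∑ t ∈ Finset.Ico (k + 1) (2 * k + 1), t =
      ∑ t ∈ Finset.range (2 * k + 1), t :=
    Finset.sum_range_add_sum_Ico _ (by omega)
  have h3 := Finset.sum_range_id_mul_two (k + 1)
  have h4 := Finset.sum_range_id_mul_two (2 * k + 1)
  simp only [Nat.add_sub_cancel] at h3 h4
  rw [h1]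
  have h5 : 2 * ∑ t ∈ Finset.range (k + 1), t + 2 * ∑ t ∈ Finset.Ico (k + 1) (2 * k + 1), t =
      2 * ∑ t ∈ Finset.range (2 * k + 1), t := by rw [← mul_add, h2]
  have h6 : 2 * ∑ t ∈ Finset.range (k + 1), t = (k + 1) * k := by rw [mul_comm]; exact h3
  have h7 : 2 * ∑ t ∈ Finset.range (2 * k + 1), t = (2 * k + 1) * (2 * k) := by
    rw [mul_comm]; exact h4
  rw [h6, h7] at h5
  nlinarith [h5]

/-- For an odd prime `p`, the sum of the integers in `(p/2, p)` is prime to `p`. -/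
lemma coprime_sum_Ioo (p : ℕ) (hp : p.Prime) (hp2 : p ≠ 2) :
    Nat.Coprime (∑ t ∈ Finset.Ioo (p / 2) p, t) p := by
  obtain ⟨k, hk⟩ : ∃ k, p = 2 * k + 1 := by
    rcases hp.eq_two_or_odd with h | h
    · exact absurd h hp2
    · exact ⟨p / 2, by omega⟩
  have hk0 : 0 < k := by
    rcases Nat.eq_zero_or_pos k with h | h
    · subst h; simp at hk; exact absurd hk hp.ne_one
    · exact h
  have hdiv : p / 2 = k := by omega
  rw [hdiv, Nat.coprime_comm, hp.coprime_iff_not_dvd]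
  intro hdvd
  have h2 : p ∣ 2 * ∑ t ∈ Finset.Ioo k p, t := Dvd.dvd.mul_left hdvd 2
  rw [hk, two_mul_sum_Ioo, ← hk] at h2
  rcases (hp.dvd_mul).mp h2 with h | h
  · exact absurd (Nat.le_of_dvd hk0 h) (by omega)
  · -- p ∣ 3k+1, 2(3k+1) = 3p - 1
    have h3 : p ∣ 2 * (3 * k + 1) := Dvd.dvd.mul_left h 2
    have h4 : 2 * (3 * k + 1) + 1 = 3 * p := by omega
    have h5 : p ∣ 2 * (3 * k + 1) + 1 := by rw [h4]; exact Dvd.intro_left 3 rfl
    have h6 : p ∣ 1 := (Nat.dvd_add_right h3).mp h5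
    exact hp.one_lt.ne' (Nat.dvd_one.mp h6)

/-- Bezout in a subgroup. -/
lemma mem_of_pow_mem_of_coprime {G : Type*} [Group G] (U : Subgroup G) (g : G) {a b : ℕ}
    (hab : Nat.Coprime a b) (ha : g ^ a ∈ U) (hb : g ^ b ∈ U) : g ∈ U := by
  have h := Nat.gcd_eq_gcd_ab a b
  rw [hab.gcd_eq_one] at h
  have : g = (g ^ a) ^ (Nat.gcdA a b) * (g ^ b) ^ (Nat.gcdB a b) := by
    rw [← zpow_natCast g a, ← zpow_natCast g b, ← zpow_mul, ← zpow_mul, ← zpow_add, ← h]
    simp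
  rw [this]
  exact U.mul_mem (U.zpow_mem ha _) (U.zpow_mem hb _)

section NT

variable (p : ℕ) [hp : Fact p.Prime] (K : Type) [Field K] [NumberField K]
  [IsCyclotomicExtension {p} ℚ K]

/-- A prime of `ℚ(ζ_p)` containing `p` is principal. -/
lemma cls_eq_one_of_mem (P : Ideal (𝓞 K)) [hP : P.IsPrime] (hpP : (p : 𝓞 K) ∈ P) :
    cls P = 1 := by
  have hζ := IsCyclotomicExtension.zeta_spec p ℚ K
  have hle : Ideal.span {(p : ℤ)} ≤ P.under ℤ := by
    rw [Ideal.span_singleton_le_iff_mem, Ideal.under_def, Ideal.mem_comap]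
    simpa using hpP
  have hne : P.under ℤ ≠ ⊤ := (Ideal.IsPrime.under ℤ P).ne_top
  have heq : Ideal.span {(p : ℤ)} = P.under ℤ :=
    (Int.ideal_span_isMaximal_of_prime p).eq_of_le hne hle
  haveI : P.LiesOver (Ideal.span {(p : ℤ)}) := ⟨heq⟩
  rw [IsCyclotomicExtension.Rat.eq_span_zeta_sub_one_of_liesOver' p K hζ P]
  exact cls_span_singleton _

/-- A prime of `ℚ(ζ_p)` above a rational prime `ℓ ≡ 1 mod p` has norm `ℓ`. -/
lemma absNorm_eq_of_modEq_one (P : Ideal (𝓞 K)) [hP : P.IsPrime] (ℓ : ℕ) [hℓ : Fact ℓ.Prime]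
    [hPℓ : P.LiesOver (Ideal.span {(ℓ : ℤ)})] (h1 : p ∣ ℓ - 1) : Ideal.absNorm P = ℓ := by
  have hℓp : ¬ ℓ ∣ p := by
    intro h
    have heq : ℓ = p := (Nat.prime_dvd_prime_iff_eq hℓ.out hp.out).mp h
    have h2 : 2 ≤ p := hp.out.two_le
    rw [heq] at h1
    have h3 : p ≤ p - 1 := Nat.le_of_dvd (by omega) h1
    omega
  have hf := IsCyclotomicExtension.Rat.inertiaDeg_eq_of_not_dvd (m := p) ℓ K P hℓp
  have hone : ((ℓ : ℕ) : ZMod p) = 1 := by
    have : ((ℓ - 1 : ℕ) : ZMod p) = 0 := (ZMod.natCast_eq_zero_iff _ _).mpr h1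
    have hℓ1 : 1 ≤ ℓ := hℓ.out.one_le
    rw [Nat.cast_sub hℓ1, sub_eq_zero] at this
    simpa using this
  rw [hone, orderOf_one] at hf
  have hmax : P.IsMaximal := Ideal.IsMaximal.of_liesOver_isMaximal P (Ideal.span {(ℓ : ℤ)})
  rw [Ideal.absNorm_eq_pow_inertiaDeg' P hℓ.out, Ideal.inertiaDeg'_eq_inertiaDeg, hf, pow_one]

end NT

section Order

/-- In a group of prime order `p`, a nontrivial element `τ` with `τ ^ k = 1` forces `p ∣ k`. -/
lemma dvd_of_pow_eq_one {G : Type*} [Group G] {p : ℕ} (hp : p.Prime) (hcard : Nat.card G = p)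
    {τ : G} (hτ : τ ≠ 1) {k : ℕ} (hk : τ ^ k = 1) : p ∣ k := by
  have h1 : orderOf τ ∣ p := hcard ▸ orderOf_dvd_natCard τ
  have h2 : orderOf τ ≠ 1 := by rwa [Ne, orderOf_eq_one_iff]
  have h3 : orderOf τ = p := ((Nat.dvd_prime hp).mp h1).resolve_left h2
  rw [← h3]
  exact orderOf_dvd_of_pow_eq_one hk

end Order

section Main

variable {K M : Type*} [Field K] [NumberField K] [Field M] [NumberField M] [Algebra K M]

lemma restrictScalars_pow_apply (τ : M ≃ₐ[K] M) (n : ℕ) (x : M) :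
    ((τ.restrictScalars ℚ) ^ n) x = (τ ^ n) x := by
  induction n generalizing x with
  | zero => rfl
  | succ n ih =>
    rw [pow_succ, pow_succ, AlgEquiv.mul_apply, AlgEquiv.mul_apply, ih]
    rfl

/-- From the commutation relation `s * τ ^ a = τ * s` we get that `τ ^ a` is a Frobenius element
at `s⁻¹ • Q` whenever `τ` is one at `Q`. -/
lemma frob_pow_of_comm [IsGalois K M] [Normal ℚ K] (s : M ≃ₐ[ℚ] M) (τ : M ≃ₐ[K] M) (a : ℕ)
    (Q : Ideal (𝓞 M))
    (hcomm : s * (τ.restrictScalars ℚ) ^ a = τ.restrictScalars ℚ * s)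
    (hτ : IsArithFrobAt (𝓞 K) τ Q) : IsArithFrobAt (𝓞 K) (τ ^ a) (s⁻¹ • Q) := by
  refine frob_conj s⁻¹ τ (τ ^ a) Q (fun x => ?_) hτ
  rw [inv_inv]
  have h := congrArg (fun f : M ≃ₐ[ℚ] M => f x) hcomm
  simp only [AlgEquiv.mul_apply] at h
  rw [restrictScalars_pow_apply] at h
  have h2 : (τ.restrictScalars ℚ) (s x) = τ (s x) := rfl
  rw [h2] at h
  rw [← h]
  exact (AlgEquiv.symm_apply_apply s _).symm

end Main

/-- **H**: the number field core `Stmt_NT` from `Stmt_T1`, `Stmt_Cross` and `Stmt_Stick`. -/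
theorem stmt_NT_of (hT1 : Stmt_T1) (hCross : Stmt_Cross) (hStick : Stmt_Stick) : Stmt_NT := by
  intro p hpF K M _ _ _ _ _ _ _ hp2 hdeg hunr hconj
  have hp : p.Prime := hpF.out
  haveI : IsGalois ℚ K := IsCyclotomicExtension.isGalois {p} ℚ K
  haveI : IsGalois K M := IsGalois.tower_top_of_isGalois ℚ K M
  have hp3 : 2 < p := lt_of_le_of_ne hp.two_le (Ne.symm hp2)
  have htc : IsTotallyComplex K := IsCyclotomicExtension.Rat.isTotallyComplex K hp3
  have hU := hT1 p K M hp2 hdeg htc hunr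
  apply hU
  apply eq_top_of_forall_prime
  intro P hP hP0
  by_cases hpP : (p : 𝓞 K) ∈ P
  · rw [cls_eq_one_of_mem p K P hpP]; exact Subgroup.one_mem _
  -- a prime `Q` of `M` above `P`
  obtain ⟨Q, hQprime, hQP⟩ : ∃ Q : Ideal (𝓞 M), Q.IsPrime ∧ Q.under (𝓞 K) = P := by
    obtain ⟨Q, -, hQ1, hQ2⟩ :=
      Ideal.exists_ideal_over_prime_of_isIntegral P (⊥ : Ideal (𝓞 M)) (by
        rw [Ideal.comap_bot_of_injective _ (RingOfIntegers.algebraMap.injective K M)]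
        exact bot_le)
    exact ⟨Q, hQ1, hQ2⟩
  have hQ0 : Q ≠ ⊥ := by
    rintro rfl
    apply hP0
    rw [← hQP]
    exact Ideal.comap_bot_of_injective _ (RingOfIntegers.algebraMap.injective K M)
  obtain ⟨τ, hτ⟩ := exists_frob (K := K) Q hQ0
  -- `cls P ^ p ∈ U`
  have hPp : cls P ^ p ∈ normClasses K M := by
    rw [← cls_pow hP0]
    apply Subgroup.subset_closure
    refine ⟨P.map (algebraMap (𝓞 K) (𝓞 M)), ?_, ?_⟩
    · rw [Ne, Ideal.map_eq_bot_iff_of_injective (RingOfIntegers.algebraMap.injective K M)]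
      exact hP0
    · rw [Ideal.relNorm_algebraMap, ← IsFractionRing.finrank_eq (𝓞 K) K (𝓞 M) M, hdeg]
  by_cases hτ1 : τ = 1
  · -- split case
    subst hτ1
    have h := relNorm_eq_under_of_frob_one Q hQ0 hτ
    apply Subgroup.subset_closure
    exact ⟨Q, hQ0, by rw [h, hQP]⟩
  -- the rational prime below
  haveI : NeZero Q := ⟨hQ0⟩
  have hℓ : (Ideal.absNorm (Ideal.under ℤ Q)).Prime := Nat.absNorm_under_prime Q
  haveI hℓF : Fact (Ideal.absNorm (Ideal.under ℤ Q)).Prime := ⟨hℓ⟩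
  set ℓ := Ideal.absNorm (Ideal.under ℤ Q) with hℓdef
  haveI hfin : Finite (𝓞 M ⧸ Q) := Ideal.finiteQuotientOfFreeOfNeBot Q hQ0
  obtain ⟨s₀, hs₀⟩ := IsArithFrobAt.exists_of_isInvariant ℤ (M ≃ₐ[ℚ] M) Q
  have hζ := IsCyclotomicExtension.zeta_spec p ℚ K
  set ζ := IsCyclotomicExtension.zeta p ℚ K with hζdef
  have hpQ : (p : 𝓞 M) ∉ Q := by
    intro h
    apply hpP
    rw [← hQP, Ideal.under_def, Ideal.mem_comap]
    simpa using h
  have hs₀ζ : s₀ (algebraMap K M ζ) = algebraMap K M ζ ^ ℓ := by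
    have hpow : (algebraMap (𝓞 K) (𝓞 M) hζ.toInteger) ^ p = 1 := by
      rw [← map_pow]
      rw [hζ.toInteger_isPrimitiveRoot.pow_eq_one, map_one]
    have h := AlgHom.IsArithFrobAt.apply_of_pow_eq_one hs₀ hpow hpQ
    have hcard : Nat.card (ℤ ⧸ Ideal.under ℤ Q) = ℓ := by
      rw [hℓdef, Ideal.absNorm_apply, Submodule.cardQuot_apply]
    rw [hcard] at h
    have h2 : s₀ (algebraMap (𝓞 M) M (algebraMap (𝓞 K) (𝓞 M) hζ.toInteger)) =
        (algebraMap (𝓞 M) M (algebraMap (𝓞 K) (𝓞 M) hζ.toInteger)) ^ ℓ := by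
      have h' := congrArg (algebraMap (𝓞 M) M) h
      rw [map_pow] at h'
      exact h'
    have h3 : algebraMap (𝓞 M) M (algebraMap (𝓞 K) (𝓞 M) hζ.toInteger) = algebraMap K M ζ := by
      have h4 : ((hζ.toInteger : 𝓞 K) : K) = ζ := hζ.coe_toInteger
      have h5 : algebraMap (𝓞 M) M (algebraMap (𝓞 K) (𝓞 M) hζ.toInteger) =
          algebraMap K M ((hζ.toInteger : 𝓞 K) : K) := rfl
      rw [h5, h4]
    rwa [h3] at h2
  have hcomm₀ := hconj ζ hζ s₀ τ ℓ hs₀ζ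
  have hτℓ : IsArithFrobAt (𝓞 K) (τ ^ ℓ) Q := by
    have h := frob_pow_of_comm s₀ τ ℓ Q hcomm₀ hτ
    have hstab : s₀⁻¹ • Q = Q := by
      have h1 := hs₀.mem_stabilizer
      rw [MulAction.mem_stabilizer_iff] at h1
      rw [inv_smul_eq_iff, h1]
    rwa [hstab] at h
  have hτeq : τ ^ ℓ = τ := frob_unique hunr Q hQ0 hτℓ hτ
  have hτℓ1 : τ ^ (ℓ - 1) = 1 := by
    have h1 : τ ^ (ℓ - 1) * τ = 1 * τ := by
      rw [← pow_succ, Nat.sub_add_cancel hℓ.one_le, one_mul, hτeq]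
    exact mul_right_cancel h1
  have hcard : Nat.card (M ≃ₐ[K] M) = p := by
    rw [IsGaloisGroup.card_eq_finrank (M ≃ₐ[K] M) K M, hdeg]
  have hpℓ : p ∣ ℓ - 1 := dvd_of_pow_eq_one hp hcard hτ1 hτℓ1
  -- `P` lies over `ℓ` and has norm `ℓ`
  haveI hPℓ : P.LiesOver (Ideal.span {(ℓ : ℤ)}) := by
    have h1 : Q.LiesOver (Ideal.span {(ℓ : ℤ)}) := Int.liesOver_span_absNorm Q
    constructor
    rw [h1.over, ← hQP, Ideal.under_under]
  have hNP : Ideal.absNorm P = ℓ := absNorm_eq_of_modEq_one p K P ℓ hpℓ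
  have hNPprime : (Ideal.absNorm P).Prime := hNP ▸ hℓ
  have hpNP : ¬ p ∣ Ideal.absNorm P := by
    rw [hNP]
    intro h
    have h1 : p ∣ 1 := by
      have := (Nat.dvd_sub h hpℓ)
      rwa [Nat.sub_sub_self hℓ.one_le] at this
    exact hp.one_lt.ne' (Nat.dvd_one.mp h1)
  -- the automorphisms `σ t`
  classical
  let σ : ℕ → (K ≃ₐ[ℚ] K) := fun t =>
    if h : t.Coprime p then
      IsCyclotomicExtension.fromZetaAut (hζ.pow_of_coprime t h)
        (Polynomial.cyclotomic.irreducible_rat hp.pos)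
    else 1
  have hcop : ∀ t ∈ Finset.Ioo (p / 2) p, t.Coprime p := by
    intro t ht
    rw [Finset.mem_Ioo] at ht
    rw [Nat.coprime_comm, hp.coprime_iff_not_dvd]
    intro h
    have := Nat.le_of_dvd (by omega) h
    omega
  have hσ : ∀ t ∈ Finset.Ioo (p / 2) p, σ t ζ = ζ ^ t := by
    intro t ht
    simp only [σ, dif_pos (hcop t ht)]
    exact IsCyclotomicExtension.fromZetaAut_spec (hζ.pow_of_coprime t (hcop t ht))
      (Polynomial.cyclotomic.irreducible_rat hp.pos)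
  have hstick := hStick p K hp2 ζ hζ P hP hNPprime hpNP σ hσ
  -- crossing for each `t`
  have hcross : ∀ t ∈ Finset.Ioo (p / 2) p,
      cls ((σ t)⁻¹ • P) * (cls P ^ t)⁻¹ ∈ normClasses K M := by
    intro t ht
    set s := (σ t).liftNormal M with hsdef
    have hsK : ∀ x : K, s (algebraMap K M x) = algebraMap K M (σ t x) :=
      fun x => AlgEquiv.liftNormal_commutes (σ t) M x
    have hsζ : s (algebraMap K M ζ) = algebraMap K M ζ ^ t := by
      rw [hsK, hσ t ht, map_pow]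
    have hcomm := hconj ζ hζ s τ t hsζ
    have hτt : IsArithFrobAt (𝓞 K) (τ ^ t) (s⁻¹ • Q) := frob_pow_of_comm s τ t Q hcomm hτ
    have hres : s.restrictNormal K = σ t := by
      ext x
      apply (algebraMap K M).injective
      rw [AlgEquiv.restrictNormal_commutes, hsK]
    have hres' : (s⁻¹).restrictNormal K = (σ t)⁻¹ := by
      rw [← hres]
      exact map_inv (AlgEquiv.restrictNormalHom (F := ℚ) (K₁ := M) K) s
    have hunder : (s⁻¹ • Q).under (𝓞 K) = (σ t)⁻¹ • P := by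
      rw [under_smul, hres', hQP]
    have hQt : (s⁻¹ • Q).IsPrime := (Ideal.IsPrime.smul_iff s⁻¹).mpr hQprime
    have hN : Ideal.absNorm ((s⁻¹ • Q).under (𝓞 K)) = Ideal.absNorm P := by
      rw [absNorm_under_smul, hQP]
    have := hCross p K M hp2 hdeg hunr Q (s⁻¹ • Q) hQprime hQt (by rw [hQP]; exact hNPprime)
      (by rw [hN]; exact hNPprime) (by rw [hQP]; exact hpNP) (by rw [hN]; exact hpNP)
      τ (τ ^ t) t hτ hτt rfl
    rwa [hunder, hQP] at this
  have hprod : ∏ t ∈ Finset.Ioo (p / 2) p, (cls ((σ t)⁻¹ • P) * (cls P ^ t)⁻¹) ∈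
      normClasses K M := Subgroup.prod_mem _ hcross
  rw [Finset.prod_mul_distrib, hstick, one_mul, Finset.prod_inv_distrib,
    Finset.prod_pow_eq_pow_sum, Subgroup.inv_mem_iff] at hprod
  exact mem_of_pow_mem_of_coprime _ (cls P) (coprime_sum_Ioo p hp hp2) hprod hPp

end Fermat.Agent.S14.H56
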