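import Mathlib

/-!
# S14 / WP A1 (helper62): Herbrand indices and their invariance under finite-index subgroups

For an additive commutative group `A` with two endomorphisms `f g` such that `f ∘ g = 0 = g ∘ f`
(e.g. `f = σ - 1`, `g = 1 + σ + ... + σ^(p-1)` for an automorphism `σ` of order `p`), and a
subgroup `S` stable under `f` and `g`, we put `hIdx f g S := [ker f ∩ S : g S]`.
The Herbrand quotient of `S` is `hIdx f g S / hIdx g f S`.  We prove, without the hexagon lemma,
that the Herbrand quotient of a finite-index stable subgroup `S` is that of `A` (`= ⊤`):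
`hIdx f g ⊤ * hIdx g f S = hIdx f g S * hIdx g f ⊤`.
-/

namespace Fermat.Agent.S14.H62

variable {A : Type*} [AddCommGroup A]

/-- The index `[ker f ∩ S : g S]` (0 if infinite). -/
noncomputable def hIdx (f g : A →+ A) (S : AddSubgroup A) : ℕ :=
  (S.map g).relIndex (f.ker ⊓ S)

theorem hIdx_top (f g : A →+ A) : hIdx f g ⊤ = g.range.relIndex f.ker := by
  rw [hIdx, inf_top_eq, AddMonoidHom.range_eq_map]

/-- index lemma: `[A : S] = [f A : f S] * [ker f : ker f ∩ S]`. -/
theorem index_eq_relIndex_map_mul (f : A →+ A) (S : AddSubgroup A) :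
    S.index = (S.map f).relIndex f.range * S.relIndex f.ker := by
  have h1 : (S.map f).relIndex f.range = (S ⊔ f.ker).index := by
    have := AddSubgroup.relIndex_map_map f S ⊤
    rw [← AddMonoidHom.range_eq_map] at this
    rw [this, top_sup_eq, AddSubgroup.relIndex_top_right]
  have h2 : S.relIndex f.ker = S.relIndex (S ⊔ f.ker) := by
    rw [AddSubgroup.relIndex_sup_left]
  rw [h1, h2, mul_comm]
  exact (AddSubgroup.relIndex_mul_index (le_sup_left : S ≤ S ⊔ f.ker)).symm

/-- One half of the comparison: `[gA : gS] * [ker f : gA] = [ker f ∩ S : gS] * [ker f : ker f ∩ S]`. -/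
theorem hIdx_chain (f g : A →+ A) (hfg : ∀ x, f (g x) = 0) (S : AddSubgroup A)
    (hgS : S.map g ≤ S) :
    (S.map g).relIndex g.range * hIdx f g ⊤ = hIdx f g S * S.relIndex f.ker := by
  have hle1 : S.map g ≤ g.range := AddSubgroup.map_le_range g S
  have hle2 : g.range ≤ f.ker := by
    rintro _ ⟨x, rfl⟩
    exact hfg x
  have hle3 : S.map g ≤ f.ker ⊓ S := le_inf (hle1.trans hle2) hgS
  have hle4 : f.ker ⊓ S ≤ f.ker := inf_le_left
  rw [hIdx_top, hIdx, AddSubgroup.relIndex_mul_relIndex _ _ _ hle1 hle2,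
    ← AddSubgroup.inf_relIndex_right S f.ker, inf_comm S f.ker,
    AddSubgroup.relIndex_mul_relIndex _ _ _ hle3 hle4]

/-- **Finite-index invariance of the Herbrand quotient** (cross-multiplied form). -/
theorem hIdx_mul_eq_of_finiteIndex (f g : A →+ A) (hfg : ∀ x, f (g x) = 0)
    (hgf : ∀ x, g (f x) = 0) (S : AddSubgroup A) (hfS : S.map f ≤ S) (hgS : S.map g ≤ S)
    (hS : S.index ≠ 0) :
    hIdx f g ⊤ * hIdx g f S = hIdx f g S * hIdx g f ⊤ := by
  have e1 := hIdx_chain f g hfg S hgS
  have e2 := hIdx_chain g f hgf S hfS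
  have i1 := index_eq_relIndex_map_mul f S
  have i2 := index_eq_relIndex_map_mul g S
  set α := (S.map f).relIndex f.range
  set β := S.relIndex f.ker
  set γ := (S.map g).relIndex g.range
  set δ := S.relIndex g.ker
  set n := S.index
  have hn : 0 < n := Nat.pos_of_ne_zero hS
  -- γ * h0 = h0' * β ,  α * h1 = h1' * δ ,  n = α β = γ δ
  have key : n * (hIdx f g ⊤ * hIdx g f S) = n * (hIdx f g S * hIdx g f ⊤) := by
    calc n * (hIdx f g ⊤ * hIdx g f S)
        = (γ * hIdx f g ⊤) * (hIdx g f S * δ) := by rw [i2]; ring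
      _ = (hIdx f g S * β) * (α * hIdx g f ⊤) := by rw [e1, e2]
      _ = n * (hIdx f g S * hIdx g f ⊤) := by rw [i1]; ring
  exact Nat.eq_of_mul_eq_mul_left hn key

/-- Finiteness transfers as well. -/
theorem hIdx_ne_zero_iff_of_finiteIndex (f g : A →+ A) (hfg : ∀ x, f (g x) = 0)
    (S : AddSubgroup A) (hgS : S.map g ≤ S) (hS : S.index ≠ 0) :
    hIdx f g ⊤ ≠ 0 ↔ hIdx f g S ≠ 0 := by
  have e1 := hIdx_chain f g hfg S hgS
  have i1 := index_eq_relIndex_map_mul f S
  have i2 := index_eq_relIndex_map_mul g S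
  have hβ : S.relIndex f.ker ≠ 0 := fun h => hS (by rw [i1, h, mul_zero])
  have hγ : (S.map g).relIndex g.range ≠ 0 := fun h => hS (by rw [i2, h, zero_mul])
  constructor
  · intro h h0
    rw [h0, zero_mul] at e1
    exact (mul_ne_zero hγ h) e1
  · intro h h0
    rw [h0, mul_zero] at e1
    exact (mul_ne_zero h hβ) e1.symm

end Fermat.Agent.S14.H62
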