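import Fermat.Agent.S14.H62_SideFrob

/-!
# S14 crossing, SN-a (helper62): `[LL : EE] = p`

`H62.stmt_SNa : Side.Stmt_SNa`.  Galois correspondence: `[N^(H ⊓ G') : N^H] = [H : H ⊓ G']`
(`finrank_extendScalars_fixedField`), and `res(HH) = ⟨τ⟩` has order `p` because the Frobenius of
`N/K` above `Q` lies in `HH` and restricts to `τ`.
-/

namespace Fermat.Agent.S14.H62

open NumberField Module

section Count

variable {K N : Type} [Field K] [Field N] [Algebra K N] [FiniteDimensional K N] [IsGalois K N]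

/-- `[N^(H ⊓ G') : N^H] = [H : H ⊓ G']`, in the `extendScalars` form. -/
theorem finrank_extendScalars_fixedField (H G' : Subgroup (N ≃ₐ[K] N))
    (hle : IntermediateField.fixedField H ≤ IntermediateField.fixedField (H ⊓ G')) :
    finrank (IntermediateField.fixedField H) (IntermediateField.extendScalars hle)
      = G'.relIndex H := by
  have h1 : finrank (IntermediateField.fixedField H) N = Nat.card H :=
    IntermediateField.finrank_fixedField_eq_card H
  have h2 : finrank (IntermediateField.fixedField (H ⊓ G')) N = Nat.card (H ⊓ G' : Subgroup _) :=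
    IntermediateField.finrank_fixedField_eq_card (H ⊓ G')
  have h3 : finrank (IntermediateField.extendScalars hle) N
      = finrank (IntermediateField.fixedField (H ⊓ G')) N := rfl
  have h4 := Module.finrank_mul_finrank (IntermediateField.fixedField H)
    (IntermediateField.extendScalars hle) N
  rw [h1, h3, h2] at h4
  have h5 : G'.relIndex H * Nat.card (H ⊓ G' : Subgroup _) = Nat.card H := by
    have h6 := Subgroup.relIndex_mul_relIndex ⊥ (H ⊓ G') H bot_le inf_le_left
    rw [Subgroup.relIndex_bot_left, Subgroup.relIndex_bot_left, inf_comm,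
      Subgroup.inf_relIndex_right] at h6
    rw [mul_comm, inf_comm]
    exact h6
  have hpos : 0 < Nat.card (H ⊓ G' : Subgroup _) := Nat.card_pos
  exact Nat.eq_of_mul_eq_mul_right hpos (h4.trans h5.symm)

end Count

section SNa

variable {K M N : Type} [Field K] [NumberField K] [Field M] [NumberField M] [Field N]
  [NumberField N] [Algebra K M] [Algebra K N] [Algebra M N] [IsScalarTower K M N]
  [IsGalois K M] [IsGalois K N]
variable {p r : ℕ} [hr : Fact r.Prime] {χ : (N ≃ₐ[K] N) →* (ZMod r)ˣ} {ζ : N}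
  {I : Subgroup (N ≃ₐ[K] N)} {Q : Ideal (𝓞 M)} {τ : M ≃ₐ[K] M} {u : (ZMod r)ˣ}

theorem map_resN_HH (h : Side.SideHyp p K M N r χ ζ I Q τ u) :
    (Side.HH K M N χ τ u).map (Side.resN K M N) = Subgroup.zpowers τ := by
  apply le_antisymm
  · rintro _ ⟨γ, hγ, rfl⟩
    rw [SetLike.mem_coe, Side.HH, Subgroup.mem_comap, Subgroup.mem_zpowers_iff] at hγ
    obtain ⟨k, hk⟩ := hγ
    rw [Subgroup.mem_zpowers_iff]
    refine ⟨k, ?_⟩
    have := congrArg Prod.fst hk
    simpa using this
  · rw [Subgroup.zpowers_le]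
    obtain ⟨𝔓₀, h𝔓p, φ₀, h𝔓, hφ₀⟩ := exists_frob_over h
    exact ⟨φ₀, frob_mem_HH h 𝔓₀ h𝔓 φ₀ hφ₀, (frob_props h 𝔓₀ h𝔓 φ₀ hφ₀).1⟩

theorem orderOf_tau [hp : Fact p.Prime] (h : Side.SideHyp p K M N r χ ζ I Q τ u) :
    orderOf τ = p := by
  apply orderOf_eq_prime _ h.hτ1
  have : Nat.card (M ≃ₐ[K] M) = p := by
    rw [IsGalois.card_aut_eq_finrank, h.hdeg]
  rw [← this]
  exact pow_card_eq_one'

/-- **SN-a**: `[LL : EE] = p`. -/
theorem stmt_SNa : Side.Stmt_SNa := by
  intro p hp K M N _ _ _ _ _ _ _ _ _ _ _ _ _ r hr χ ζ I Q τ u h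
  have h1 := finrank_extendScalars_fixedField (Side.HH K M N χ τ u) (Side.resN K M N).ker
    (Side.EE_le_LL0 K M N χ τ u)
  have h2 : (Side.resN K M N).ker.relIndex (Side.HH K M N χ τ u) = p := by
    rw [Subgroup.relIndex_ker, map_resN_HH h, Nat.card_zpowers, orderOf_tau h]
  rw [← h2, ← h1]

end SNa

end Fermat.Agent.S14.H62
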