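import Fermat.Agent.S14.SideDefs
import Fermat.Agent.S14.H56_Frob

/-!
# S14 crossing, shared Frobenius lemma for `SideN` (helper62)

Under `Side.SideHyp`: for a prime `𝔓₀` of `N` above `Q` and a Frobenius element `φ₀` of `N/K`
at `𝔓₀`: `resN φ₀ = τ`, `χ φ₀ = u`, hence `φ₀ ∈ HH` (`frob_props`, `frob_mem_HH`,
`exists_frob_over`).  Generic pieces: `isArithFrobAt_resN` (restriction of a Frobenius is a
Frobenius), `frob_apply_zeta` (Frobenius on roots of unity), `SideHyp_r_notMem`.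
-/

namespace Fermat.Agent.S14.H62

open NumberField Module

section Frob

variable {K M N : Type} [Field K] [NumberField K] [Field M] [NumberField M] [Field N]
  [NumberField N] [Algebra K M] [Algebra K N] [Algebra M N] [IsScalarTower K M N]
  [IsGalois K M] [IsGalois K N]

/-- Compatibility of the Galois actions on `𝓞 M` and `𝓞 N` (restriction from `N/K` to `M/K`). -/
theorem algebraMap_resN_smul (φ : N ≃ₐ[K] N) (x : 𝓞 M) :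
    algebraMap (𝓞 M) (𝓞 N) (Side.resN K M N φ • x) = φ • (algebraMap (𝓞 M) (𝓞 N) x) := by
  apply RingOfIntegers.ext
  show algebraMap M N ((φ.restrictNormal M) (x : M)) = φ (algebraMap M N (x : M))
  exact AlgEquiv.restrictNormal_commutes φ M (x : M)

/-- The restriction of a Frobenius element of `N/K` at `𝔓` is a Frobenius element of `M/K` at
`𝔓 ∩ M`. -/
theorem isArithFrobAt_resN (𝔓 : Ideal (𝓞 N)) (φ : N ≃ₐ[K] N)
    (hφ : IsArithFrobAt (𝓞 K) φ 𝔓) :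
    IsArithFrobAt (𝓞 K) (Side.resN K M N φ) (𝔓.under (𝓞 M)) := by
  rw [H56.isArithFrobAt_iff] at hφ ⊢
  intro x
  have h1 : (𝔓.under (𝓞 M)).under (𝓞 K) = 𝔓.under (𝓞 K) := Ideal.under_under 𝔓
  rw [h1, Ideal.under_def, Ideal.mem_comap, map_sub, map_pow, algebraMap_resN_smul]
  exact hφ _

/-- A Frobenius element at a prime `𝔓` not containing `r` raises a primitive `r`-th root of unity
to the power `N(𝔓 ∩ K)`. -/
theorem frob_apply_zeta {r : ℕ} (hr : r ≠ 0) {ζ : N} (hζ : IsPrimitiveRoot ζ r)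
    (𝔓 : Ideal (𝓞 N)) (h𝔓 : (r : 𝓞 N) ∉ 𝔓) (φ : N ≃ₐ[K] N)
    (hφ : IsArithFrobAt (𝓞 K) φ 𝔓) :
    φ ζ = ζ ^ Ideal.absNorm (𝔓.under (𝓞 K)) := by
  have hint : IsIntegral ℤ ζ := hζ.isIntegral (Nat.pos_of_ne_zero hr)
  let ζ' : 𝓞 N := ⟨ζ, hint⟩
  have hζ' : ζ' ^ r = 1 := by
    apply RingOfIntegers.ext
    show ζ ^ r = 1
    exact hζ.pow_eq_one
  have h1 := AlgHom.IsArithFrobAt.apply_of_pow_eq_one hφ hζ' h𝔓
  have h2 := congrArg (fun y : 𝓞 N => (y : N)) h1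
  rw [Ideal.absNorm_apply, Submodule.cardQuot_apply]
  exact h2

variable {p r : ℕ} [hr : Fact r.Prime] {χ : (N ≃ₐ[K] N) →* (ZMod r)ˣ} {ζ : N}
  {I : Subgroup (N ≃ₐ[K] N)} {Q : Ideal (𝓞 M)} {τ : M ≃ₐ[K] M} {u : (ZMod r)ˣ}

theorem SideHyp_Q_ne_bot (h : Side.SideHyp p K M N r χ ζ I Q τ u) : Q ≠ ⊥ := by
  intro hQ
  have := h.hq
  rw [hQ, Ideal.under_bot, Ideal.absNorm_bot] at this
  exact Nat.not_prime_zero this

/-- The norm `q` of `𝔮 = Q ∩ K` is prime to `r`, so `r ∉ 𝔓` for `𝔓` above `𝔮`. -/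
theorem SideHyp_r_notMem (h : Side.SideHyp p K M N r χ ζ I Q τ u) (𝔓 : Ideal (𝓞 N))
    [h𝔓p : 𝔓.IsPrime] (h𝔓 : 𝔓.under (𝓞 K) = Q.under (𝓞 K)) : (r : 𝓞 N) ∉ 𝔓 := by
  intro hmem
  have hq_mem : ((Ideal.absNorm (Q.under (𝓞 K)) : ℕ) : 𝓞 N) ∈ 𝔓 := by
    have h1 := Ideal.absNorm_mem (Q.under (𝓞 K))
    have h1' : ((Ideal.absNorm (Q.under (𝓞 K)) : ℕ) : 𝓞 K) ∈ 𝔓.under (𝓞 K) := by
      rw [h𝔓]; exact h1
    rw [Ideal.under_def, Ideal.mem_comap] at h1'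
    simpa using h1'
  have hcop : (Ideal.absNorm (Q.under (𝓞 K))).Coprime r := by
    rw [← ZMod.isUnit_iff_coprime, ← h.hu]
    exact u.isUnit
  have hone : (1 : 𝓞 N) ∈ 𝔓 := by
    have hbez := Nat.Coprime.isCoprime hcop
    obtain ⟨a, b, hab⟩ := hbez
    have h2 : ((a * (Ideal.absNorm (Q.under (𝓞 K)) : ℤ) + b * (r : ℤ) : ℤ) : 𝓞 N) = 1 := by
      rw [hab]; simp
    rw [← h2]
    push_cast
    exact 𝔓.add_mem (𝔓.mul_mem_left _ hq_mem) (𝔓.mul_mem_left _ hmem)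
  exact h𝔓p.ne_top ((Ideal.eq_top_iff_one 𝔓).mpr hone)

/-- **Frobenius lemma** (shared by SN-a and SN-d): a Frobenius element of `N/K` at a prime `𝔓₀`
above `Q` restricts to `τ` and has character value `u`; hence it lies in `HH`. -/
theorem frob_props (h : Side.SideHyp p K M N r χ ζ I Q τ u) (𝔓₀ : Ideal (𝓞 N)) [𝔓₀.IsPrime]
    (h𝔓 : 𝔓₀.under (𝓞 M) = Q) (φ₀ : N ≃ₐ[K] N) (hφ : IsArithFrobAt (𝓞 K) φ₀ 𝔓₀) :
    Side.resN K M N φ₀ = τ ∧ χ φ₀ = u := by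
  have hQ0 := SideHyp_Q_ne_bot h
  have hQp : Q.IsPrime := h.hQ
  have hunder : 𝔓₀.under (𝓞 K) = Q.under (𝓞 K) := by
    rw [← h𝔓]; exact (Ideal.under_under 𝔓₀).symm
  constructor
  · have h1 := isArithFrobAt_resN (M := M) 𝔓₀ φ₀ hφ
    rw [h𝔓] at h1
    exact (H56.frob_unique h.hunr Q hQ0 h.hτ h1).symm
  · have hr0 : r ≠ 0 := hr.out.ne_zero
    have h1 := frob_apply_zeta hr0 h.hζ 𝔓₀ (SideHyp_r_notMem h 𝔓₀ hunder) φ₀ hφ
    rw [h.hχ φ₀, hunder] at h1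
    have h2 : (χ φ₀ : ZMod r).val ≡ Ideal.absNorm (Q.under (𝓞 K)) [MOD r] := by
      have hfin : IsOfFinOrder ζ :=
        isOfFinOrder_iff_pow_eq_one.mpr ⟨r, Nat.pos_of_ne_zero hr0, h.hζ.pow_eq_one⟩
      have := hfin.pow_eq_pow_iff_modEq.mp h1
      rwa [← h.hζ.eq_orderOf] at this
    apply Units.ext
    rw [h.hu]
    have h3 := (ZMod.natCast_eq_natCast_iff _ _ _).mpr h2
    rw [ZMod.natCast_val, ZMod.cast_id', id] at h3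
    exact h3

theorem frob_mem_HH (h : Side.SideHyp p K M N r χ ζ I Q τ u) (𝔓₀ : Ideal (𝓞 N)) [𝔓₀.IsPrime]
    (h𝔓 : 𝔓₀.under (𝓞 M) = Q) (φ₀ : N ≃ₐ[K] N) (hφ : IsArithFrobAt (𝓞 K) φ₀ 𝔓₀) :
    φ₀ ∈ Side.HH K M N χ τ u := by
  obtain ⟨h1, h2⟩ := frob_props h 𝔓₀ h𝔓 φ₀ hφ
  rw [Side.HH, Subgroup.mem_comap, MonoidHom.prod_apply, h1, h2]
  exact Subgroup.mem_zpowers _

/-- Existence of a prime of `N` above `Q` with a Frobenius element. -/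
theorem exists_frob_over (h : Side.SideHyp p K M N r χ ζ I Q τ u) :
    ∃ (𝔓₀ : Ideal (𝓞 N)) (_ : 𝔓₀.IsPrime) (φ₀ : N ≃ₐ[K] N),
      𝔓₀.under (𝓞 M) = Q ∧ IsArithFrobAt (𝓞 K) φ₀ 𝔓₀ := by
  have hQp : Q.IsPrime := h.hQ
  obtain ⟨𝔓₀, -, h𝔓p, h𝔓⟩ :=
    Ideal.exists_ideal_over_prime_of_isIntegral (S := 𝓞 N) Q ⊥ (by simp)
  have h𝔓0 : 𝔓₀ ≠ ⊥ := by
    intro h0
    rw [h0] at h𝔓
    have : Q = ⊥ := by rw [← h𝔓]; exact Ideal.under_bot (𝓞 M) (𝓞 N)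
    exact SideHyp_Q_ne_bot h this
  obtain ⟨φ₀, hφ₀⟩ := H56.exists_frob (K := K) 𝔓₀ h𝔓0
  exact ⟨𝔓₀, h𝔓p, φ₀, h𝔓, hφ₀⟩

end Frob

end Fermat.Agent.S14.H62
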