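import Fermat.Agent.S14.H62_SNa

/-!
# S14 crossing: the `SideN` glue (helper62)

`H62.stmt_SideN_of : Stmt_Side → Side.Stmt_SNa → … → Side.Stmt_SNf → Stmt_SideN`.
Also `apply_of_pow_congr` (Frobenius-type congruence with arbitrary exponent acts on roots of
unity by that exponent), `chi_eq_of_pow_congr`, `notMem_zpowers_pow`, `mul_inv_mem_zpowers_pow`.
-/

namespace Fermat.Agent.S14.H62

open NumberField Module

section GenFrob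

/-- Generalisation of `AlgHom.IsArithFrobAt.apply_of_pow_eq_one` to an arbitrary exponent:
if `φ x ≡ x ^ q` mod `Q` for all `x`, then `φ ζ = ζ ^ q` for every root of unity `ζ` of order
prime to `Q`. -/
theorem apply_of_pow_congr {S : Type*} [CommRing S] [IsDomain S] (φ : S →+* S) (Q : Ideal S)
    (q : ℕ) (H : ∀ x, φ x - x ^ q ∈ Q) {ζ : S} {m : ℕ} (hζ : ζ ^ m = 1) (hk' : ↑m ∉ Q) :
    φ ζ = ζ ^ q := by
  have hm : m ≠ 0 := by rintro rfl; exact hk' (by simp)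
  obtain ⟨k, hk, hζ⟩ := IsPrimitiveRoot.exists_pos hζ hm
  have hk' : ↑k ∉ Q := fun h ↦ hk' (Q.mem_of_dvd (Nat.cast_dvd_cast (hζ.2 m ‹_›)) h)
  have : NeZero k := ⟨hk.ne'⟩
  obtain ⟨i, hi, e⟩ := hζ.eq_pow_of_pow_eq_one (ξ := φ ζ) (by rw [← map_pow, hζ.1, map_one])
  have (j : _) : 1 - ζ ^ ((q + k - i) * j) ∈ Q := by
    rw [← Ideal.mul_unit_mem_iff_mem _ ((hζ.isUnit NeZero.out).pow (i * j)),
      sub_mul, one_mul, ← pow_add, ← add_mul, tsub_add_cancel_of_le (by linarith), add_mul,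
        pow_add, pow_mul _ k, hζ.1, one_pow, mul_one, pow_mul, e, ← map_pow, mul_comm, pow_mul]
    exact H _
  have h₁ := sum_mem (t := Finset.range k) fun j _ ↦ this j
  have h₂ := geom_sum_mul (ζ ^ (q + k - i)) k
  rw [pow_right_comm, hζ.1, one_pow, sub_self, mul_eq_zero, sub_eq_zero] at h₂
  rcases h₂ with h₂ | h₂
  · simp [h₂, pow_mul, hk'] at h₁
  replace h₂ := congr($h₂ * ζ ^ i)
  rw [one_mul, ← pow_add, tsub_add_cancel_of_le (by linarith), pow_add, hζ.1, mul_one] at h₂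
  rw [h₂, e]

variable {K N : Type} [Field K] [NumberField K] [Field N] [NumberField N] [Algebra K N]
  [IsGalois K N]

/-- If `γ x ≡ x ^ n` mod `𝔓` on `𝓞 N` and `r ∉ 𝔓`, then `γ ζ = ζ ^ n` for a primitive `r`-th
root of unity `ζ`. -/
theorem apply_zeta_of_pow_congr {r : ℕ} (hr : r ≠ 0) {ζ : N} (hζ : IsPrimitiveRoot ζ r)
    (𝔓 : Ideal (𝓞 N)) (h𝔓 : (r : 𝓞 N) ∉ 𝔓) (γ : N ≃ₐ[K] N) (n : ℕ)
    (hγ : ∀ x : 𝓞 N, γ • x - x ^ n ∈ 𝔓) : γ ζ = ζ ^ n := by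
  have hint : IsIntegral ℤ ζ := hζ.isIntegral (Nat.pos_of_ne_zero hr)
  let ζ' : 𝓞 N := ⟨ζ, hint⟩
  have hζ' : ζ' ^ r = 1 := by
    apply RingOfIntegers.ext
    show ζ ^ r = 1
    exact hζ.pow_eq_one
  have h1 := apply_of_pow_congr (MulSemiringAction.toRingHom (N ≃ₐ[K] N) (𝓞 N) γ) 𝔓 n hγ hζ' h𝔓
  exact congrArg (fun y : 𝓞 N => (y : N)) h1

/-- the character value of such a `γ` is `n` mod `r`. -/
theorem chi_eq_of_pow_congr {r : ℕ} [hr : Fact r.Prime] {ζ : N} (hζ : IsPrimitiveRoot ζ r)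
    (χ : (N ≃ₐ[K] N) →* (ZMod r)ˣ) (hχ : ∀ γ : N ≃ₐ[K] N, γ ζ = ζ ^ ((χ γ : ZMod r).val))
    (𝔓 : Ideal (𝓞 N)) (h𝔓 : (r : 𝓞 N) ∉ 𝔓) (γ : N ≃ₐ[K] N) (n : ℕ)
    (hγ : ∀ x : 𝓞 N, γ • x - x ^ n ∈ 𝔓) : (χ γ : ZMod r) = (n : ZMod r) := by
  have hr0 : r ≠ 0 := hr.out.ne_zero
  have h1 := apply_zeta_of_pow_congr hr0 hζ 𝔓 h𝔓 γ n hγ
  rw [hχ γ] at h1
  have h2 : (χ γ : ZMod r).val ≡ n [MOD r] := by
    have hfin : IsOfFinOrder ζ :=
      isOfFinOrder_iff_pow_eq_one.mpr ⟨r, Nat.pos_of_ne_zero hr0, hζ.pow_eq_one⟩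
    have := hfin.pow_eq_pow_iff_modEq.mp h1
    rwa [← hζ.eq_orderOf] at this
  have h3 := (ZMod.natCast_eq_natCast_iff _ _ _).mpr h2
  rw [ZMod.natCast_val, ZMod.cast_id', id] at h3
  exact h3

end GenFrob

section Grp

/-- `u ∉ ⟨u ^ p⟩` when `p ∣ orderOf u` (`p` prime). -/
theorem notMem_zpowers_pow {G : Type*} [Group G] {p : ℕ} (hp : p.Prime) (u : G)
    (hord : p ∣ orderOf u) : u ∉ Subgroup.zpowers (u ^ p) := by
  intro hmem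
  rw [Subgroup.mem_zpowers_iff] at hmem
  obtain ⟨m, hm⟩ := hmem
  have h1 : u ^ ((p : ℤ) * m - 1) = 1 := by
    rw [zpow_sub, zpow_mul, zpow_natCast, hm, zpow_one, mul_inv_cancel]
  have h2 : (orderOf u : ℤ) ∣ (p : ℤ) * m - 1 := orderOf_dvd_iff_zpow_eq_one.mpr h1
  have h3 : (p : ℤ) ∣ (p : ℤ) * m - 1 := (Int.natCast_dvd_natCast.mpr hord).trans h2
  have h4 : (p : ℤ) ∣ 1 := by
    have := dvd_sub (dvd_mul_right (p : ℤ) m) h3
    simpa using this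
  have h5 : p ∣ 1 := by exact_mod_cast h4
  exact hp.one_lt.ne' (Nat.dvd_one.mp h5)

/-- If `(a, b) ∈ ⟨(τ, u)⟩`, `a = τ ^ c` and `τ` has order `p`, then `b * (u ^ c)⁻¹ ∈ ⟨u ^ p⟩`. -/
theorem mul_inv_mem_zpowers_pow {G H : Type*} [Group G] [Group H] {p : ℕ} (τ : G) (u : H)
    (hτ : orderOf τ = p) (a : G) (b : H) (c : ℕ)
    (hmem : (a, b) ∈ Subgroup.zpowers (τ, u)) (ha : a = τ ^ c) :
    b * (u ^ c)⁻¹ ∈ Subgroup.zpowers (u ^ p) := by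
  rw [Subgroup.mem_zpowers_iff] at hmem
  obtain ⟨k, hk⟩ := hmem
  have hk1 : τ ^ k = a := by simpa using congrArg Prod.fst hk
  have hk2 : u ^ k = b := by simpa using congrArg Prod.snd hk
  have h1 : τ ^ (k - c) = 1 := by
    rw [zpow_sub, hk1, ha, zpow_natCast, mul_inv_cancel]
  have h2 : (orderOf τ : ℤ) ∣ k - c := orderOf_dvd_iff_zpow_eq_one.mpr h1
  rw [hτ] at h2
  obtain ⟨m, hm⟩ := h2
  rw [Subgroup.mem_zpowers_iff]
  refine ⟨m, ?_⟩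
  rw [← zpow_natCast u p, ← zpow_mul, ← hm, zpow_sub, hk2, zpow_natCast]

end Grp

/-- **SideN glue**: `Stmt_Side` and the six sub-packages give `Stmt_SideN`. -/
theorem stmt_SideN_of (hSide : Stmt_Side) (ha : Side.Stmt_SNa) (hb : Side.Stmt_SNb)
    (hc : Side.Stmt_SNc) (hd : Side.Stmt_SNd) (he : Side.Stmt_SNe) (hf : Side.Stmt_SNf) :
    Stmt_SideN := by
  intro p hp K M N _ _ _ _ _ _ _ _ _ _ _ _ _ r hr χ ζ I hp2 hdeg hunr hab hrp hζ hχ hI_res hI_in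
    hI_surj Q τ u hQ hτ hτ1 hq hu hord 𝔓 γ g c h𝔓 hr𝔓 hg hγ hmem hres
  have h : Side.SideHyp p K M N r χ ζ I Q τ u :=
    ⟨hp2, hdeg, hunr, hab, hrp, hζ, hχ, hI_res, hI_in, hI_surj, hQ, hτ, hτ1, hq, hu, hord⟩
  obtain ⟨A, hA1, hA2⟩ := hd p K M N r χ ζ I Q τ u h
  have hγHH : γ ∈ Side.HH K M N χ τ u := hmem
  obtain ⟨B, hB1, hB2⟩ := he p K M N r χ ζ I Q τ u h 𝔓 γ g h𝔓 hg hγ hγHH
  have hχγ : (χ γ : ZMod r) = ((Ideal.absNorm (𝔓.under (𝓞 K)) ^ g : ℕ) : ZMod r) :=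
    chi_eq_of_pow_congr hζ χ hχ 𝔓 hr𝔓 γ _ hγ
  have key := hSide p (Side.EE K M N χ τ u) (Side.LL K M N χ τ u) r
    (Subgroup.zpowers (u ^ p)) {r} (Finset.mem_singleton_self r)
    (ha p K M N r χ ζ I Q τ u h) (hb p K M N r χ ζ I Q τ u h) (hc p K M N r χ ζ I Q τ u h)
    A B u (χ γ) c (by rw [hA1]; exact hu) (by rw [hB1]; exact hχγ)
    (notMem_zpowers_pow hp.out u hord) (Subgroup.mem_zpowers _)
    (mul_inv_mem_zpowers_pow τ u (orderOf_tau h) _ _ c hmem hres)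
  -- norm down to `K`
  set c₀ : ClassGroup (𝓞 (Side.EE K M N χ τ u)) := cls B * (cls A ^ c)⁻¹ with hc₀
  have hJ := hf p K M N r χ ζ I Q τ u h (clsRep c₀) (clsRep_ne_bot c₀)
    (by rw [cls_clsRep]; exact key)
  have hA0 : A ≠ ⊥ := by
    intro h0
    rw [h0, Ideal.absNorm_bot] at hA1
    exact Nat.not_prime_zero (hA1 ▸ hq)
  have hB0 : B ≠ ⊥ := by
    intro h0
    rw [h0, Ideal.absNorm_bot] at hB1
    have : Ideal.absNorm (𝔓.under (𝓞 K)) ^ g ≠ 0 := by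
      apply pow_ne_zero
      intro h1
      have : (χ γ : ZMod r) = 0 := by rw [hχγ, h1, zero_pow hg]; simp
      exact (χ γ).ne_zero this
    exact this hB1.symm
  have hnorm : cls (Ideal.relNorm (𝓞 K) (clsRep c₀)) =
      cls ((𝔓.under (𝓞 K)) ^ g) * (cls (Q.under (𝓞 K)) ^ c)⁻¹ := by
    rw [← clsNorm_cls K _ (clsRep_ne_bot c₀), cls_clsRep, hc₀, map_mul, map_inv, map_pow,
      clsNorm_cls K _ hA0, clsNorm_cls K _ hB0, hA2, hB2]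
  rw [← hnorm]
  exact hJ

end Fermat.Agent.S14.H62
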