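import Mathlib

/-!
# S14, package A3: Galois-invariant ideals of an unramified extension are extended

`A ⊆ B` Dedekind domains with fraction fields `K ⊆ L`, `L/K` finite Galois, `B` the integral
closure of `A` in `L`.  If every nonzero prime of `B` has ramification index `1` over `A`, then
every nonzero ideal `J` of `B` which is stable under all of `Gal(L/K)` is of the form `I·B`
for an ideal `I` of `A`.

Main results (namespace `Fermat.Agent.S14.H97`):
* `exists_map_eq_of_forall_map_galRestrict_eq` : the AKLB statement.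
* `exists_map_eq_of_map_galRestrict_generator_eq` : same, `Gal(L/K)` generated by `σ`, `J` only
  assumed `σ`-stable.
* `numberField_invariant_ideal_extended` : number field version, in the exact shape of
  `Fermat.Agent.S14.T1.Stmt_A3`.
* `ramificationIdx_eq_one_of_inertia_eq_bot` : conversion from the inertia group form of
  "unramified".
-/

set_option autoImplicit false

namespace Fermat.Agent.S14.H97

open Ideal

section helpers

variable (A K L B : Type*) [CommRing A] [CommRing B] [Algebra A B] [Field K] [Field L]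
    [Algebra A K] [IsFractionRing A K] [Algebra B L]
    [Algebra K L] [Algebra A L] [IsScalarTower A B L] [IsScalarTower A K L]
    [IsIntegralClosure B A L] [Algebra.IsAlgebraic K L]

/-- `map σ J = J` implies `comap σ J = J`. -/
theorem comap_galRestrict_eq_of_map_eq (J : Ideal B) (σ : Gal(L/K))
    (h : J.map (galRestrict A K L B σ) = J) : J.comap (galRestrict A K L B σ) = J := by
  conv_lhs => rw [← h]
  exact Ideal.comap_map_of_bijective _ (galRestrict A K L B σ).bijective

/-- Extended ideals are fixed by the Galois group. -/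
theorem map_galRestrict_map_algebraMap (I : Ideal A) (σ : Gal(L/K)) :
    (I.map (algebraMap A B)).map (galRestrict A K L B σ) = I.map (algebraMap A B) := by
  apply le_antisymm
  · rw [Ideal.map_le_iff_le_comap, Ideal.map_le_iff_le_comap]
    intro x hx
    rw [Ideal.mem_comap, Ideal.mem_comap, AlgEquiv.commutes]
    exact Ideal.mem_map_of_mem _ hx
  · rw [Ideal.map_le_iff_le_comap]
    intro x hx
    rw [Ideal.mem_comap, ← AlgEquiv.commutes (galRestrict A K L B σ) x]
    exact Ideal.mem_map_of_mem _ (Ideal.mem_map_of_mem _ hx)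

omit [Algebra A K] [IsFractionRing A K] [Algebra B L] [Algebra K L] [Algebra A L]
  [IsScalarTower A B L] [IsScalarTower A K L] [IsIntegralClosure B A L]
  [Algebra.IsAlgebraic K L] [Field K] [Field L] in
/-- `map e J = J` in terms of membership. -/
theorem map_algEquiv_eq_iff (e : B ≃ₐ[A] B) (J : Ideal B) :
    J.map e = J ↔ ∀ x, e x ∈ J ↔ x ∈ J := by
  constructor
  · intro h x
    constructor
    · intro hx
      rw [← h, Ideal.mem_map_of_equiv] at hx
      obtain ⟨y, hy, hyx⟩ := hx
      rwa [← e.injective hyx]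
    · intro hx
      rw [← h]
      exact Ideal.mem_map_of_mem _ hx
  · intro h
    ext y
    rw [Ideal.mem_map_of_equiv]
    constructor
    · rintro ⟨x, hx, rfl⟩
      exact (h x).mpr hx
    · intro hy
      exact ⟨e.symm y, (h _).mp (by rwa [e.apply_symm_apply]), e.apply_symm_apply y⟩

/-- The subgroup of `Gal(L/K)` stabilising an ideal of `B`. -/
def idealStabilizer (J : Ideal B) : Subgroup Gal(L/K) where
  carrier := {τ | J.map (galRestrict A K L B τ) = J}
  one_mem' := by
    show J.map (galRestrict A K L B 1) = J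
    rw [map_algEquiv_eq_iff]
    intro x
    rw [map_one, AlgEquiv.one_apply]
  mul_mem' := by
    intro a b ha hb
    have ha' : J.map (galRestrict A K L B a) = J := ha
    have hb' : J.map (galRestrict A K L B b) = J := hb
    show J.map (galRestrict A K L B (a * b)) = J
    rw [map_algEquiv_eq_iff] at ha' hb' ⊢
    intro x
    rw [map_mul, AlgEquiv.mul_apply, ha', hb']
  inv_mem' := by
    intro a ha
    have ha' : J.map (galRestrict A K L B a) = J := ha
    show J.map (galRestrict A K L B a⁻¹) = J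
    rw [map_algEquiv_eq_iff] at ha' ⊢
    intro x
    rw [← ha', map_inv, ← AlgEquiv.mul_apply, mul_inv_cancel, AlgEquiv.one_apply]

theorem mem_idealStabilizer (J : Ideal B) (τ : Gal(L/K)) :
    τ ∈ idealStabilizer A K L B J ↔ J.map (galRestrict A K L B τ) = J := Iff.rfl

/-- If `σ` generates `Gal(L/K)` and `J` is `σ`-stable, then `J` is `Gal(L/K)`-stable. -/
theorem forall_map_galRestrict_eq_of_generator
    (σ : Gal(L/K)) (hσ : ∀ τ : Gal(L/K), τ ∈ Subgroup.zpowers σ)
    (J : Ideal B) (hJ : J.map (galRestrict A K L B σ) = J) (τ : Gal(L/K)) :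
    J.map (galRestrict A K L B τ) = J := by
  have h1 : Subgroup.zpowers σ ≤ idealStabilizer A K L B J :=
    (Subgroup.zpowers_le).mpr hJ
  exact h1 (hσ τ)

end helpers

section AKLB

variable (A K L B : Type*) [CommRing A] [CommRing B] [Algebra A B] [Field K] [Field L]
    [Algebra A K] [IsFractionRing A K] [Algebra B L]
    [Algebra K L] [Algebra A L] [IsScalarTower A B L] [IsScalarTower A K L]
    [IsIntegralClosure B A L] [FiniteDimensional K L]
    [IsDedekindDomain A] [IsDedekindDomain B] [IsGalois K L]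
    [Algebra.IsIntegral A B] [Module.IsTorsionFree A B]

/-- A `Gal(L/K)`-stable nonzero ideal of `B` is extended from `A`, when `B/A` is unramified. -/
theorem exists_map_eq_of_forall_map_galRestrict_eq
    (hunr : ∀ P : Ideal B, P.IsPrime → P ≠ ⊥ → P.ramificationIdx A = 1)
    (J : Ideal B) (hJ0 : J ≠ ⊥)
    (hJ : ∀ σ : Gal(L/K), J.map (galRestrict A K L B σ) = J) :
    ∃ I : Ideal A, I.map (algebraMap A B) = J := by
  induction J using WellFoundedGT.induction with
  | ind J ih =>
    by_cases hJtop : J = ⊤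
    · exact ⟨⊤, by rw [Ideal.map_top, hJtop]⟩
    obtain ⟨P, hPmax, hJP⟩ := Ideal.exists_le_maximal J hJtop
    have hPprime : P.IsPrime := hPmax.isPrime
    have hP0 : P ≠ ⊥ := ne_bot_of_le_ne_bot hJ0 hJP
    -- the prime below
    set p : Ideal A := P.under A with hp_def
    have hp0 : p ≠ ⊥ := Ideal.under_ne_bot A hP0
    have hpprime : p.IsPrime := inferInstance
    have hpmax : p.IsMaximal := hpprime.isMaximal hp0
    have hPp : P.LiesOver p := ⟨rfl⟩
    have hmap0 : p.map (algebraMap A B) ≠ ⊥ := Ideal.map_ne_bot_of_ne_bot hp0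
    -- `pB` is the product of the primes above `p`
    have hfact : p.map (algebraMap A B) = ∏ Q ∈ p.primesOver B, Q := by
      rw [Ideal.map_algebraMap_eq_finsetProd_pow (R := B) hp0]
      refine Finset.prod_congr rfl fun Q hQ => ?_
      have hQ' : Q ∈ p.primesOver B := by simpa using hQ
      have : Q.IsPrime := hQ'.1
      have : Q.LiesOver p := hQ'.2
      rw [hunr Q hQ'.1 (Ideal.ne_bot_of_liesOver_of_ne_bot hp0 Q), pow_one]
    -- every prime above `p` contains `J`
    have hJQ : ∀ Q ∈ p.primesOver B, J ≤ Q := by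
      intro Q hQ
      obtain ⟨σ, hσ⟩ := Ideal.exists_comap_galRestrict_eq A K L B (p := p)
        (P₁ := P) (P₂ := Q) ⟨hPprime, hPp⟩ hQ
      rw [← hσ, ← comap_galRestrict_eq_of_map_eq A K L B J σ (hJ σ)]
      exact Ideal.comap_mono hJP
    -- hence `pB ∣ J`
    have hdvd : p.map (algebraMap A B) ∣ J := by
      rw [hfact]
      refine Finset.prod_primes_dvd J ?_ ?_
      · intro Q hQ
        have hQ' : Q ∈ p.primesOver B := by simpa using hQ
        have : Q.IsPrime := hQ'.1
        have : Q.LiesOver p := hQ'.2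
        exact Ideal.prime_of_isPrime (Ideal.ne_bot_of_liesOver_of_ne_bot hp0 Q) hQ'.1
      · intro Q hQ
        have hQ' : Q ∈ p.primesOver B := by simpa using hQ
        exact Ideal.dvd_iff_le.mpr (hJQ Q hQ')
    obtain ⟨J', hJ'⟩ := hdvd
    have hJ'0 : J' ≠ ⊥ := by
      rintro rfl
      exact hJ0 (by rw [hJ', Ideal.mul_bot])
    have hJ'inv : ∀ σ : Gal(L/K), J'.map (galRestrict A K L B σ) = J' := by
      intro σ
      have h1 := hJ σ
      rw [hJ', Ideal.map_mul, map_galRestrict_map_algebraMap] at h1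
      exact mul_left_cancel₀ hmap0 h1
    have hmapP : p.map (algebraMap A B) ≤ P := Ideal.map_le_iff_le_comap.mpr le_rfl
    have hlt : J < J' := by
      refine lt_of_le_of_ne (hJ' ▸ Ideal.mul_le_right) ?_
      intro h
      have h2 : p.map (algebraMap A B) * J' = 1 * J' := by rw [one_mul, ← hJ', h]
      have h3 : p.map (algebraMap A B) = 1 := mul_right_cancel₀ hJ'0 h2
      rw [Ideal.one_eq_top] at h3
      exact hPmax.ne_top (top_le_iff.mp (h3 ▸ hmapP))
    obtain ⟨I', hI'⟩ := ih J' hlt hJ'0 hJ'inv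
    exact ⟨p * I', by rw [Ideal.map_mul, hI', hJ']⟩

/-- Version for a cyclic Galois group with a chosen generator. -/
theorem exists_map_eq_of_map_galRestrict_generator_eq
    (hunr : ∀ P : Ideal B, P.IsPrime → P ≠ ⊥ → P.ramificationIdx A = 1)
    (σ : Gal(L/K)) (hσ : ∀ τ : Gal(L/K), τ ∈ Subgroup.zpowers σ)
    (J : Ideal B) (hJ0 : J ≠ ⊥) (hJ : J.map (galRestrict A K L B σ) = J) :
    ∃ I : Ideal A, I.map (algebraMap A B) = J :=
  exists_map_eq_of_forall_map_galRestrict_eq A K L B hunr J hJ0
    (forall_map_galRestrict_eq_of_generator A K L B σ hσ J hJ)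

end AKLB

section NumberField

open NumberField

variable (K M : Type*) [Field K] [NumberField K] [Field M] [NumberField M] [Algebra K M]
  [IsGalois K M]

/-- **A3** for number fields, ramification-index form of "unramified". -/
theorem numberField_invariant_ideal_extended
    (hunr : ∀ P : Ideal (𝓞 M), P.IsPrime → P ≠ ⊥ → P.ramificationIdx (𝓞 K) = 1)
    (σ : M ≃ₐ[K] M) (hσ : ∀ τ : M ≃ₐ[K] M, τ ∈ Subgroup.zpowers σ) :
    ∀ 𝔄 : Ideal (𝓞 M), 𝔄 ≠ ⊥ → 𝔄.map (galRestrict (𝓞 K) K M (𝓞 M) σ) = 𝔄 →
      ∃ 𝔞 : Ideal (𝓞 K), 𝔞.map (algebraMap (𝓞 K) (𝓞 M)) = 𝔄 :=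
  fun 𝔄 h0 h =>
    exists_map_eq_of_map_galRestrict_generator_eq (𝓞 K) K M (𝓞 M) hunr σ hσ 𝔄 h0 h

/-- Trivial inertia group implies ramification index one. -/
theorem ramificationIdx_eq_one_of_inertia_eq_bot
    (P : Ideal (𝓞 M)) (hP : P.IsPrime)
    (h : Ideal.inertia (M ≃ₐ[K] M) P = ⊥) : P.ramificationIdx (𝓞 K) = 1 := by
  have hG : IsGaloisGroup (M ≃ₐ[K] M) (𝓞 K) (𝓞 M) := IsGaloisGroup.of_isFractionRing _ _ _ K M
  set p := P.under (𝓞 K) with hp
  have hPp : P.LiesOver p := ⟨rfl⟩
  have key := Ideal.card_inertia_eq_ramificationIdxIn (G := M ≃ₐ[K] M) p P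
  rw [h, Subgroup.card_bot] at key
  rw [← Ideal.ramificationIdxIn_eq_ramificationIdx p P (M ≃ₐ[K] M)]
  exact key.symm

/-- **A3** for number fields, inertia-group form of "unramified". -/
theorem numberField_invariant_ideal_extended_of_inertia
    (hunr : ∀ P : Ideal (𝓞 M), P.IsPrime → P ≠ ⊥ → Ideal.inertia (M ≃ₐ[K] M) P = ⊥)
    (σ : M ≃ₐ[K] M) (hσ : ∀ τ : M ≃ₐ[K] M, τ ∈ Subgroup.zpowers σ) :
    ∀ 𝔄 : Ideal (𝓞 M), 𝔄 ≠ ⊥ → 𝔄.map (galRestrict (𝓞 K) K M (𝓞 M) σ) = 𝔄 →
      ∃ 𝔞 : Ideal (𝓞 K), 𝔞.map (algebraMap (𝓞 K) (𝓞 M)) = 𝔄 :=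
  numberField_invariant_ideal_extended K M
    (fun P hP hP0 => ramificationIdx_eq_one_of_inertia_eq_bot K M P hP (hunr P hP hP0)) σ hσ

end NumberField

end Fermat.Agent.S14.H97
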