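import Fermat.Agent.S14.H9_T1Defs
import Fermat.Agent.S14.H97_InvIdeal

/-!
# S14, package A3 in the shape `Fermat.Agent.S14.T1.Stmt_A3`
-/

set_option autoImplicit false

namespace Fermat.Agent.S14.H97

open NumberField

variable (K M : Type) [Field K] [NumberField K] [Field M] [NumberField M] [Algebra K M]
  [IsGalois K M]

/-- `Stmt_A3` from unramifiedness in ramification-index form. -/
theorem stmt_A3_of_ramificationIdx
    (hunr : ∀ P : Ideal (𝓞 M), P.IsPrime → P ≠ ⊥ → P.ramificationIdx (𝓞 K) = 1)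
    (σ : M ≃ₐ[K] M) (hσ : ∀ τ : M ≃ₐ[K] M, τ ∈ Subgroup.zpowers σ) :
    Fermat.Agent.S14.T1.Stmt_A3 K M σ :=
  numberField_invariant_ideal_extended K M hunr σ hσ

/-- `Stmt_A3` from unramifiedness in inertia-group form. -/
theorem stmt_A3_of_inertia
    (hunr : ∀ P : Ideal (𝓞 M), P.IsPrime → P ≠ ⊥ → Ideal.inertia (M ≃ₐ[K] M) P = ⊥)
    (σ : M ≃ₐ[K] M) (hσ : ∀ τ : M ≃ₐ[K] M, τ ∈ Subgroup.zpowers σ) :
    Fermat.Agent.S14.T1.Stmt_A3 K M σ :=
  numberField_invariant_ideal_extended_of_inertia K M hunr σ hσ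

end Fermat.Agent.S14.H97
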