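import Mathlib

/-!
# S14, package A (T1): definitions and exact interfaces

`K ⊆ M` number fields, `M/K` Galois cyclic of prime degree `p` with generator `σ`.
`T1`: some ideal class of `K` contains no norm of a nonzero ideal of `M`.

Interfaces:
* `Stmt_A2` (helper62): unit index inequality `p * [E_K : N E_M] ≤ [ker N : im (σ - 1)]`.
* `Stmt_A3` (helper97): `σ`-invariant nonzero ideals of `𝓞 M` are extended from `𝓞 K`.
* `Stmt_T1`: the conclusion; `H9_T1.lean` proves `Stmt_A2 → Stmt_A3 → Stmt_T1`.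
-/

set_option autoImplicit false

namespace Fermat.Agent.S14.T1

open NumberField

variable (K M : Type) [Field K] [NumberField K] [Field M] [NumberField M] [Algebra K M]

/-- The restriction of `σ ∈ Gal(M/K)` to the ring of integers. -/
noncomputable abbrev sigmaInt (σ : M ≃ₐ[K] M) : 𝓞 M ≃ₐ[𝓞 K] 𝓞 M :=
  galRestrict (𝓞 K) K M (𝓞 M) σ

/-- The norm on units `(𝓞 M)ˣ → (𝓞 K)ˣ`. -/
noncomputable def unitNorm : (𝓞 M)ˣ →* (𝓞 K)ˣ :=
  Units.map (Algebra.intNorm (𝓞 K) (𝓞 M))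

/-- `u ↦ σ u / u` on units of `𝓞 M`. -/
noncomputable def unitD (σ : M ≃ₐ[K] M) : (𝓞 M)ˣ →* (𝓞 M)ˣ where
  toFun u := Units.map (sigmaInt K M σ : 𝓞 M →* 𝓞 M) u / u
  map_one' := by simp
  map_mul' u v := by
    rw [map_mul, div_mul_div_comm]

/-- (A2) Herbrand quotient of the units, as an inequality:
`p * [E_K : N E_M] ≤ [ker N : im (σ - 1)]`, and `[E_K : N E_M]` is finite. -/
def Stmt_A2 (p : ℕ) (σ : M ≃ₐ[K] M) : Prop :=
  (unitNorm K M).range.index ≠ 0 ∧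
    p * (unitNorm K M).range.index ≤ (unitD K M σ).range.relIndex (unitNorm K M).ker

/-- (A3) `σ`-invariant nonzero ideals of `𝓞 M` are extended from `𝓞 K`. -/
def Stmt_A3 (σ : M ≃ₐ[K] M) : Prop :=
  ∀ 𝔄 : Ideal (𝓞 M), 𝔄 ≠ ⊥ → 𝔄.map (sigmaInt K M σ) = 𝔄 →
    ∃ 𝔞 : Ideal (𝓞 K), 𝔞.map (algebraMap (𝓞 K) (𝓞 M)) = 𝔄

/-- (T1) Some ideal class of `K` contains no norm of a nonzero ideal of `M`. -/
def Stmt_T1 : Prop :=
  ∃ c : ClassGroup (𝓞 K), ∀ J : Ideal (𝓞 M), J ≠ ⊥ →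
    ∀ h : Ideal.relNorm (𝓞 K) J ∈ nonZeroDivisors (Ideal (𝓞 K)),
      ClassGroup.mk0 ⟨Ideal.relNorm (𝓞 K) J, h⟩ ≠ c

end Fermat.Agent.S14.T1
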