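import Mathlib
import Fermat.Agent.S14.H9_T1Defs

/-!
# S14, package A: homomorphisms on class groups (norm, Galois action)
-/

set_option autoImplicit false

namespace Fermat.Agent.S14.T1

open NumberField nonZeroDivisors

section lift

variable {S G : Type*} [CommRing S] [IsDedekindDomain S] [CommGroup G]

/-- Universal property of the class group with respect to `ClassGroup.mk0`: a monoid
homomorphism on nonzero ideals that kills principal ideals factors through the class group. -/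
theorem exists_classGroup_lift (ψ : (Ideal S)⁰ →* G)
    (h : ∀ (x : S) (hx : Ideal.span {x} ∈ (Ideal S)⁰), ψ ⟨Ideal.span {x}, hx⟩ = 1) :
    ∃ Φ : ClassGroup S →* G, ∀ I : (Ideal S)⁰, Φ (ClassGroup.mk0 I) = ψ I := by
  classical
  have key : ∀ I J : (Ideal S)⁰, ClassGroup.mk0 I = ClassGroup.mk0 J → ψ I = ψ J := by
    intro I J hIJ
    obtain ⟨x, y, hx, hy, hxy⟩ := ClassGroup.mk0_eq_mk0_iff.1 hIJ
    have hx' : Ideal.span {x} ∈ (Ideal S)⁰ :=
      mem_nonZeroDivisors_iff_ne_zero.2 (by simpa using hx)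
    have hy' : Ideal.span {y} ∈ (Ideal S)⁰ :=
      mem_nonZeroDivisors_iff_ne_zero.2 (by simpa using hy)
    have e : (⟨Ideal.span {x}, hx'⟩ : (Ideal S)⁰) * I = ⟨Ideal.span {y}, hy'⟩ * J :=
      Subtype.ext hxy
    have := congrArg ψ e
    rwa [map_mul, map_mul, h x hx', h y hy', one_mul, one_mul] at this
  let rep : ClassGroup S → (Ideal S)⁰ := fun c => (ClassGroup.mk0_surjective c).choose
  have hrep : ∀ c, ClassGroup.mk0 (rep c) = c := fun c => (ClassGroup.mk0_surjective c).choose_spec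
  have hΦ : ∀ I : (Ideal S)⁰, ψ (rep (ClassGroup.mk0 I)) = ψ I := fun I => key _ _ (hrep _)
  refine ⟨MonoidHom.mk' (fun c => ψ (rep c)) ?_, hΦ⟩
  intro a b
  obtain ⟨I, rfl⟩ := ClassGroup.mk0_surjective a
  obtain ⟨J, rfl⟩ := ClassGroup.mk0_surjective b
  rw [← map_mul, hΦ, hΦ, hΦ, map_mul]

end lift

section homs

variable (K M : Type) [Field K] [NumberField K] [Field M] [NumberField M] [Algebra K M]

/-- The relative norm on nonzero ideals. -/
noncomputable def relNorm0 : (Ideal (𝓞 M))⁰ →* (Ideal (𝓞 K))⁰ where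
  toFun I := ⟨Ideal.relNorm (𝓞 K) (I : Ideal (𝓞 M)), mem_nonZeroDivisors_iff_ne_zero.2 (by
    have := mem_nonZeroDivisors_iff_ne_zero.1 I.2
    simpa [Ideal.zero_eq_bot] using this)⟩
  map_one' := by
    ext : 1
    simp
  map_mul' I J := by
    ext : 1
    simp

@[simp]
lemma coe_relNorm0 (I : (Ideal (𝓞 M))⁰) :
    (relNorm0 K M I : Ideal (𝓞 K)) = Ideal.relNorm (𝓞 K) (I : Ideal (𝓞 M)) := rfl

/-- The action of `σ` on nonzero ideals. -/
noncomputable def sigma0 (σ : M ≃ₐ[K] M) : (Ideal (𝓞 M))⁰ →* (Ideal (𝓞 M))⁰ where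
  toFun I := ⟨(I : Ideal (𝓞 M)).map (sigmaInt K M σ), mem_nonZeroDivisors_iff_ne_zero.2 (by
    have := mem_nonZeroDivisors_iff_ne_zero.1 I.2
    rw [Ideal.zero_eq_bot] at this ⊢
    rwa [Ne, Ideal.map_eq_bot_iff_of_injective (sigmaInt K M σ).injective])⟩
  map_one' := by
    ext : 1
    simp [Ideal.one_eq_top, Ideal.map_top]
  map_mul' I J := by
    ext : 1
    simp [Ideal.map_mul]

@[simp]
lemma coe_sigma0 (σ : M ≃ₐ[K] M) (I : (Ideal (𝓞 M))⁰) :
    (sigma0 K M σ I : Ideal (𝓞 M)) = (I : Ideal (𝓞 M)).map (sigmaInt K M σ) := rfl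

lemma relNorm0_principal (x : 𝓞 M) (hx : Ideal.span {x} ∈ (Ideal (𝓞 M))⁰) :
    ((ClassGroup.mk0).comp (relNorm0 K M)) ⟨Ideal.span {x}, hx⟩ = 1 := by
  rw [MonoidHom.comp_apply, ClassGroup.mk0_eq_one_iff]
  simp only [coe_relNorm0, Ideal.relNorm_singleton]
  exact ⟨⟨_, rfl⟩⟩

/-- The norm map on class groups. -/
noncomputable def normCl : ClassGroup (𝓞 M) →* ClassGroup (𝓞 K) :=
  (exists_classGroup_lift ((ClassGroup.mk0).comp (relNorm0 K M)) (relNorm0_principal K M)).choose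

lemma normCl_mk0 (I : (Ideal (𝓞 M))⁰) :
    normCl K M (ClassGroup.mk0 I) = ClassGroup.mk0 (relNorm0 K M I) :=
  (exists_classGroup_lift ((ClassGroup.mk0).comp (relNorm0 K M))
    (relNorm0_principal K M)).choose_spec I

lemma sigma0_principal (σ : M ≃ₐ[K] M) (x : 𝓞 M) (hx : Ideal.span {x} ∈ (Ideal (𝓞 M))⁰) :
    ((ClassGroup.mk0).comp (sigma0 K M σ)) ⟨Ideal.span {x}, hx⟩ = 1 := by
  rw [MonoidHom.comp_apply, ClassGroup.mk0_eq_one_iff]
  simp only [coe_sigma0, Ideal.map_span, Set.image_singleton]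
  exact ⟨⟨_, rfl⟩⟩

/-- The action of `σ` on the class group of `M`. -/
noncomputable def sigCl (σ : M ≃ₐ[K] M) : ClassGroup (𝓞 M) →* ClassGroup (𝓞 M) :=
  (exists_classGroup_lift ((ClassGroup.mk0).comp (sigma0 K M σ)) (sigma0_principal K M σ)).choose

lemma sigCl_mk0 (σ : M ≃ₐ[K] M) (I : (Ideal (𝓞 M))⁰) :
    sigCl K M σ (ClassGroup.mk0 I) = ClassGroup.mk0 (sigma0 K M σ I) :=
  (exists_classGroup_lift ((ClassGroup.mk0).comp (sigma0 K M σ))
    (sigma0_principal K M σ)).choose_spec I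

lemma normCl_sigCl (σ : M ≃ₐ[K] M) (c : ClassGroup (𝓞 M)) :
    normCl K M (sigCl K M σ c) = normCl K M c := by
  obtain ⟨I, rfl⟩ := ClassGroup.mk0_surjective c
  rw [sigCl_mk0, normCl_mk0, normCl_mk0]
  congr 1
  ext : 1
  simp

end homs

end Fermat.Agent.S14.T1
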