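import Mathlib

/-!
# S14, package A: abstract counting lemmas for finite abelian groups
-/

set_option autoImplicit false

namespace Fermat.Agent.S14.T1

section count

variable {G H : Type*} [CommGroup G] [CommGroup H] [Finite G]

/-- If `N ∘ D = 1` then `|im N| ≤ |ker D|`. -/
theorem card_range_le_card_ker (N : G →* H) (D : G →* G) (h : ∀ c, N (D c) = 1) :
    Nat.card N.range ≤ Nat.card D.ker := by
  have h1 : D.range ≤ N.ker := by
    rintro _ ⟨c, rfl⟩
    exact h c
  have h2 : Nat.card N.range = N.ker.index := (Subgroup.index_ker N).symm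
  have h3 : N.ker.index ∣ D.range.index := Subgroup.index_dvd_of_le h1
  have h4 : D.range.index = Nat.card D.ker := by
    have e1 : Nat.card D.range * D.range.index = Nat.card G := Subgroup.card_mul_index _
    have e2 : Nat.card D.ker * D.ker.index = Nat.card G := Subgroup.card_mul_index _
    rw [Subgroup.index_ker] at e2
    have hpos : 0 < Nat.card D.range := Nat.card_pos
    have : Nat.card D.range * D.range.index = Nat.card D.range * Nat.card D.ker := by
      rw [e1, ← e2, mul_comm]
    exact Nat.eq_of_mul_eq_mul_left hpos this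
  rw [h2, ← h4]
  exact Nat.le_of_dvd (Nat.pos_of_ne_zero (Subgroup.index_ne_zero_of_finite)) h3

/-- Fibre counting: if the fibres of `ψ : F → Q` are contained in cosets of `J`,
then `|F| ≤ |Q| * |J|`. -/
theorem card_le_of_fibres {Q : Type*} [Finite Q] (F J : Subgroup G) (ψ : F → Q)
    (h : ∀ a b : F, ψ a = ψ b → (b : G) / (a : G) ∈ J) :
    Nat.card F ≤ Nat.card Q * Nat.card J := by
  classical
  rw [← Nat.card_prod]
  -- representative of the fibre of `ψ a`
  have hex : ∀ q : Q, ∀ a : F, ψ a = q → ∃ r : F, ψ r = q := fun q a ha => ⟨a, ha⟩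
  let rep : F → F := fun a => (hex (ψ a) a rfl).choose
  have hrep : ∀ a, ψ (rep a) = ψ a := fun a => (hex (ψ a) a rfl).choose_spec
  have hrep' : ∀ a b, ψ a = ψ b → rep a = rep b := by
    intro a b hab
    have e : (fun q => ∀ a' : F, ψ a' = q → True) (ψ a) := fun _ _ => trivial
    -- `rep` depends only on `ψ a`
    show (hex (ψ a) a rfl).choose = (hex (ψ b) b rfl).choose
    have key : ∀ (q q' : Q) (hq : q = q') (x : ∃ r : F, ψ r = q) (y : ∃ r : F, ψ r = q'),
        x.choose = y.choose := by
      intro q q' hq x y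
      subst hq
      rfl
    exact key _ _ hab _ _
  let f : F → Q × J := fun a => (ψ a, ⟨(a : G) / (rep a : G), h (rep a) a (hrep a)⟩)
  refine Nat.card_le_card_of_injective f ?_
  intro a b hab
  have h1 : ψ a = ψ b := congrArg Prod.fst hab
  have h2 : (a : G) / (rep a : G) = (b : G) / (rep b : G) :=
    congrArg (fun x : Q × J => (x.2 : G)) hab
  rw [hrep' a b h1] at h2
  exact Subtype.ext (div_left_injective h2)

end count

section quot

variable {E : Type*} [CommGroup E]

/-- If `θ : Kr → T` has fibres contained in cosets of `Dr`, then `[Kr : Dr] ≤ |T|`. -/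
theorem relIndex_le_card_of_fibres {T : Type*} [Finite T] (Dr Kr : Subgroup E) (θ : Kr → T)
    (h : ∀ a b : Kr, θ a = θ b → (b : E) / (a : E) ∈ Dr) :
    Dr.relIndex Kr ≤ Nat.card T := by
  classical
  rw [Subgroup.relIndex, Subgroup.index]
  refine Nat.card_le_card_of_injective (fun q : Kr ⧸ Dr.subgroupOf Kr => θ q.out) ?_
  intro q q' hqq
  have h1 := h _ _ hqq
  rw [← QuotientGroup.out_eq' q, ← QuotientGroup.out_eq' q']
  rw [QuotientGroup.eq]
  rw [Subgroup.mem_subgroupOf]
  simpa [div_eq_inv_mul] using h1

end quot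

end Fermat.Agent.S14.T1
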