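import Mathlib
import Fermat.Agent.S14.H9_ClassHom
import Fermat.Agent.S14.H9_Count

/-!
# S14, package A: the capitulation kernel is at least as large as `H¹(G, E_M)`

For `u ∈ E_M` with `N u = 1`, Hilbert 90 gives `ε ∈ 𝓞 M` with `u * σ ε = ε`; the ideal `(ε)` is
`σ`-invariant, hence (A3) extended from an ideal `𝔞` of `𝓞 K`, whose class lies in the kernel of
`Cl(K) → Cl(M)`. The class of `𝔞` determines `u` modulo `{σ w / w}`.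
-/

set_option autoImplicit false

namespace Fermat.Agent.S14.T1

open NumberField nonZeroDivisors

variable {K M : Type} [Field K] [NumberField K] [Field M] [NumberField M] [Algebra K M]

lemma sigmaInt_algebraMap (σ : M ≃ₐ[K] M) (a : 𝓞 K) :
    sigmaInt K M σ (algebraMap (𝓞 K) (𝓞 M) a) = algebraMap (𝓞 K) (𝓞 M) a :=
  (sigmaInt K M σ).commutes a

lemma coe_unitNorm (u : (𝓞 M)ˣ) :
    ((unitNorm K M u : (𝓞 K)ˣ) : 𝓞 K) = Algebra.intNorm (𝓞 K) (𝓞 M) (u : 𝓞 M) := rfl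

lemma coe_unitD (σ : M ≃ₐ[K] M) (u : (𝓞 M)ˣ) :
    ((unitD K M σ u : (𝓞 M)ˣ) : 𝓞 M) * (u : 𝓞 M) = sigmaInt K M σ (u : 𝓞 M) := by
  have h : unitD K M σ u * u = Units.map (sigmaInt K M σ : 𝓞 M →* 𝓞 M) u := by
    simp [unitD]
  have := congrArg (fun v : (𝓞 M)ˣ => (v : 𝓞 M)) h
  simpa using this

/-- Data attached to a unit of norm one. -/
theorem exists_ideal_of_norm_one [IsGalois K M] (σ : M ≃ₐ[K] M) (hσ : ∀ τ : M ≃ₐ[K] M, τ ∈ Subgroup.zpowers σ)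
    (hA3 : Stmt_A3 K M σ) (u : (𝓞 M)ˣ) (hu : unitNorm K M u = 1) :
    ∃ (𝔞 : (Ideal (𝓞 K))⁰) (ε : 𝓞 M), ε ≠ 0 ∧ (u : 𝓞 M) * sigmaInt K M σ ε = ε ∧
      (𝔞 : Ideal (𝓞 K)).map (algebraMap (𝓞 K) (𝓞 M)) = Ideal.span {ε} := by
  have : IsCyclic (M ≃ₐ[K] M) := ⟨⟨σ, hσ⟩⟩
  have hnorm : Algebra.norm K (algebraMap (𝓞 M) M (u : 𝓞 M)) = 1 := by
    rw [← Algebra.algebraMap_intNorm (A := 𝓞 K) (K := K) (L := M) (B := 𝓞 M), ← coe_unitNorm, hu]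
    simp
  obtain ⟨ε, hε0, hε⟩ := groupCohomology.exists_mul_galRestrict_of_norm_eq_one (A := 𝓞 K) (K := K) (L := M)
    (B := 𝓞 M) hσ hnorm
  have hinv : (Ideal.span {ε} : Ideal (𝓞 M)).map (sigmaInt K M σ) = Ideal.span {ε} := by
    rw [Ideal.map_span, Set.image_singleton]
    rw [Ideal.span_singleton_eq_span_singleton]
    refine ⟨u, ?_⟩
    rw [mul_comm]
    exact hε
  have hne : (Ideal.span {ε} : Ideal (𝓞 M)) ≠ ⊥ := by
    simpa using hε0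
  obtain ⟨𝔞, h𝔞⟩ := hA3 _ hne hinv
  have h𝔞0 : 𝔞 ≠ ⊥ := by
    rintro rfl
    rw [Ideal.map_bot] at h𝔞
    exact hne h𝔞.symm
  exact ⟨⟨𝔞, mem_nonZeroDivisors_iff_ne_zero.2 h𝔞0⟩, ε, hε0, hε, h𝔞⟩

/-- The class of the ideal attached to a unit of norm one lies in the capitulation kernel. -/
theorem extendedHom_mk0_eq_one {𝔞 : (Ideal (𝓞 K))⁰} {ε : 𝓞 M}
    (h : (𝔞 : Ideal (𝓞 K)).map (algebraMap (𝓞 K) (𝓞 M)) = Ideal.span {ε}) :
    ClassGroup.extendedHom (𝓞 K) (𝓞 M) (ClassGroup.mk0 𝔞) = 1 := by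
  rw [ClassGroup.extendedHom_mk0, ClassGroup.mk0_eq_one_iff]
  exact ⟨⟨ε, h⟩⟩

/-- Fibre property: equal classes force the units to differ by `σ w / w`. -/
theorem div_mem_range_unitD (σ : M ≃ₐ[K] M) {u u' : (𝓞 M)ˣ} {𝔞 𝔞' : (Ideal (𝓞 K))⁰}
    {ε ε' : 𝓞 M} (hε0 : ε ≠ 0) (hε0' : ε' ≠ 0)
    (hε : (u : 𝓞 M) * sigmaInt K M σ ε = ε) (hε' : (u' : 𝓞 M) * sigmaInt K M σ ε' = ε')
    (h𝔞 : (𝔞 : Ideal (𝓞 K)).map (algebraMap (𝓞 K) (𝓞 M)) = Ideal.span {ε})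
    (h𝔞' : (𝔞' : Ideal (𝓞 K)).map (algebraMap (𝓞 K) (𝓞 M)) = Ideal.span {ε'})
    (hcl : ClassGroup.mk0 𝔞 = ClassGroup.mk0 𝔞') :
    u' / u ∈ (unitD K M σ).range := by
  obtain ⟨a, a', ha, ha', haa⟩ := ClassGroup.mk0_eq_mk0_iff.1 hcl
  -- push to `𝓞 M`
  have h1 := congrArg (Ideal.map (algebraMap (𝓞 K) (𝓞 M))) haa
  rw [Ideal.map_mul, Ideal.map_mul, h𝔞, h𝔞', Ideal.map_span, Ideal.map_span, Set.image_singleton,
    Set.image_singleton, Ideal.span_singleton_mul_span_singleton,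
    Ideal.span_singleton_mul_span_singleton, Ideal.span_singleton_eq_span_singleton] at h1
  obtain ⟨w, hw⟩ := h1
  -- hw : algebraMap a * ε * w = algebraMap a' * ε'
  set A : 𝓞 M := algebraMap (𝓞 K) (𝓞 M) a with hA
  set A' : 𝓞 M := algebraMap (𝓞 K) (𝓞 M) a' with hA'
  have hA0 : A ≠ 0 := by
    rw [hA, Ne, FaithfulSMul.algebraMap_eq_zero_iff]; exact ha
  have hA0' : A' ≠ 0 := by
    rw [hA', Ne, FaithfulSMul.algebraMap_eq_zero_iff]; exact ha'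
  have hs := congrArg (sigmaInt K M σ) hw
  rw [map_mul, map_mul, map_mul, sigmaInt_algebraMap, sigmaInt_algebraMap] at hs
  -- hs : A * σ ε * σ w = A' * σ ε'
  refine ⟨w⁻¹, ?_⟩
  apply Units.ext
  -- goal: ↑(unitD σ w⁻¹) = ↑(u' / u)
  have hD : ((unitD K M σ w : (𝓞 M)ˣ) : 𝓞 M) * (w : 𝓞 M) = sigmaInt K M σ (w : 𝓞 M) :=
    coe_unitD σ w
  have hmain : ((unitD K M σ w : (𝓞 M)ˣ) : 𝓞 M) * (u' : 𝓞 M) = (u : 𝓞 M) := by
    have hne : A * ε * w * sigmaInt K M σ ε' ≠ 0 := by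
      refine mul_ne_zero (mul_ne_zero (mul_ne_zero hA0 hε0) w.ne_zero) ?_
      rwa [Ne, map_eq_zero_iff _ (sigmaInt K M σ).injective]
    apply mul_right_cancel₀ hne
    have e1 : A * ε = A * ((u : 𝓞 M) * sigmaInt K M σ ε) := by rw [hε]
    have e2 : A' * ε' = A' * ((u' : 𝓞 M) * sigmaInt K M σ ε') := by rw [hε']
    calc ((unitD K M σ w : (𝓞 M)ˣ) : 𝓞 M) * (u' : 𝓞 M) * (A * ε * w * sigmaInt K M σ ε')
        = (((unitD K M σ w : (𝓞 M)ˣ) : 𝓞 M) * w) * (A * ε) *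
            ((u' : 𝓞 M) * sigmaInt K M σ ε') := by ring
      _ = sigmaInt K M σ (w : 𝓞 M) * (A * ε) * ε' := by rw [hD, hε']
      _ = sigmaInt K M σ (w : 𝓞 M) * (A * ((u : 𝓞 M) * sigmaInt K M σ ε)) * ε' := by rw [← e1]
      _ = (u : 𝓞 M) * (A * sigmaInt K M σ ε * sigmaInt K M σ (w : 𝓞 M)) * ε' := by ring
      _ = (u : 𝓞 M) * (A' * sigmaInt K M σ ε') * ε' := by rw [hs]
      _ = (u : 𝓞 M) * (A' * ε') * sigmaInt K M σ ε' := by ring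
      _ = (u : 𝓞 M) * (A * ε * w) * sigmaInt K M σ ε' := by rw [hw]
      _ = (u : 𝓞 M) * (A * ε * w * sigmaInt K M σ ε') := by ring
  have hfin : unitD K M σ w * u' = u := Units.ext (by simpa using hmain)
  have : unitD K M σ w⁻¹ = u' / u := by
    rw [map_inv, ← hfin]
    rw [eq_div_iff_mul_eq', ← mul_assoc]
    simp
  rw [this]

end Fermat.Agent.S14.T1
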