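import Mathlib
import Fermat.Agent.S14.H9_Capit

/-!
# S14, package A: ambiguous classes

Fibre lemma: if `σ I = (y/x) I`, `σ I' = (y'/x') I'` and `N(y'/x') / N(y/x)` is the norm of a unit,
then the class of `I' / I` is extended from `K` (Hilbert 90 + A3).
-/

set_option autoImplicit false

namespace Fermat.Agent.S14.T1

open NumberField nonZeroDivisors

set_option linter.unusedSectionVars false

variable {K M : Type} [Field K] [NumberField K] [Field M] [NumberField M] [Algebra K M]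

/-- Step 1: a complementary ideal. -/
lemma exists_compl_ideal (I : (Ideal (𝓞 M))⁰) :
    ∃ (Ic : (Ideal (𝓞 M))⁰) (t : 𝓞 M), t ≠ 0 ∧
      (I : Ideal (𝓞 M)) * (Ic : Ideal (𝓞 M)) = Ideal.span {t} := by
  have hI : (I : Ideal (𝓞 M)) ≠ ⊥ := by
    have := mem_nonZeroDivisors_iff_ne_zero.1 I.2
    simpa [Ideal.zero_eq_bot] using this
  obtain ⟨t, htI, ht0⟩ := Submodule.exists_mem_ne_zero_of_ne_bot hI
  have hle : Ideal.span {t} ≤ (I : Ideal (𝓞 M)) := (Ideal.span_singleton_le_iff_mem _).2 htI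
  obtain ⟨Ic, hIc⟩ := Ideal.dvd_iff_le.2 hle
  have hIc0 : Ic ≠ ⊥ := by
    rintro rfl
    rw [Ideal.mul_bot, Ideal.span_singleton_eq_bot] at hIc
    exact ht0 hIc
  exact ⟨⟨Ic, mem_nonZeroDivisors_iff_ne_zero.2 hIc0⟩, t, ht0, hIc.symm⟩

/-- Step 3: the relation `(x' y t) σ(I' Ic) = (y' x σt) (I' Ic)`. -/
lemma map_mul_compl (s : 𝓞 M ≃ₐ[𝓞 K] 𝓞 M) {I I' Ic : Ideal (𝓞 M)} (hI : I ≠ ⊥)
    {x y x' y' t : 𝓞 M}
    (h : Ideal.span {x} * I.map s = Ideal.span {y} * I)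
    (h' : Ideal.span {x'} * I'.map s = Ideal.span {y'} * I')
    (hc : I * Ic = Ideal.span {t}) :
    Ideal.span {x' * y * t} * (I' * Ic).map s = Ideal.span {y' * x * s t} * (I' * Ic) := by
  have hcs : I.map s * Ic.map s = Ideal.span {s t} := by
    rw [← Ideal.map_mul, hc, Ideal.map_span, Set.image_singleton]
  have hI0 : I ≠ 0 := by simpa [Ideal.zero_eq_bot] using hI
  apply mul_right_cancel₀ hI0
  rw [Ideal.map_mul]
  have e1 : Ideal.span {x' * y * t} * (I'.map s * Ic.map s) * I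
      = (Ideal.span {x'} * I'.map s) * (Ideal.span {y} * I) * Ideal.span {t} * Ic.map s := by
    rw [← Ideal.span_singleton_mul_span_singleton, ← Ideal.span_singleton_mul_span_singleton]
    ring_nf
  have e2 : Ideal.span {y' * x * s t} * (I' * Ic) * I
      = (Ideal.span {y'} * I') * Ideal.span {x} * Ideal.span {s t} * (I * Ic) := by
    rw [← Ideal.span_singleton_mul_span_singleton, ← Ideal.span_singleton_mul_span_singleton]
    ring_nf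
  rw [e1, e2, h', ← h, hc, ← hcs]
  ring_nf


/-- Step 7: invariance of the ideal `(g₁ g₂') 𝔊`. -/
lemma map_eq_self_of_identity (s : 𝓞 M ≃ₐ[𝓞 K] 𝓞 M) {𝔊 : Ideal (𝓞 M)}
    {X Y g₁ g₂ g₂' : 𝓞 M} {n : 𝓞 K} {ε₀ : (𝓞 M)ˣ} (hX : X ≠ 0) (hg₂ : g₂ ≠ 0)
    (hG : Ideal.span {X} * 𝔊.map s = Ideal.span {Y} * 𝔊)
    (hn : g₂ * g₂' = algebraMap (𝓞 K) (𝓞 M) n)
    (hid : g₁ * s g₂ * X * (ε₀ : 𝓞 M) = g₂ * s g₁ * Y) :
    (Ideal.span {g₁ * g₂'} * 𝔊).map s = Ideal.span {g₁ * g₂'} * 𝔊 := by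
  have hsg₂ : s g₂ ≠ 0 := by
    rwa [Ne, map_eq_zero_iff _ s.injective]
  have hP : (Ideal.span {X * (g₂ * s g₂)} : Ideal (𝓞 M)) ≠ 0 := by
    rw [Ne, Ideal.zero_eq_bot, Ideal.span_singleton_eq_bot]
    exact mul_ne_zero hX (mul_ne_zero hg₂ hsg₂)
  apply mul_left_cancel₀ hP
  have hsn : s g₂ * s g₂' = algebraMap (𝓞 K) (𝓞 M) n := by
    rw [← map_mul, hn, s.commutes]
  rw [Ideal.map_mul, Ideal.map_span, Set.image_singleton, map_mul]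
  have hss : ∀ (u v : 𝓞 M) (J : Ideal (𝓞 M)),
      Ideal.span {u} * (Ideal.span {v} * J) = Ideal.span {u * v} * J := by
    intro u v J
    rw [← mul_assoc, Ideal.span_singleton_mul_span_singleton]
  rw [hss, hss]
  have e1 : Ideal.span {X * (g₂ * s g₂) * (s g₁ * s g₂')} * 𝔊.map s
      = Ideal.span {g₂ * (s g₂ * s g₂') * s g₁} * (Ideal.span {X} * 𝔊.map s) := by
    rw [hss]
    congr 2
    ring_nf
  have e2 : X * (g₂ * s g₂) * (g₁ * g₂') = (g₂ * g₂') * (g₁ * s g₂ * X) := by ring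
  rw [e1, e2, hG, hsn, hn, hss]
  congr 1
  rw [Ideal.span_singleton_eq_span_singleton]
  refine ⟨ε₀⁻¹, ?_⟩
  have : algebraMap (𝓞 K) (𝓞 M) n * (g₁ * s g₂ * X) * (ε₀ : 𝓞 M)
      = g₂ * algebraMap (𝓞 K) (𝓞 M) n * s g₁ * Y := by
    rw [mul_assoc, hid]; ring
  rw [← this]
  rw [mul_assoc, Units.mul_inv, mul_one]


/-- Hilbert 90 in the form needed: from norm data, an identity in `𝓞 M`. -/
lemma exists_identity_of_norm [IsGalois K M] (σ : M ≃ₐ[K] M)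
    (hσ : ∀ τ : M ≃ₐ[K] M, τ ∈ Subgroup.zpowers σ)
    {X Y : 𝓞 M} (hX : X ≠ 0) (hY : Y ≠ 0) (ε₀ : (𝓞 M)ˣ)
    (hN : Algebra.intNorm (𝓞 K) (𝓞 M) Y
      = Algebra.intNorm (𝓞 K) (𝓞 M) X * Algebra.intNorm (𝓞 K) (𝓞 M) (ε₀ : 𝓞 M)) :
    ∃ g₁ g₂ : 𝓞 M, g₁ ≠ 0 ∧ g₂ ≠ 0 ∧
      g₁ * sigmaInt K M σ g₂ * X * (ε₀ : 𝓞 M) = g₂ * sigmaInt K M σ g₁ * Y := by
  have : IsCyclic (M ≃ₐ[K] M) := ⟨⟨σ, hσ⟩⟩
  set ι : 𝓞 M →+* M := algebraMap (𝓞 M) M with hι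
  have hinj : Function.Injective ι := RingOfIntegers.coe_injective
  have hιX : ι X ≠ 0 := by rwa [Ne, map_eq_zero_iff ι hinj]
  have hιY : ι Y ≠ 0 := by rwa [Ne, map_eq_zero_iff ι hinj]
  have hιε : ι (ε₀ : 𝓞 M) ≠ 0 := by
    rw [Ne, map_eq_zero_iff ι hinj]; exact ε₀.ne_zero
  have hnX : Algebra.norm K (ι X) ≠ 0 := by
    rwa [Ne, Algebra.norm_eq_zero_iff]
  have hnε : Algebra.norm K (ι (ε₀ : 𝓞 M)) ≠ 0 := by
    rwa [Ne, Algebra.norm_eq_zero_iff]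
  have hnorm : Algebra.norm K (ι Y / (ι X * ι (ε₀ : 𝓞 M))) = 1 := by
    have hYn : Algebra.norm K (ι Y) = Algebra.norm K (ι X) * Algebra.norm K (ι (ε₀ : 𝓞 M)) := by
      rw [← Algebra.algebraMap_intNorm (A := 𝓞 K) (K := K) (L := M) (B := 𝓞 M) Y, hN, map_mul,
        Algebra.algebraMap_intNorm (A := 𝓞 K) (K := K) (L := M) (B := 𝓞 M),
        Algebra.algebraMap_intNorm (A := 𝓞 K) (K := K) (L := M) (B := 𝓞 M)]
    rw [div_eq_mul_inv, map_mul, Algebra.norm_inv, map_mul, hYn]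
    exact mul_inv_cancel₀ (mul_ne_zero hnX hnε)
  obtain ⟨γ, hγ⟩ := groupCohomology.exists_div_of_norm_eq_one hσ hnorm
  obtain ⟨g₁, g₂, hg₂, hg⟩ := IsFractionRing.div_surjective (A := 𝓞 M) (γ : M)
  have hg₂0 : g₂ ≠ 0 := nonZeroDivisors.ne_zero hg₂
  have hg₁0 : g₁ ≠ 0 := by
    rintro rfl
    rw [map_zero, zero_div] at hg
    exact γ.ne_zero hg.symm
  refine ⟨g₁, g₂, hg₁0, hg₂0, ?_⟩
  apply hinj
  have hs : ∀ z : 𝓞 M, ι (sigmaInt K M σ z) = σ (ι z) := fun z =>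
    algebraMap_galRestrict_apply (𝓞 K) σ z
  have hιg₁ : ι g₁ ≠ 0 := by rwa [Ne, map_eq_zero_iff ι hinj]
  have hιg₂ : ι g₂ ≠ 0 := by rwa [Ne, map_eq_zero_iff ι hinj]
  have hσg₁ : σ (ι g₁) ≠ 0 := by rwa [Ne, map_eq_zero_iff σ σ.injective]
  have hσg₂ : σ (ι g₂) ≠ 0 := by rwa [Ne, map_eq_zero_iff σ σ.injective]
  rw [map_mul, map_mul, map_mul, map_mul, map_mul, hs, hs]
  have hγ' : (ι g₁ / ι g₂) / (σ (ι g₁) / σ (ι g₂)) = ι Y / (ι X * ι (ε₀ : 𝓞 M)) := by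
    rw [← hγ, ← hg, map_div₀]
  field_simp at hγ'
  linear_combination hγ'

end Fermat.Agent.S14.T1
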