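import Mathlib
import Fermat.Agent.S14.H9_Ambig

/-!
# S14, package A: the fibre lemma for `σ`-fixed ideal classes

To a `σ`-fixed class `c = [I]` we attach `x, y ∈ 𝓞 M` with `(x) σ I = (y) I` and a unit `v` of
`𝓞 K` with `N y = v N x`. If two fixed classes have units differing by the norm of a unit of
`𝓞 M`, then their quotient is extended from `K`.
-/

set_option autoImplicit false

namespace Fermat.Agent.S14.T1

open NumberField nonZeroDivisors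

set_option linter.unusedSectionVars false

variable {K M : Type} [Field K] [NumberField K] [Field M] [NumberField M] [Algebra K M]

lemma coe_ne_bot_of_mem (I : (Ideal (𝓞 M))⁰) : (I : Ideal (𝓞 M)) ≠ ⊥ := by
  have := mem_nonZeroDivisors_iff_ne_zero.1 I.2
  simpa [Ideal.zero_eq_bot] using this

/-- Data attached to a `σ`-fixed class. -/
theorem exists_fix_data (σ : M ≃ₐ[K] M) (c : ClassGroup (𝓞 M)) (hc : sigCl K M σ c = c) :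
    ∃ (I : (Ideal (𝓞 M))⁰) (x y : 𝓞 M) (v : (𝓞 K)ˣ), ClassGroup.mk0 I = c ∧ x ≠ 0 ∧ y ≠ 0 ∧
      Ideal.span {x} * (I : Ideal (𝓞 M)).map (sigmaInt K M σ)
        = Ideal.span {y} * (I : Ideal (𝓞 M)) ∧
      Algebra.intNorm (𝓞 K) (𝓞 M) y = (v : 𝓞 K) * Algebra.intNorm (𝓞 K) (𝓞 M) x := by
  obtain ⟨I, rfl⟩ := ClassGroup.mk0_surjective c
  rw [sigCl_mk0] at hc
  obtain ⟨x, y, hx, hy, hxy⟩ := ClassGroup.mk0_eq_mk0_iff.1 hc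
  rw [coe_sigma0] at hxy
  have hI : (I : Ideal (𝓞 M)) ≠ ⊥ := coe_ne_bot_of_mem I
  have hn := congrArg (Ideal.relNorm (𝓞 K)) hxy
  rw [map_mul, map_mul, Ideal.relNorm_map_algEquiv, Ideal.relNorm_singleton,
    Ideal.relNorm_singleton] at hn
  have hnI : Ideal.relNorm (𝓞 K) (I : Ideal (𝓞 M)) ≠ 0 := by
    rw [Ne, Ideal.zero_eq_bot, Ideal.relNorm_eq_bot_iff]; exact hI
  have hn' := mul_right_cancel₀ hnI hn
  rw [Ideal.span_singleton_eq_span_singleton] at hn'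
  obtain ⟨v, hv⟩ := hn'
  exact ⟨I, x, y, v, rfl, hx, hy, hxy, by rw [← hv, mul_comm]⟩

/-- The fibre lemma. -/
theorem div_mem_range_extendedHom [IsGalois K M] (σ : M ≃ₐ[K] M)
    (hσ : ∀ τ : M ≃ₐ[K] M, τ ∈ Subgroup.zpowers σ) (hA3 : Stmt_A3 K M σ)
    {I I' : (Ideal (𝓞 M))⁰} {x y x' y' : 𝓞 M} {v v' : (𝓞 K)ˣ}
    (hx : x ≠ 0) (hy : y ≠ 0) (hx' : x' ≠ 0) (hy' : y' ≠ 0)
    (h : Ideal.span {x} * (I : Ideal (𝓞 M)).map (sigmaInt K M σ)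
      = Ideal.span {y} * (I : Ideal (𝓞 M)))
    (h' : Ideal.span {x'} * (I' : Ideal (𝓞 M)).map (sigmaInt K M σ)
      = Ideal.span {y'} * (I' : Ideal (𝓞 M)))
    (hv : Algebra.intNorm (𝓞 K) (𝓞 M) y = (v : 𝓞 K) * Algebra.intNorm (𝓞 K) (𝓞 M) x)
    (hv' : Algebra.intNorm (𝓞 K) (𝓞 M) y' = (v' : 𝓞 K) * Algebra.intNorm (𝓞 K) (𝓞 M) x')
    (hvv : v' / v ∈ (unitNorm K M).range) :
    ClassGroup.mk0 I' / ClassGroup.mk0 I ∈ (ClassGroup.extendedHom (𝓞 K) (𝓞 M)).range := by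
  obtain ⟨ε₀, hε₀⟩ := hvv
  obtain ⟨Ic, t, ht, hc⟩ := exists_compl_ideal I
  have hG := map_mul_compl (sigmaInt K M σ) (coe_ne_bot_of_mem I) h h' hc
  have hX : x' * y * t ≠ 0 := mul_ne_zero (mul_ne_zero hx' hy) ht
  have hst : sigmaInt K M σ t ≠ 0 := by
    rwa [Ne, map_eq_zero_iff _ (sigmaInt K M σ).injective]
  have hY : y' * x * sigmaInt K M σ t ≠ 0 := mul_ne_zero (mul_ne_zero hy' hx) hst
  have hNst : Algebra.intNorm (𝓞 K) (𝓞 M) (sigmaInt K M σ t) = Algebra.intNorm (𝓞 K) (𝓞 M) t :=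
    Algebra.intNorm_map_algEquiv _ t (sigmaInt K M σ)
  have hε₀' : (v' : 𝓞 K) = v * Algebra.intNorm (𝓞 K) (𝓞 M) (ε₀ : 𝓞 M) := by
    have e : v' = v * unitNorm K M ε₀ := by
      rw [hε₀, mul_div_cancel]
    rw [e, Units.val_mul, coe_unitNorm]
  have hN : Algebra.intNorm (𝓞 K) (𝓞 M) (y' * x * sigmaInt K M σ t)
      = Algebra.intNorm (𝓞 K) (𝓞 M) (x' * y * t)
        * Algebra.intNorm (𝓞 K) (𝓞 M) (ε₀ : 𝓞 M) := by
    rw [map_mul, map_mul, map_mul, map_mul, hNst, hv, hv', hε₀']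
    ring
  obtain ⟨g₁, g₂, hg₁, hg₂, hid⟩ := exists_identity_of_norm σ hσ hX hY ε₀ hN
  obtain ⟨g₂', hg₂'⟩ := Algebra.dvd_algebraMap_intNorm_self (𝓞 K) (𝓞 M) g₂
  have hinv := map_eq_self_of_identity (sigmaInt K M σ) hX hg₂ hG hg₂'.symm hid
  have hg₂'0 : g₂' ≠ 0 := by
    rintro rfl
    rw [mul_zero] at hg₂'
    have h0 : Algebra.intNorm (𝓞 K) (𝓞 M) g₂ = 0 :=
      (FaithfulSMul.algebraMap_eq_zero_iff (𝓞 K) (𝓞 M)).1 hg₂'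
    rw [Algebra.intNorm_eq_zero] at h0
    exact hg₂ h0
  have hP0 : (Ideal.span {g₁ * g₂'} : Ideal (𝓞 M)) ∈ (Ideal (𝓞 M))⁰ :=
    mem_nonZeroDivisors_iff_ne_zero.2 (by simpa using mul_ne_zero hg₁ hg₂'0)
  set P : (Ideal (𝓞 M))⁰ := ⟨Ideal.span {g₁ * g₂'}, hP0⟩ with hP
  have hJ : ((P * (I' * Ic) : (Ideal (𝓞 M))⁰) : Ideal (𝓞 M))
      = Ideal.span {g₁ * g₂'} * ((I' : Ideal (𝓞 M)) * (Ic : Ideal (𝓞 M))) := rfl
  rw [← hJ] at hinv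
  obtain ⟨𝔟, h𝔟⟩ := hA3 _ (coe_ne_bot_of_mem (P * (I' * Ic))) hinv
  have h𝔟0 : 𝔟 ≠ ⊥ := by
    rintro rfl
    rw [Ideal.map_bot] at h𝔟
    exact coe_ne_bot_of_mem (P * (I' * Ic)) h𝔟.symm
  refine ⟨ClassGroup.mk0 ⟨𝔟, mem_nonZeroDivisors_iff_ne_zero.2 h𝔟0⟩, ?_⟩
  rw [ClassGroup.extendedHom_mk0]
  have e1 : ClassGroup.extendedIdeal (𝓞 K) (𝓞 M) ⟨𝔟, mem_nonZeroDivisors_iff_ne_zero.2 h𝔟0⟩
      = P * (I' * Ic) := Subtype.ext h𝔟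
  rw [e1, map_mul, map_mul]
  have hP1 : ClassGroup.mk0 P = 1 := (ClassGroup.mk0_eq_one_iff _).2 ⟨⟨_, rfl⟩⟩
  have hT1 : ClassGroup.mk0 (I * Ic) = 1 := by
    rw [ClassGroup.mk0_eq_one_iff]
    exact ⟨⟨t, hc⟩⟩
  rw [map_mul] at hT1
  rw [hP1, one_mul, div_eq_mul_inv]
  congr 1
  exact eq_inv_of_mul_eq_one_right hT1

end Fermat.Agent.S14.T1
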