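import Mathlib
import Fermat.Agent.S14.H9_Fibre

/-!
# S14, package A: the first inequality (T1) from A2 and A3

`Stmt_A2 → Stmt_A3 → Stmt_T1`: for `M/K` cyclic (generator `σ`), unramified in the sense of A3,
with unit Herbrand inequality A2, the norm map on ideal classes is not surjective.
-/

set_option autoImplicit false

namespace Fermat.Agent.S14.T1

open NumberField nonZeroDivisors

set_option linter.unusedSectionVars false

variable {K M : Type} [Field K] [NumberField K] [Field M] [NumberField M] [Algebra K M]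

/-- `c ↦ σ c / c` on the class group. -/
noncomputable def classD (σ : M ≃ₐ[K] M) : ClassGroup (𝓞 M) →* ClassGroup (𝓞 M) :=
  sigCl K M σ / MonoidHom.id _

lemma classD_apply (σ : M ≃ₐ[K] M) (c : ClassGroup (𝓞 M)) :
    classD σ c = sigCl K M σ c / c := rfl

lemma normCl_classD (σ : M ≃ₐ[K] M) (c : ClassGroup (𝓞 M)) :
    normCl K M (classD σ c) = 1 := by
  rw [classD_apply, map_div, normCl_sigCl, div_self']

lemma mem_ker_classD (σ : M ≃ₐ[K] M) (c : ClassGroup (𝓞 M)) :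
    c ∈ (classD σ).ker ↔ sigCl K M σ c = c := by
  rw [MonoidHom.mem_ker, classD_apply, div_eq_one]

/-- Step 1: `|im N| ≤ |Fix|`. -/
lemma card_range_normCl_le (σ : M ≃ₐ[K] M) :
    Nat.card (normCl K M).range ≤ Nat.card (classD σ).ker :=
  card_range_le_card_ker (normCl K M) (classD σ) (normCl_classD σ)

/-- Step 2: `|Fix| ≤ [E_K : N E_M] * |im j|`. -/
lemma card_ker_classD_le [IsGalois K M] (σ : M ≃ₐ[K] M)
    (hσ : ∀ τ : M ≃ₐ[K] M, τ ∈ Subgroup.zpowers σ) (hA3 : Stmt_A3 K M σ)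
    (hfin : (unitNorm K M).range.index ≠ 0) :
    Nat.card (classD σ).ker
      ≤ (unitNorm K M).range.index * Nat.card (ClassGroup.extendedHom (𝓞 K) (𝓞 M)).range := by
  classical
  have hQ : Finite ((𝓞 K)ˣ ⧸ (unitNorm K M).range) := Subgroup.index_ne_zero_iff_finite.1 hfin
  have hdata : ∀ c : (classD σ).ker, ∃ (I : (Ideal (𝓞 M))⁰) (x y : 𝓞 M) (v : (𝓞 K)ˣ),
      ClassGroup.mk0 I = (c : ClassGroup (𝓞 M)) ∧ x ≠ 0 ∧ y ≠ 0 ∧
      Ideal.span {x} * (I : Ideal (𝓞 M)).map (sigmaInt K M σ)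
        = Ideal.span {y} * (I : Ideal (𝓞 M)) ∧
      Algebra.intNorm (𝓞 K) (𝓞 M) y = (v : 𝓞 K) * Algebra.intNorm (𝓞 K) (𝓞 M) x :=
    fun c => exists_fix_data σ c ((mem_ker_classD σ c).1 c.2)
  choose I x y v hI hx hy hxy hv using hdata
  have key := card_le_of_fibres (Q := (𝓞 K)ˣ ⧸ (unitNorm K M).range) (classD σ).ker
    (ClassGroup.extendedHom (𝓞 K) (𝓞 M)).range
    (fun c => (QuotientGroup.mk (v c) : (𝓞 K)ˣ ⧸ (unitNorm K M).range)) (by
      intro a b hab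
      have hab' : (v a)⁻¹ * v b ∈ (unitNorm K M).range := QuotientGroup.eq.1 hab
      have hvv : v b / v a ∈ (unitNorm K M).range := by
        rwa [div_eq_mul_inv, mul_comm]
      have := div_mem_range_extendedHom σ hσ hA3 (hx a) (hy a) (hx b) (hy b) (hxy a) (hxy b)
        (hv a) (hv b) hvv
      rwa [hI a, hI b] at this)
  rwa [← Subgroup.index_eq_card] at key

/-- Step 4: `[ker N : im D] ≤ |ker j|` on units. -/
lemma relIndex_unitD_le [IsGalois K M] (σ : M ≃ₐ[K] M)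
    (hσ : ∀ τ : M ≃ₐ[K] M, τ ∈ Subgroup.zpowers σ) (hA3 : Stmt_A3 K M σ) :
    (unitD K M σ).range.relIndex (unitNorm K M).ker
      ≤ Nat.card (ClassGroup.extendedHom (𝓞 K) (𝓞 M)).ker := by
  classical
  have hdata : ∀ u : (unitNorm K M).ker, ∃ (𝔞 : (Ideal (𝓞 K))⁰) (ε : 𝓞 M), ε ≠ 0 ∧
      ((u : (𝓞 M)ˣ) : 𝓞 M) * sigmaInt K M σ ε = ε ∧
      (𝔞 : Ideal (𝓞 K)).map (algebraMap (𝓞 K) (𝓞 M)) = Ideal.span {ε} :=
    fun u => exists_ideal_of_norm_one σ hσ hA3 u (MonoidHom.mem_ker.1 u.2)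
  choose 𝔞 ε hε0 hε h𝔞 using hdata
  refine relIndex_le_card_of_fibres (unitD K M σ).range (unitNorm K M).ker
    (fun u => (⟨ClassGroup.mk0 (𝔞 u), MonoidHom.mem_ker.2 (extendedHom_mk0_eq_one (h𝔞 u))⟩ :
      (ClassGroup.extendedHom (𝓞 K) (𝓞 M)).ker)) ?_
  intro a b hab
  have hcl : ClassGroup.mk0 (𝔞 a) = ClassGroup.mk0 (𝔞 b) := congrArg Subtype.val hab
  exact div_mem_range_unitD σ (hε0 a) (hε0 b) (hε a) (hε b) (h𝔞 a) (h𝔞 b) hcl

/-- The norm map on ideal classes is not surjective. -/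
theorem range_normCl_ne_top [IsGalois K M] {p : ℕ} (hp : 2 ≤ p) (σ : M ≃ₐ[K] M)
    (hσ : ∀ τ : M ≃ₐ[K] M, τ ∈ Subgroup.zpowers σ)
    (hA2 : Stmt_A2 K M p σ) (hA3 : Stmt_A3 K M σ) :
    (normCl K M).range ≠ ⊤ := by
  classical
  intro htop
  set j := ClassGroup.extendedHom (𝓞 K) (𝓞 M) with hj
  have h1 := card_range_normCl_le (K := K) (M := M) σ
  have h2 := card_ker_classD_le σ hσ hA3 hA2.1
  have h4 := relIndex_unitD_le σ hσ hA3
  have h5 := hA2.2
  have h3 : Nat.card j.ker * Nat.card j.range = Nat.card (ClassGroup (𝓞 K)) := by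
    rw [← Subgroup.index_ker]
    exact Subgroup.card_mul_index _
  have hh : Nat.card (normCl K M).range = Nat.card (ClassGroup (𝓞 K)) := by
    rw [htop]
    exact Nat.card_congr (Subgroup.topEquiv).toEquiv
  have hpos : 0 < Nat.card (ClassGroup (𝓞 K)) := Nat.card_pos
  rw [hh] at h1
  have : p * Nat.card (ClassGroup (𝓞 K)) ≤ Nat.card (ClassGroup (𝓞 K)) := by
    calc p * Nat.card (ClassGroup (𝓞 K))
        ≤ p * Nat.card (classD σ).ker := Nat.mul_le_mul_left _ h1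
      _ ≤ p * ((unitNorm K M).range.index * Nat.card j.range) := Nat.mul_le_mul_left _ h2
      _ = (p * (unitNorm K M).range.index) * Nat.card j.range := by ring
      _ ≤ Nat.card j.ker * Nat.card j.range := Nat.mul_le_mul_right _ (h5.trans h4)
      _ = Nat.card (ClassGroup (𝓞 K)) := h3
  nlinarith

/-- **T1** from A2 and A3. -/
theorem stmt_T1_of_A2_A3 [IsGalois K M] {p : ℕ} (hp : 2 ≤ p) (σ : M ≃ₐ[K] M)
    (hσ : ∀ τ : M ≃ₐ[K] M, τ ∈ Subgroup.zpowers σ)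
    (hA2 : Stmt_A2 K M p σ) (hA3 : Stmt_A3 K M σ) :
    Stmt_T1 K M := by
  have hne := range_normCl_ne_top hp σ hσ hA2 hA3
  obtain ⟨c, hc⟩ : ∃ c : ClassGroup (𝓞 K), c ∉ (normCl K M).range := by
    by_contra hcon
    exact hne (eq_top_iff.2 fun c _ => by
      by_contra hc'
      exact hcon ⟨c, hc'⟩)
  refine ⟨c, fun J hJ h hcon => hc ?_⟩
  have hJ0 : J ∈ (Ideal (𝓞 M))⁰ := mem_nonZeroDivisors_iff_ne_zero.2 (by simpa using hJ)
  refine ⟨ClassGroup.mk0 ⟨J, hJ0⟩, ?_⟩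
  rw [normCl_mk0, ← hcon]
  rfl

end Fermat.Agent.S14.T1

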