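import Mathlib
import Fermat.Agent.S14.Interfaces
import Fermat.Agent.S14.H9_T1
import Fermat.Agent.S14.H97_A3

/-!
# S14, package A: the first inequality in the shape of `Fermat.Agent.S14.Stmt_T1`

`stmt_T1_of_A2`: the interface statement `Stmt_T1` from the unit Herbrand inequality (A2) for all
cyclic extensions of odd prime degree of totally complex number fields.
-/

set_option autoImplicit false

namespace Fermat.Agent.S14.T1

open NumberField nonZeroDivisors

set_option linter.unusedSectionVars false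

/-- (A2) for all Galois extensions of odd prime degree of totally complex number fields. -/
def Stmt_A2_all : Prop :=
  ∀ (p : ℕ) [Fact p.Prime] (K M : Type) [Field K] [NumberField K] [Field M] [NumberField M]
    [Algebra K M] [IsGalois K M],
    p ≠ 2 → Module.finrank K M = p → IsTotallyComplex K →
    ∀ σ : M ≃ₐ[K] M, (∀ τ : M ≃ₐ[K] M, τ ∈ Subgroup.zpowers σ) → Stmt_A2 K M p σ

section bridge

variable {K M : Type} [Field K] [NumberField K] [Field M] [NumberField M] [Algebra K M]

lemma cls_relNorm_mem_range_normCl (J : Ideal (𝓞 M)) (hJ : J ≠ ⊥) :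
    Fermat.Agent.S14.cls (Ideal.relNorm (𝓞 K) J) ∈ (normCl K M).range := by
  have hJ0 : J ∈ (Ideal (𝓞 M))⁰ := mem_nonZeroDivisors_iff_ne_zero.2 (by simpa using hJ)
  refine ⟨ClassGroup.mk0 ⟨J, hJ0⟩, ?_⟩
  rw [normCl_mk0]
  have hN : Ideal.relNorm (𝓞 K) J ≠ ⊥ := by
    rwa [Ne, Ideal.relNorm_eq_bot_iff]
  rw [Fermat.Agent.S14.cls, dif_neg hN]
  rfl

lemma normClasses_le_range_normCl :
    Fermat.Agent.S14.normClasses K M ≤ (normCl K M).range := by
  rw [Fermat.Agent.S14.normClasses, Subgroup.closure_le]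
  rintro c ⟨J, hJ, rfl⟩
  exact cls_relNorm_mem_range_normCl J hJ

end bridge

/-- **T1** in interface form, from the unit Herbrand inequality. -/
theorem stmt_T1_of_A2 (hA2 : Stmt_A2_all) : Fermat.Agent.S14.Stmt_T1 := by
  intro p hp K M _ _ _ _ _ _ hp2 hfin hK hunr htop
  have hcard : Nat.card (M ≃ₐ[K] M) = p := by
    rw [IsGalois.card_aut_eq_finrank, hfin]
  have hcyc : IsCyclic (M ≃ₐ[K] M) := isCyclic_of_prime_card hcard
  obtain ⟨σ, hσ⟩ := hcyc.exists_generator
  have h3 : Stmt_A3 K M σ := Fermat.Agent.S14.H97.stmt_A3_of_inertia K M hunr σ hσ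
  have h2 : Stmt_A2 K M p σ := hA2 p K M hp2 hfin hK σ hσ
  have hne := range_normCl_ne_top hp.out.two_le σ hσ h2 h3
  exact hne (top_le_iff.1 (htop ▸ normClasses_le_range_normCl))

end Fermat.Agent.S14.T1
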