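import Fermat.Agent.S14.H62_UnitHerbrand
import Fermat.Agent.S14.H9_T1Final

/-!
# S14 / WP A (helper62 + helper9 + helper97): T1, the first inequality, closed

* `H62.stmt_A2_all : T1.Stmt_A2_all`  (unit Herbrand inequality, all odd prime degrees)
* `H62.stmt_T1 : Fermat.Agent.S14.Stmt_T1`  (norm classes do not fill the class group)
-/

namespace Fermat.Agent.S14.H62

open NumberField Module

/-- **A2** in the shape consumed by `T1.stmt_T1_of_A2`. -/
theorem stmt_A2_all : T1.Stmt_A2_all := by
  intro p hp K M _ _ _ _ _ _ hp2 hdeg _ σ hσ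
  have hodd : Odd (Module.finrank K M) := by
    rw [hdeg]
    exact hp.out.odd_of_ne_two hp2
  have := IsUnramifiedAtInfinitePlaces_of_odd_finrank hodd
  exact stmt_A2_of_unramifiedAtInfinity p hdeg σ hσ

/-- **T1** (first inequality), interface form. -/
theorem stmt_T1 : Fermat.Agent.S14.Stmt_T1 :=
  T1.stmt_T1_of_A2 stmt_A2_all

end Fermat.Agent.S14.H62
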