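import Fermat.Agent.S14.H62_Abstract
import Fermat.Agent.S14.H9_T1Defs

/-!
# S14 / WP A2 (helper62): the Herbrand quotient of the units, `T1.Stmt_A2`

`M/K` Galois of prime degree `p`, unramified at the infinite places, `σ` a generator of the Galois
group.  Then `[E_K : N E_M] ≠ 0` and `p * [E_K : N E_M] ≤ [ker N : (σ - 1) E_M]`.
Proof: `H62.herbrand_abstract` applied to `Additive (𝓞 M)ˣ`, with the ranks from Dirichlet's unit
theorem (`NumberField.Units.finrank_eq`) and `card_infinitePlace`.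
-/

namespace Fermat.Agent.S14.H62

open NumberField Module

variable (K M : Type) [Field K] [NumberField K] [Field M] [NumberField M] [Algebra K M]

/-- `σ` acting on the units of `𝓞 M`. -/
noncomputable def sigU (σ : M ≃ₐ[K] M) : (𝓞 M)ˣ →* (𝓞 M)ˣ :=
  Units.map (T1.sigmaInt K M σ : 𝓞 M →* 𝓞 M)

variable {K M}

theorem coe_sigU (σ : M ≃ₐ[K] M) (u : (𝓞 M)ˣ) :
    algebraMap (𝓞 M) M (sigU K M σ u : (𝓞 M)ˣ) = σ (algebraMap (𝓞 M) M u) := by
  simp only [sigU, Units.coe_map, MonoidHom.coe_coe]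
  exact algebraMap_galRestrict_apply (𝓞 K) σ (u : 𝓞 M)

theorem units_ext_algebraMap {u v : (𝓞 M)ˣ}
    (h : algebraMap (𝓞 M) M u = algebraMap (𝓞 M) M v) : u = v :=
  Units.ext (RingOfIntegers.ext h)

theorem sigU_mul (σ τ : M ≃ₐ[K] M) (u : (𝓞 M)ˣ) :
    sigU K M (σ * τ) u = sigU K M σ (sigU K M τ u) := by
  apply units_ext_algebraMap
  rw [coe_sigU, coe_sigU, coe_sigU]
  rfl

theorem sigU_one (u : (𝓞 M)ˣ) : sigU K M 1 u = u := by
  apply units_ext_algebraMap
  rw [coe_sigU]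
  rfl

theorem sigU_pow (σ : M ≃ₐ[K] M) (i : ℕ) (u : (𝓞 M)ˣ) :
    sigU K M (σ ^ i) u = (sigU K M σ)^[i] u := by
  induction i generalizing u with
  | zero => simp [sigU_one]
  | succ i ih => rw [pow_succ, sigU_mul, ih, Function.iterate_succ_apply]

/-- `σ` as an endomorphism of the `ℤ`-module `Additive (𝓞 M)ˣ`. -/
noncomputable def sigA (σ : M ≃ₐ[K] M) : Module.End ℤ (Additive (𝓞 M)ˣ) :=
  (MonoidHom.toAdditive (sigU K M σ)).toIntLinearMap

theorem sigA_apply (σ : M ≃ₐ[K] M) (x : Additive (𝓞 M)ˣ) :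
    sigA σ x = Additive.ofMul (sigU K M σ (Additive.toMul x)) := rfl

theorem sigA_pow_apply (σ : M ≃ₐ[K] M) (i : ℕ) (x : Additive (𝓞 M)ˣ) :
    (sigA σ ^ i) x = Additive.ofMul (sigU K M (σ ^ i) (Additive.toMul x)) := by
  induction i generalizing x with
  | zero => simp [sigU_one]
  | succ i ih =>
    rw [pow_succ, Module.End.mul_apply, ih, sigA_apply, pow_succ, sigU_mul]
    rfl

theorem sigA_pow_eq_one [IsGalois K M] (σ : M ≃ₐ[K] M) (p : ℕ) (hdeg : Module.finrank K M = p) :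
    sigA σ ^ p = 1 := by
  ext x
  rw [sigA_pow_apply]
  have : σ ^ p = 1 := by
    rw [← hdeg, ← IsGalois.card_aut_eq_finrank]
    exact pow_card_eq_one'
  rw [this, sigU_one]
  rfl


/-- The inclusion of units `(𝓞 K)ˣ → (𝓞 M)ˣ`. -/
noncomputable def iotaU (K M : Type) [Field K] [NumberField K] [Field M] [NumberField M]
    [Algebra K M] : (𝓞 K)ˣ →* (𝓞 M)ˣ :=
  Units.map (algebraMap (𝓞 K) (𝓞 M) : 𝓞 K →* 𝓞 M)

theorem coe_iotaU (v : (𝓞 K)ˣ) :
    algebraMap (𝓞 M) M (iotaU K M v : (𝓞 M)ˣ) = algebraMap K M (algebraMap (𝓞 K) K v) := by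
  simp only [iotaU, Units.coe_map, MonoidHom.coe_coe]
  rw [← IsScalarTower.algebraMap_apply, ← IsScalarTower.algebraMap_apply]

theorem iotaU_injective : Function.Injective (iotaU K M) := by
  intro v w h
  have h1 := congrArg (fun u : (𝓞 M)ˣ => algebraMap (𝓞 M) M u) h
  simp only [coe_iotaU] at h1
  have h2 := (algebraMap K M).injective h1
  exact Units.ext (RingOfIntegers.ext h2)

theorem delE_sigA_eq (σ : M ≃ₐ[K] M) :
    (delE (sigA σ)).toAddMonoidHom = MonoidHom.toAdditive (T1.unitD K M σ) := by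
  refine AddMonoidHom.ext fun x => ?_
  rfl

theorem prod_range_eq_prod_univ [IsGalois K M] {p : ℕ} (hdeg : Module.finrank K M = p)
    (σ : M ≃ₐ[K] M) (hσ : ∀ τ : M ≃ₐ[K] M, τ ∈ Subgroup.zpowers σ)
    {β : Type*} [CommMonoid β] (f : (M ≃ₐ[K] M) → β) :
    ∏ i ∈ Finset.range p, f (σ ^ i) = ∏ τ : (M ≃ₐ[K] M), f τ := by
  classical
  have hord : orderOf σ = p := by
    rw [orderOf_eq_card_of_forall_mem_zpowers hσ, IsGalois.card_aut_eq_finrank, hdeg]
  rw [← IsCyclic.image_range_orderOf hσ, hord, Finset.prod_image]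
  intro i hi j hj hij
  rw [← hord] at hi hj
  exact pow_injOn_Iio_orderOf (by simpa using hi) (by simpa using hj) hij

theorem coe_unitNorm (u : (𝓞 M)ˣ) :
    algebraMap (𝓞 K) K (T1.unitNorm K M u : (𝓞 K)ˣ) = Algebra.norm K (algebraMap (𝓞 M) M u) := by
  simp only [T1.unitNorm, Units.coe_map]
  exact Algebra.algebraMap_intNorm (A := 𝓞 K) (K := K) (L := M) (B := 𝓞 M) (u : 𝓞 M)

theorem prod_sigU_eq [IsGalois K M] {p : ℕ} (hdeg : Module.finrank K M = p)
    (σ : M ≃ₐ[K] M) (hσ : ∀ τ : M ≃ₐ[K] M, τ ∈ Subgroup.zpowers σ) (u : (𝓞 M)ˣ) :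
    ∏ i ∈ Finset.range p, sigU K M (σ ^ i) u = iotaU K M (T1.unitNorm K M u) := by
  apply units_ext_algebraMap
  rw [coe_iotaU, coe_unitNorm, Algebra.norm_eq_prod_automorphisms,
    ← prod_range_eq_prod_univ hdeg σ hσ]
  rw [Units.coe_prod, map_prod]
  refine Finset.prod_congr rfl (fun i _ => ?_)
  exact coe_sigU (σ ^ i) u

theorem nrmE_sigA_eq [IsGalois K M] {p : ℕ} (hdeg : Module.finrank K M = p)
    (σ : M ≃ₐ[K] M) (hσ : ∀ τ : M ≃ₐ[K] M, τ ∈ Subgroup.zpowers σ) :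
    (nrmE p (sigA σ)).toAddMonoidHom =
      MonoidHom.toAdditive ((iotaU K M).comp (T1.unitNorm K M)) := by
  refine AddMonoidHom.ext fun x => ?_
  change nrmE p (sigA σ) x = Additive.ofMul (iotaU K M (T1.unitNorm K M (Additive.toMul x)))
  rw [← prod_sigU_eq hdeg σ hσ, nrmE, LinearMap.sum_apply, ofMul_prod]
  refine Finset.sum_congr rfl (fun i _ => ?_)
  exact sigA_pow_apply σ i x

theorem fixed_of_sigU_eq (σ : M ≃ₐ[K] M) (hσ : ∀ τ : M ≃ₐ[K] M, τ ∈ Subgroup.zpowers σ)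
    (u : (𝓞 M)ˣ) (hu : sigU K M σ u = u) (τ : M ≃ₐ[K] M) :
    τ (algebraMap (𝓞 M) M u) = algebraMap (𝓞 M) M u := by
  have h1 : σ (algebraMap (𝓞 M) M u) = algebraMap (𝓞 M) M u := by
    rw [← coe_sigU, hu]
  -- the stabiliser of the element is a subgroup containing `σ`
  let S : Subgroup (M ≃ₐ[K] M) :=
    { carrier := {τ | τ (algebraMap (𝓞 M) M u) = algebraMap (𝓞 M) M u}
      mul_mem' := fun {a b} ha hb => by
        change (a * b) _ = _
        rw [AlgEquiv.mul_apply, hb, ha]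
      one_mem' := rfl
      inv_mem' := fun {a} ha => by
        change a⁻¹ _ = _
        have : a⁻¹ (a (algebraMap (𝓞 M) M u)) = algebraMap (𝓞 M) M u := by
          rw [← AlgEquiv.mul_apply, inv_mul_cancel, AlgEquiv.one_apply]
        rw [ha] at this
        exact this }
  have hS : Subgroup.zpowers σ ≤ S := by
    rw [Subgroup.zpowers_le]
    exact h1
  exact hS (hσ τ)

/-- a fixed integral element comes from `𝓞 K`. -/
theorem exists_int_of_fixed [IsGalois K M] (x : 𝓞 M)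
    (hx : ∀ τ : M ≃ₐ[K] M, τ (algebraMap (𝓞 M) M x) = algebraMap (𝓞 M) M x) :
    ∃ y : 𝓞 K, algebraMap (𝓞 K) (𝓞 M) y = x := by
  obtain ⟨k, hk⟩ := (IsGalois.mem_range_algebraMap_iff_fixed (F := K) (E := M) _).mpr hx
  have hint : IsIntegral ℤ k := by
    have : IsIntegral ℤ (algebraMap K M k) := by
      rw [hk]
      exact RingOfIntegers.isIntegral_coe x
    exact (isIntegral_algebraMap_iff (algebraMap K M).injective).mp this
  refine ⟨⟨k, hint⟩, ?_⟩
  apply RingOfIntegers.ext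
  exact hk

theorem unitD_apply (σ : M ≃ₐ[K] M) (u : (𝓞 M)ˣ) : T1.unitD K M σ u = sigU K M σ u / u := rfl

theorem unitD_ker_eq [IsGalois K M] (σ : M ≃ₐ[K] M)
    (hσ : ∀ τ : M ≃ₐ[K] M, τ ∈ Subgroup.zpowers σ) :
    (T1.unitD K M σ).ker = (iotaU K M).range := by
  ext u
  rw [MonoidHom.mem_ker, unitD_apply, div_eq_one, MonoidHom.mem_range]
  constructor
  · intro hu
    have hfix := fixed_of_sigU_eq σ hσ u hu
    have hu' : sigU K M σ u⁻¹ = u⁻¹ := by rw [map_inv, hu]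
    have hfix' := fixed_of_sigU_eq σ hσ u⁻¹ hu'
    obtain ⟨y, hy⟩ := exists_int_of_fixed (K := K) (u : 𝓞 M) hfix
    obtain ⟨z, hz⟩ := exists_int_of_fixed (K := K) ((u⁻¹ : (𝓞 M)ˣ) : 𝓞 M) hfix'
    have hinj : Function.Injective (algebraMap (𝓞 K) (𝓞 M)) :=
      FaithfulSMul.algebraMap_injective (𝓞 K) (𝓞 M)
    have hyz : y * z = 1 := by
      apply hinj
      rw [map_mul, hy, hz, map_one, Units.mul_inv]
    have hzy : z * y = 1 := by rw [mul_comm, hyz]
    refine ⟨⟨y, z, hyz, hzy⟩, ?_⟩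
    apply Units.ext
    simpa [iotaU] using hy
  · rintro ⟨v, rfl⟩
    apply units_ext_algebraMap
    rw [coe_sigU, coe_iotaU, AlgEquiv.commutes]

/-- the torsion-free finite-index submodule of `torsionOrder`-th powers. -/
noncomputable def unitsA₁ (M : Type) [Field M] [NumberField M] : Submodule ℤ (Additive (𝓞 M)ˣ) :=
  LinearMap.range ((Units.torsionOrder M : ℤ) • (LinearMap.id : Additive (𝓞 M)ˣ →ₗ[ℤ] _))

theorem smul_mem_unitsA₁ (x : Additive (𝓞 M)ˣ) : (Units.torsionOrder M : ℤ) • x ∈ unitsA₁ M :=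
  ⟨x, rfl⟩

theorem torsionOrder_smul_eq_zero {x : Additive (𝓞 M)ˣ} {n : ℤ} (hn : n ≠ 0) (hx : n • x = 0) :
    (Units.torsionOrder M : ℤ) • x = 0 := by
  have h1 : (Additive.toMul x) ^ n = 1 := by
    have := congrArg Additive.toMul hx
    simpa using this
  have h2 : Additive.toMul x ∈ Units.torsion M := by
    rw [Units.torsion, CommGroup.mem_torsion, isOfFinOrder_iff_zpow_eq_one]
    exact ⟨n, hn, h1⟩
  have h3 : (Additive.toMul x) ^ (Units.torsionOrder M) = 1 := by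
    have h4 : (⟨Additive.toMul x, h2⟩ : Units.torsion M) ^ Nat.card (Units.torsion M) = 1 :=
      pow_card_eq_one'
    have h5 := congrArg (fun z : Units.torsion M => (z : (𝓞 M)ˣ)) h4
    exact h5
  apply Additive.toMul.injective
  simpa using h3

theorem unitsA₁_torsionFree :
    ∀ x ∈ unitsA₁ M, ∀ n : ℤ, n ≠ 0 → n • x = 0 → x = 0 := by
  rintro _ ⟨y, rfl⟩ n hn h
  simp only [LinearMap.smul_apply, LinearMap.id_coe, id_eq] at h ⊢
  have hne : n * (Units.torsionOrder M : ℤ) ≠ 0 :=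
    mul_ne_zero hn (by exact_mod_cast Units.torsionOrder_ne_zero M)
  rw [← mul_smul] at h
  exact torsionOrder_smul_eq_zero hne h

theorem unitsA₁_stable (σ : M ≃ₐ[K] M) : ∀ x ∈ unitsA₁ M, sigA σ x ∈ unitsA₁ M := by
  rintro _ ⟨y, rfl⟩
  refine ⟨sigA σ y, ?_⟩
  simp only [LinearMap.smul_apply, LinearMap.id_coe, id_eq, map_smul]

/-- The inclusion of units, additively, as a `ℤ`-linear map. -/
noncomputable def iotaA (K M : Type) [Field K] [NumberField K] [Field M] [NumberField M]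
    [Algebra K M] : Additive (𝓞 K)ˣ →ₗ[ℤ] Additive (𝓞 M)ˣ :=
  (MonoidHom.toAdditive (iotaU K M)).toIntLinearMap

theorem iotaA_injective : Function.Injective (iotaA K M) := by
  intro x y h
  exact Additive.toMul.injective (iotaU_injective (congrArg Additive.toMul h))

theorem ker_delE_sigA_eq [IsGalois K M] (σ : M ≃ₐ[K] M)
    (hσ : ∀ τ : M ≃ₐ[K] M, τ ∈ Subgroup.zpowers σ) :
    LinearMap.ker (delE (sigA σ)) = LinearMap.range (iotaA K M) := by
  ext x
  have h := unitD_ker_eq σ hσ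
  have h1 : x ∈ LinearMap.ker (delE (sigA σ)) ↔ Additive.toMul x ∈ (T1.unitD K M σ).ker := by
    rw [LinearMap.mem_ker, MonoidHom.mem_ker]
    constructor
    · intro hx
      exact congrArg Additive.toMul hx
    · intro hx
      exact congrArg Additive.ofMul hx
  rw [h1, h, MonoidHom.mem_range, LinearMap.mem_range]
  constructor
  · rintro ⟨v, hv⟩
    exact ⟨Additive.ofMul v, congrArg Additive.ofMul hv⟩
  · rintro ⟨v, hv⟩
    exact ⟨Additive.toMul v, congrArg Additive.toMul hv⟩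

theorem finrank_ker_delE_sigA [IsGalois K M] (σ : M ≃ₐ[K] M)
    (hσ : ∀ τ : M ≃ₐ[K] M, τ ∈ Subgroup.zpowers σ) :
    finrank ℤ (LinearMap.ker (delE (sigA σ))) = Units.rank K := by
  rw [ker_delE_sigA_eq σ hσ, LinearMap.finrank_range_of_inj iotaA_injective, Units.finrank_eq]

theorem finrank_units_eq [IsGalois K M] [IsUnramifiedAtInfinitePlaces K M] {p : ℕ}
    (hp : p ≠ 0) (hdeg : Module.finrank K M = p) :
    finrank ℤ (Additive (𝓞 M)ˣ) =
      Units.rank K + (p - 1) * Fintype.card (InfinitePlace K) := by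
  rw [Units.finrank_eq, Units.rank, Units.rank,
    IsUnramifiedAtInfinitePlaces.card_infinitePlace K M, hdeg]
  have hr : 0 < Fintype.card (InfinitePlace K) := Fintype.card_pos
  obtain ⟨q, rfl⟩ : ∃ q, p = q + 1 := ⟨p - 1, by omega⟩
  generalize Fintype.card (InfinitePlace K) = r at hr ⊢
  simp only [Nat.add_sub_cancel]
  have : r * (q + 1) = q * r + r := by ring
  omega

theorem ker_comp_iotaU (f : (𝓞 M)ˣ →* (𝓞 K)ˣ) : ((iotaU K M).comp f).ker = f.ker := by
  ext u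
  rw [MonoidHom.mem_ker, MonoidHom.mem_ker, MonoidHom.comp_apply]
  constructor
  · intro h
    apply iotaU_injective (K := K) (M := M)
    rw [h, map_one]
  · intro h
    rw [h, map_one]

/-- **A2** for `M/K` Galois of prime degree `p`, unramified at infinity, `σ` a generator. -/
theorem stmt_A2_of_unramifiedAtInfinity [IsGalois K M] [IsUnramifiedAtInfinitePlaces K M]
    (p : ℕ) [hpp : Fact p.Prime] (hdeg : Module.finrank K M = p)
    (σ : M ≃ₐ[K] M) (hσ : ∀ τ : M ≃ₐ[K] M, τ ∈ Subgroup.zpowers σ) :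
    T1.Stmt_A2 K M p σ := by
  have hp0 : p ≠ 0 := hpp.out.ne_zero
  have hpow : sigA σ ^ p = 1 := sigA_pow_eq_one σ p hdeg
  have hr : 0 < Fintype.card (InfinitePlace K) := Fintype.card_pos
  obtain ⟨h0, h1, hle⟩ := herbrand_abstract (p := p) (σ := sigA σ) (A₁ := unitsA₁ M) hpow
    unitsA₁_torsionFree (unitsA₁_stable σ)
    (t := (Units.torsionOrder M : ℤ)) (by exact_mod_cast Units.torsionOrder_ne_zero M)
    smul_mem_unitsA₁ (Units.rank K) (Fintype.card (InfinitePlace K))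
    (finrank_ker_delE_sigA σ hσ) (finrank_units_eq hp0 hdeg)
  rw [hIdx_top, hIdx_top] at hle
  rw [hIdx_top] at h0 h1
  rw [delE_sigA_eq, nrmE_sigA_eq hdeg σ hσ] at h0 h1 hle
  simp only [MonoidHom.coe_toAdditive_range, MonoidHom.coe_toAdditive_ker,
    Subgroup.relIndex_toAddSubgroup] at h0 h1 hle
  rw [ker_comp_iotaU] at h1 hle
  have hidx : ((iotaU K M).comp (T1.unitNorm K M)).range.relIndex (T1.unitD K M σ).ker
      = (T1.unitNorm K M).range.index := by
    rw [unitD_ker_eq σ hσ, MonoidHom.range_eq_map (iotaU K M), MonoidHom.range_eq_map,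
      ← Subgroup.map_map, Subgroup.relIndex_map_map_of_injective _ _ iotaU_injective,
      Subgroup.relIndex_top_right, ← MonoidHom.range_eq_map]
  rw [hidx] at h0 hle
  refine ⟨h0, ?_⟩
  -- `p ^ r * h0 ≤ p ^ (r - 1) * h1`
  have hpos : 0 < p ^ (Units.rank K) := pow_pos (Nat.pos_of_ne_zero hp0) _
  have hsplit : p ^ Fintype.card (InfinitePlace K) = p ^ (Units.rank K) * p := by
    rw [← pow_succ, Units.rank]
    congr 1
    omega
  rw [hsplit, mul_assoc] at hle
  exact Nat.le_of_mul_le_mul_left hle hpos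

end Fermat.Agent.S14.H62
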