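import Fermat.Agent.S14.H64_D1Unram

/-!
# S14, crossing (helper64): base change of `M/K` to `E = N^H`

Setting: `K ⊆ M ⊆ N` number fields, `M/K` and `N/K` Galois, `H ≤ Gal(N/K)`.

* `EF K N H`   : `E = N^H`, an `IntermediateField K N`
* `rhoE K M N H` : the restriction `Gal(N/E) → Gal(M/K)`
* `LF K M N H` : `L = M·E`, as an `IntermediateField ↥E N` (the fixed field of `ker rhoE`)

Results (`hH` = the restriction `H → Gal(M/K)` is surjective):
* `LF_isGalois`        : `L/E` is Galois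
* `LF_finrank`         : `[L : E] = [M : K]`
* `LF_unramified`      : `M/K` unramified everywhere ⇒ `L/E` unramified everywhere
* `EF_isTotallyComplex`: `K` totally complex ⇒ `E` totally complex
* `LF_fixed`           : `γ' ∈ Gal(N/E)` with `γ'|M = 1` fixes `L` pointwise
* `restrictScalars_mem`: `γ'.restrictScalars K ∈ H` for `γ' ∈ Gal(N/E)`
* `algebraMap_mem_LF`  : `M ⊆ L`
* `exists_unit_crt`    : CRT for units of `ZMod (r₁ * r₂)`
* `surj_H1_inf_H2`     : in the crossing setup `Top M r₁ r₂`, `hH` holds for `H = H₁ ⊓ H₂`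
  (`τ, τ' ≠ 1`, `[M : K] = p`)
* `isTotallyComplex_of_cyclotomic` : `K = ℚ(ζ_p)`, `p ≠ 2` is totally complex
-/

set_option linter.unusedSectionVars false
set_option linter.style.haveILetI false

namespace Fermat.Agent.S14.H64

open NumberField IntermediateField

section baseChange

variable (K M N : Type) [Field K] [NumberField K] [Field M] [NumberField M] [Field N]
  [NumberField N] [Algebra K M] [Algebra K N] [Algebra M N] [IsScalarTower K M N]
  [IsGalois K M] [IsGalois K N]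
variable (H : Subgroup (N ≃ₐ[K] N))

/-- The field `E = N^H`. -/
abbrev EF : IntermediateField K N := IntermediateField.fixedField H

/-- The inclusion `Gal(N/E) → Gal(N/K)` as a monoid homomorphism. -/
noncomputable def inclE : (N ≃ₐ[EF K N H] N) →* (N ≃ₐ[K] N) :=
  (Subgroup.subtype _).comp (IntermediateField.fixingSubgroupEquiv (EF K N H)).symm.toMonoidHom

@[simp] lemma inclE_apply (γ' : N ≃ₐ[EF K N H] N) :
    inclE K N H γ' = γ'.restrictScalars K := rfl

/-- The restriction `Gal(N/E) → Gal(M/K)`. -/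
noncomputable def rhoE : (N ≃ₐ[EF K N H] N) →* (M ≃ₐ[K] M) :=
  (AlgEquiv.restrictNormalHom M).comp (inclE K N H)

lemma rhoE_apply (γ' : N ≃ₐ[EF K N H] N) :
    rhoE K M N H γ' = AlgEquiv.restrictNormalHom M (γ'.restrictScalars K) := rfl

lemma rhoE_commutes (γ' : N ≃ₐ[EF K N H] N) (m : M) :
    algebraMap M N (rhoE K M N H γ' m) = γ' (algebraMap M N m) := by
  rw [rhoE_apply]
  exact AlgEquiv.restrictNormal_commutes (γ'.restrictScalars K) M m

/-- The field `L = M·E`, as an extension of `E` inside `N`. -/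
noncomputable def LF : IntermediateField (EF K N H) N :=
  IntermediateField.fixedField (rhoE K M N H).ker

/-- `γ'.restrictScalars K ∈ H` for `γ' ∈ Gal(N/E)`, `E = N^H`. -/
theorem restrictScalars_mem (γ' : N ≃ₐ[EF K N H] N) : γ'.restrictScalars K ∈ H := by
  have h := IntermediateField.fixingSubgroup_fixedField (F := K) (E := N) H
  have h2 : γ'.restrictScalars K ∈ (EF K N H).fixingSubgroup := by
    rw [IntermediateField.mem_fixingSubgroup_iff]
    intro x hx
    exact γ'.commutes ⟨x, hx⟩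
  rw [h] at h2
  exact h2

/-- An element of `H` as an element of `Gal(N/E)`. -/
noncomputable def liftE (γ : N ≃ₐ[K] N) (hγ : γ ∈ H) : N ≃ₐ[EF K N H] N :=
  IntermediateField.fixingSubgroupEquiv (EF K N H)
    ⟨γ, (IntermediateField.le_iff_le H (EF K N H)).mp le_rfl hγ⟩

@[simp] lemma liftE_restrictScalars (γ : N ≃ₐ[K] N) (hγ : γ ∈ H) :
    (liftE K N H γ hγ).restrictScalars K = γ := rfl

/-- `L/E` is Galois. -/
theorem LF_isGalois : IsGalois (EF K N H) (LF K M N H) :=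
  IsGalois.of_fixedField_normal_subgroup (rhoE K M N H).ker

/-- `γ' ∈ Gal(N/E)` with `γ'|M = 1` fixes `L` pointwise. -/
theorem LF_fixed (γ' : N ≃ₐ[EF K N H] N)
    (h : AlgEquiv.restrictNormalHom M (γ'.restrictScalars K) = 1) (x : LF K M N H) :
    γ' (x : N) = x := by
  have hx : (x : N) ∈ IntermediateField.fixedField (rhoE K M N H).ker := x.2
  rw [IntermediateField.mem_fixedField_iff] at hx
  exact hx γ' (by rw [MonoidHom.mem_ker, rhoE_apply, h])

/-- `M ⊆ L`. -/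
theorem algebraMap_mem_LF (m : M) : algebraMap M N m ∈ LF K M N H := by
  show algebraMap M N m ∈ IntermediateField.fixedField (rhoE K M N H).ker
  rw [IntermediateField.mem_fixedField_iff]
  intro γ' hγ'
  rw [MonoidHom.mem_ker] at hγ'
  rw [← rhoE_commutes, hγ']
  rfl

/-- If `H → Gal(M/K)` is surjective, so is `Gal(N/E) → Gal(M/K)`. -/
theorem rhoE_surjective
    (hH : ∀ g : M ≃ₐ[K] M, ∃ γ ∈ H, AlgEquiv.restrictNormalHom M γ = g) :
    Function.Surjective (rhoE K M N H) := by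
  intro g
  obtain ⟨γ, hγ, hg⟩ := hH g
  exact ⟨liftE K N H γ hγ, by rw [rhoE_apply, liftE_restrictScalars, hg]⟩

/-- `[L : E] = [M : K]`. -/
theorem LF_finrank
    (hH : ∀ g : M ≃ₐ[K] M, ∃ γ ∈ H, AlgEquiv.restrictNormalHom M γ = g) :
    Module.finrank (EF K N H) (LF K M N H) = Module.finrank K M := by
  haveI := LF_isGalois K M N H
  rw [← IsGalois.card_aut_eq_finrank, ← IsGalois.card_aut_eq_finrank]
  have e1 := IsGalois.normalAutEquivQuotient (K := EF K N H) (L := N) (rhoE K M N H).ker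
  have e2 := QuotientGroup.quotientKerEquivOfSurjective (rhoE K M N H)
    (rhoE_surjective K M N H hH)
  exact Nat.card_congr (e1.symm.trans e2).toEquiv

/-- `K` totally complex ⇒ `E` totally complex. -/
theorem EF_isTotallyComplex (hK : IsTotallyComplex K) : IsTotallyComplex (EF K N H) :=
  isTotallyComplex_of_algebra (F := K) (EF K N H)

/-- The inclusion `M → L`. -/
noncomputable def iotaLF : M →+* LF K M N H :=
  (algebraMap M N).codRestrict (LF K M N H) (algebraMap_mem_LF K M N H)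

@[simp] lemma iotaLF_coe (m : M) : ((iotaLF K M N H m : LF K M N H) : N) = algebraMap M N m := rfl

/-- `M/K` unramified everywhere ⇒ `L/E` unramified everywhere. -/
theorem LF_unramified (hU : UnramifiedEverywhere K M) :
    UnramifiedEverywhere (EF K N H) (LF K M N H) := by
  haveI := LF_isGalois K M N H
  intro P hP hP0
  rw [eq_bot_iff]
  intro σ hσ
  rw [Subgroup.mem_bot]
  obtain ⟨σ', hσ'⟩ := AlgEquiv.restrictNormalHom_surjective (F := EF K N H)
    (K₁ := LF K M N H) N σ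
  have hσx : ∀ x : LF K M N H, ((σ x : LF K M N H) : N) = σ' (x : N) := by
    intro x
    rw [← hσ']
    exact AlgEquiv.restrictNormal_commutes σ' (LF K M N H) x
  set ιO : 𝓞 M →+* 𝓞 (LF K M N H) := RingOfIntegers.mapRingHom (iotaLF K M N H) with hιO
  have hQ : (P.comap ιO).IsPrime := Ideal.comap_isPrime ιO P
  have hQ0 : P.comap ιO ≠ ⊥ := by
    intro h
    have h1 : ((Ideal.absNorm P : ℕ) : 𝓞 (LF K M N H)) ∈ P := Ideal.absNorm_mem P
    have h2 : ((Ideal.absNorm P : ℕ) : 𝓞 M) ∈ P.comap ιO := by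
      rw [Ideal.mem_comap, map_natCast]
      exact h1
    rw [h, Ideal.mem_bot] at h2
    have h3 : Ideal.absNorm P = 0 := by exact_mod_cast h2
    rw [Ideal.absNorm_eq_zero_iff] at h3
    exact hP0 h3
  have hg : rhoE K M N H σ' ∈ (P.comap ιO).inertia (M ≃ₐ[K] M) := by
    intro m
    show rhoE K M N H σ' • m - m ∈ P.comap ιO
    rw [Ideal.mem_comap, map_sub]
    have e : ιO (rhoE K M N H σ' • m) = σ • (ιO m) := by
      apply RingOfIntegers.ext
      apply Subtype.ext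
      show algebraMap M N (rhoE K M N H σ' (m : M)) = ((σ (ιO m : LF K M N H) : LF K M N H) : N)
      rw [rhoE_commutes, hσx]
      rfl
    rw [e]
    exact hσ (ιO m)
  rw [hU _ hQ hQ0, Subgroup.mem_bot] at hg
  ext x
  show ((σ x : LF K M N H) : N) = (x : N)
  rw [hσx]
  exact LF_fixed K M N H σ' hg x

end baseChange

end Fermat.Agent.S14.H64

namespace Fermat.Agent.S14.H64

open NumberField IntermediateField

/-- CRT for units. -/
theorem exists_unit_crt (r₁ r₂ : ℕ) (h : r₁.Coprime r₂) (a : (ZMod r₁)ˣ) (b : (ZMod r₂)ˣ) :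
    ∃ w : (ZMod (r₁ * r₂))ˣ, ZMod.unitsMap (Nat.dvd_mul_right r₁ r₂) w = a ∧
      ZMod.unitsMap (Nat.dvd_mul_left r₂ r₁) w = b := by
  let e := (Units.mapEquiv (ZMod.chineseRemainder h).toMulEquiv).trans MulEquiv.prodUnits
  have he : ∀ w : (ZMod (r₁ * r₂))ˣ, e w = (ZMod.unitsMap (Nat.dvd_mul_right r₁ r₂) w,
      ZMod.unitsMap (Nat.dvd_mul_left r₂ r₁) w) := by
    intro w
    apply Prod.ext
    · apply Units.ext
      show ((ZMod.chineseRemainder h) (w : ZMod (r₁ * r₂))).1 = _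
      simp [ZMod.chineseRemainder, ZMod.unitsMap]
    · apply Units.ext
      show ((ZMod.chineseRemainder h) (w : ZMod (r₁ * r₂))).2 = _
      simp [ZMod.chineseRemainder, ZMod.unitsMap]
  refine ⟨e.symm (a, b), ?_, ?_⟩
  · have := congrArg Prod.fst (he (e.symm (a, b)))
    rw [e.apply_symm_apply] at this
    exact this.symm
  · have := congrArg Prod.snd (he (e.symm (a, b)))
    rw [e.apply_symm_apply] at this
    exact this.symm

end Fermat.Agent.S14.H64

namespace Fermat.Agent.S14.H64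

open NumberField IntermediateField _root_.Fermat.Agent.S14.Cross

/-- In the crossing setup, `H₁ ⊓ H₂ → Gal(M/K)` is surjective when `τ, τ' ≠ 1`. -/
theorem surj_H1_inf_H2 (p : ℕ) [Fact p.Prime] (K M : Type) [Field K] [NumberField K]
    [Field M] [NumberField M] [Algebra K M] [IsGalois K M] [IsCyclotomicExtension {p} ℚ K]
    (r₁ r₂ : ℕ) [Fact r₁.Prime] [Fact r₂.Prime]
    (hdeg : Module.finrank K M = p) (hU : UnramifiedEverywhere K M)
    (h12 : r₁ ≠ r₂) (h1 : r₁ ≠ p) (h2 : r₂ ≠ p)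
    (τ τ' : M ≃ₐ[K] M) (u₁ : (ZMod r₁)ˣ) (u₂ : (ZMod r₂)ˣ) (hτ : τ ≠ 1) (hτ' : τ' ≠ 1)
    (g : M ≃ₐ[K] M) :
    ∃ γ ∈ H1 K M r₁ r₂ τ u₁ ⊓ H2 K M r₁ r₂ τ' u₂,
      (AlgEquiv.restrictNormalHom M : (Top M r₁ r₂ ≃ₐ[K] Top M r₁ r₂) →* (M ≃ₐ[K] M)) γ = g := by
  have hcard : Nat.card (M ≃ₐ[K] M) = p := by
    rw [IsGalois.card_aut_eq_finrank, hdeg]
  obtain ⟨k, hk⟩ := Subgroup.mem_zpowers_iff.mp (mem_zpowers_of_prime_card hcard hτ (g' := g))
  obtain ⟨l, hl⟩ := Subgroup.mem_zpowers_iff.mp (mem_zpowers_of_prime_card hcard hτ' (g' := g))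
  have hcop : r₁.Coprime r₂ := (Nat.coprime_primes Fact.out Fact.out).mpr h12
  obtain ⟨w, hw1, hw2⟩ := exists_unit_crt r₁ r₂ hcop (u₁ ^ k) (u₂ ^ l)
  obtain ⟨γ, hγ⟩ := resM_chiTop_surjective p K M r₁ r₂ hU h1 h2 (g, w)
  have hγ1 : resM K M r₁ r₂ γ = g := congrArg Prod.fst hγ
  have hγ2 : chiTop K M r₁ r₂ γ = w := congrArg Prod.snd hγ
  refine ⟨γ, ⟨?_, ?_⟩, hγ1⟩
  · show ((resM K M r₁ r₂).prod (chi1 K M r₁ r₂)) γ ∈ Subgroup.zpowers (τ, u₁)
    refine Subgroup.mem_zpowers_iff.mpr ⟨k, ?_⟩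
    apply Prod.ext
    · show τ ^ k = resM K M r₁ r₂ γ
      rw [hγ1, hk]
    · show u₁ ^ k = chi1 K M r₁ r₂ γ
      show u₁ ^ k = ZMod.unitsMap (Nat.dvd_mul_right r₁ r₂) (chiTop K M r₁ r₂ γ)
      rw [hγ2, hw1]
  · show ((resM K M r₁ r₂).prod (chi2 K M r₁ r₂)) γ ∈ Subgroup.zpowers (τ', u₂)
    refine Subgroup.mem_zpowers_iff.mpr ⟨l, ?_⟩
    apply Prod.ext
    · show τ' ^ l = resM K M r₁ r₂ γ
      rw [hγ1, hl]
    · show u₂ ^ l = chi2 K M r₁ r₂ γ
      show u₂ ^ l = ZMod.unitsMap (Nat.dvd_mul_left r₂ r₁) (chiTop K M r₁ r₂ γ)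
      rw [hγ2, hw2]

end Fermat.Agent.S14.H64

namespace Fermat.Agent.S14.H64

/-- `K = ℚ(ζ_p)`, `p` an odd prime, is totally complex. -/
theorem isTotallyComplex_of_cyclotomic (p : ℕ) [hp : Fact p.Prime] (K : Type) [Field K]
    [NumberField K] [IsCyclotomicExtension {p} ℚ K] (h2 : p ≠ 2) :
    NumberField.IsTotallyComplex K :=
  IsCyclotomicExtension.Rat.isTotallyComplex K
    (lt_of_le_of_ne hp.out.two_le (Ne.symm h2))

end Fermat.Agent.S14.H64

namespace Fermat.Agent.S14.H64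

open NumberField _root_.Fermat.Agent.S14.Cross

/-- `Stmt_T1` applied to `L/E`, `E = N^(H₁ ⊓ H₂)`, `L = M·E`, in the crossing setup:
the norm classes of `L/E` do not fill the class group of `E`. -/
theorem normClasses_LF_ne_top (hT1 : Stmt_T1) (p : ℕ) [Fact p.Prime] (K M : Type) [Field K]
    [NumberField K] [Field M] [NumberField M] [Algebra K M] [IsGalois K M]
    [IsCyclotomicExtension {p} ℚ K] (r₁ r₂ : ℕ) [Fact r₁.Prime] [Fact r₂.Prime] (hp2 : p ≠ 2)
    (hdeg : Module.finrank K M = p) (hU : UnramifiedEverywhere K M)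
    (h12 : r₁ ≠ r₂) (h1 : r₁ ≠ p) (h2 : r₂ ≠ p)
    (τ τ' : M ≃ₐ[K] M) (u₁ : (ZMod r₁)ˣ) (u₂ : (ZMod r₂)ˣ) (hτ : τ ≠ 1) (hτ' : τ' ≠ 1) :
    haveI := isGalois_top K M r₁ r₂
    normClasses (EF K (Top M r₁ r₂) (H1 K M r₁ r₂ τ u₁ ⊓ H2 K M r₁ r₂ τ' u₂))
      (LF K M (Top M r₁ r₂) (H1 K M r₁ r₂ τ u₁ ⊓ H2 K M r₁ r₂ τ' u₂)) ≠ ⊤ := by
  haveI := isGalois_top K M r₁ r₂
  have hH := surj_H1_inf_H2 p K M r₁ r₂ hdeg hU h12 h1 h2 τ τ' u₁ u₂ hτ hτ'
  haveI := LF_isGalois K M (Top M r₁ r₂) (H1 K M r₁ r₂ τ u₁ ⊓ H2 K M r₁ r₂ τ' u₂)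
  exact hT1 p _ _ hp2 ((LF_finrank K M _ _ hH).trans hdeg)
    (EF_isTotallyComplex K _ _ (isTotallyComplex_of_cyclotomic p K hp2))
    (LF_unramified K M _ _ hU)

end Fermat.Agent.S14.H64
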