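import Fermat.Agent.S14.H64_D1Galois

/-!
# S14, crossing, piece D1 (helper64): the degree `[M(ζ_n) : M] = φ(n)`

`finrank_cyc_of_coprime_discr` : `[N : M] = φ(n)` for `N = M(ζ_n)` if `n` is prime to the
discriminant of `M` (linear disjointness of `ℚ(ζ_n)` and `M`, Mathlib's
`linearDisjoint_of_isGalois_isCoprime_discr`, i.e. Minkowski).

`resChi_bijective` : then `Gal(N/K) → Gal(M/K) × (ℤ/n)ˣ` is bijective.
-/

set_option linter.unusedSectionVars false

namespace Fermat.Agent.S14.H64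

open NumberField IntermediateField

/-- `[M(ζ_n) : M] = φ(n)` if `n` is prime to the discriminant of `M`. -/
theorem finrank_cyc_of_coprime_discr (M N : Type*) [Field M] [NumberField M] [Field N]
    [NumberField N] [Algebra M N] (n : ℕ) [NeZero n] [IsCyclotomicExtension {n} M N]
    (h : Nat.Coprime n (discr M).natAbs) : Module.finrank M N = n.totient := by
  have hζ := IsCyclotomicExtension.zeta_spec n M N
  set ζ := IsCyclotomicExtension.zeta n M N
  have hcyc : IsCyclotomicExtension {n} ℚ ℚ⟮ζ⟯ :=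
    hζ.intermediateField_adjoin_isCyclotomicExtension ℚ
  have hgal : IsGalois ℚ ℚ⟮ζ⟯ := IsCyclotomicExtension.isGalois {n} ℚ ℚ⟮ζ⟯
  have hd2 : discr (IsScalarTower.toAlgHom ℚ M N).fieldRange = discr M :=
    (discr_eq_discr_of_algEquiv M
      (AlgEquiv.ofInjectiveField (IsScalarTower.toAlgHom ℚ M N))).symm
  have hcop : IsCoprime (discr ℚ⟮ζ⟯) (discr (IsScalarTower.toAlgHom ℚ M N).fieldRange) := by
    rw [Int.isCoprime_iff_nat_coprime, IsCyclotomicExtension.Rat.natAbs_discr n ℚ⟮ζ⟯, hd2]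
    exact Nat.Coprime.coprime_div_left (Nat.Coprime.pow_left _ h)
      (Nat.prod_primeFactors_pow_totient_ediv_dvd (NeZero.pos _))
  have hdisj := linearDisjoint_of_isGalois_isCoprime_discr N ℚ⟮ζ⟯
    (IsScalarTower.toAlgHom ℚ M N).fieldRange hcop
  have hsup : (IsScalarTower.toAlgHom ℚ M N).fieldRange ⊔ ℚ⟮ζ⟯ = ⊤ :=
    fieldRange_sup_adjoin_eq_top ℚ M N n hζ
  have h1 := hdisj.finrank_sup
  rw [sup_comm, hsup] at h1
  have h2 : Module.finrank ℚ (⊤ : IntermediateField ℚ N) = Module.finrank ℚ N :=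
    IntermediateField.finrank_top'
  have h3 : Module.finrank ℚ ℚ⟮ζ⟯ = n.totient :=
    IsCyclotomicExtension.finrank ℚ⟮ζ⟯ (Polynomial.cyclotomic.irreducible_rat (NeZero.pos n))
  have h4 : Module.finrank ℚ (IsScalarTower.toAlgHom ℚ M N).fieldRange = Module.finrank ℚ M :=
    (AlgEquiv.ofInjectiveField (IsScalarTower.toAlgHom ℚ M N)).toLinearEquiv.finrank_eq.symm
  have h5 : Module.finrank ℚ M * Module.finrank M N = Module.finrank ℚ N :=
    Module.finrank_mul_finrank ℚ M N
  have hpos : 0 < Module.finrank ℚ M := Module.finrank_pos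
  rw [h2, h3, h4, ← h5, mul_comm] at h1
  exact Nat.eq_of_mul_eq_mul_right hpos h1

end Fermat.Agent.S14.H64
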