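import Fermat.Agent.S14.CrossInterfaces

/-!
# S14, crossing, piece D1 (helper64): Galois theory of `N = M(ζ_n)` over `K`

Generic part.  `M/K` a (finite) Galois extension, `N = M(ζ_n)` a cyclotomic extension of `M`.

* `normal_cyc`, `isGalois_cyc` : `N/K` is normal / Galois
* `algEquiv_ext_cyc`     : an element of `Gal(N/K)` is determined by its values on `M` and `ζ`
* `resChi_injective`     : `γ ↦ (γ|M, χ γ)` is injective on `Gal(N/K)`
-/

set_option linter.unusedSectionVars false

namespace Fermat.Agent.S14.H64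

open NumberField IntermediateField

section generic

variable (K M N : Type*) [Field K] [Field M] [Field N] [Algebra K M] [Algebra M N] [Algebra K N]
  [IsScalarTower K M N] (n : ℕ) [NeZero n] [IsCyclotomicExtension {n} M N]

/-- `N = M(ζ)` is generated over `K` by (the image of) `M` and `ζ`. -/
theorem fieldRange_sup_adjoin_eq_top {ζ : N} (hζ : IsPrimitiveRoot ζ n) :
    (IsScalarTower.toAlgHom K M N).fieldRange ⊔ K⟮ζ⟯ = ⊤ := by
  have key : ∀ x : N, x ∈ Algebra.adjoin M {ζ} →
      x ∈ (IsScalarTower.toAlgHom K M N).fieldRange ⊔ K⟮ζ⟯ := by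
    intro x hx
    induction hx using Algebra.adjoin_induction with
    | mem y hy =>
      rw [Set.mem_singleton_iff] at hy
      subst hy
      exact (le_sup_right : K⟮y⟯ ≤ _) (mem_adjoin_simple_self K y)
    | algebraMap m =>
      exact (le_sup_left : (IsScalarTower.toAlgHom K M N).fieldRange ≤ _) ⟨m, rfl⟩
    | add x y _ _ hx hy => exact add_mem hx hy
    | mul x y _ _ hx hy => exact mul_mem hx hy
  rw [eq_top_iff]
  intro x _
  refine key x ?_
  rw [IsCyclotomicExtension.adjoin_primitive_root_eq_top hζ]
  trivial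

/-- Two `K`-automorphisms of `N = M(ζ)` which agree on `M` and on `ζ` are equal. -/
theorem algEquiv_ext_cyc {ζ : N} (hζ : IsPrimitiveRoot ζ n) {σ τ : N ≃ₐ[K] N}
    (hM : ∀ m : M, σ (algebraMap M N m) = τ (algebraMap M N m)) (hz : σ ζ = τ ζ) : σ = τ := by
  have key : ∀ x : N, x ∈ Algebra.adjoin M {ζ} → σ x = τ x := by
    intro x hx
    induction hx using Algebra.adjoin_induction with
    | mem y hy =>
      rw [Set.mem_singleton_iff] at hy
      subst hy
      exact hz
    | algebraMap m => exact hM m
    | add x y _ _ hx hy => rw [map_add, map_add, hx, hy]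
    | mul x y _ _ hx hy => rw [map_mul, map_mul, hx, hy]
  ext x
  refine key x ?_
  rw [IsCyclotomicExtension.adjoin_primitive_root_eq_top hζ]
  trivial

/-- `N = M(ζ_n)` is normal over `K` when `M/K` is. -/
theorem normal_cyc (K M N : Type*) [Field K] [Field M] [Field N] [Algebra K M] [Algebra M N]
    [Algebra K N] [IsScalarTower K M N] (n : ℕ) [NeZero n] [IsCyclotomicExtension {n} M N]
    [Normal K M] [Algebra.IsIntegral K N] : Normal K N := by
  have hζ : IsPrimitiveRoot (IsCyclotomicExtension.zeta n M N) n :=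
    IsCyclotomicExtension.zeta_spec n M N
  have hE : Normal K (IsScalarTower.toAlgHom K M N).fieldRange :=
    Normal.of_algEquiv (AlgEquiv.ofInjectiveField (IsScalarTower.toAlgHom K M N))
  have hE' : Normal K K⟮IsCyclotomicExtension.zeta n M N⟯ := by
    have := hζ.intermediateField_adjoin_isCyclotomicExtension K
    exact (IsCyclotomicExtension.isGalois {n} K _).to_normal
  have h := IntermediateField.normal_sup K N (IsScalarTower.toAlgHom K M N).fieldRange
    K⟮IsCyclotomicExtension.zeta n M N⟯
  rw [fieldRange_sup_adjoin_eq_top K M N n hζ] at h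
  exact Normal.of_algEquiv (IntermediateField.topEquiv (F := K) (E := N))

/-- `N = M(ζ_n)` is Galois over `K` when `M/K` is normal and `N/K` is separable. -/
theorem isGalois_cyc (K M N : Type*) [Field K] [Field M] [Field N] [Algebra K M] [Algebra M N]
    [Algebra K N] [IsScalarTower K M N] (n : ℕ) [NeZero n] [IsCyclotomicExtension {n} M N]
    [Normal K M] [Algebra.IsSeparable K N] : IsGalois K N :=
  { to_isSeparable := inferInstance
    to_normal := normal_cyc K M N n }

variable [Normal K M]

/-- The map `γ ↦ (γ|M, χ γ)` on `Gal(N/K)`. -/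
noncomputable def resChi {ζ : N} (hζ : IsPrimitiveRoot ζ n) :
    (N ≃ₐ[K] N) →* (M ≃ₐ[K] M) × (ZMod n)ˣ :=
  (AlgEquiv.restrictNormalHom M).prod (hζ.autToPow K)

theorem resChi_injective {ζ : N} (hζ : IsPrimitiveRoot ζ n) :
    Function.Injective (resChi K M N n hζ) := by
  intro σ τ h
  have h1 : AlgEquiv.restrictNormalHom M σ = AlgEquiv.restrictNormalHom M τ :=
    congrArg Prod.fst h
  have h2 : hζ.autToPow K σ = hζ.autToPow K τ := congrArg Prod.snd h
  refine algEquiv_ext_cyc K M N n hζ (fun m => ?_) ?_
  · have e1 := AlgEquiv.restrictNormal_commutes σ M m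
    have e2 := AlgEquiv.restrictNormal_commutes τ M m
    rw [← e1, ← e2]
    exact congrArg (fun g : M ≃ₐ[K] M => algebraMap M N (g m)) h1
  · rw [← hζ.autToPow_spec K σ, ← hζ.autToPow_spec K τ, h2]

end generic

end Fermat.Agent.S14.H64
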