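import Fermat.Agent.S14.CrossInterfaces2
import Fermat.Agent.S14.ClsLemmas
import Fermat.Agent.S14.H64_D1Unram

/-!
# S14, crossing: the final glue

`Stmt_D0 → Stmt_Ram → Stmt_Link → Stmt_SideN → Stmt_FrobOne → Stmt_Cross`.
-/

namespace Fermat.Agent.S14.H68

open NumberField Fermat.Agent.S14 Fermat.Agent.S14.Cross

/-- Frobenius `1` at `Q` gives a norm class. (Provided by the Frobenius package.) -/
def Stmt_FrobOne : Prop :=
  ∀ (K M : Type) [Field K] [NumberField K] [Field M] [NumberField M] [Algebra K M]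
    [IsGalois K M] (Q : Ideal (𝓞 M)), Q.IsPrime →
    IsArithFrobAt (𝓞 K) (1 : M ≃ₐ[K] M) Q → cls (Q.under (𝓞 K)) ∈ normClasses K M

/-- pure group lemma used at the end of the crossing -/
lemma quot_algebra {G : Type*} [CommGroup G] (U : Subgroup G) (p : ℕ) (hp : p.Prime)
    (x x' d : G) (c₁ c₂ b : ℕ) (hx : x ^ p ∈ U) (hx' : x' ^ p ∈ U)
    (h1 : d * (x ^ c₁)⁻¹ ∈ U) (h2 : d * (x' ^ c₂)⁻¹ ∈ U)
    (hc : c₁ ≡ b * c₂ [MOD p]) (hc₂ : ¬ p ∣ c₂) : x' * (x ^ b)⁻¹ ∈ U := by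
  classical
  have key : ∀ y : G, y ∈ U ↔ (QuotientGroup.mk y : G ⧸ U) = 1 := fun y =>
    (QuotientGroup.eq_one_iff y).symm
  rw [key] at hx hx' h1 h2 ⊢
  simp only [QuotientGroup.mk_mul, QuotientGroup.mk_inv, QuotientGroup.mk_pow] at hx hx' h1 h2 ⊢
  set X : G ⧸ U := QuotientGroup.mk x
  set X' : G ⧸ U := QuotientGroup.mk x'
  set D : G ⧸ U := QuotientGroup.mk d
  have hD1 : D = X ^ c₁ := by rwa [mul_inv_eq_one] at h1
  have hD2 : D = X' ^ c₂ := by rwa [mul_inv_eq_one] at h2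
  have hXc : X ^ c₁ = X ^ (b * c₂) := by
    rw [← pow_mod_orderOf X c₁, ← pow_mod_orderOf X (b * c₂)]
    have hord : orderOf X ∣ p := orderOf_dvd_of_pow_eq_one hx
    congr 1
    exact (Nat.ModEq.of_dvd hord hc)
  have hY : (X' * (X ^ b)⁻¹) ^ c₂ = 1 := by
    rw [mul_pow, inv_pow, ← pow_mul, ← hD2, hD1, hXc]
    exact mul_inv_cancel _
  have hYp : (X' * (X ^ b)⁻¹) ^ p = 1 := by
    rw [mul_pow, inv_pow, ← pow_mul, mul_comm b p, pow_mul, hx, hx']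
    simp
  have hord : orderOf (X' * (X ^ b)⁻¹) ∣ Nat.gcd c₂ p :=
    Nat.dvd_gcd (orderOf_dvd_of_pow_eq_one hY) (orderOf_dvd_of_pow_eq_one hYp)
  have hg : Nat.gcd c₂ p = 1 := ((Nat.Prime.coprime_iff_not_dvd hp).mpr hc₂).symm
  rw [hg, Nat.dvd_one, orderOf_eq_one_iff] at hord
  exact hord

section groupfacts

variable {G : Type*} [Group G] {p : ℕ} [hp : Fact p.Prime]

lemma orderOf_eq_of_card_prime (hG : Nat.card G = p) {τ : G} (hτ : τ ≠ 1) : orderOf τ = p := by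
  have h := orderOf_dvd_natCard τ
  rw [hG] at h
  rcases (Nat.dvd_prime hp.out).mp h with h1 | h1
  · exact absurd (orderOf_eq_one_iff.mp h1) hτ
  · exact h1

lemma exists_pow_eq_of_card_prime (hG : Nat.card G = p) {τ : G} (hτ : τ ≠ 1) (g : G) :
    ∃ c : ℕ, g = τ ^ c := by
  have htop : Subgroup.zpowers τ = ⊤ := zpowers_eq_top_of_prime_card hG hτ
  have hg : g ∈ Subgroup.zpowers τ := by rw [htop]; trivial
  obtain ⟨k, hk⟩ := Subgroup.mem_zpowers_iff.mp hg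
  have hfin : 0 < orderOf τ := by
    rw [orderOf_eq_of_card_prime hG hτ]; exact hp.out.pos
  refine ⟨(k % (orderOf τ : ℤ)).toNat, ?_⟩
  rw [← hk, ← zpow_mod_orderOf τ k]
  have hnn : 0 ≤ k % (orderOf τ : ℤ) := Int.emod_nonneg _ (by exact_mod_cast hfin.ne')
  conv_lhs => rw [← Int.toNat_of_nonneg hnn]
  rw [zpow_natCast]

lemma comm_of_card_prime (hG : Nat.card G = p) (a b : G) : a * b = b * a := by
  have : IsCyclic G := isCyclic_of_prime_card hG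
  exact (IsCyclic.commGroup (α := G)).mul_comm a b

end groupfacts

section zetafacts

variable (K M : Type) [Field K] [NumberField K] [Field M] [NumberField M] [Algebra K M]
  [IsGalois K M]
variable (r₁ r₂ : ℕ) [Fact r₁.Prime] [Fact r₂.Prime]

/-- primitive `r₁`-th root of unity in `N` -/
noncomputable def zeta1 : Top M r₁ r₂ := zetaTop M r₁ r₂ ^ r₂

/-- primitive `r₂`-th root of unity in `N` -/
noncomputable def zeta2 : Top M r₁ r₂ := zetaTop M r₁ r₂ ^ r₁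

lemma zeta1_spec : IsPrimitiveRoot (zeta1 M r₁ r₂) r₁ :=
  (zetaTop_spec M r₁ r₂).pow (Nat.pos_of_ne_zero (NeZero.ne (r₁ * r₂))) (mul_comm r₁ r₂)

lemma zeta2_spec : IsPrimitiveRoot (zeta2 M r₁ r₂) r₂ :=
  (zetaTop_spec M r₁ r₂).pow (Nat.pos_of_ne_zero (NeZero.ne (r₁ * r₂))) rfl

omit [NumberField K] [IsGalois K M] in
lemma chiTop_spec (γ : Top M r₁ r₂ ≃ₐ[K] Top M r₁ r₂) :
    γ (zetaTop M r₁ r₂) = zetaTop M r₁ r₂ ^ ((chiTop K M r₁ r₂ γ : ZMod (r₁ * r₂)).val) :=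
  ((zetaTop_spec M r₁ r₂).autToPow_spec K γ).symm

lemma unitsMap_val (m n : ℕ) [NeZero m] [NeZero n] (h : n ∣ m) (u : (ZMod m)ˣ) :
    ((ZMod.unitsMap h u : (ZMod n)ˣ) : ZMod n).val = (u : ZMod m).val % n := by
  rw [ZMod.unitsMap_def, Units.coe_map]
  simp only [MonoidHom.coe_coe, ZMod.castHom_apply]
  rw [← ZMod.natCast_val (u : ZMod m), ZMod.val_natCast]

omit [NumberField K] [IsGalois K M] in
lemma chi1_spec (γ : Top M r₁ r₂ ≃ₐ[K] Top M r₁ r₂) :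
    γ (zeta1 M r₁ r₂) = zeta1 M r₁ r₂ ^ ((chi1 K M r₁ r₂ γ : ZMod r₁).val) := by
  have h1 : ((chi1 K M r₁ r₂ γ : ZMod r₁).val) =
      ((chiTop K M r₁ r₂ γ : ZMod (r₁ * r₂)).val) % r₁ := by
    simp only [chi1, MonoidHom.coe_comp, Function.comp_apply]
    exact unitsMap_val _ _ _ _
  rw [h1]
  have h2 : γ (zeta1 M r₁ r₂) = zeta1 M r₁ r₂ ^ ((chiTop K M r₁ r₂ γ : ZMod (r₁ * r₂)).val) := by
    unfold zeta1
    rw [map_pow, chiTop_spec, pow_right_comm]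
  rw [h2]
  have h3 : orderOf (zeta1 M r₁ r₂) = r₁ := (zeta1_spec M r₁ r₂).eq_orderOf.symm
  rw [← pow_mod_orderOf, h3]

omit [NumberField K] [IsGalois K M] in
lemma chi2_spec (γ : Top M r₁ r₂ ≃ₐ[K] Top M r₁ r₂) :
    γ (zeta2 M r₁ r₂) = zeta2 M r₁ r₂ ^ ((chi2 K M r₁ r₂ γ : ZMod r₂).val) := by
  have h1 : ((chi2 K M r₁ r₂ γ : ZMod r₂).val) =
      ((chiTop K M r₁ r₂ γ : ZMod (r₁ * r₂)).val) % r₂ := by
    simp only [chi2, MonoidHom.coe_comp, Function.comp_apply]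
    exact unitsMap_val _ _ _ _
  rw [h1]
  have h2 : γ (zeta2 M r₁ r₂) = zeta2 M r₁ r₂ ^ ((chiTop K M r₁ r₂ γ : ZMod (r₁ * r₂)).val) := by
    unfold zeta2
    rw [map_pow, chiTop_spec, pow_right_comm]
  rw [h2]
  have h3 : orderOf (zeta2 M r₁ r₂) = r₂ := (zeta2_spec M r₁ r₂).eq_orderOf.symm
  rw [← pow_mod_orderOf, h3]

/-- `Gal(N/K)` is commutative when `Gal(M/K)` is. -/
lemma gal_top_comm (hM : ∀ a b : M ≃ₐ[K] M, a * b = b * a)
    (σ τ : Top M r₁ r₂ ≃ₐ[K] Top M r₁ r₂) : σ * τ = τ * σ := by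
  apply H64.resM_chiTop_injective K M r₁ r₂
  rw [map_mul, map_mul]
  exact Prod.ext (hM _ _) (mul_comm _ _)

/-- a unit of `ZMod (r₁ r₂)` with prescribed components `(u, 1)`. -/
lemma exists_unit_fst (hr : r₁ ≠ r₂) (u : (ZMod r₁)ˣ) :
    ∃ v : (ZMod (r₁ * r₂))ˣ, ZMod.unitsMap (Nat.dvd_mul_right r₁ r₂) v = u ∧
      ZMod.unitsMap (Nat.dvd_mul_left r₂ r₁) v = 1 := by
  have hr₁ : r₁.Prime := Fact.out
  have hr₂ : r₂.Prime := Fact.out
  have hcop : Nat.Coprime r₁ r₂ := (Nat.coprime_primes hr₁ hr₂).mpr hr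
  obtain ⟨k, hk1, hk2⟩ := Nat.chineseRemainder hcop (u : ZMod r₁).val 1
  have hk1' : (k : ZMod r₁) = u := by
    rw [← ZMod.natCast_zmod_val (u : ZMod r₁)]
    exact (ZMod.natCast_eq_natCast_iff _ _ _).mpr hk1
  have hk2' : (k : ZMod r₂) = 1 := by
    have := (ZMod.natCast_eq_natCast_iff _ _ _).mpr hk2
    simpa using this
  have hc1 : Nat.Coprime k r₁ := by
    rw [Nat.coprime_comm, Nat.Prime.coprime_iff_not_dvd hr₁]
    intro hdvd
    have h0 : (k : ZMod r₁) = 0 := (ZMod.natCast_eq_zero_iff _ _).mpr hdvd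
    rw [hk1'] at h0
    exact u.ne_zero h0
  have hc2 : Nat.Coprime k r₂ := by
    rw [Nat.coprime_comm, Nat.Prime.coprime_iff_not_dvd hr₂]
    intro hdvd
    have h0 : (k : ZMod r₂) = 0 := (ZMod.natCast_eq_zero_iff _ _).mpr hdvd
    rw [hk2'] at h0
    exact one_ne_zero h0
  refine ⟨ZMod.unitOfCoprime k (Nat.Coprime.mul_right hc1 hc2), ?_, ?_⟩
  · apply Units.ext
    rw [ZMod.unitsMap_def, Units.coe_map]
    simp only [MonoidHom.coe_coe, ZMod.castHom_apply, ZMod.coe_unitOfCoprime]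
    rw [ZMod.cast_natCast (Nat.dvd_mul_right r₁ r₂), hk1']
  · apply Units.ext
    rw [ZMod.unitsMap_def, Units.coe_map]
    simp only [MonoidHom.coe_coe, ZMod.castHom_apply, ZMod.coe_unitOfCoprime, Units.val_one]
    rw [ZMod.cast_natCast (Nat.dvd_mul_left r₂ r₁), hk2']

/-- a unit of `ZMod (r₁ r₂)` with prescribed components `(1, u)`. -/
lemma exists_unit_snd (hr : r₁ ≠ r₂) (u : (ZMod r₂)ˣ) :
    ∃ v : (ZMod (r₁ * r₂))ˣ, ZMod.unitsMap (Nat.dvd_mul_left r₂ r₁) v = u ∧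
      ZMod.unitsMap (Nat.dvd_mul_right r₁ r₂) v = 1 := by
  have hr₁ : r₁.Prime := Fact.out
  have hr₂ : r₂.Prime := Fact.out
  have hcop : Nat.Coprime r₁ r₂ := (Nat.coprime_primes hr₁ hr₂).mpr hr
  obtain ⟨k, hk1, hk2⟩ := Nat.chineseRemainder hcop 1 (u : ZMod r₂).val
  have hk2' : (k : ZMod r₂) = u := by
    rw [← ZMod.natCast_zmod_val (u : ZMod r₂)]
    exact (ZMod.natCast_eq_natCast_iff _ _ _).mpr hk2
  have hk1' : (k : ZMod r₁) = 1 := by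
    have := (ZMod.natCast_eq_natCast_iff _ _ _).mpr hk1
    simpa using this
  have hc2 : Nat.Coprime k r₂ := by
    rw [Nat.coprime_comm, Nat.Prime.coprime_iff_not_dvd hr₂]
    intro hdvd
    have h0 : (k : ZMod r₂) = 0 := (ZMod.natCast_eq_zero_iff _ _).mpr hdvd
    rw [hk2'] at h0
    exact u.ne_zero h0
  have hc1 : Nat.Coprime k r₁ := by
    rw [Nat.coprime_comm, Nat.Prime.coprime_iff_not_dvd hr₁]
    intro hdvd
    have h0 : (k : ZMod r₁) = 0 := (ZMod.natCast_eq_zero_iff _ _).mpr hdvd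
    rw [hk1'] at h0
    exact one_ne_zero h0
  refine ⟨ZMod.unitOfCoprime k (Nat.Coprime.mul_right hc1 hc2), ?_, ?_⟩
  · apply Units.ext
    rw [ZMod.unitsMap_def, Units.coe_map]
    simp only [MonoidHom.coe_coe, ZMod.castHom_apply, ZMod.coe_unitOfCoprime]
    rw [ZMod.cast_natCast (Nat.dvd_mul_left r₂ r₁), hk2']
  · apply Units.ext
    rw [ZMod.unitsMap_def, Units.coe_map]
    simp only [MonoidHom.coe_coe, ZMod.castHom_apply, ZMod.coe_unitOfCoprime, Units.val_one]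
    rw [ZMod.cast_natCast (Nat.dvd_mul_right r₁ r₂), hk1']

end zetafacts

end Fermat.Agent.S14.H68

namespace Fermat.Agent.S14.H68

open NumberField Fermat.Agent.S14 Fermat.Agent.S14.Cross

/-- **Crossing glue.** -/
theorem stmt_Cross_of (hD0 : Stmt_D0) (hRam : Stmt_Ram) (hLink : Stmt_Link)
    (hSide : Stmt_SideN) (hF1 : Stmt_FrobOne) : Stmt_Cross := by
  intro p _ K M _ _ _ _ _ _ _ hp2 hdeg hunr Q Q' hQ hQ' hq hq' hpq hpq' τ τ' b hτ hτ' hb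
  have hpp : p.Prime := Fact.out
  have hcard : Nat.card (M ≃ₐ[K] M) = p := by
    rw [IsGalois.card_aut_eq_finrank, hdeg]
  have hpowU : ∀ 𝔞 : Ideal (𝓞 K), cls 𝔞 ^ p ∈ normClasses K M := fun 𝔞 => by
    have := cls_pow_finrank_mem K M 𝔞
    rwa [hdeg] at this
  by_cases h1 : τ = 1
  · subst h1
    have h1' : τ' = 1 := by simpa using hb
    subst h1'
    exact (normClasses K M).mul_mem (hF1 K M Q' hQ' hτ')
      ((normClasses K M).inv_mem ((normClasses K M).pow_mem (hF1 K M Q hQ hτ) b))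
  by_cases h1' : τ' = 1
  · have hord := orderOf_eq_of_card_prime hcard h1
    have hdvd : p ∣ b := by
      rw [← hord]
      apply orderOf_dvd_of_pow_eq_one
      rw [← hb, h1']
    obtain ⟨k, rfl⟩ := hdvd
    subst h1'
    refine (normClasses K M).mul_mem (hF1 K M Q' hQ' hτ') ((normClasses K M).inv_mem ?_)
    rw [pow_mul]
    exact (normClasses K M).pow_mem (hpowU _) k
  -- main case
  set q := Ideal.absNorm (Q.under (𝓞 K)) with hqdef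
  set q' := Ideal.absNorm (Q'.under (𝓞 K)) with hq'def
  obtain ⟨r₁, hr₁, hr₁B, hr₁q, hr₁ord⟩ := hD0 p hpp hp2 q hq.one_lt {p, q, q'}
  obtain ⟨r₂, hr₂, hr₂B, hr₂q', hr₂ord⟩ := hD0 p hpp hp2 q' hq'.one_lt {p, q, q', r₁}
  have : Fact r₁.Prime := ⟨hr₁⟩
  have : Fact r₂.Prime := ⟨hr₂⟩
  simp only [Finset.mem_insert, Finset.mem_singleton, not_or] at hr₁B hr₂B
  have hr₁p : r₁ ≠ p := hr₁B.1
  have hr₂p : r₂ ≠ p := hr₂B.1
  have hr₁₂ : r₁ ≠ r₂ := fun h => hr₂B.2.2.2 h.symm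
  -- units
  have hcop₁ : Nat.Coprime q r₁ := by
    rw [Nat.coprime_comm, Nat.Prime.coprime_iff_not_dvd hr₁]; exact hr₁q
  have hcop₂ : Nat.Coprime q' r₂ := by
    rw [Nat.coprime_comm, Nat.Prime.coprime_iff_not_dvd hr₂]; exact hr₂q'
  set u₁ : (ZMod r₁)ˣ := ZMod.unitOfCoprime q hcop₁ with hu₁
  set u₂ : (ZMod r₂)ˣ := ZMod.unitOfCoprime q' hcop₂ with hu₂
  have hu₁v : (u₁ : ZMod r₁) = (q : ZMod r₁) := ZMod.coe_unitOfCoprime q hcop₁
  have hu₂v : (u₂ : ZMod r₂) = (q' : ZMod r₂) := ZMod.coe_unitOfCoprime q' hcop₂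
  have hu₁ord : p ∣ orderOf u₁ := by
    rw [← orderOf_units, hu₁v]; exact hr₁ord
  have hu₂ord : p ∣ orderOf u₂ := by
    rw [← orderOf_units, hu₂v]; exact hr₂ord
  -- ramification package
  obtain ⟨hGal, hsurj, hin₁, hin₂⟩ := hRam p K M r₁ r₂ hp2 hunr hr₁₂ hr₁p hr₂p
  have := hGal
  have habM : ∀ a b : M ≃ₐ[K] M, a * b = b * a := comm_of_card_prime hcard
  have hab := gal_top_comm K M r₁ r₂ habM
  -- linking prime
  obtain ⟨𝔓, γ, g, h𝔓, h𝔓r₁, h𝔓r₂, hg, hfrob, hγH, hγM⟩ :=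
    hLink p K M r₁ r₂ hp2 hdeg hunr hr₁₂ hr₁p hr₂p τ τ' u₁ u₂ h1 h1'
  obtain ⟨c₁, hc₁⟩ := exists_pow_eq_of_card_prime hcard h1 (resM K M r₁ r₂ γ)
  obtain ⟨c₂, hc₂⟩ := exists_pow_eq_of_card_prime hcard h1' (resM K M r₁ r₂ γ)
  -- side 1
  have hs1 : cls ((𝔓.under (𝓞 K)) ^ g) * (cls (Q.under (𝓞 K)) ^ c₁)⁻¹ ∈ normClasses K M := by
    refine hSide p K M (Top M r₁ r₂) r₁ (chi1 K M r₁ r₂) (zeta1 M r₁ r₂)
      ((resM K M r₁ r₂).prod (chi2 K M r₁ r₂)).ker hp2 hdeg hunr hab hr₁p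
      (zeta1_spec M r₁ r₂) (chi1_spec K M r₁ r₂) ?_ hin₁ ?_ Q τ u₁ hQ hτ h1 hq hu₁v hu₁ord
      𝔓 γ g c₁ h𝔓 h𝔓r₁ hg hfrob ?_ hc₁
    · intro δ hδ
      rw [MonoidHom.mem_ker] at hδ ⊢
      exact (Prod.ext_iff.mp hδ).1
    · intro v
      obtain ⟨w, hw1, hw2⟩ := exists_unit_fst r₁ r₂ hr₁₂ v
      obtain ⟨δ, hδ⟩ := hsurj (1, w)
      have hδ1 : resM K M r₁ r₂ δ = 1 := (Prod.ext_iff.mp hδ).1
      have hδ2 : chiTop K M r₁ r₂ δ = w := (Prod.ext_iff.mp hδ).2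
      refine ⟨δ, ?_, ?_⟩
      · rw [MonoidHom.mem_ker]
        refine Prod.ext hδ1 ?_
        simp only [MonoidHom.prod_apply, chi2, MonoidHom.coe_comp, Function.comp_apply, hδ2]
        exact hw2
      · simp only [chi1, MonoidHom.coe_comp, Function.comp_apply, hδ2]
        exact hw1
    · exact (Subgroup.mem_inf.mp hγH).1
  -- side 2
  have hs2 : cls ((𝔓.under (𝓞 K)) ^ g) * (cls (Q'.under (𝓞 K)) ^ c₂)⁻¹ ∈ normClasses K M := by
    refine hSide p K M (Top M r₁ r₂) r₂ (chi2 K M r₁ r₂) (zeta2 M r₁ r₂)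
      ((resM K M r₁ r₂).prod (chi1 K M r₁ r₂)).ker hp2 hdeg hunr hab hr₂p
      (zeta2_spec M r₁ r₂) (chi2_spec K M r₁ r₂) ?_ hin₂ ?_ Q' τ' u₂ hQ' hτ' h1' hq' hu₂v hu₂ord
      𝔓 γ g c₂ h𝔓 h𝔓r₂ hg hfrob ?_ hc₂
    · intro δ hδ
      rw [MonoidHom.mem_ker] at hδ ⊢
      exact (Prod.ext_iff.mp hδ).1
    · intro v
      obtain ⟨w, hw1, hw2⟩ := exists_unit_snd r₁ r₂ hr₁₂ v
      obtain ⟨δ, hδ⟩ := hsurj (1, w)
      have hδ1 : resM K M r₁ r₂ δ = 1 := (Prod.ext_iff.mp hδ).1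
      have hδ2 : chiTop K M r₁ r₂ δ = w := (Prod.ext_iff.mp hδ).2
      refine ⟨δ, ?_, ?_⟩
      · rw [MonoidHom.mem_ker]
        refine Prod.ext hδ1 ?_
        simp only [MonoidHom.prod_apply, chi1, MonoidHom.coe_comp, Function.comp_apply, hδ2]
        exact hw2
      · simp only [chi2, MonoidHom.coe_comp, Function.comp_apply, hδ2]
        exact hw1
    · exact (Subgroup.mem_inf.mp hγH).2
  -- final algebra
  have hordτ : orderOf τ = p := orderOf_eq_of_card_prime hcard h1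
  have hc₂ne : ¬ p ∣ c₂ := by
    intro hdvd
    apply hγM
    rw [hc₂]
    have hordτ' : orderOf τ' = p := orderOf_eq_of_card_prime hcard h1'
    rw [← hordτ'] at hdvd
    exact orderOf_dvd_iff_pow_eq_one.mp hdvd
  have hcc : c₁ ≡ b * c₂ [MOD p] := by
    have h : τ ^ c₁ = τ ^ (b * c₂) := by
      rw [← hc₁, hc₂, hb, pow_mul]
    rw [← hordτ]
    exact pow_eq_pow_iff_modEq.mp h
  exact quot_algebra (normClasses K M) p hpp (cls (Q.under (𝓞 K))) (cls (Q'.under (𝓞 K)))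
    (cls ((𝔓.under (𝓞 K)) ^ g)) c₁ c₂ b (hpowU _) (hpowU _) hs1 hs2 hcc hc₂ne

end Fermat.Agent.S14.H68
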