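import Mathlib

/-!
# S14, package C0: coprime representatives of ideal classes

* `exists_mk0_eq_and_sup_eq_top` : in a Dedekind domain, every ideal class contains an integral
  ideal coprime to a given nonzero ideal.
* `absNorm_coprime_of_sup_span_eq_top` : in a number field, an ideal `I` with `I + (n) = 1` has
  absolute norm coprime to `n`.
* `exists_ideal_class_absNorm_coprime` : every ideal class of a number field contains a nonzero
  integral ideal of absolute norm prime to `n ≠ 0`.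
-/

set_option autoImplicit false

namespace Fermat.Agent.S14.H97

open scoped nonZeroDivisors

/-- In a Dedekind domain, every ideal class contains an integral ideal coprime to a given
nonzero ideal `𝔫`. -/
theorem exists_mk0_eq_and_sup_eq_top {R : Type*} [CommRing R] [IsDedekindDomain R]
    (c : ClassGroup R) (𝔫 : Ideal R) (h𝔫 : 𝔫 ≠ ⊥) :
    ∃ I : (Ideal R)⁰, ClassGroup.mk0 I = c ∧ (I : Ideal R) ⊔ 𝔫 = ⊤ := by
  by_cases h𝔫top : 𝔫 = ⊤
  · obtain ⟨I, hI⟩ := ClassGroup.mk0_surjective c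
    exact ⟨I, hI, by rw [h𝔫top, sup_top_eq]⟩
  obtain ⟨J, hJ⟩ := ClassGroup.mk0_surjective c⁻¹
  have hJ0 : (J : Ideal R) ≠ 0 := nonZeroDivisors.coe_ne_zero J
  have hle : 𝔫 * (J : Ideal R) ≤ J := Ideal.mul_le_right
  have h0 : 𝔫 * (J : Ideal R) ≠ 0 := mul_ne_zero h𝔫 hJ0
  obtain ⟨a, ha⟩ := IsDedekindDomain.exists_sup_span_eq hle h0
  have haJ : Ideal.span {a} ≤ (J : Ideal R) := le_sup_right.trans ha.le
  obtain ⟨I, hI⟩ := Ideal.dvd_iff_le.mpr haJ
  have hcop : 𝔫 ⊔ I = ⊤ := by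
    have h1 : (J : Ideal R) * (𝔫 ⊔ I) = (J : Ideal R) * 1 := by
      rw [Ideal.mul_sup, mul_one, ← hI, mul_comm (J : Ideal R) 𝔫, ha]
    rw [← Ideal.one_eq_top]
    exact mul_left_cancel₀ hJ0 h1
  have hI0 : I ≠ ⊥ := by
    rintro rfl
    exact h𝔫top (by rwa [sup_bot_eq] at hcop)
  have hIm : I ∈ (Ideal R)⁰ := mem_nonZeroDivisors_of_ne_zero hI0
  have hspan0 : Ideal.span {a} ≠ (0 : Ideal R) := by
    rw [hI]
    exact mul_ne_zero hJ0 hI0
  have hspanm : Ideal.span {a} ∈ (Ideal R)⁰ := mem_nonZeroDivisors_of_ne_zero hspan0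
  refine ⟨⟨I, hIm⟩, ?_, by rw [sup_comm]; exact hcop⟩
  have h1 : ClassGroup.mk0 (⟨Ideal.span {a}, hspanm⟩ : (Ideal R)⁰) = 1 := by
    rw [ClassGroup.mk0_eq_one_iff]
    exact ⟨⟨a, rfl⟩⟩
  have h2 : (⟨Ideal.span {a}, hspanm⟩ : (Ideal R)⁰) = J * ⟨I, hIm⟩ := by
    ext1
    exact hI
  rw [h2, map_mul, hJ] at h1
  exact (inv_mul_eq_one.mp h1).symm

open NumberField in
/-- In a number field, an ideal `I` with `I + (n) = 1` has absolute norm coprime to `n`. -/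
theorem absNorm_coprime_of_sup_span_eq_top {E : Type*} [Field E] [NumberField E]
    (I : Ideal (𝓞 E)) (hI0 : I ≠ ⊥) (n : ℕ)
    (hsup : I ⊔ Ideal.span {(n : 𝓞 E)} = ⊤) : (Ideal.absNorm I).Coprime n := by
  by_contra hnot
  obtain ⟨ℓ, hℓ, hℓI, hℓn⟩ := Nat.Prime.not_coprime_iff_dvd.mp hnot
  have : Fact ℓ.Prime := ⟨hℓ⟩
  have hfin : Finite (𝓞 E ⧸ I) := by
    apply Nat.finite_of_card_ne_zero
    have h := (Ideal.absNorm_eq_zero_iff (I := I)).not.mpr hI0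
    rwa [Ideal.absNorm_apply, Submodule.cardQuot_apply] at h
  have hcard : ℓ ∣ Nat.card (𝓞 E ⧸ I) := by
    rwa [Ideal.absNorm_apply, Submodule.cardQuot_apply] at hℓI
  obtain ⟨z, hz⟩ := exists_prime_addOrderOf_dvd_card' ℓ hcard
  have hz0 : z ≠ 0 := by
    rintro rfl
    rw [addOrderOf_zero] at hz
    exact hℓ.one_lt.ne hz
  have hℓz : ℓ • z = 0 := by
    rw [← hz]
    exact addOrderOf_nsmul_eq_zero z
  -- `1 = i + u * n`
  have h1 : (1 : 𝓞 E) ∈ I ⊔ Ideal.span {(n : 𝓞 E)} := by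
    rw [hsup]
    exact Submodule.mem_top
  obtain ⟨i, hi, j, hj, hij⟩ := Submodule.mem_sup.mp h1
  obtain ⟨u, rfl⟩ := Ideal.mem_span_singleton'.mp hj
  obtain ⟨m, rfl⟩ := hℓn
  have hnz : ((ℓ * m : ℕ) : 𝓞 E ⧸ I) * z = 0 := by
    rw [← nsmul_eq_mul, mul_nsmul, hℓz, nsmul_zero]
  have hone : (Ideal.Quotient.mk I u) * ((ℓ * m : ℕ) : 𝓞 E ⧸ I) = 1 := by
    have h3 : Ideal.Quotient.mk I (i + u * ((ℓ * m : ℕ) : 𝓞 E)) = 1 := by
      rw [hij, map_one]
    rw [map_add, Ideal.Quotient.eq_zero_iff_mem.mpr hi, zero_add, map_mul, map_natCast] at h3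
    exact h3
  apply hz0
  calc z = 1 * z := (one_mul z).symm
    _ = (Ideal.Quotient.mk I u) * (((ℓ * m : ℕ) : 𝓞 E ⧸ I) * z) := by rw [← hone, mul_assoc]
    _ = 0 := by rw [hnz, mul_zero]

open NumberField in
/-- **C0**: every ideal class of a number field contains a nonzero integral ideal of absolute norm
prime to `n`. -/
theorem exists_ideal_class_absNorm_coprime {E : Type*} [Field E] [NumberField E]
    (c : ClassGroup (𝓞 E)) (n : ℕ) (hn : n ≠ 0) :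
    ∃ I : (Ideal (𝓞 E))⁰, ClassGroup.mk0 I = c ∧ (Ideal.absNorm (I : Ideal (𝓞 E))).Coprime n := by
  have hn0 : (n : 𝓞 E) ≠ 0 := Nat.cast_ne_zero.mpr hn
  have h𝔫 : Ideal.span {(n : 𝓞 E)} ≠ ⊥ := by
    rw [Ne, Ideal.span_singleton_eq_bot]
    exact hn0
  obtain ⟨I, hI, hsup⟩ := exists_mk0_eq_and_sup_eq_top c (Ideal.span {(n : 𝓞 E)}) h𝔫
  have hI0 : (I : Ideal (𝓞 E)) ≠ ⊥ := nonZeroDivisors.coe_ne_zero I
  exact ⟨I, hI, absNorm_coprime_of_sup_span_eq_top (I : Ideal (𝓞 E)) hI0 n hsup⟩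

end Fermat.Agent.S14.H97
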