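import Fermat.Agent.S14.CrossInterfaces
import Fermat.Agent.S14.H97_CoprimeRep

/-!
# S14, package C0 in the shape `Fermat.Agent.S14.Stmt_C0`
-/

set_option autoImplicit false

namespace Fermat.Agent.S14.H97

open NumberField

/-- `cls` of a nonzero ideal is its class. -/
theorem cls_eq_mk0 {R : Type*} [CommRing R] [IsDedekindDomain R] (I : Ideal R)
    (h : I ∈ nonZeroDivisors (Ideal R)) :
    Fermat.Agent.S14.cls I = ClassGroup.mk0 ⟨I, h⟩ := by
  have h0 : I ≠ ⊥ := nonZeroDivisors.ne_zero h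
  unfold Fermat.Agent.S14.cls
  rw [dif_neg h0]

/-- **C0**: every ideal class contains a nonzero integral ideal of absolute norm prime to `n`. -/
theorem stmt_C0 : Fermat.Agent.S14.Stmt_C0 := by
  intro E _ _ c n hn
  obtain ⟨I, hI, hcop⟩ := exists_ideal_class_absNorm_coprime c n hn
  refine ⟨I, nonZeroDivisors.coe_ne_zero I, ?_, hcop⟩
  rw [cls_eq_mk0 (I : Ideal (𝓞 E)) I.2]
  exact hI

end Fermat.Agent.S14.H97
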