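import Mathlib

/-!
# S14, package D0: auxiliary primes

For an odd prime `p`, an integer `x > 1` and a finite set `B` of natural numbers there is a
prime `r ∉ B`, `r ∤ x`, such that `p` divides the multiplicative order of `x` modulo `r`.

Proof: for every `n`, a prime factor `r ≠ p` of `Φ_p(x ^ p ^ n) = ∑_{i<p} (x^p^n)^i` exists and
satisfies `orderOf (x : ZMod r) = p ^ (n + 1)`.  Different `n` give different `r`.
-/

set_option autoImplicit false

namespace Fermat.Agent.S14.H97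

open Finset

/-- The geometric sum `1 + y + ... + y^(p-1)` is `> p` for `y ≥ 2`, `p ≥ 2`. -/
theorem lt_geom_sum (p : ℕ) (hp : 2 ≤ p) (y : ℕ) (hy : 2 ≤ y) :
    p < ∑ i ∈ range p, y ^ i := by
  have h1 : ∑ _i ∈ range p, 1 < ∑ i ∈ range p, y ^ i := by
    apply Finset.sum_lt_sum
    · intro i _
      exact Nat.one_le_pow _ _ (by omega)
    · exact ⟨1, Finset.mem_range.mpr (by omega), by rw [pow_one]; omega⟩
  simpa using h1

/-- The geometric sum `1 + y + ... + y^(p-1)` has a prime factor different from `p`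
(`p` an odd prime, `y ≥ 2`). -/
theorem exists_prime_ne_dvd_geom_sum (p : ℕ) (hp : p.Prime) (hp2 : p ≠ 2) (y : ℕ)
    (hy : 2 ≤ y) :
    ∃ r : ℕ, r.Prime ∧ r ≠ p ∧ r ∣ ∑ i ∈ range p, y ^ i := by
  have : Fact p.Prime := ⟨hp⟩
  set S := ∑ i ∈ range p, y ^ i with hS
  have hSgt : p < S := lt_geom_sum p hp.two_le y hy
  have hptwo : 2 ≤ p := hp.two_le
  have hS0 : S ≠ 0 := by omega
  by_cases hpS : p ∣ S
  · -- `S * (y - 1) + 1 = y ^ p`
    have hmul : S * (y - 1) + 1 = y ^ p := by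
      have := geom_sum_mul_add (y - 1) p
      rwa [Nat.sub_add_cancel (by omega : 1 ≤ y)] at this
    have hmul' : y ^ p - 1 ^ p = S * (y - 1) := by
      rw [one_pow, ← hmul, Nat.add_sub_cancel]
    -- `y ≡ 1 mod p`
    have hy1 : p ∣ y - 1 := by
      have h1 : ((S * (y - 1) + 1 : ℕ) : ZMod p) = ((y ^ p : ℕ) : ZMod p) := by rw [hmul]
      have h2 : ((S : ℕ) : ZMod p) = 0 := (ZMod.natCast_eq_zero_iff _ _).mpr hpS
      push_cast at h1
      rw [h2, zero_mul, zero_add, ZMod.pow_card] at h1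
      have h3 : ((y - 1 : ℕ) : ZMod p) = 0 := by
        rw [Nat.cast_sub (by omega : 1 ≤ y), ← h1]
        simp
      exact (ZMod.natCast_eq_zero_iff _ _).mp h3
    have hpy : ¬ p ∣ y := by
      intro h
      have : p ∣ 1 := by
        have h4 : p ∣ y - (y - 1) := Nat.dvd_sub h hy1
        rwa [Nat.sub_sub_self (by omega : 1 ≤ y)] at h4
      exact hp.one_lt.ne' (Nat.dvd_one.mp this)
    have hodd : Odd p := hp.odd_of_ne_two hp2
    have hval := padicValNat.pow_sub_pow hodd (x := y) (y := 1) (by omega) hy1 hpy hp.ne_zero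
    rw [hmul', padicValNat.mul hS0 (by omega), padicValNat_self] at hval
    have hvS : padicValNat p S = 1 := by omega
    obtain ⟨S', hS'⟩ := hpS
    have hS'1 : 1 < S' := by
      by_contra h
      have : S' ≤ 1 := by omega
      have : S ≤ p := by
        rw [hS']
        calc p * S' ≤ p * 1 := Nat.mul_le_mul_left p this
          _ = p := mul_one p
      omega
    have hpS' : ¬ p ∣ S' := by
      rintro ⟨t, ht⟩
      have : p ^ 2 ∣ S := ⟨t, by rw [hS', ht]; ring⟩
      have := (padicValNat_dvd_iff_le hS0).mp this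
      omega
    refine ⟨S'.minFac, Nat.minFac_prime (by omega), ?_, ?_⟩
    · intro h
      exact hpS' (h ▸ Nat.minFac_dvd S')
    · exact (Nat.minFac_dvd S').trans ⟨p, by rw [hS', mul_comm]⟩
  · exact ⟨S.minFac, Nat.minFac_prime (by omega), fun h => hpS (h ▸ Nat.minFac_dvd S),
      Nat.minFac_dvd S⟩

/-- A prime `r ≠ p` dividing `Φ_p(x ^ p ^ n)` has `orderOf (x mod r) = p ^ (n + 1)`. -/
theorem orderOf_eq_prime_pow_of_dvd_geom_sum (p : ℕ) (hp : p.Prime) (x n r : ℕ)
    (hr : r.Prime) (hrp : r ≠ p)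
    (hdvd : r ∣ ∑ i ∈ range p, (x ^ p ^ n) ^ i) :
    orderOf (x : ZMod r) = p ^ (n + 1) := by
  have : Fact p.Prime := ⟨hp⟩
  have : Fact r.Prime := ⟨hr⟩
  set X : ZMod r := (x : ZMod r) with hX
  have h0 : ∑ i ∈ range p, (X ^ p ^ n) ^ i = 0 := by
    have := (ZMod.natCast_eq_zero_iff _ _).mpr hdvd
    push_cast at this
    exact this
  have hfin : X ^ p ^ (n + 1) = 1 := by
    have := geom_sum_mul (X ^ p ^ n) p
    rw [h0, zero_mul] at this
    rw [pow_succ, pow_mul]
    exact (sub_eq_zero.mp this.symm)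
  have hnot : ¬ X ^ p ^ n = 1 := by
    intro h
    rw [h] at h0
    simp only [one_pow, sum_const, card_range, nsmul_eq_mul, mul_one] at h0
    have : r ∣ p := (ZMod.natCast_eq_zero_iff _ _).mp h0
    exact hrp ((Nat.prime_dvd_prime_iff_eq hr hp).mp this)
  exact orderOf_eq_prime_pow hnot hfin

/-- **D0**: auxiliary primes. -/
theorem exists_prime_dvd_orderOf (p : ℕ) (hp : p.Prime) (hp2 : p ≠ 2) (x : ℕ) (hx : 1 < x)
    (B : Finset ℕ) :
    ∃ r : ℕ, r.Prime ∧ r ∉ B ∧ ¬ r ∣ x ∧ p ∣ orderOf (x : ZMod r) := by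
  have key : ∀ n : ℕ, ∃ r : ℕ, r.Prime ∧ orderOf (x : ZMod r) = p ^ (n + 1) := by
    intro n
    have hy : 2 ≤ x ^ p ^ n := by
      calc 2 ≤ x := hx
        _ = x ^ 1 := (pow_one x).symm
        _ ≤ x ^ p ^ n := Nat.pow_le_pow_right (by omega) (Nat.one_le_pow _ _ hp.pos)
    obtain ⟨r, hr, hrp, hdvd⟩ := exists_prime_ne_dvd_geom_sum p hp hp2 (x ^ p ^ n) hy
    exact ⟨r, hr, orderOf_eq_prime_pow_of_dvd_geom_sum p hp x n r hr hrp hdvd⟩
  choose f hf using key
  have hinj : Function.Injective f := by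
    intro a b hab
    have h1 := (hf a).2
    rw [hab, (hf b).2] at h1
    have := Nat.pow_right_injective hp.two_le h1
    omega
  obtain ⟨n, hn⟩ : ∃ n, f n ∉ B := by
    by_contra h
    refine (Set.infinite_range_of_injective hinj) (B.finite_toSet.subset ?_)
    rintro _ ⟨n, rfl⟩
    by_contra hn
    exact h ⟨n, hn⟩
  refine ⟨f n, (hf n).1, hn, ?_, ?_⟩
  · intro hdvd
    have : Fact (f n).Prime := ⟨(hf n).1⟩
    have h0 : (x : ZMod (f n)) = 0 := (ZMod.natCast_eq_zero_iff _ _).mpr hdvd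
    have h1 := (hf n).2
    have h2 : (x : ZMod (f n)) ^ (p ^ (n + 1)) = 1 := by
      rw [← h1]
      exact pow_orderOf_eq_one _
    rw [h0, zero_pow (pow_ne_zero _ hp.ne_zero)] at h2
    exact zero_ne_one h2
  · rw [(hf n).2]
    exact dvd_pow_self p (Nat.succ_ne_zero n)

end Fermat.Agent.S14.H97
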