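import Fermat.Agent.S14.CrossInterfaces
import Fermat.Agent.S14.H97_AuxPrimes

/-!
# S14, package D0 in the shape `Fermat.Agent.S14.Stmt_D0`
-/

set_option autoImplicit false

namespace Fermat.Agent.S14.H97

/-- **D0**: auxiliary primes. -/
theorem stmt_D0 : Fermat.Agent.S14.Stmt_D0 :=
  fun p hp hp2 x hx B => exists_prime_dvd_orderOf p hp hp2 x hx B

end Fermat.Agent.S14.H97
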