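import Fermat.Agent.S14.ClsLemmas
import Fermat.Agent.S14.H56_Frob
import Fermat.Agent.S14.H97_CoprimeRep

/-!
# S14, `Stmt_Link`: the arithmetic core

Generic statements (no crossing setup):

* `exists_prime_cls_not_mem` : a proper subgroup `U` of the class group misses the class of some
  nonzero prime of norm prime to `n`.
* `cls_under_mem_normClasses_of_frob_fixes` : if a Frobenius of `N/E` at `𝔓` fixes the intermediate
  field `L` pointwise, then the class of `𝔓 ∩ E` is a norm class from `L`.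
* `exists_frob_not_fixing` : if the norm classes of `L/E` do not fill the class group of `E`, there
  is a prime `𝔓` of `N`, of norm prime to `n`, with a Frobenius in `Gal(N/E)` not fixing `L`.
* `absNorm_under_eq_pow` : `N(𝔓 ∩ E) = N(𝔓 ∩ K) ^ g`, `g ≠ 0`, in a tower `K ⊆ E ⊆ N`.
* `natCast_notMem_of_coprime` : a prime of norm prime to `r` does not contain `r`.
-/

set_option autoImplicit false

namespace Fermat.Agent.S14.H97

open NumberField
open scoped nonZeroDivisors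

/-- A proper subgroup `U` of the class group of a number field misses the class of some nonzero
prime ideal of absolute norm prime to `n`. -/
theorem exists_prime_cls_not_mem {E : Type*} [Field E] [NumberField E]
    (U : Subgroup (ClassGroup (𝓞 E))) (hU : U ≠ ⊤) (n : ℕ) (hn : n ≠ 0) :
    ∃ 𝔅 : Ideal (𝓞 E), 𝔅.IsPrime ∧ 𝔅 ≠ ⊥ ∧ (Ideal.absNorm 𝔅).Coprime n ∧ cls 𝔅 ∉ U := by
  classical
  by_contra hcon
  have hall : ∀ 𝔅 : Ideal (𝓞 E), 𝔅.IsPrime → 𝔅 ≠ ⊥ → (Ideal.absNorm 𝔅).Coprime n →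
      cls 𝔅 ∈ U := by
    intro 𝔅 h1 h2 h3
    by_contra h4
    exact hcon ⟨𝔅, h1, h2, h3, h4⟩
  apply hU
  rw [eq_top_iff]
  rintro c -
  obtain ⟨I, hI, hcop⟩ := exists_ideal_class_absNorm_coprime c n hn
  have key : ∀ J : Ideal (𝓞 E), J ≠ ⊥ → (Ideal.absNorm J).Coprime n → cls J ∈ U := by
    intro J
    induction J using UniqueFactorizationMonoid.induction_on_prime with
    | h₁ => intro h; exact absurd rfl h
    | h₂ x hx =>
      intro _ _
      rw [Ideal.isUnit_iff] at hx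
      rw [hx, cls_top]
      exact U.one_mem
    | h₃ a P ha hP ih =>
      intro _ hcopPa
      have hPne : P ≠ ⊥ := hP.ne_zero
      have hPprime : P.IsPrime := Ideal.isPrime_of_prime hP
      rw [map_mul] at hcopPa
      rw [cls_mul hPne ha]
      exact U.mul_mem (hall P hPprime hPne (Nat.Coprime.coprime_mul_right hcopPa))
        (ih ha (Nat.Coprime.coprime_mul_left hcopPa))
  have := key (I : Ideal (𝓞 E)) (nonZeroDivisors.coe_ne_zero I) hcop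
  rwa [cls_mk0, hI] at this

section Frob

variable {E N : Type*} [Field E] [NumberField E] [Field N] [NumberField N] [Algebra E N]
  [IsGalois E N]

/-- If a Frobenius of `N/E` at `𝔓` fixes the intermediate field `L` pointwise, then the class of
`𝔓 ∩ E` is a norm class from `L`. -/
theorem cls_under_mem_normClasses_of_frob_fixes (L : IntermediateField E N)
    (𝔓 : Ideal (𝓞 N)) [h𝔓p : 𝔓.IsPrime] (h𝔓 : 𝔓 ≠ ⊥)
    (σ : N ≃ₐ[E] N) (hσ : IsArithFrobAt (𝓞 E) σ 𝔓)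
    (hfix : ∀ x : L, σ (x : N) = x) :
    cls (𝔓.under (𝓞 E)) ∈ normClasses E L := by
  set PL : Ideal (𝓞 L) := 𝔓.under (𝓞 L) with hPL
  have hPLprime : PL.IsPrime := inferInstance
  have hPL0 : PL ≠ ⊥ := Ideal.under_ne_bot (𝓞 L) h𝔓
  have hunder : PL.under (𝓞 E) = 𝔓.under (𝓞 E) := Ideal.under_under 𝔓
  rw [H56.isArithFrobAt_iff] at hσ
  have hcongr : ∀ x : 𝓞 L, x - x ^ Ideal.absNorm (PL.under (𝓞 E)) ∈ PL := by
    intro x
    rw [hunder, hPL, Ideal.under, Ideal.mem_comap, map_sub, map_pow]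
    have h1 := hσ (algebraMap (𝓞 L) (𝓞 N) x)
    have h2 : σ • (algebraMap (𝓞 L) (𝓞 N) x) = algebraMap (𝓞 L) (𝓞 N) x := by
      apply RingOfIntegers.ext
      exact hfix ⟨(x : L), (x : L).2⟩
    rwa [h2] at h1
  have hrel := H56.relNorm_eq_under_of_pow_congr (K := E) PL hPL0 hcongr
  rw [← hunder, ← hrel]
  exact cls_relNorm_mem E L hPL0

/-- If the norm classes of `L/E` do not fill the class group of `E`, there is a prime `𝔓` of
`N`, of norm prime to `n`, with a Frobenius in `Gal(N/E)` which does not fix `L` pointwise. -/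
theorem exists_frob_not_fixing (L : IntermediateField E N)
    (hT1 : normClasses E L ≠ ⊤) (n : ℕ) (hn : n ≠ 0) :
    ∃ (𝔓 : Ideal (𝓞 N)) (σ : N ≃ₐ[E] N), 𝔓.IsPrime ∧ 𝔓 ≠ ⊥ ∧
      (Ideal.absNorm (𝔓.under (𝓞 E))).Coprime n ∧
      IsArithFrobAt (𝓞 E) σ 𝔓 ∧ ¬ (∀ x : L, σ (x : N) = x) := by
  obtain ⟨𝔅, h𝔅p, h𝔅0, hcop, hnot⟩ := exists_prime_cls_not_mem (normClasses E L) hT1 n hn
  have h𝔅max : 𝔅.IsMaximal := h𝔅p.isMaximal h𝔅0
  obtain ⟨𝔓, h𝔓max, h𝔓over⟩ :=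
    Ideal.exists_maximal_ideal_liesOver_of_isIntegral (S := 𝓞 N) 𝔅
  have h𝔓p : 𝔓.IsPrime := h𝔓max.isPrime
  have hunder : 𝔓.under (𝓞 E) = 𝔅 := (h𝔓over.over).symm
  have h𝔓0 : 𝔓 ≠ ⊥ := by
    intro h
    apply h𝔅0
    rw [← hunder, h]
    exact Ideal.under_bot (𝓞 E) (𝓞 N)
  obtain ⟨σ, hσ⟩ := H56.exists_frob (K := E) 𝔓 h𝔓0
  refine ⟨𝔓, σ, h𝔓p, h𝔓0, by rwa [hunder], hσ, ?_⟩
  intro hfix
  apply hnot
  rw [← hunder]
  exact cls_under_mem_normClasses_of_frob_fixes L 𝔓 h𝔓0 σ hσ hfix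

end Frob

end Fermat.Agent.S14.H97

namespace Fermat.Agent.S14.H97

open NumberField

/-- In a tower of number fields, the norm of a nonzero prime is a positive power of the norm of
the prime below. -/
theorem absNorm_eq_pow_under {K E : Type*} [Field K] [NumberField K] [Field E] [NumberField E]
    [Algebra K E] (𝔅 : Ideal (𝓞 E)) [h𝔅 : 𝔅.IsPrime] (h0 : 𝔅 ≠ ⊥) :
    ∃ g : ℕ, g ≠ 0 ∧ Ideal.absNorm 𝔅 = Ideal.absNorm (𝔅.under (𝓞 K)) ^ g := by
  have hmax : 𝔅.IsMaximal := h𝔅.isMaximal h0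
  have hmax' : (𝔅.under (𝓞 K)).IsMaximal := inferInstance
  have hover : 𝔅.LiesOver (𝔅.under (𝓞 K)) := ⟨rfl⟩
  refine ⟨𝔅.inertiaDeg (𝓞 K), (Ideal.inertiaDeg_pos 𝔅 (𝓞 K)).ne', ?_⟩
  rw [← Ideal.absNorm_relNorm (𝓞 K) (𝓞 E) 𝔅, Ideal.relNorm_eq_pow_of_isMaximal 𝔅 (𝔅.under (𝓞 K)),
    map_pow]

/-- A nonzero prime ideal containing the rational prime `r` has norm divisible by `r`. -/
theorem dvd_absNorm_of_natCast_mem {E : Type*} [Field E] [NumberField E]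
    (𝔅 : Ideal (𝓞 E)) [h𝔅 : 𝔅.IsPrime] (h0 : 𝔅 ≠ ⊥) (r : ℕ) (hr : r.Prime)
    (hmem : (r : 𝓞 E) ∈ 𝔅) : r ∣ Ideal.absNorm 𝔅 := by
  have hmax : 𝔅.IsMaximal := h𝔅.isMaximal h0
  have hr0 : r • (1 : 𝓞 E ⧸ 𝔅) = 0 := by
    rw [nsmul_eq_mul, mul_one, ← map_natCast (Ideal.Quotient.mk 𝔅)]
    exact Ideal.Quotient.eq_zero_iff_mem.mpr hmem
  have hdvd : addOrderOf (1 : 𝓞 E ⧸ 𝔅) ∣ r := addOrderOf_dvd_of_nsmul_eq_zero hr0
  have hne1 : addOrderOf (1 : 𝓞 E ⧸ 𝔅) ≠ 1 := by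
    intro h
    rw [AddMonoid.addOrderOf_eq_one_iff] at h
    have : (1 : 𝓞 E) ∈ 𝔅 := Ideal.Quotient.eq_zero_iff_mem.mp (by rw [map_one]; exact h)
    exact h𝔅.ne_top ((Ideal.eq_top_iff_one 𝔅).mpr this)
  have heq : addOrderOf (1 : 𝓞 E ⧸ 𝔅) = r := by
    rcases (Nat.dvd_prime hr).mp hdvd with h | h
    · exact absurd h hne1
    · exact h
  rw [Ideal.absNorm_apply, Submodule.cardQuot_apply, ← heq]
  exact addOrderOf_dvd_natCard _

/-- A nonzero prime of norm prime to `n` does not contain a prime divisor `r` of `n`. -/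
theorem natCast_notMem_of_coprime {E : Type*} [Field E] [NumberField E]
    (𝔅 : Ideal (𝓞 E)) [h𝔅 : 𝔅.IsPrime] (h0 : 𝔅 ≠ ⊥) (n r : ℕ) (hr : r.Prime) (hrn : r ∣ n)
    (hcop : (Ideal.absNorm 𝔅).Coprime n) : (r : 𝓞 E) ∉ 𝔅 := by
  intro hmem
  have h1 : r ∣ Ideal.absNorm 𝔅 := dvd_absNorm_of_natCast_mem 𝔅 h0 r hr hmem
  have h2 : r ∣ Nat.gcd (Ideal.absNorm 𝔅) n := Nat.dvd_gcd h1 hrn
  rw [hcop] at h2
  exact hr.one_lt.ne' (Nat.dvd_one.mp h2)

section Link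

variable {K N : Type*} [Field K] [NumberField K] [Field N] [NumberField N] [Algebra K N]
  [IsGalois K N]

omit [IsGalois K N] in
/-- An `E`-automorphism of `N`, `E = N ^ H`, lies in `H`. -/
theorem restrictScalars_mem_of_fixedField (H : Subgroup (N ≃ₐ[K] N))
    (σ : N ≃ₐ[IntermediateField.fixedField H] N) : σ.restrictScalars K ∈ H := by
  have h1 : σ.restrictScalars K ∈ (IntermediateField.fixedField H).fixingSubgroup := by
    rw [IntermediateField.mem_fixingSubgroup_iff]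
    intro x hx
    exact σ.commutes ⟨x, hx⟩
  rwa [IntermediateField.fixingSubgroup_fixedField] at h1

/-- **Link, generic form.**  `E = N ^ H`, `L` an intermediate field of `N/E` whose norm classes do
not fill the class group of `E`.  Then there are a prime `𝔓` of `N` of norm prime to `n`, an
element `σ ∈ Gal(N/E)` (so `γ := σ|K ∈ H`) and `g ≠ 0` with `γ x ≡ x ^ (N𝔟 ^ g)` mod `𝔓`
(`𝔟 = 𝔓 ∩ K`) such that `σ` does not fix `L` pointwise. -/
theorem exists_link_prime (H : Subgroup (N ≃ₐ[K] N))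
    (L : IntermediateField (IntermediateField.fixedField H) N)
    (hT1 : normClasses (IntermediateField.fixedField H) L ≠ ⊤) (n : ℕ) (hn : n ≠ 0) :
    ∃ (𝔓 : Ideal (𝓞 N)) (σ : N ≃ₐ[IntermediateField.fixedField H] N) (g : ℕ), 𝔓.IsPrime ∧
      (∀ r : ℕ, r.Prime → r ∣ n → (r : 𝓞 N) ∉ 𝔓) ∧ g ≠ 0 ∧
      (∀ x : 𝓞 N, (σ.restrictScalars K) • x -
        x ^ (Ideal.absNorm (𝔓.under (𝓞 K)) ^ g) ∈ 𝔓) ∧
      σ.restrictScalars K ∈ H ∧ ¬ (∀ x : L, σ (x : N) = x) := by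
  obtain ⟨𝔓, σ, h𝔓p, h𝔓0, hcop, hσ, hnfix⟩ := exists_frob_not_fixing L hT1 n hn
  set 𝔅 : Ideal (𝓞 (IntermediateField.fixedField H)) :=
    𝔓.under (𝓞 (IntermediateField.fixedField H)) with h𝔅
  have h𝔅p : 𝔅.IsPrime := inferInstance
  have h𝔅0 : 𝔅 ≠ ⊥ := Ideal.under_ne_bot _ h𝔓0
  obtain ⟨g, hg0, hg⟩ := absNorm_eq_pow_under (K := K) 𝔅 h𝔅0
  have hunder : 𝔅.under (𝓞 K) = 𝔓.under (𝓞 K) := Ideal.under_under 𝔓
  rw [hunder] at hg
  refine ⟨𝔓, σ, g, h𝔓p, ?_, hg0, ?_,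
    restrictScalars_mem_of_fixedField H σ, hnfix⟩
  · intro r hr hrn hmem
    refine natCast_notMem_of_coprime 𝔅 h𝔅0 n r hr hrn hcop ?_
    rw [h𝔅, Ideal.under, Ideal.mem_comap, map_natCast]
    exact hmem
  · rw [H56.isArithFrobAt_iff] at hσ
    intro x
    rw [← hg]
    exact hσ x

end Link

end Fermat.Agent.S14.H97
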