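import Fermat.Agent.S14.CrossInterfaces2
import Fermat.Agent.S14.H64_BaseChange
import Fermat.Agent.S14.H97_LinkCore

/-!
# S14, crossing: `Stmt_T1 → Stmt_Link` (the linking prime)

Field part: helper64 (`H64_BaseChange.lean`); arithmetic part: `H97_LinkCore.lean`.
-/

set_option autoImplicit false

namespace Fermat.Agent.S14.H97

open NumberField
open _root_.Fermat.Agent.S14.Cross

/-- **Link** from the first inequality `Stmt_T1`. -/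
theorem stmt_Link_of_T1 (hT1 : Fermat.Agent.S14.Stmt_T1) : Fermat.Agent.S14.Stmt_Link := by
  intro p _ K M _ _ _ _ _ _ _ r₁ r₂ _ _ hp2 hdeg hU h12 h1 h2 τ τ' u₁ u₂ hτ hτ'
  have := H64.isGalois_top K M r₁ r₂
  have hne := H64.normClasses_LF_ne_top hT1 p K M r₁ r₂ hp2 hdeg hU h12 h1 h2 τ τ' u₁ u₂ hτ hτ'
  have hr₁ : r₁.Prime := Fact.out
  have hr₂ : r₂.Prime := Fact.out
  obtain ⟨𝔓, σ, g, h𝔓, hnot, hg, hfrob, hγH, hnfix⟩ :=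
    exists_link_prime (K := K) (N := Top M r₁ r₂)
      (H1 K M r₁ r₂ τ u₁ ⊓ H2 K M r₁ r₂ τ' u₂)
      (H64.LF K M (Top M r₁ r₂) (H1 K M r₁ r₂ τ u₁ ⊓ H2 K M r₁ r₂ τ' u₂)) hne (r₁ * r₂)
      (Nat.mul_ne_zero hr₁.ne_zero hr₂.ne_zero)
  refine ⟨𝔓, σ.restrictScalars K, g, h𝔓, hnot r₁ hr₁ (Nat.dvd_mul_right r₁ r₂),
    hnot r₂ hr₂ (Nat.dvd_mul_left r₂ r₁), hg, hfrob, hγH, ?_⟩
  intro hres
  apply hnfix
  intro x
  exact H64.LF_fixed K M (Top M r₁ r₂) (H1 K M r₁ r₂ τ u₁ ⊓ H2 K M r₁ r₂ τ' u₂) σ hres x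

end Fermat.Agent.S14.H97
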