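import Fermat.Agent.S14.H68_FrobOne
import Fermat.Agent.S14.H56_NT
import Fermat.Agent.S14.H62_T1
import Fermat.Agent.S14.H24_Stick
import Fermat.Agent.S14.H24_Side
import Fermat.Agent.S14.H31_T2
import Fermat.Agent.S14.H97_D0
import Fermat.Agent.S14.H97_C0
import Fermat.Agent.S14.H97_Link
import Fermat.Agent.S14.H13_Final

/-!
# S14: final assembly (modulo the packages still in progress)

`Stmt_NT` from the finished packages and the remaining ones as hypotheses:
* `Stmt_Ram`   (ramification in `M(ζ_{r₁ r₂})`),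
* `Stmt_SideN` (side relation in `N`),
and `Stmt_T2` from the counting bound (package B1).
-/

namespace Fermat.Agent.S14.H68

open NumberField Fermat.Agent.S14

/-- The crossing statement from the two remaining packages. -/
theorem stmt_Cross_of_Ram_SideN (hRam : Stmt_Ram) (hSideN : Stmt_SideN) : Stmt_Cross :=
  stmt_Cross_of H97.stmt_D0 hRam (H97.stmt_Link_of_T1 H62.stmt_T1) hSideN stmt_FrobOne

/-- The number field core from the two remaining packages. -/
theorem stmt_NT_of_Ram_SideN (hRam : Stmt_Ram) (hSideN : Stmt_SideN) : Stmt_NT :=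
  H56.stmt_NT_of H62.stmt_T1 (stmt_Cross_of_Ram_SideN hRam hSideN) H24.stmt_Stick

/-- `Stmt_Side` from the counting bound. -/
theorem stmt_Side_of_B1
    (hB1 : ∀ (K : Type) [Field K] [NumberField K],
      ∃ κ δ A : ℝ, 0 < δ ∧ Fermat.Agent.Lib.ZetaPrimes.CountingBound K κ δ A) : Stmt_Side :=
  H24.stmt_Side (H31.stmt_T2_of_B1 hB1) H97.stmt_C0

/-- The target from the two remaining packages. -/
theorem extVanishingCts_of_Ram_SideN (hRam : Stmt_Ram) (hSideN : Stmt_SideN)
    {p : ℕ} [Fact p.Prime] (h3 : 3 ≤ p) : ExtCitation.ExtVanishingCts p :=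
  H13.extVanishingCts_of_NT (stmt_NT_of_Ram_SideN hRam hSideN) h3

end Fermat.Agent.S14.H68
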