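import Fermat.Agent.S14.H69_LocalNorm
import Fermat.Agent.S14.CrossInterfaces

/-!
# S14, crossing piece E2: the local norm lemma `Stmt_E2`

`N/K` abelian Galois, `K/ℚ` Galois, `r` a prime all of whose primes in `K` have degree one,
`I ≤ Gal(N/K)` contained in the inertia group of every prime of `N` above `r`, `H ≤ Gal(N/K)`,
`E = N^H`.  Then the absolute norm of every `y ∈ 𝓞 E` is an `[I : I ⊓ H]`-th power modulo `r`.

* Part A (`norm_int_eq_pow_of_forall_prime`): descent of the congruence along `K/ℚ`.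
* Part B (`norm_fixedField_congr_pow`): the congruence for `N_{E/K} y` modulo a prime above `r`,
  from the group-action form `exists_pow_card_eq_mk_prod_smul`.
* `stmt_E2 : Stmt_E2`.
-/

set_option autoImplicit false
set_option linter.style.haveILetI false
set_option linter.unusedSectionVars false

namespace Fermat.Agent.S14.H69

open NumberField IntermediateField
open scoped Pointwise

section PartA

variable (K : Type) [Field K] [NumberField K] [IsGalois ℚ K]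

/-- the absolute norm of `x : 𝓞 K` as a product over the Galois group, inside `𝓞 K`. -/
theorem algebraMap_norm_int_eq_prod (x : 𝓞 K) :
    ((Algebra.norm ℤ x : ℤ) : 𝓞 K) = ∏ s : K ≃ₐ[ℚ] K, s • x := by
  apply RingOfIntegers.ext
  have h1 : (((Algebra.norm ℤ x : ℤ) : 𝓞 K) : K) = algebraMap ℚ K (Algebra.norm ℚ (x : K)) := by
    rw [← Algebra.coe_norm_int]
    simp
  rw [h1, Algebra.norm_eq_prod_automorphisms]
  rw [show ((∏ s : K ≃ₐ[ℚ] K, s • x : 𝓞 K) : K) = algebraMap (𝓞 K) K (∏ s : K ≃ₐ[ℚ] K, s • x) from rfl,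
    map_prod]
  rfl

/-- an integer lying in a proper ideal containing the prime `r` is divisible by `r`. -/
theorem int_dvd_of_mem_of_prime_mem {R : Type*} [CommRing R] (𝔯 : Ideal R) (h𝔯 : 𝔯 ≠ ⊤)
    (r : ℕ) (hr : r.Prime) (hr𝔯 : (r : R) ∈ 𝔯) (m : ℤ) (hm : (m : R) ∈ 𝔯) : (r : ℤ) ∣ m := by
  by_contra hdvd
  have hcop : IsCoprime (r : ℤ) m := by
    rw [Int.isCoprime_iff_gcd_eq_one]
    have := (Nat.Prime.coprime_iff_not_dvd hr).mpr (fun h => hdvd (by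
      rw [← Int.natCast_dvd_natCast] at h
      exact (Int.dvd_natAbs).mp h) : ¬ r ∣ m.natAbs)
    simpa [Int.gcd, Nat.Coprime] using this
  obtain ⟨a, b, hab⟩ := hcop
  apply h𝔯
  rw [Ideal.eq_top_iff_one]
  have : (1 : R) = (a : R) * (r : R) + (b : R) * (m : R) := by
    have := congrArg (Int.cast : ℤ → R) hab
    push_cast at this
    exact this.symm
  rw [this]
  exact 𝔯.add_mem (𝔯.mul_mem_left _ hr𝔯) (𝔯.mul_mem_left _ hm)

/-- **Part A**: if `x : 𝓞 K` is congruent to an `e`-th power of an integer modulo every prime of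
`K` above `r`, then the absolute norm of `x` is an `e`-th power modulo `r`. -/
theorem norm_int_eq_pow_of_forall_prime (r : ℕ) [Fact r.Prime] (e : ℕ) (x : 𝓞 K)
    (h : ∀ 𝔯 : Ideal (𝓞 K), 𝔯.IsPrime → (r : 𝓞 K) ∈ 𝔯 → ∃ n : ℤ, x - (n : 𝓞 K) ^ e ∈ 𝔯) :
    ∃ w : ZMod r, ((Algebra.norm ℤ x : ℤ) : ZMod r) = w ^ e := by
  classical
  have hr : r.Prime := Fact.out
  -- a prime of `𝓞 K` above `r`
  obtain ⟨𝔯₀, h𝔯₀max, hr𝔯₀⟩ : ∃ 𝔯₀ : Ideal (𝓞 K), 𝔯₀.IsMaximal ∧ (r : 𝓞 K) ∈ 𝔯₀ := by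
    haveI hmaxr : (Ideal.span {(r : ℤ)}).IsMaximal :=
      PrincipalIdealRing.isMaximal_of_irreducible
        (Nat.prime_iff_prime_int.mp hr).irreducible
    obtain ⟨Q, hQ, hQr⟩ := Ideal.exists_ideal_over_maximal_of_isIntegral (S := 𝓞 K)
      (Ideal.span {(r : ℤ)}) (by
        rw [(RingHom.injective_iff_ker_eq_bot _).mp
          (FaithfulSMul.algebraMap_injective ℤ (𝓞 K))]
        exact bot_le)
    refine ⟨Q, hQ, ?_⟩
    have : (r : ℤ) ∈ Q.comap (algebraMap ℤ (𝓞 K)) := by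
      rw [hQr]; exact Ideal.mem_span_singleton_self _
    simpa using this
  have := h𝔯₀max.isPrime
  -- for every `s`, an integer `n s` with `s • x ≡ (n s) ^ e` modulo `𝔯₀`
  have hsn : ∀ (s : K ≃ₐ[ℚ] K) (m : ℤ), s • (m : 𝓞 K) = m := fun s m =>
    map_intCast (MulSemiringAction.toRingHom (K ≃ₐ[ℚ] K) (𝓞 K) s) m
  have hsr : ∀ (s : K ≃ₐ[ℚ] K), s • (r : 𝓞 K) = r := fun s =>
    map_natCast (MulSemiringAction.toRingHom (K ≃ₐ[ℚ] K) (𝓞 K) s) r
  have key : ∀ s : K ≃ₐ[ℚ] K, ∃ n : ℤ, s • x - (n : 𝓞 K) ^ e ∈ 𝔯₀ := by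
    intro s
    have hmem : (r : 𝓞 K) ∈ s⁻¹ • 𝔯₀ := by
      rw [Ideal.mem_inv_pointwise_smul_iff]
      rw [hsr]; exact hr𝔯₀
    obtain ⟨n, hn⟩ := h (s⁻¹ • 𝔯₀) inferInstance hmem
    refine ⟨n, ?_⟩
    rw [Ideal.mem_inv_pointwise_smul_iff] at hn
    rw [smul_sub, smul_pow', hsn] at hn
    exact hn
  choose n hn using key
  refine ⟨((∏ s, n s : ℤ) : ZMod r), ?_⟩
  rw [← Int.cast_pow, ZMod.intCast_eq_intCast_iff_dvd_sub]
  apply int_dvd_of_mem_of_prime_mem 𝔯₀ h𝔯₀max.ne_top r hr hr𝔯₀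
  push_cast
  rw [algebraMap_norm_int_eq_prod, ← Finset.prod_pow]
  rw [← neg_sub, Ideal.neg_mem_iff, ← Ideal.Quotient.eq, map_prod, map_prod]
  refine Finset.prod_congr rfl fun s _ => ?_
  rw [Ideal.Quotient.eq]
  exact hn s

end PartA

section PartB

variable (K N : Type) [Field K] [NumberField K] [Field N] [NumberField N] [Algebra K N]
  [IsGalois K N]

/-- restriction to a normal intermediate field is compatible with the actions on integers. -/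
theorem algebraMap_restrictNormal_smul (E : IntermediateField K N) [Normal K E]
    (σ : N ≃ₐ[K] N) (x : 𝓞 E) :
    algebraMap (𝓞 E) (𝓞 N) ((AlgEquiv.restrictNormalHom E σ) • x) =
      σ • algebraMap (𝓞 E) (𝓞 N) x := by
  apply RingOfIntegers.ext
  show algebraMap E N ((AlgEquiv.restrictNormalHom E σ) (x : E)) = σ (algebraMap E N (x : E))
  exact AlgEquiv.restrictNormal_commutes σ E (x : E)

/-- the relative norm to `𝓞 K` as a product over the Galois group, inside `𝓞 E`. -/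
theorem algebraMap_norm_eq_prod (E : Type) [Field E] [NumberField E] [Algebra K E] [IsGalois K E]
    (y : 𝓞 E) :
    algebraMap (𝓞 K) (𝓞 E) (RingOfIntegers.norm K y) = ∏ g : E ≃ₐ[K] E, g • y := by
  apply RingOfIntegers.ext
  rw [RingOfIntegers.coe_algebraMap_norm, Algebra.norm_eq_prod_automorphisms]
  rw [show ((∏ g : E ≃ₐ[K] E, g • y : 𝓞 E) : E) = algebraMap (𝓞 E) E (∏ g : E ≃ₐ[K] E, g • y)
    from rfl, map_prod]
  rfl

/-- **Part B**, for a Galois intermediate field `E`. -/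
theorem norm_intermediate_congr_pow (r : ℕ) [Fact r.Prime] (E : IntermediateField K N)
    [IsGalois K E] (I : Subgroup (N ≃ₐ[K] N))
    (hcomm : ∀ σ τ : N ≃ₐ[K] N, σ * τ = τ * σ)
    (𝔓 : Ideal (𝓞 N)) [𝔓.IsPrime] (hr𝔓 : (r : 𝓞 N) ∈ 𝔓)
    (hcard : Ideal.absNorm (𝔓.under (𝓞 K)) = r)
    (hI : I ≤ 𝔓.inertia (N ≃ₐ[K] N))
    (y : 𝓞 E) :
    ∃ n : ℤ, RingOfIntegers.norm K y - (n : 𝓞 K) ^ E.fixingSubgroup.relIndex I ∈
      𝔓.under (𝓞 K) := by
  classical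
  have hr : r.Prime := Fact.out
  let res : (N ≃ₐ[K] N) →* (E ≃ₐ[K] E) := AlgEquiv.restrictNormalHom E
  have hres : Function.Surjective res := AlgEquiv.restrictNormalHom_surjective N
  have hcommE : ∀ a b : E ≃ₐ[K] E, a * b = b * a := by
    intro a b
    obtain ⟨a, rfl⟩ := hres a
    obtain ⟨b, rfl⟩ := hres b
    rw [← map_mul, ← map_mul, hcomm]
  -- the prime of `E` below `𝔓`
  set 𝔓E : Ideal (𝓞 E) := 𝔓.under (𝓞 E) with h𝔓E
  have hrE : (r : 𝓞 E) ∈ 𝔓E := by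
    rw [h𝔓E, Ideal.under_def, Ideal.mem_comap, map_natCast]; exact hr𝔓
  have hneE : 𝔓E ≠ ⊥ := by
    intro h
    rw [h, Ideal.mem_bot] at hrE
    exact hr.ne_zero (by exact_mod_cast hrE)
  have hmaxE : 𝔓E.IsMaximal := Ideal.IsPrime.isMaximal inferInstance hneE
  have : Finite (𝓞 E ⧸ 𝔓E) := Ideal.finiteQuotientOfFreeOfNeBot 𝔓E hneE
  -- the image of `I`
  let I₀ : Subgroup (E ≃ₐ[K] E) := I.map res
  have hI₀card : Nat.card I₀ = E.fixingSubgroup.relIndex I := by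
    rw [← Subgroup.relIndex_ker]
    congr 1
    exact E.restrictNormalHom_ker
  have hI₀ : I₀ ≤ 𝔓E.inertia (E ≃ₐ[K] E) := by
    rintro _ ⟨σ, hσ, rfl⟩ x
    show res σ • x - x ∈ 𝔓.under (𝓞 E)
    rw [Ideal.under_def, Ideal.mem_comap, map_sub, algebraMap_restrictNormal_smul]
    exact hI hσ _
  -- Frobenius
  obtain ⟨φ, hφ⟩ := IsArithFrobAt.exists_of_isInvariant (𝓞 K) (E ≃ₐ[K] E) 𝔓E
  have hunder : 𝔓E.under (𝓞 K) = 𝔓.under (𝓞 K) := Ideal.under_under _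
  have hq : Nat.card (𝓞 K ⧸ 𝔓E.under (𝓞 K)) = r := by
    rw [hunder, ← hcard, Ideal.absNorm_apply, Submodule.cardQuot_apply]
  have hφ' : ∀ x : 𝓞 E, φ • x - x ^ r ∈ 𝔓E := by
    intro x
    have := hφ x
    rw [hq] at this
    exact this
  obtain ⟨w, hw1, hw2⟩ := exists_pow_card_eq_mk_prod_smul hcommE 𝔓E I₀ hI₀ φ r hφ' y
  -- `w` is in the prime field
  let _ := Ideal.Quotient.field 𝔓E
  have : CharP (𝓞 E ⧸ 𝔓E) r := (CharP.charP_iff_prime_eq_zero hr).mpr (by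
    rw [← map_natCast (Ideal.Quotient.mk 𝔓E), Ideal.Quotient.eq_zero_iff_mem]; exact hrE)
  obtain ⟨n, hn⟩ := (mem_bot_iff_intCast r _).mp ((Subfield.mem_bot_iff_pow_eq_self _ r).mpr hw2)
  refine ⟨n, ?_⟩
  rw [← hunder, Ideal.under_def, Ideal.mem_comap, map_sub, map_pow, map_intCast,
    algebraMap_norm_eq_prod, ← Ideal.Quotient.eq, map_pow, map_intCast, hn, ← hI₀card]
  convert hw1

/-- **Part B**: the relative norm from `E = N^H` to `K` is, modulo `𝔓 ∩ 𝓞 K`, the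
`[I : I ⊓ H]`-th power of an integer, when `I` lies in the inertia group of `𝔓`. -/
theorem norm_fixedField_congr_pow (r : ℕ) [Fact r.Prime] (H I : Subgroup (N ≃ₐ[K] N))
    (hcomm : ∀ σ τ : N ≃ₐ[K] N, σ * τ = τ * σ)
    (𝔓 : Ideal (𝓞 N)) [𝔓.IsPrime] (hr𝔓 : (r : 𝓞 N) ∈ 𝔓)
    (hcard : Ideal.absNorm (𝔓.under (𝓞 K)) = r)
    (hI : I ≤ 𝔓.inertia (N ≃ₐ[K] N))
    (y : 𝓞 (fixedField H)) :
    ∃ n : ℤ, RingOfIntegers.norm K y - (n : 𝓞 K) ^ H.relIndex I ∈ 𝔓.under (𝓞 K) := by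
  have hHn : H.Normal := ⟨fun n hn g => by
    rw [hcomm g n, mul_inv_cancel_right]; exact hn⟩
  have := norm_intermediate_congr_pow K N r (fixedField H) I hcomm 𝔓 hr𝔓 hcard hI y
  rwa [fixingSubgroup_fixedField H] at this

end PartB

/-- **E2** (local norm lemma), exactly as in `CrossInterfaces.lean`. -/
theorem stmt_E2 : Stmt_E2 := by
  intro K N _ _ _ _ _ _ _ r _ H I hcomm hdeg hI y _
  -- transitivity of the norm
  have hnorm : Algebra.norm ℤ y = Algebra.norm ℤ (RingOfIntegers.norm K y) := by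
    have h1 : ((Algebra.norm ℤ y : ℤ) : ℚ) =
        ((Algebra.norm ℤ (RingOfIntegers.norm K y) : ℤ) : ℚ) := by
      rw [Algebra.coe_norm_int, Algebra.coe_norm_int, RingOfIntegers.coe_norm,
        Algebra.norm_norm]
    exact_mod_cast h1
  rw [hnorm]
  apply norm_int_eq_pow_of_forall_prime K r (H.relIndex I) (RingOfIntegers.norm K y)
  intro 𝔯 h𝔯 hr𝔯
  -- a prime of `N` above `𝔯`
  have hr : r.Prime := Fact.out
  have h𝔯ne : 𝔯 ≠ ⊥ := by
    intro h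
    rw [h, Ideal.mem_bot] at hr𝔯
    exact hr.ne_zero (by exact_mod_cast hr𝔯)
  haveI h𝔯max : 𝔯.IsMaximal := Ideal.IsPrime.isMaximal h𝔯 h𝔯ne
  obtain ⟨𝔓, h𝔓max, h𝔓𝔯⟩ := Ideal.exists_ideal_over_maximal_of_isIntegral (S := 𝓞 N) 𝔯 (by
    rw [(RingHom.injective_iff_ker_eq_bot _).mp
      (FaithfulSMul.algebraMap_injective (𝓞 K) (𝓞 N))]
    exact bot_le)
  haveI := h𝔓max.isPrime
  have hr𝔓 : (r : 𝓞 N) ∈ 𝔓 := by
    have : (r : 𝓞 K) ∈ 𝔓.comap (algebraMap (𝓞 K) (𝓞 N)) := by rw [h𝔓𝔯]; exact hr𝔯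
    simpa using this
  have hunder : 𝔓.under (𝓞 K) = 𝔯 := h𝔓𝔯
  have := norm_fixedField_congr_pow K N r H I hcomm 𝔓 hr𝔓
    (by rw [hunder]; exact hdeg 𝔯 h𝔯 hr𝔯) (hI 𝔓 inferInstance hr𝔓) y
  rwa [hunder] at this

end Fermat.Agent.S14.H69
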