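import Fermat.Agent.S14.SideDefs

/-!
# S14, crossing: `Stmt_SNf` (norm down)

The norm `EE → K` maps `splitClasses EE LL {r}` into the norm classes of `M/K`.

Proof: a generator is the class of `Q' ∩ EE` for a prime `Q'` of `LL` of absolute degree one.
Then `Q' ∩ EE = N_{LL/EE} Q'`, and since `M ⊆ LL`,
`N_{EE/K} (N_{LL/EE} Q') = N_{LL/K} Q' = N_{M/K} (N_{LL/M} Q')` is a norm from `M`.
-/

set_option autoImplicit false
set_option linter.style.haveILetI false

namespace Fermat.Agent.S14.H9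

open NumberField

/-- A prime of absolute degree one has relative norm equal to the prime below it. -/
theorem relNorm_eq_under_of_absNorm_prime (F L : Type) [Field F] [NumberField F] [Field L]
    [NumberField L] [Algebra F L] (P : Ideal (𝓞 L)) [hP : P.IsPrime]
    (hℓ : (Ideal.absNorm P).Prime) :
    Ideal.relNorm (𝓞 F) P = P.under (𝓞 F) := by
  obtain ⟨s, hs⟩ := Ideal.exists_relNorm_eq_pow_of_isPrime P (P.under (𝓞 F))
  have h1 : Ideal.absNorm (Ideal.relNorm (𝓞 F) P) = Ideal.absNorm P :=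
    Ideal.absNorm_relNorm (𝓞 F) (𝓞 L) P
  rw [hs, map_pow] at h1
  have h2 := (Nat.Prime.pow_eq_iff hℓ).1 h1
  rw [hs, h2.2, pow_one]

section emb

variable (K M N : Type) [Field K] [NumberField K] [Field M] [NumberField M] [Field N]
  [NumberField N] [Algebra K M] [Algebra K N] [Algebra M N] [IsScalarTower K M N]
  [IsGalois K M]
variable {r : ℕ} (χ : (N ≃ₐ[K] N) →* (ZMod r)ˣ) (τ : M ≃ₐ[K] M) (u : (ZMod r)ˣ)

open Side

/-- `M ⊆ LL` inside `N`. -/
lemma algebraMap_mem_LL (m : M) : algebraMap M N m ∈ LL K M N χ τ u := by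
  rw [IntermediateField.mem_extendScalars, IntermediateField.mem_fixedField_iff]
  rintro γ ⟨-, hγ⟩
  have hγ' : resN K M N γ = 1 := MonoidHom.mem_ker.1 hγ
  have h := AlgEquiv.restrictNormal_commutes γ M m
  have h2 : γ.restrictNormal M = 1 := hγ'
  rw [h2] at h
  exact h.symm

/-- The embedding of `M` into `LL`. -/
noncomputable def embLL : M →+* LL K M N χ τ u :=
  (algebraMap M N).codRestrict (LL K M N χ τ u) (algebraMap_mem_LL K M N χ τ u)

/-- The prime below a degree-one prime of `LL` has the same norm to `K` as an ideal of `M`. -/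
theorem exists_relNorm_under_eq (Q' : Ideal (𝓞 (LL K M N χ τ u))) [Q'.IsPrime]
    (hℓ : (Ideal.absNorm Q').Prime) :
    ∃ J : Ideal (𝓞 M), J ≠ ⊥ ∧ Q'.under (𝓞 (EE K M N χ τ u)) ≠ ⊥ ∧
      Ideal.relNorm (𝓞 K) (Q'.under (𝓞 (EE K M N χ τ u))) = Ideal.relNorm (𝓞 K) J := by
  letI : Algebra M (LL K M N χ τ u) := (embLL K M N χ τ u).toAlgebra
  haveI : IsScalarTower M (LL K M N χ τ u) N := IsScalarTower.of_algebraMap_eq (fun x => rfl)
  haveI : IsScalarTower K M (LL K M N χ τ u) := IsScalarTower.of_algebraMap_eq (fun x => by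
    apply Subtype.ext
    exact IsScalarTower.algebraMap_apply K M N x)
  have hQ0 : Q' ≠ ⊥ := by
    rintro rfl
    rw [Ideal.absNorm_bot] at hℓ
    exact Nat.not_prime_zero hℓ
  have h1 := relNorm_eq_under_of_absNorm_prime (EE K M N χ τ u) (LL K M N χ τ u) Q' hℓ
  have h2 := Ideal.relNorm_relNorm (𝓞 K) (𝓞 (EE K M N χ τ u)) Q'
  have h3 := Ideal.relNorm_relNorm (𝓞 K) (𝓞 M) Q'
  refine ⟨Ideal.relNorm (𝓞 M) Q', ?_, ?_, ?_⟩
  · rwa [Ne, Ideal.relNorm_eq_bot_iff]
  · rw [← h1]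
    rwa [Ne, Ideal.relNorm_eq_bot_iff]
  · rw [← h1, h2, h3]

end emb

/-- **SN-f**. -/
theorem stmt_SNf : Side.Stmt_SNf := by
  intro p _ K M N _ _ _ _ _ _ _ _ _ _ _ _ _ r _ χ ζ I Q τ u _ J hJ hmem
  have key : splitClasses (Side.EE K M N χ τ u) (Side.LL K M N χ τ u) {r}
      ≤ (normClasses K M).comap (clsNorm K (Side.EE K M N χ τ u)) := by
    rw [splitClasses, Subgroup.closure_le]
    rintro c ⟨Q', hQ'prime, hℓ, -, rfl⟩
    rw [SetLike.mem_coe, Subgroup.mem_comap]
    obtain ⟨J', hJ', hne, hJeq⟩ := exists_relNorm_under_eq K M N χ τ u Q' hℓ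
    rw [clsNorm_cls K _ hne, hJeq]
    exact cls_relNorm_mem K M hJ'
  have h := key hmem
  rw [Subgroup.mem_comap, clsNorm_cls K _ hJ] at h
  exact h

end Fermat.Agent.S14.H9
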