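import Fermat.Agent.S14.H68_Final
import Fermat.Agent.S14.H43_T2
import Fermat.Agent.S14.H62_SNa
import Fermat.Agent.S14.H62_SideN
import Fermat.Agent.S14.H13_SNb
import Fermat.Agent.S14.H31_SNc
import Fermat.Agent.S14.H9_SNf
import Fermat.Agent.S14.H69_E2

/-!
# S14: final assembly, second stage

Everything except `Stmt_Ram` and the two side packages `SN-d`, `SN-e`.
-/

namespace Fermat.Agent.S14.H68

open NumberField Fermat.Agent.S14

/-- The side relation (analytic input `T2` + coprime representatives `C0`). -/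
theorem stmt_Side : Stmt_Side :=
  H24.stmt_Side H43.stmt_T2 H97.stmt_C0

/-- The side relation in `N` from the two remaining side packages. -/
theorem stmt_SideN_of_SNde (hd : Side.Stmt_SNd) (he : Side.Stmt_SNe) : Stmt_SideN :=
  H62.stmt_SideN_of stmt_Side H62.stmt_SNa (H13.stmt_SNb_of_E2 H69.stmt_E2) H31.stmt_SNc hd he
    H9.stmt_SNf

/-- The target from the remaining packages. -/
theorem extVanishingCts_of_Ram_SNde (hRam : Stmt_Ram) (hd : Side.Stmt_SNd) (he : Side.Stmt_SNe)
    {p : ℕ} [Fact p.Prime] (h3 : 3 ≤ p) : ExtCitation.ExtVanishingCts p :=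
  extVanishingCts_of_Ram_SideN hRam (stmt_SideN_of_SNde hd he) h3

end Fermat.Agent.S14.H68
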