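import Fermat.Agent.S14.H68_CrossGlue
import Fermat.Agent.S14.H56_Frob

/-!
# S14, crossing: the split case `Stmt_FrobOne`

If the Frobenius element at `Q` is trivial, then the prime below `Q` is the relative norm of `Q`,
so its class is a norm class.
-/

namespace Fermat.Agent.S14.H68

open NumberField Fermat.Agent.S14

theorem stmt_FrobOne : Stmt_FrobOne := by
  intro K M _ _ _ _ _ _ Q hQ hF
  by_cases h0 : Q = ⊥
  · subst h0
    have hu : (⊥ : Ideal (𝓞 M)).under (𝓞 K) = ⊥ := by
      ext x
      simp only [Ideal.under_def, Ideal.mem_comap, Ideal.mem_bot]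
      exact (map_eq_zero_iff _ (FaithfulSMul.algebraMap_injective (𝓞 K) (𝓞 M)))
    rw [hu, cls_bot]
    exact Subgroup.one_mem _
  · haveI := hQ
    rw [← H56.relNorm_eq_under_of_frob_one Q h0 hF]
    exact cls_relNorm_mem K M h0

end Fermat.Agent.S14.H68
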