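import Mathlib

/-!
# S14, crossing piece E2: the local norm lemma (group-action form)

`G` a finite group with commutative multiplication acting on a commutative ring `S`, `P` an ideal of `S`,
`I₀ ≤ inertia G P`, `σ : G` a "Frobenius for `q`" modulo `P` (`σ • x ≡ x ^ q`).
Then for every `y : S` the norm `∏ g, g • y` is congruent modulo `P` to `z ^ |I₀|` for some `z`
with `z ^ q ≡ z`.  Consequently, if `k * |I₀| = q - 1` and the norm is a unit modulo the prime `P`,
then `(∏ g, g • y) ^ k ≡ 1` modulo `P`.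
-/

set_option autoImplicit false

namespace Fermat.Agent.S14.H69

open scoped Pointwise

section General

variable {G S : Type*} [Group G] [Fintype G] [CommRing S] [MulSemiringAction G S]

/-- the product over a finite group of an `H`-invariant function into a commutative monoid is the
`|H|`-th power of the product over the quotient. -/
theorem prod_eq_prod_quotient_pow {M : Type*} [CommMonoid M] (H : Subgroup G)
    (f : G → M) (F : G ⧸ H → M) (hF : ∀ g : G, F (g : G ⧸ H) = f g) :
    ∏ g : G, f g = (∏ᶠ c : G ⧸ H, F c) ^ Nat.card H := by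
  classical
  have : Fintype (G ⧸ H) := Fintype.ofFinite _
  have : Fintype H := Fintype.ofFinite _
  rw [finprod_eq_prod_of_fintype]
  let e : (G ⧸ H) × H → G := fun x => x.1.out * (x.2 : G)
  have he : Function.Bijective e := by
    constructor
    · rintro ⟨c, τ⟩ ⟨c', τ'⟩ h
      have h1 : ((c.out * (τ : G) : G) : G ⧸ H) = ((c'.out * (τ' : G) : G) : G ⧸ H) :=
        congrArg _ h
      have h2 : c = c' := by
        have a1 : ((c.out * (τ : G) : G) : G ⧸ H) = c := by
          rw [QuotientGroup.mk_mul_of_mem _ τ.2]; exact QuotientGroup.out_eq' c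
        have a2 : ((c'.out * (τ' : G) : G) : G ⧸ H) = c' := by
          rw [QuotientGroup.mk_mul_of_mem _ τ'.2]; exact QuotientGroup.out_eq' c'
        rw [← a1, ← a2, h1]
      subst h2
      have h3 : (τ : G) = τ' := mul_left_cancel h
      exact Prod.ext rfl (Subtype.ext h3)
    · intro g
      have hg : ((g : G ⧸ H).out)⁻¹ * g ∈ H := by
        rw [← QuotientGroup.eq]; exact QuotientGroup.out_eq' _
      exact ⟨((g : G ⧸ H), ⟨_, hg⟩), by simp [e]⟩
  rw [← Fintype.prod_bijective e he (fun x => F x.1) f]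
  · rw [Fintype.prod_prod_type, ← Finset.prod_pow]
    refine Finset.prod_congr rfl fun c _ => ?_
    simp [Nat.card_eq_fintype_card]
  · rintro ⟨c, τ⟩
    simp only [e]
    rw [← hF, QuotientGroup.mk_mul_of_mem _ τ.2]
    exact congrArg F (QuotientGroup.out_eq' c).symm

/-- **Local norm lemma, quotient form.** -/
theorem exists_pow_card_eq_mk_prod_smul (hcomm : ∀ a b : G, a * b = b * a)
    (P : Ideal S) (I₀ : Subgroup G) (hI : I₀ ≤ P.inertia G) (σ : G) (q : ℕ) (hσ : ∀ x : S, σ • x - x ^ q ∈ P) (y : S) :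
    ∃ w : S ⧸ P, Ideal.Quotient.mk P (∏ g : G, g • y) = w ^ Nat.card I₀ ∧ w ^ q = w := by
  classical
  have : Fintype (G ⧸ I₀) := Fintype.ofFinite _
  -- the function `g ↦ [g • y]`
  let f : G → S ⧸ P := fun g => Ideal.Quotient.mk P (g • y)
  have hf : ∀ (g : G) (τ : G), τ ∈ I₀ → f (g * τ) = f g := by
    intro g τ hτ
    simp only [f]
    rw [Ideal.Quotient.eq, hcomm, mul_smul]
    exact hI hτ (g • y)
  let F : G ⧸ I₀ → S ⧸ P := Quotient.lift f (by
    intro a b hab
    have hab' : a⁻¹ * b ∈ I₀ := QuotientGroup.leftRel_apply.mp hab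
    have := hf a (a⁻¹ * b) hab'
    rw [mul_inv_cancel_left] at this
    exact this.symm)
  have hF : ∀ g : G, F (g : G ⧸ I₀) = f g := fun g => rfl
  refine ⟨∏ᶠ c : G ⧸ I₀, F c, ?_, ?_⟩
  · rw [map_prod]
    exact prod_eq_prod_quotient_pow I₀ f F hF
  · rw [finprod_eq_prod_of_fintype, ← Finset.prod_pow]
    have hFq : ∀ c : G ⧸ I₀, F c ^ q = F (σ • c) := by
      intro c
      induction c using QuotientGroup.induction_on with
      | H g =>
        rw [MulAction.Quotient.smul_mk, hF, hF]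
        simp only [f]
        rw [← map_pow, eq_comm, Ideal.Quotient.eq, smul_eq_mul, mul_smul]
        exact hσ (g • y)
    simp_rw [hFq]
    exact Fintype.prod_bijective _ (MulAction.bijective σ) _ _ (fun _ => rfl)

/-- **Local norm lemma, element form.** -/
theorem exists_pow_card_congr_prod_smul (hcomm : ∀ a b : G, a * b = b * a)
    (P : Ideal S) (I₀ : Subgroup G) (hI : I₀ ≤ P.inertia G) (σ : G) (q : ℕ) (hσ : ∀ x : S, σ • x - x ^ q ∈ P) (y : S) :
    ∃ z : S, (∏ g : G, g • y) - z ^ Nat.card I₀ ∈ P ∧ z ^ q - z ∈ P := by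
  obtain ⟨w, hw1, hw2⟩ := exists_pow_card_eq_mk_prod_smul hcomm P I₀ hI σ q hσ y
  obtain ⟨z, rfl⟩ := Ideal.Quotient.mk_surjective w
  refine ⟨z, ?_, ?_⟩
  · rw [← Ideal.Quotient.eq, hw1, map_pow]
  · rw [← Ideal.Quotient.eq, map_pow, hw2]

/-- **Local norm lemma, power form**: if `k * |I₀| = q - 1` and the norm of `y` is not in the
prime `P`, then `(∏ g, g • y) ^ k ≡ 1` modulo `P`. -/
theorem prod_smul_pow_sub_one_mem (hcomm : ∀ a b : G, a * b = b * a)
    (P : Ideal S) [P.IsPrime] (I₀ : Subgroup G) (hI : I₀ ≤ P.inertia G) (σ : G) (q : ℕ) (hσ : ∀ x : S, σ • x - x ^ q ∈ P) (y : S)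
    (hy : (∏ g : G, g • y) ∉ P) (k : ℕ) (hk : k * Nat.card I₀ = q - 1) (hq : 1 ≤ q) :
    (∏ g : G, g • y) ^ k - 1 ∈ P := by
  obtain ⟨w, hw1, hw2⟩ := exists_pow_card_eq_mk_prod_smul hcomm P I₀ hI σ q hσ y
  rw [← Ideal.Quotient.eq, map_pow, map_one, hw1, ← pow_mul, mul_comm, hk]
  have hw0 : w ≠ 0 := by
    intro h0
    apply hy
    rw [← Ideal.Quotient.eq_zero_iff_mem, hw1, h0, zero_pow]
    exact Nat.card_pos.ne'
  have : w * (w ^ (q - 1) - 1) = 0 := by
    rw [mul_sub, mul_one, ← pow_succ', Nat.sub_add_cancel hq, hw2, sub_self]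
  rcases mul_eq_zero.mp this with h | h
  · exact absurd h hw0
  · exact sub_eq_zero.mp h

end General

end Fermat.Agent.S14.H69
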