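import Mathlib.NumberTheory.NumberField.Ideal.Asymptotics
import Mathlib.Analysis.Calculus.ContDiff.RCLike

/-
S14 package B1a (helper98): lattice point counting with a power-saving error term.

Main results (namespace `Fermat.Agent.S14.H98`):
* `abs_card_sub_volume_le`: for a bounded measurable `A ⊆ ι → ℝ`, the number of integer points
  of `A` differs from `volume A` by at most the number of unit cells meeting `frontier A`.
* `GridBoundIn U T d C`: for every `m ≥ 1` the set `T` is within `1/m` of a set of at most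
  `C * m ^ d` centers lying in `U`; stable under Lipschitz images (`GridBoundIn.image`) and
  finite unions (`GridBoundIn.iUnion`).
* `abs_card_smul_sub_le`: `|#(ℤ^ι ∩ c • s) - c ^ n * vol s| ≤ 3 ^ n * C * (2 c) ^ d` for `c ≥ 1`.
* `exists_abs_card_le_sub_le`: the same for a general `ℤ`-lattice `L` and a cone `X` cut by a
  homogeneous function `F` (quantitative version of Mathlib's
  `ZLattice.covolume.tendsto_card_le_div''`).
* `gridBoundIn_cubeBoundary`: the boundary of the unit cube `[0,1]^κ` has `GridBoundIn` with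
  `d = card κ - 1`.
-/

set_option autoImplicit false

namespace Fermat.Agent.S14.H98

open MeasureTheory Set

section Cells

variable {ι : Type*}

/-- The half-open unit cell with lower corner `ν`. -/
def cell (ν : ι → ℤ) : Set (ι → ℝ) := {x | ∀ i, ⌊x i⌋ = ν i}

lemma mem_cell {ν : ι → ℤ} {x : ι → ℝ} : x ∈ cell ν ↔ ∀ i, ⌊x i⌋ = ν i := Iff.rfl

lemma cell_eq_pi (ν : ι → ℤ) :
    cell ν = Set.univ.pi fun i => Set.Ico (ν i : ℝ) (ν i + 1) := by
  ext x
  simp [cell, Int.floor_eq_iff]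

lemma intCast_mem_cell (ν : ι → ℤ) : (fun i => (ν i : ℝ)) ∈ cell ν := by
  intro i
  simp

lemma mem_cell_floor (x : ι → ℝ) : x ∈ cell (fun i => ⌊x i⌋) := fun _ => rfl

lemma cell_disjoint {ν ν' : ι → ℤ} (h : ν ≠ ν') : Disjoint (cell ν) (cell ν') := by
  rw [Set.disjoint_left]
  intro x hx hx'
  exact h (funext fun i => (hx i).symm.trans (hx' i))

lemma isPreconnected_cell (ν : ι → ℤ) : IsPreconnected (cell ν) := by
  rw [cell_eq_pi]
  exact (convex_pi fun i _ => convex_Ico _ _).isPreconnected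

variable [Fintype ι]

lemma measurableSet_cell (ν : ι → ℤ) : MeasurableSet (cell ν) := by
  rw [cell_eq_pi]
  exact MeasurableSet.univ_pi fun i => measurableSet_Ico

lemma volume_cell (ν : ι → ℤ) : volume (cell ν) = 1 := by
  rw [cell_eq_pi, Real.volume_pi_Ico]
  simp

omit [Fintype ι] in
/-- A cell that meets `A` but not its frontier is contained in `A`. -/
lemma cell_subset_of_not_meets_frontier {A : Set (ι → ℝ)} {ν : ι → ℤ}
    (h1 : (cell ν ∩ A).Nonempty) (h2 : ¬ (cell ν ∩ frontier A).Nonempty) : cell ν ⊆ A := by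
  have hsub : cell ν ⊆ interior A ∪ (closure A)ᶜ := by
    intro x hx
    by_contra hcon
    apply h2
    refine ⟨x, hx, ?_⟩
    rw [frontier, Set.mem_sdiff]
    simp only [Set.mem_union, Set.mem_compl_iff, not_or, not_not] at hcon
    exact ⟨hcon.2, hcon.1⟩
  have hdisj : Disjoint (interior A) (closure A)ᶜ := by
    rw [Set.disjoint_left]
    intro x hx hx'
    exact hx' (subset_closure (interior_subset hx))
  rcases (isPreconnected_cell ν).subset_or_subset isOpen_interior
      isClosed_closure.isOpen_compl hdisj hsub with h | h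
  · exact h.trans interior_subset
  · obtain ⟨x, hx, hxA⟩ := h1
    exact absurd (subset_closure hxA) (h hx)

/-- The set of cells meeting a bounded set is finite. -/
lemma finite_cells_of_isBounded {A : Set (ι → ℝ)} (hA : Bornology.IsBounded A) :
    {ν : ι → ℤ | (cell ν ∩ A).Nonempty}.Finite := by
  classical
  obtain ⟨R, hR⟩ := hA.exists_norm_le
  refine Set.Finite.subset
    (Fintype.piFinset fun _ : ι => Finset.Icc ⌊-R⌋ ⌊R⌋).finite_toSet ?_
  rintro ν ⟨x, hx, hxA⟩
  simp only [Finset.mem_coe, Fintype.mem_piFinset, Finset.mem_Icc]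
  intro i
  have h1 : ‖x i‖ ≤ R := (norm_le_pi_norm x i).trans (hR x hxA)
  rw [Real.norm_eq_abs, abs_le] at h1
  rw [← hx i]
  exact ⟨Int.floor_le_floor h1.1, Int.floor_le_floor h1.2⟩

open Classical in
/-- **Counting lattice points versus volume**: the difference is bounded by the number of cells
meeting the frontier. -/
theorem abs_card_sub_volume_le {A : Set (ι → ℝ)} (hA : Bornology.IsBounded A)
    (hAm : MeasurableSet A) (B : Finset (ι → ℤ))
    (hB : ∀ ν : ι → ℤ, (cell ν ∩ frontier A).Nonempty → ν ∈ B) :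
    |(Nat.card {ν : ι → ℤ // (fun i => (ν i : ℝ)) ∈ A} : ℝ) - volume.real A| ≤ B.card := by
  set N : Finset (ι → ℤ) := (finite_cells_of_isBounded hA).toFinset with hN
  have hmemN : ∀ ν, ν ∈ N ↔ (cell ν ∩ A).Nonempty := by
    intro ν; simp [hN]
  have hfin : ∀ ν ∈ N, volume (A ∩ cell ν) ≠ ⊤ := fun ν _ =>
    ne_top_of_le_ne_top (by rw [volume_cell]; exact ENNReal.one_ne_top)
      (measure_mono Set.inter_subset_right)
  -- the count
  have hcount : (Nat.card {ν : ι → ℤ // (fun i => (ν i : ℝ)) ∈ A} : ℝ)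
      = ∑ ν ∈ N, (if (fun i => (ν i : ℝ)) ∈ A then (1 : ℝ) else 0) := by
    rw [Finset.sum_boole]
    congr 1
    refine Nat.subtype_card _ fun ν => ?_
    simp only [Finset.mem_filter, hmemN, and_iff_right_iff_imp]
    exact fun h => ⟨_, intCast_mem_cell ν, h⟩
  -- the volume
  have hvol : volume.real A = ∑ ν ∈ N, volume.real (A ∩ cell ν) := by
    rw [← measureReal_biUnion_finset (fun ν _ ν' _ h => (cell_disjoint h).mono
      Set.inter_subset_right Set.inter_subset_right)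
      (fun ν _ => hAm.inter (measurableSet_cell ν)) hfin]
    congr 1
    ext x
    simp only [Set.mem_iUnion, Set.mem_inter_iff, exists_and_left, exists_prop]
    refine ⟨fun hx => ⟨hx, fun i => ⌊x i⌋, (hmemN _).2 ⟨x, mem_cell_floor x, hx⟩,
      mem_cell_floor x⟩, fun h => h.1⟩
  rw [hcount, hvol, ← Finset.sum_sub_distrib]
  refine (Finset.abs_sum_le_sum_abs _ _).trans ?_
  have hterm : ∀ ν ∈ N, |(if (fun i => (ν i : ℝ)) ∈ A then (1 : ℝ) else 0)
      - volume.real (A ∩ cell ν)| ≤ if ν ∈ B then (1 : ℝ) else 0 := by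
    intro ν hν
    have hv0 : 0 ≤ volume.real (A ∩ cell ν) := measureReal_nonneg
    have hv1 : volume.real (A ∩ cell ν) ≤ 1 := by
      have := measureReal_mono (μ := volume) (Set.inter_subset_right (s := A) (t := cell ν))
        (by rw [volume_cell]; exact ENNReal.one_ne_top)
      rwa [measureReal_def (s := cell ν), volume_cell, ENNReal.toReal_one] at this
    by_cases hνB : ν ∈ B
    · rw [if_pos hνB]
      split_ifs
      · rw [abs_le]; constructor <;> linarith
      · rw [abs_le]; constructor <;> linarith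
    · rw [if_neg hνB]
      have hsub : cell ν ⊆ A :=
        cell_subset_of_not_meets_frontier ((hmemN ν).1 hν) (fun h => hνB (hB ν h))
      rw [if_pos (hsub (intCast_mem_cell ν)), Set.inter_eq_right.2 hsub, measureReal_def,
        volume_cell, ENNReal.toReal_one, sub_self, abs_zero]
  refine (Finset.sum_le_sum hterm).trans ?_
  rw [Finset.sum_boole]
  have hsubB : N.filter (· ∈ B) ⊆ B := fun ν hν => (Finset.mem_filter.1 hν).2
  exact_mod_cast Finset.card_le_card hsubB

end Cells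


section GridBound

/-- `GridBoundIn U T d C`: for every `m ≥ 1`, there are at most `C * m ^ d` centers in `U` such
that every point of `T` is within `1 / m` of a center. -/
def GridBoundIn {X : Type*} [PseudoMetricSpace X] (U T : Set X) (d : ℕ) (C : ℝ) : Prop :=
  ∀ m : ℕ, 0 < m → ∃ G : Finset X, (↑G ⊆ U) ∧ (G.card : ℝ) ≤ C * (m : ℝ) ^ d ∧
    ∀ x ∈ T, ∃ y ∈ G, dist x y ≤ 1 / (m : ℝ)

variable {X Y : Type*} [PseudoMetricSpace X] [PseudoMetricSpace Y]

lemma GridBoundIn.const_nonneg {U T : Set X} {d : ℕ} {C : ℝ} (h : GridBoundIn U T d C) :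
    0 ≤ C := by
  obtain ⟨G, -, hG, -⟩ := h 1 one_pos
  simp only [Nat.cast_one, one_pow, mul_one] at hG
  exact (Nat.cast_nonneg _).trans hG

lemma GridBoundIn.mono {U U' T T' : Set X} {d : ℕ} {C : ℝ} (h : GridBoundIn U T d C)
    (hU : U ⊆ U') (hT : T' ⊆ T) : GridBoundIn U' T' d C := by
  intro m hm
  obtain ⟨G, hGU, hG, hcov⟩ := h m hm
  exact ⟨G, hGU.trans hU, hG, fun x hx => hcov x (hT hx)⟩

lemma GridBoundIn.mono_const {U T : Set X} {d : ℕ} {C C' : ℝ} (h : GridBoundIn U T d C)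
    (hC : C ≤ C') : GridBoundIn U T d C' := by
  intro m hm
  obtain ⟨G, hGU, hG, hcov⟩ := h m hm
  exact ⟨G, hGU, hG.trans (by gcongr), hcov⟩

lemma GridBoundIn.mono_dim {U T : Set X} {d d' : ℕ} {C : ℝ} (h : GridBoundIn U T d C)
    (hd : d ≤ d') : GridBoundIn U T d' C := by
  intro m hm
  obtain ⟨G, hGU, hG, hcov⟩ := h m hm
  refine ⟨G, hGU, hG.trans ?_, hcov⟩
  have h1 : (1 : ℝ) ≤ m := by exact_mod_cast hm
  exact mul_le_mul_of_nonneg_left (pow_le_pow_right₀ h1 hd) h.const_nonneg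

open Classical in
lemma GridBoundIn.image {U T : Set X} {d : ℕ} {C : ℝ} (h : GridBoundIn U T d C)
    {f : X → Y} {L : NNReal} (hf : LipschitzOnWith L f U) (hT : T ⊆ U) :
    GridBoundIn (f '' U) (f '' T) d (C * ((⌈(L : ℝ)⌉₊ + 1 : ℕ) : ℝ) ^ d) := by
  intro m hm
  set k : ℕ := ⌈(L : ℝ)⌉₊ + 1 with hk
  have hkL : (L : ℝ) ≤ k := by
    rw [hk]; push_cast
    exact (Nat.le_ceil _).trans (by linarith)
  have hk0 : 0 < k := Nat.succ_pos _
  obtain ⟨G, hGU, hG, hcov⟩ := h (m * k) (Nat.mul_pos hm hk0)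
  refine ⟨G.image f, ?_, ?_, ?_⟩
  · intro y hy
    simp only [Finset.coe_image, Set.mem_image, Finset.mem_coe] at hy
    obtain ⟨x, hx, rfl⟩ := hy
    exact ⟨x, hGU hx, rfl⟩
  · calc ((G.image f).card : ℝ) ≤ G.card := by exact_mod_cast Finset.card_image_le
      _ ≤ C * ((m * k : ℕ) : ℝ) ^ d := hG
      _ = C * (k : ℝ) ^ d * (m : ℝ) ^ d := by push_cast; ring
  · rintro _ ⟨x, hx, rfl⟩
    obtain ⟨y, hy, hxy⟩ := hcov x hx
    refine ⟨f y, Finset.mem_image_of_mem f hy, ?_⟩
    have hmpos : (0 : ℝ) < m := by exact_mod_cast hm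
    have hkpos : (0 : ℝ) < k := by exact_mod_cast hk0
    calc dist (f x) (f y) ≤ L * dist x y := hf.dist_le_mul x (hT hx) y (hGU hy)
      _ ≤ k * (1 / ((m * k : ℕ) : ℝ)) := by
          gcongr
      _ = 1 / m := by
          push_cast
          field_simp

open Classical in
lemma GridBoundIn.iUnion {J : Type*} [Fintype J] {U : Set X} {T : J → Set X} {d : ℕ}
    {C : J → ℝ} (h : ∀ j, GridBoundIn U (T j) d (C j)) :
    GridBoundIn U (⋃ j, T j) d (∑ j, C j) := by
  intro m hm
  choose G hGU hG hcov using fun j => h j m hm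
  refine ⟨Finset.univ.biUnion G, ?_, ?_, ?_⟩
  · intro y hy
    simp only [Finset.coe_biUnion, Finset.coe_univ, Set.mem_univ, Set.iUnion_true,
      Set.mem_iUnion, Finset.mem_coe] at hy
    obtain ⟨j, hj⟩ := hy
    exact hGU j hj
  · calc ((Finset.univ.biUnion G).card : ℝ) ≤ ∑ j, ((G j).card : ℝ) := by
          exact_mod_cast Finset.card_biUnion_le
      _ ≤ ∑ j, C j * (m : ℝ) ^ d := Finset.sum_le_sum fun j _ => hG j
      _ = (∑ j, C j) * (m : ℝ) ^ d := by rw [Finset.sum_mul]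
  · intro x hx
    obtain ⟨j, hj⟩ := Set.mem_iUnion.1 hx
    obtain ⟨y, hy, hxy⟩ := hcov j x hj
    exact ⟨y, Finset.mem_biUnion.2 ⟨j, Finset.mem_univ j, hy⟩, hxy⟩

open Pointwise in
open Classical in
/-- The number of unit cells meeting `c • T` is `O(c ^ d)`. -/
lemma GridBoundIn.exists_cells {ι : Type*} [Fintype ι] {U T : Set (ι → ℝ)} {d : ℕ} {C : ℝ}
    (h : GridBoundIn U T d C) {c : ℝ} (hc : 1 ≤ c) :
    ∃ B : Finset (ι → ℤ), (B.card : ℝ) ≤ 3 ^ Fintype.card ι * C * (2 * c) ^ d ∧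
      ∀ ν : ι → ℤ, (cell ν ∩ c • T).Nonempty → ν ∈ B := by
  have hc0 : 0 < c := zero_lt_one.trans_le hc
  set m : ℕ := ⌈c⌉₊ with hm
  have hmpos : 0 < m := Nat.ceil_pos.2 hc0
  have hcm : c ≤ m := Nat.le_ceil c
  have hm2 : (m : ℝ) ≤ 2 * c := by
    have := (Nat.ceil_lt_add_one hc0.le).le
    linarith
  obtain ⟨G, -, hG, hcov⟩ := h m hmpos
  refine ⟨G.biUnion fun y => Fintype.piFinset fun i =>
    Finset.Icc (⌊c * y i⌋ - 1) (⌊c * y i⌋ + 1), ?_, ?_⟩
  · have h3 : ∀ y ∈ G, (Fintype.piFinset fun i : ι =>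
        Finset.Icc (⌊c * y i⌋ - 1) (⌊c * y i⌋ + 1)).card ≤ 3 ^ Fintype.card ι := by
      intro y _
      rw [Fintype.card_piFinset]
      have : ∀ i : ι, (Finset.Icc (⌊c * y i⌋ - 1) (⌊c * y i⌋ + 1)).card = 3 := by
        intro i
        rw [Int.card_Icc]
        have : ⌊c * y i⌋ + 1 + 1 - (⌊c * y i⌋ - 1) = 3 := by ring
        rw [this]; rfl
      simp [this]
    have hcard := (Finset.card_biUnion_le (s := G) (t := fun y => Fintype.piFinset fun i : ι =>
      Finset.Icc (⌊c * y i⌋ - 1) (⌊c * y i⌋ + 1))).trans (Finset.sum_le_sum h3)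
    rw [Finset.sum_const, smul_eq_mul] at hcard
    have hC0 := h.const_nonneg
    calc ((G.biUnion fun y => Fintype.piFinset fun i =>
          Finset.Icc (⌊c * y i⌋ - 1) (⌊c * y i⌋ + 1)).card : ℝ)
        ≤ ((G.card * 3 ^ Fintype.card ι : ℕ) : ℝ) := by exact_mod_cast hcard
      _ = 3 ^ Fintype.card ι * (G.card : ℝ) := by push_cast; ring
      _ ≤ 3 ^ Fintype.card ι * (C * (m : ℝ) ^ d) := by gcongr
      _ ≤ 3 ^ Fintype.card ι * (C * (2 * c) ^ d) := by gcongr
      _ = 3 ^ Fintype.card ι * C * (2 * c) ^ d := by ring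
  · rintro ν ⟨x, hxν, hxT⟩
    obtain ⟨t, ht, rfl⟩ := hxT
    obtain ⟨y, hy, hty⟩ := hcov t ht
    refine Finset.mem_biUnion.2 ⟨y, hy, ?_⟩
    rw [Fintype.mem_piFinset]
    intro i
    have h1 : |t i - y i| ≤ 1 / (m : ℝ) := by
      have := dist_le_pi_dist t y i
      rw [Real.dist_eq] at this
      exact this.trans hty
    have h2 : c * |t i - y i| ≤ 1 := by
      have hmpos' : (0 : ℝ) < m := by exact_mod_cast hmpos
      calc c * |t i - y i| ≤ m * (1 / (m : ℝ)) := by gcongr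
        _ = 1 := by field_simp
    have h3 : |c * t i - c * y i| ≤ 1 := by
      rwa [← mul_sub, abs_mul, abs_of_pos hc0]
    rw [abs_le] at h3
    have hν : ν i = ⌊c * t i⌋ := by
      rw [← hxν i]; rfl
    rw [Finset.mem_Icc, hν]
    constructor
    · rw [← Int.floor_sub_one]
      exact Int.floor_le_floor (by linarith)
    · rw [← Int.floor_add_one]
      exact Int.floor_le_floor (by linarith)

end GridBound


section Scaling

open Pointwise

variable {ι : Type*} [Fintype ι]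

lemma frontier_smul_set {E : Type*} [TopologicalSpace E] [AddCommGroup E] [Module ℝ E]
    [ContinuousConstSMul ℝ E] {c : ℝ} (hc : c ≠ 0) (s : Set E) :
    frontier (c • s) = c • frontier s := by
  have := (Homeomorph.smulOfNeZero c hc).image_frontier s
  simpa [Set.image_smul] using this.symm

/-- **Lattice point counting with error term**, for the standard lattice in `ι → ℝ`. -/
theorem abs_card_smul_sub_le {s U : Set (ι → ℝ)} (hs : Bornology.IsBounded s)
    (hsm : MeasurableSet s) {d : ℕ} {C : ℝ} (hC : GridBoundIn U (frontier s) d C)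
    {c : ℝ} (hc : 1 ≤ c) :
    |(Nat.card {ν : ι → ℤ // (fun i => (ν i : ℝ)) ∈ c • s} : ℝ)
      - c ^ Fintype.card ι * volume.real s| ≤ 3 ^ Fintype.card ι * C * (2 * c) ^ d := by
  have hc0 : 0 < c := zero_lt_one.trans_le hc
  obtain ⟨B, hBcard, hB⟩ := hC.exists_cells hc
  have key := abs_card_sub_volume_le (hs.smul₀ c) (hsm.const_smul₀ c) B
    (by rw [frontier_smul_set hc0.ne']; exact hB)
  have hvol : volume.real (c • s) = c ^ Fintype.card ι * volume.real s := by
    rw [measureReal_def, Measure.addHaar_smul_of_nonneg volume hc0.le, ENNReal.toReal_mul,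
      ENNReal.toReal_ofReal (pow_nonneg hc0.le _), Module.finrank_fintype_fun_eq_card,
      measureReal_def]
  rw [hvol] at key
  exact key.trans hBcard

end Scaling


section GeneralLattice

open Pointwise Module Bornology

variable {E : Type*} [NormedAddCommGroup E] [NormedSpace ℝ E] [FiniteDimensional ℝ E]
variable {L : Submodule ℤ E} [DiscreteTopology L] [IsZLattice ℝ L]
variable {ι : Type*} [Fintype ι] (b : Basis ι ℤ L)

omit [FiniteDimensional ℝ E] in
lemma cone_smul_eq {X : Set E} (hX : ∀ ⦃x⦄ ⦃r : ℝ⦄, x ∈ X → 0 < r → r • x ∈ X)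
    {F : E → ℝ} (hF₁ : ∀ x ⦃r : ℝ⦄, 0 ≤ r → F (r • x) = r ^ Fintype.card ι * (F x)) {c : ℝ}
    (hc : 0 < c) :
    c • {x ∈ X | F x ≤ 1} = {x ∈ X | F x ≤ c ^ Fintype.card ι} := by
  ext x
  simp_rw [Set.mem_smul_set_iff_inv_smul_mem₀ hc.ne', Set.mem_ofPred_eq, hF₁ _
    (inv_pos_of_pos hc).le, inv_pow, inv_mul_le_iff₀ (pow_pos hc _), mul_one, and_congr_left_iff]
  exact fun _ ↦ ⟨fun h ↦ (smul_inv_smul₀ hc.ne' x) ▸ hX h hc, fun h ↦ hX h (inv_pos_of_pos hc)⟩

lemma mem_lattice_iff (x : E) :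
    x ∈ L ↔ ∃ ν : ι → ℤ, (b.ofZLatticeBasis ℝ L).equivFun x = fun i => (ν i : ℝ) := by
  have hspan : x ∈ L ↔ x ∈ Submodule.span ℤ (Set.range (b.ofZLatticeBasis ℝ L)) := by
    rw [b.ofZLatticeBasis_span ℝ]
  rw [hspan, Basis.mem_span_iff_repr_mem]
  constructor
  · intro h
    choose ν hν using h
    refine ⟨ν, funext fun i => ?_⟩
    rw [Basis.equivFun_apply, ← hν i]
    simp
  · rintro ⟨ν, hν⟩ i
    refine ⟨ν i, ?_⟩
    have := congrFun hν i
    rw [Basis.equivFun_apply] at this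
    rw [this]
    simp

/-- Lattice points of `L` in `A` correspond to integer points in the image of `A` by the
coordinate map. -/
lemma card_inter_lattice_eq (A : Set E) :
    Nat.card (A ∩ L : Set E) =
      Nat.card {ν : ι → ℤ // (fun i => (ν i : ℝ)) ∈ (b.ofZLatticeBasis ℝ L).equivFun '' A} := by
  symm
  set e := (b.ofZLatticeBasis ℝ L).equivFun with he
  have hmem : ∀ ν : {ν : ι → ℤ // (fun i => (ν i : ℝ)) ∈ e '' A},
      e.symm (fun i => (ν.1 i : ℝ)) ∈ (A ∩ L : Set E) := by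
    rintro ⟨ν, x, hx, hxν⟩
    have : e.symm (fun i => (ν i : ℝ)) = x := by rw [← hxν, e.symm_apply_apply]
    simp only [this]
    exact ⟨hx, (mem_lattice_iff b x).2 ⟨ν, hxν⟩⟩
  refine Nat.card_congr (Equiv.ofBijective (fun ν => ⟨_, hmem ν⟩) ⟨?_, ?_⟩)
  · rintro ⟨ν, hν⟩ ⟨ν', hν'⟩ h
    simp only [Subtype.mk.injEq, EmbeddingLike.apply_eq_iff_eq] at h
    apply Subtype.ext
    funext i
    exact_mod_cast congrFun h i
  · rintro ⟨x, hxA, hxL⟩
    obtain ⟨ν, hν⟩ := (mem_lattice_iff b x).1 hxL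
    refine ⟨⟨ν, x, hxA, hν⟩, ?_⟩
    apply Subtype.ext
    simp only
    rw [← hν, e.symm_apply_apply]

variable [MeasurableSpace E] [BorelSpace E]

/-- **Counting lattice points in a cone with a power-saving error term.** -/
theorem exists_abs_card_le_sub_le [Nonempty ι] {X : Set E}
    (hX : ∀ ⦃x⦄ ⦃r : ℝ⦄, x ∈ X → 0 < r → r • x ∈ X)
    {F : E → ℝ} (h₁ : ∀ x ⦃r : ℝ⦄, 0 ≤ r → F (r • x) = r ^ Fintype.card ι * (F x))
    (h₂ : IsBounded {x ∈ X | F x ≤ 1}) (h₃ : MeasurableSet {x ∈ X | F x ≤ 1})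
    {U : Set E} {d : ℕ} {C : ℝ} (h₄ : GridBoundIn U (frontier {x ∈ X | F x ≤ 1}) d C)
    (hU : frontier {x ∈ X | F x ≤ 1} ⊆ U) :
    ∃ A : ℝ, ∀ c : ℝ, 1 ≤ c →
      |(Nat.card ({x ∈ X | F x ≤ c} ∩ L : Set E) : ℝ)
        - c * volume.real ((b.ofZLatticeBasis ℝ L).equivFun '' {x ∈ X | F x ≤ 1})|
        ≤ A * c ^ ((d : ℝ) / Fintype.card ι) := by
  set e := (b.ofZLatticeBasis ℝ L).equivFun with he
  set eL := (b.ofZLatticeBasis ℝ L).equivFunL with heL
  set S : Set E := {x ∈ X | F x ≤ 1} with hS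
  have hn : 0 < Fintype.card ι := Fintype.card_pos
  have hn' : (Fintype.card ι : ℝ) ≠ 0 := Nat.cast_ne_zero.mpr hn.ne'
  -- the image set
  have hsb : IsBounded (e '' S) := by
    rw [← NormedSpace.isVonNBounded_iff ℝ] at h₂ ⊢
    exact Bornology.IsVonNBounded.image h₂ (eL : E →L[ℝ] ι → ℝ)
  have hsm : MeasurableSet (e '' S) :=
    eL.toHomeomorph.toMeasurableEquiv.measurableSet_image.mpr h₃
  have hfr : frontier (e '' S) = e '' frontier S := (eL.toHomeomorph.image_frontier S).symm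
  have hlip : LipschitzOnWith ‖(eL : E →L[ℝ] ι → ℝ)‖₊ e U :=
    ((eL : E →L[ℝ] ι → ℝ).lipschitz).lipschitzOnWith
  have hgrid := h₄.image hlip hU
  rw [← hfr] at hgrid
  set C' := C * ((⌈((‖(eL : E →L[ℝ] ι → ℝ)‖₊ : NNReal) : ℝ)⌉₊ + 1 : ℕ) : ℝ) ^ d with hC'
  refine ⟨3 ^ Fintype.card ι * C' * 2 ^ d, fun c hc => ?_⟩
  have hc0 : 0 < c := zero_lt_one.trans_le hc
  set r : ℝ := c ^ (Fintype.card ι : ℝ)⁻¹ with hr
  have hr1 : 1 ≤ r := Real.one_le_rpow hc (by positivity)
  have hr0 : 0 < r := zero_lt_one.trans_le hr1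
  have hrn : r ^ Fintype.card ι = c := by
    rw [hr, ← Real.rpow_natCast, ← Real.rpow_mul hc0.le, inv_mul_cancel₀ hn', Real.rpow_one]
  have hrd : r ^ d = c ^ ((d : ℝ) / Fintype.card ι) := by
    rw [hr, ← Real.rpow_natCast, ← Real.rpow_mul hc0.le, div_eq_inv_mul]
  have key := abs_card_smul_sub_le hsb hsm hgrid hr1
  have hset : ({x ∈ X | F x ≤ c} : Set E) = r • S := by
    rw [hS, cone_smul_eq (ι := ι) hX h₁ hr0, hrn]
  have himg : e '' (r • S) = r • (e '' S) := by
    rw [image_smul_set]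
  rw [hset, card_inter_lattice_eq b, ← he, himg]
  rw [hrn] at key
  calc _ ≤ 3 ^ Fintype.card ι * C' * (2 * r) ^ d := key
    _ = 3 ^ Fintype.card ι * C' * 2 ^ d * c ^ ((d : ℝ) / Fintype.card ι) := by
        rw [mul_pow, hrd]; ring

end GeneralLattice


section CubeFaces

variable {κ : Type*} [Fintype κ]

/-- A face of the unit cube. -/
def cubeFace (i₀ : κ) (ε : ℝ) : Set (κ → ℝ) := {x | x ∈ Set.Icc (0 : κ → ℝ) 1 ∧ x i₀ = ε}

open Classical in
lemma gridBoundIn_cubeFace (i₀ : κ) {ε : ℝ} (hε : ε ∈ Set.Icc (0 : ℝ) 1) :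
    GridBoundIn (Set.Icc (0 : κ → ℝ) 1) (cubeFace i₀ ε) (Fintype.card κ - 1)
      (2 ^ (Fintype.card κ - 1)) := by
  intro m hm
  have hmpos : (0 : ℝ) < m := by exact_mod_cast hm
  set S : κ → Finset ℝ := fun i =>
    if i = i₀ then {ε} else (Finset.range (m + 1)).image (fun k : ℕ => (k : ℝ) / m) with hS
  have hS01 : ∀ i, ∀ t ∈ S i, 0 ≤ t ∧ t ≤ 1 := by
    intro i t ht
    simp only [hS] at ht
    split_ifs at ht with h
    · rw [Finset.mem_singleton] at ht
      rw [ht]; exact hε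
    · rw [Finset.mem_image] at ht
      obtain ⟨k, hk, rfl⟩ := ht
      rw [Finset.mem_range, Nat.lt_succ_iff] at hk
      refine ⟨by positivity, ?_⟩
      rw [div_le_one hmpos]
      exact_mod_cast hk
  refine ⟨Fintype.piFinset S, ?_, ?_, ?_⟩
  · intro y hy
    rw [Finset.mem_coe, Fintype.mem_piFinset] at hy
    exact ⟨fun i => (hS01 i _ (hy i)).1, fun i => (hS01 i _ (hy i)).2⟩
  · rw [Fintype.card_piFinset]
    have h1 : ∀ i, (S i).card ≤ if i = i₀ then 1 else (m + 1) := by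
      intro i
      simp only [hS]
      split_ifs
      · simp
      · exact Finset.card_image_le.trans (by simp)
    have h2 : ∏ i, (S i).card ≤ (m + 1) ^ (Fintype.card κ - 1) := by
      refine (Finset.prod_le_prod' fun i _ => h1 i).trans ?_
      rw [Finset.prod_ite, Finset.prod_const_one, one_mul, Finset.prod_const]
      have : (Finset.univ.filter fun i : κ => ¬ i = i₀).card = Fintype.card κ - 1 := by
        rw [Finset.filter_ne' Finset.univ i₀, Finset.card_erase_of_mem (Finset.mem_univ _),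
          Finset.card_univ]
      rw [this]
    calc ((∏ i, (S i).card : ℕ) : ℝ) ≤ ((m + 1) ^ (Fintype.card κ - 1) : ℕ) := by
          exact_mod_cast h2
      _ ≤ (2 * m : ℝ) ^ (Fintype.card κ - 1) := by
          push_cast
          have : (1 : ℝ) ≤ m := by exact_mod_cast hm
          gcongr
          linarith
      _ = 2 ^ (Fintype.card κ - 1) * (m : ℝ) ^ (Fintype.card κ - 1) := by rw [mul_pow]
  · rintro x ⟨⟨hx0, hx1⟩, hxε⟩
    refine ⟨fun i => if i = i₀ then ε else (⌊(m : ℝ) * x i⌋₊ : ℝ) / m, ?_, ?_⟩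
    · rw [Fintype.mem_piFinset]
      intro i
      simp only [hS]
      split_ifs with h
      · simp
      · rw [Finset.mem_image]
        refine ⟨⌊(m : ℝ) * x i⌋₊, ?_, rfl⟩
        rw [Finset.mem_range, Nat.lt_succ_iff]
        apply Nat.floor_le_of_le
        calc (m : ℝ) * x i ≤ m * 1 := by gcongr; exact hx1 i
          _ = m := mul_one _
    · rw [dist_pi_le_iff (by positivity)]
      intro i
      split_ifs with h
      · rw [h, hxε, dist_self]; positivity
      · have hnn : 0 ≤ (m : ℝ) * x i := mul_nonneg hmpos.le (hx0 i)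
        have h1 := Nat.floor_le hnn
        have h2 := Nat.lt_floor_add_one ((m : ℝ) * x i)
        rw [Real.dist_eq, abs_le]
        constructor
        · rw [neg_le_sub_iff_le_add, div_le_iff₀ hmpos, add_mul, one_div,
            inv_mul_cancel₀ hmpos.ne']
          linarith
        · rw [sub_le_iff_le_add, ← add_div, le_div_iff₀ hmpos]
          linarith

/-- The boundary of the unit cube. -/
def cubeBoundary (κ : Type*) : Set (κ → ℝ) :=
  {x | x ∈ Set.Icc (0 : κ → ℝ) 1 ∧ ∃ i, x i = 0 ∨ x i = 1}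

lemma gridBoundIn_cubeBoundary :
    GridBoundIn (Set.Icc (0 : κ → ℝ) 1) (cubeBoundary κ) (Fintype.card κ - 1)
      (∑ _j : κ × Bool, (2 : ℝ) ^ (Fintype.card κ - 1)) := by
  have h := GridBoundIn.iUnion (J := κ × Bool) (U := Set.Icc (0 : κ → ℝ) 1)
    (T := fun j => cubeFace j.1 (if j.2 then 1 else 0)) (d := Fintype.card κ - 1)
    (C := fun _ => 2 ^ (Fintype.card κ - 1)) (fun j => gridBoundIn_cubeFace j.1 (by
      split_ifs <;> simp))
  refine h.mono subset_rfl ?_
  rintro x ⟨hx, i, hi | hi⟩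
  · exact Set.mem_iUnion.2 ⟨(i, false), hx, by simpa using hi⟩
  · exact Set.mem_iUnion.2 ⟨(i, true), hx, by simpa using hi⟩

end CubeFaces

end Fermat.Agent.S14.H98
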