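import Fermat.Agent.S14.H98_LatticeCount

/-
S14 package B1b-i (helper98): the frontier of `normLeOne K` has box-counting dimension `≤ n - 1`.

Main results (namespace `Fermat.Agent.S14.H98`):
* `paramMap K σ`: explicit `C¹` parametrization (radial coordinates through `expMapBasis`,
  signs at real places, angles at complex places) defined on `ParamIdx K → ℝ`.
* `frontier_normLeOne_subset`: `frontier (normLeOne K) ⊆ ⋃ σ, paramMap K σ '' cubeBoundary _`.
* `exists_gridBoundIn_frontier_normLeOne`:
  `∃ C, GridBoundIn Set.univ (frontier (normLeOne K)) (Module.finrank ℚ K - 1) C`.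
-/

set_option autoImplicit false

namespace Fermat.Agent.S14.H98

open NumberField NumberField.InfinitePlace NumberField.mixedEmbedding
  NumberField.mixedEmbedding.fundamentalCone NumberField.Units.dirichletUnitTheorem

noncomputable section NormLeOneFrontier

open scoped Classical

variable (K : Type*) [Field K] [NumberField K]

/-- Index type of the parameter cube: one radial coordinate per infinite place and one angle per
complex place. -/
abbrev ParamIdx := InfinitePlace K ⊕ {w : InfinitePlace K // IsComplex w}

/-- The radial part of the parametrization. -/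
noncomputable def radial (x : ParamIdx K → ℝ) : realSpace K :=
  x (Sum.inl w₀) • expMapBasis (fun w => if w = w₀ then 0 else x (Sum.inl w))

/-- The parametrization of (a set containing) the frontier of `normLeOne K`. -/
noncomputable def paramMap (σ : {w : InfinitePlace K // IsReal w} → Bool)
    (x : ParamIdx K → ℝ) : mixedSpace K :=
  (fun w => (if σ w then 1 else -1) * radial K x w.1,
   fun w => (radial K x w.1 : ℂ) *
      Complex.exp (((Real.pi * (2 * x (Sum.inr w) - 1) : ℝ) : ℂ) * Complex.I))

lemma radial_apply (x : ParamIdx K → ℝ) (w : InfinitePlace K) :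
    radial K x w = x (Sum.inl w₀) * Real.exp ((w.mult : ℝ)⁻¹ *
      ((completeBasis K).equivFunL.symm (fun w' => if w' = w₀ then 0 else x (Sum.inl w'))) w) := by
  rw [radial, Pi.smul_apply, smul_eq_mul, expMapBasis_apply, expMap_apply]
  rfl

lemma contDiff_radial_apply (w : InfinitePlace K) :
    ContDiff ℝ 1 (fun x : ParamIdx K → ℝ => radial K x w) := by
  simp_rw [radial_apply]
  have hv : ContDiff ℝ 1 (fun x : ParamIdx K → ℝ =>
      (fun w' : InfinitePlace K => if w' = w₀ then (0 : ℝ) else x (Sum.inl w'))) := by
    rw [contDiff_pi]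
    intro w'
    split_ifs
    · exact contDiff_const
    · exact contDiff_apply ℝ ℝ (Sum.inl w')
  have h1 : ContDiff ℝ 1 (fun x : ParamIdx K → ℝ =>
      ((completeBasis K).equivFunL.symm
        (fun w' => if w' = w₀ then 0 else x (Sum.inl w'))) w) :=
    (contDiff_apply ℝ ℝ w).comp (((completeBasis K).equivFunL.symm.contDiff).comp hv)
  exact (contDiff_apply ℝ ℝ (Sum.inl w₀)).mul (Real.contDiff_exp.comp (contDiff_const.mul h1))

lemma contDiff_paramMap (σ : {w : InfinitePlace K // IsReal w} → Bool) :
    ContDiff ℝ 1 (paramMap K σ) := by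
  unfold paramMap
  refine ContDiff.prodMk ?_ ?_
  · rw [contDiff_pi]
    intro w
    exact contDiff_const.mul (contDiff_radial_apply K w.1)
  · rw [contDiff_pi]
    intro w
    refine (Complex.ofRealCLM.contDiff.comp (contDiff_radial_apply K w.1)).mul ?_
    refine Complex.contDiff_exp.comp ?_
    refine ContDiff.mul ?_ contDiff_const
    refine Complex.ofRealCLM.contDiff.comp ?_
    exact contDiff_const.mul (((contDiff_const.mul (contDiff_apply ℝ ℝ (Sum.inr w)))).sub
      contDiff_const)

lemma exists_lipschitzOnWith_paramMap (σ : {w : InfinitePlace K // IsReal w} → Bool) :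
    ∃ L, LipschitzOnWith L (paramMap K σ) (Set.Icc (0 : ParamIdx K → ℝ) 1) :=
  (contDiff_paramMap K σ).contDiffOn.exists_lipschitzOnWith one_ne_zero (convex_Icc _ _)
    isCompact_Icc


/-- The radial parameters: every element of `compactSet K` that is not in the image of the
interior of `paramSet K` is `radial` of a boundary point of the cube. -/
lemma exists_radial_param {y : realSpace K} (hy1 : y ∈ compactSet K)
    (hy2 : y ∉ expMapBasis '' interior (paramSet K)) :
    ∃ ρ : InfinitePlace K → ℝ, (∀ w, 0 ≤ ρ w ∧ ρ w ≤ 1) ∧ (∃ w, ρ w = 0 ∨ ρ w = 1) ∧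
      ρ w₀ • expMapBasis (fun w => if w = w₀ then 0 else ρ w) = y := by
  rw [compactSet_eq_union] at hy1
  rcases hy1 with ⟨u, hu, rfl⟩ | hy0
  · rw [closure_paramSet, Set.mem_univ_pi] at hu
    refine ⟨fun w => if w = w₀ then Real.exp (u w₀) else u w, ?_, ?_, ?_⟩
    · intro w
      have := hu w
      beta_reduce
      split_ifs with h
      · rw [if_pos h, Set.mem_Iic] at this
        exact ⟨(Real.exp_pos _).le, Real.exp_le_one_iff.2 (h ▸ this)⟩
      · rw [if_neg h] at this
        exact this
    · have hu' : u ∉ interior (paramSet K) := fun h => hy2 ⟨u, h, rfl⟩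
      rw [interior_paramSet, Set.mem_univ_pi, not_forall] at hu'
      obtain ⟨w, hw⟩ := hu'
      refine ⟨w, ?_⟩
      have := hu w
      beta_reduce
      split_ifs at hw with h
      · rw [if_pos h, Set.mem_Iic] at this
        rw [Set.mem_Iio, not_lt] at hw
        right
        rw [if_pos h]
        have h0 : u w₀ = 0 := by rw [← h]; exact le_antisymm this hw
        rw [h0, Real.exp_zero]
      · rw [if_neg h] at this
        rw [if_neg h]
        rw [Set.mem_Ioo, not_and_or, not_lt, not_lt] at hw
        rcases hw with hw | hw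
        · left; exact le_antisymm hw this.1
        · right; exact le_antisymm this.2 hw
    · beta_reduce
      rw [if_pos rfl, expMapBasis_apply'' u]
      congr 2
      funext w
      split_ifs <;> rfl
  · rw [Set.mem_singleton_iff] at hy0
    refine ⟨fun _ => 0, fun _ => ⟨le_rfl, zero_le_one⟩, ⟨w₀, Or.inl rfl⟩, ?_⟩
    rw [hy0, zero_smul]

/-- The frontier of `normLeOne K` is covered by the images of the boundary of the parameter cube
under the (finitely many) maps `paramMap K σ`. -/
theorem frontier_normLeOne_subset :
    frontier (normLeOne K) ⊆ ⋃ σ, paramMap K σ '' cubeBoundary (ParamIdx K) := by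
  intro z hz
  have hz1 : normAtAllPlaces z ∈ compactSet K :=
    closure_normLeOne_subset K (frontier_subset_closure hz)
  have hz2 : normAtAllPlaces z ∉ expMapBasis '' interior (paramSet K) := by
    intro h
    have : z ∈ interior (normLeOne K) := subset_interior_normLeOne K h
    rw [frontier, Set.mem_sdiff] at hz
    exact hz.2 this
  obtain ⟨ρ, hρ01, hρb, hρ⟩ := exists_radial_param K hz1 hz2
  set θ : {w : InfinitePlace K // IsComplex w} → ℝ :=
    fun w => (Complex.arg (z.2 w) / Real.pi + 1) / 2 with hθ
  set x : ParamIdx K → ℝ := Sum.elim ρ θ with hx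
  have hrad : radial K x = normAtAllPlaces z := by
    rw [radial, ← hρ]
    rfl
  have hπ : 0 < Real.pi := Real.pi_pos
  refine Set.mem_iUnion.2 ⟨fun w => decide (0 ≤ z.1 w), x, ⟨⟨?_, ?_⟩, ?_⟩, ?_⟩
  · rintro (w | w)
    · exact (hρ01 w).1
    · show (0 : ℝ) ≤ (Complex.arg (z.2 w) / Real.pi + 1) / 2
      have h1 : -1 ≤ Complex.arg (z.2 w) / Real.pi := by
        rw [le_div_iff₀ hπ]
        linarith [Complex.neg_pi_lt_arg (z.2 w)]
      linarith
  · rintro (w | w)
    · exact (hρ01 w).2
    · show (Complex.arg (z.2 w) / Real.pi + 1) / 2 ≤ (1 : ℝ)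
      have h1 : Complex.arg (z.2 w) / Real.pi ≤ 1 := by
        rw [div_le_one hπ]
        exact Complex.arg_le_pi _
      linarith
  · obtain ⟨w, hw⟩ := hρb
    exact ⟨Sum.inl w, hw⟩
  · unfold paramMap
    rw [hrad]
    refine Prod.ext (funext fun w => ?_) (funext fun w => ?_)
    · show (if decide (0 ≤ z.1 w) = true then (1 : ℝ) else -1) * normAtAllPlaces z w.1 = z.1 w
      rw [normAtAllPlaces_apply, normAtPlace_apply_of_isReal w.2, Real.norm_eq_abs]
      by_cases h : 0 ≤ z.1 w
      · simp [h, abs_of_nonneg h]
      · simp [h, abs_of_neg (not_le.1 h)]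
    · show ((normAtAllPlaces z w.1 : ℝ) : ℂ) *
        Complex.exp (((Real.pi * (2 * θ w - 1) : ℝ) : ℂ) * Complex.I) = z.2 w
      rw [normAtAllPlaces_apply, normAtPlace_apply_of_isComplex w.2]
      have : Real.pi * (2 * θ w - 1) = Complex.arg (z.2 w) := by
        rw [hθ]
        field_simp
        ring
      rw [this]
      exact Complex.norm_mul_exp_arg_mul_I _

/-- **The frontier of `normLeOne K` has box-counting dimension at most `n - 1`.** -/
theorem exists_gridBoundIn_frontier_normLeOne :
    ∃ C, GridBoundIn Set.univ (frontier (normLeOne K)) (Module.finrank ℚ K - 1) C := by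
  have hcard : Fintype.card (ParamIdx K) = Module.finrank ℚ K := by
    rw [Fintype.card_sum, card_eq_nrRealPlaces_add_nrComplexPlaces,
      ← card_add_two_mul_card_eq_rank K]
    ring
  choose L hL using exists_lipschitzOnWith_paramMap K
  have hsub : cubeBoundary (ParamIdx K) ⊆ Set.Icc (0 : ParamIdx K → ℝ) 1 := fun x hx => hx.1
  have h1 : ∀ σ, GridBoundIn Set.univ (paramMap K σ '' cubeBoundary (ParamIdx K))
      (Module.finrank ℚ K - 1) _ := fun σ =>
    hcard ▸ ((gridBoundIn_cubeBoundary (κ := ParamIdx K)).image (hL σ) hsub).mono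
      (Set.subset_univ _) subset_rfl
  exact ⟨_, (GridBoundIn.iUnion h1).mono subset_rfl (frontier_normLeOne_subset K)⟩

end NormLeOneFrontier

end Fermat.Agent.S14.H98
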