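import Fermat.Agent.S14.CrossInterfaces2
import Fermat.Agent.S14.ClsLemmas

/-!
# S14, crossing: setup and sub-packages for `Stmt_SideN`

Setup (generic): `N/K` abelian Galois containing `M`, `r` prime, `χ : Gal(N/K) → (ℤ/r)ˣ`,
`τ ∈ Gal(M/K)`, `u ∈ (ℤ/r)ˣ`.

* `HH  = {γ | (γ|M, χ γ) ∈ ⟨(τ,u)⟩} ≤ Gal(N/K)`
* `EE  = N^HH`                      (intermediate field of `N/K`)
* `LL0 = N^(HH ⊓ Gal(N/M))`         (intermediate field of `N/K`, equal to `M·EE`)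
* `LL  = LL0` as an intermediate field of `N/EE`  (so `Algebra EE LL` is available)

Sub-packages `Stmt_SNa … Stmt_SNf`; `Stmt_SideN` is assembled from them and `Stmt_Side`
in `H68_SideN.lean`.
-/

namespace Fermat.Agent.S14.Side

open NumberField

variable (K M N : Type) [Field K] [NumberField K] [Field M] [NumberField M] [Field N]
  [NumberField N] [Algebra K M] [Algebra K N] [Algebra M N] [IsScalarTower K M N]
  [IsGalois K M]
variable {r : ℕ} (χ : (N ≃ₐ[K] N) →* (ZMod r)ˣ) (τ : M ≃ₐ[K] M) (u : (ZMod r)ˣ)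

/-- Restriction `Gal(N/K) → Gal(M/K)`. -/
noncomputable def resN : (N ≃ₐ[K] N) →* (M ≃ₐ[K] M) := AlgEquiv.restrictNormalHom M

/-- `HH = {γ | (γ|M, χ γ) ∈ ⟨(τ,u)⟩}`. -/
noncomputable def HH : Subgroup (N ≃ₐ[K] N) :=
  (Subgroup.zpowers (τ, u)).comap ((resN K M N).prod χ)

/-- `EE = N^HH`. -/
noncomputable abbrev EE : IntermediateField K N := IntermediateField.fixedField (HH K M N χ τ u)

/-- `LL0 = N^(HH ⊓ Gal(N/M))`. -/
noncomputable abbrev LL0 : IntermediateField K N :=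
  IntermediateField.fixedField (HH K M N χ τ u ⊓ (resN K M N).ker)

lemma EE_le_LL0 : EE K M N χ τ u ≤ LL0 K M N χ τ u :=
  IntermediateField.fixedField_antitone inf_le_left

/-- `LL = LL0` as an extension of `EE`. -/
noncomputable abbrev LL : IntermediateField (EE K M N χ τ u) N :=
  IntermediateField.extendScalars (EE_le_LL0 K M N χ τ u)

end Fermat.Agent.S14.Side

namespace Fermat.Agent.S14.Side

open NumberField

/-- The hypotheses of `Stmt_SideN`, bundled. -/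
structure SideHyp (p : ℕ) (K M N : Type) [Field K] [NumberField K] [Field M] [NumberField M]
    [Field N] [NumberField N] [Algebra K M] [Algebra K N] [Algebra M N] [IsScalarTower K M N]
    [IsGalois K M] [IsGalois K N] (r : ℕ) (χ : (N ≃ₐ[K] N) →* (ZMod r)ˣ) (ζ : N)
    (I : Subgroup (N ≃ₐ[K] N)) (Q : Ideal (𝓞 M)) (τ : M ≃ₐ[K] M) (u : (ZMod r)ˣ) : Prop where
  hp2 : p ≠ 2
  hdeg : Module.finrank K M = p
  hunr : UnramifiedEverywhere K M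
  hab : ∀ σ τ : N ≃ₐ[K] N, σ * τ = τ * σ
  hrp : r ≠ p
  hζ : IsPrimitiveRoot ζ r
  hχ : ∀ γ : N ≃ₐ[K] N, γ ζ = ζ ^ ((χ γ : ZMod r).val)
  hI_res : I ≤ (resN K M N).ker
  hI_in : ∀ 𝔓 : Ideal (𝓞 N), 𝔓.IsPrime → (r : 𝓞 N) ∈ 𝔓 → I ≤ 𝔓.inertia (N ≃ₐ[K] N)
  hI_surj : ∀ v : (ZMod r)ˣ, ∃ γ ∈ I, χ γ = v
  hQ : Q.IsPrime
  hτ : IsArithFrobAt (𝓞 K) τ Q
  hτ1 : τ ≠ 1
  hq : (Ideal.absNorm (Q.under (𝓞 K))).Prime
  hu : (u : ZMod r) = (Ideal.absNorm (Q.under (𝓞 K)) : ZMod r)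
  hord : p ∣ orderOf u

/-- **SN-a**: `[LL : EE] = p`. -/
def Stmt_SNa : Prop :=
  ∀ (p : ℕ) [Fact p.Prime] (K M N : Type) [Field K] [NumberField K] [Field M] [NumberField M]
    [Field N] [NumberField N] [Algebra K M] [Algebra K N] [Algebra M N] [IsScalarTower K M N]
    [IsGalois K M] [IsGalois K N] [IsCyclotomicExtension {p} ℚ K]
    (r : ℕ) [Fact r.Prime] (χ : (N ≃ₐ[K] N) →* (ZMod r)ˣ) (ζ : N) (I : Subgroup (N ≃ₐ[K] N))
    (Q : Ideal (𝓞 M)) (τ : M ≃ₐ[K] M) (u : (ZMod r)ˣ),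
    SideHyp p K M N r χ ζ I Q τ u →
    Module.finrank (EE K M N χ τ u) (LL K M N χ τ u) = p

/-- **SN-b** (`h1` of `Stmt_Side`): the norm of an element of `𝓞 EE` prime to `r` lies in
`⟨u ^ p⟩` modulo `r`.  (From `Stmt_E2` with `H := HH`, `[I : I ⊓ HH] = [(ℤ/r)ˣ : ⟨u^p⟩]`,
and positivity of the norm on the totally complex field `EE`.) -/
def Stmt_SNb : Prop :=
  ∀ (p : ℕ) [Fact p.Prime] (K M N : Type) [Field K] [NumberField K] [Field M] [NumberField M]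
    [Field N] [NumberField N] [Algebra K M] [Algebra K N] [Algebra M N] [IsScalarTower K M N]
    [IsGalois K M] [IsGalois K N] [IsCyclotomicExtension {p} ℚ K]
    (r : ℕ) [Fact r.Prime] (χ : (N ≃ₐ[K] N) →* (ZMod r)ˣ) (ζ : N) (I : Subgroup (N ≃ₐ[K] N))
    (Q : Ideal (𝓞 M)) (τ : M ≃ₐ[K] M) (u : (ZMod r)ˣ),
    SideHyp p K M N r χ ζ I Q τ u →
    ∀ (y : 𝓞 (EE K M N χ τ u)) (v : (ZMod r)ˣ),
      (v : ZMod r) = (Ideal.absNorm (Ideal.span {y}) : ZMod r) → v ∈ Subgroup.zpowers (u ^ p)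

/-- **SN-c** (`h2` of `Stmt_Side`): the norm of a prime of `LL` of absolute degree one
(different from `r`) lies in `⟨u ^ p⟩` modulo `r`.  (Frobenius of `N/LL` at a prime above.) -/
def Stmt_SNc : Prop :=
  ∀ (p : ℕ) [Fact p.Prime] (K M N : Type) [Field K] [NumberField K] [Field M] [NumberField M]
    [Field N] [NumberField N] [Algebra K M] [Algebra K N] [Algebra M N] [IsScalarTower K M N]
    [IsGalois K M] [IsGalois K N] [IsCyclotomicExtension {p} ℚ K]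
    (r : ℕ) [Fact r.Prime] (χ : (N ≃ₐ[K] N) →* (ZMod r)ˣ) (ζ : N) (I : Subgroup (N ≃ₐ[K] N))
    (Q : Ideal (𝓞 M)) (τ : M ≃ₐ[K] M) (u : (ZMod r)ˣ),
    SideHyp p K M N r χ ζ I Q τ u →
    ∀ (Q' : Ideal (𝓞 (LL K M N χ τ u))), Q'.IsPrime → (Ideal.absNorm Q').Prime →
      Ideal.absNorm Q' ∉ ({r} : Finset ℕ) →
      ∀ v : (ZMod r)ˣ, (v : ZMod r) = (Ideal.absNorm Q' : ZMod r) → v ∈ Subgroup.zpowers (u ^ p)

/-- **SN-d**: there is an ideal `A` of `EE` with the same absolute norm as `𝔮 = Q ∩ K` and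
relative norm `𝔮`.  (`A := 𝔓₀ ∩ EE`, `𝔓₀ ∣ Q`; the Frobenius of `N/K` at `𝔓₀` lies in `HH`.) -/
def Stmt_SNd : Prop :=
  ∀ (p : ℕ) [Fact p.Prime] (K M N : Type) [Field K] [NumberField K] [Field M] [NumberField M]
    [Field N] [NumberField N] [Algebra K M] [Algebra K N] [Algebra M N] [IsScalarTower K M N]
    [IsGalois K M] [IsGalois K N] [IsCyclotomicExtension {p} ℚ K]
    (r : ℕ) [Fact r.Prime] (χ : (N ≃ₐ[K] N) →* (ZMod r)ˣ) (ζ : N) (I : Subgroup (N ≃ₐ[K] N))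
    (Q : Ideal (𝓞 M)) (τ : M ≃ₐ[K] M) (u : (ZMod r)ˣ),
    SideHyp p K M N r χ ζ I Q τ u →
    ∃ A : Ideal (𝓞 (EE K M N χ τ u)),
      Ideal.absNorm A = Ideal.absNorm (Q.under (𝓞 K)) ∧
      Ideal.relNorm (𝓞 K) A = Q.under (𝓞 K)

/-- **SN-e**: if `γ ∈ HH` satisfies `γ x ≡ x ^ (N𝔟 ^ g)` mod `𝔓` (`𝔟 = 𝔓 ∩ K`, `g ≠ 0`), there is
an ideal `B` of `EE` of absolute norm `N𝔟 ^ g` and relative norm `𝔟 ^ g`.
(`B := (𝔓 ∩ EE) ^ (g / f)`.) -/
def Stmt_SNe : Prop :=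
  ∀ (p : ℕ) [Fact p.Prime] (K M N : Type) [Field K] [NumberField K] [Field M] [NumberField M]
    [Field N] [NumberField N] [Algebra K M] [Algebra K N] [Algebra M N] [IsScalarTower K M N]
    [IsGalois K M] [IsGalois K N] [IsCyclotomicExtension {p} ℚ K]
    (r : ℕ) [Fact r.Prime] (χ : (N ≃ₐ[K] N) →* (ZMod r)ˣ) (ζ : N) (I : Subgroup (N ≃ₐ[K] N))
    (Q : Ideal (𝓞 M)) (τ : M ≃ₐ[K] M) (u : (ZMod r)ˣ),
    SideHyp p K M N r χ ζ I Q τ u →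
    ∀ (𝔓 : Ideal (𝓞 N)) (γ : N ≃ₐ[K] N) (g : ℕ), 𝔓.IsPrime → g ≠ 0 →
      (∀ x : 𝓞 N, γ • x - x ^ (Ideal.absNorm (𝔓.under (𝓞 K)) ^ g) ∈ 𝔓) →
      γ ∈ HH K M N χ τ u →
      ∃ B : Ideal (𝓞 (EE K M N χ τ u)),
        Ideal.absNorm B = Ideal.absNorm (𝔓.under (𝓞 K)) ^ g ∧
        Ideal.relNorm (𝓞 K) B = (𝔓.under (𝓞 K)) ^ g

/-- **SN-f** (norm down): the norm `EE → K` maps `splitClasses EE LL {r}` into the norm classes
of `M/K`. -/
def Stmt_SNf : Prop :=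
  ∀ (p : ℕ) [Fact p.Prime] (K M N : Type) [Field K] [NumberField K] [Field M] [NumberField M]
    [Field N] [NumberField N] [Algebra K M] [Algebra K N] [Algebra M N] [IsScalarTower K M N]
    [IsGalois K M] [IsGalois K N] [IsCyclotomicExtension {p} ℚ K]
    (r : ℕ) [Fact r.Prime] (χ : (N ≃ₐ[K] N) →* (ZMod r)ˣ) (ζ : N) (I : Subgroup (N ≃ₐ[K] N))
    (Q : Ideal (𝓞 M)) (τ : M ≃ₐ[K] M) (u : (ZMod r)ˣ),
    SideHyp p K M N r χ ζ I Q τ u →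
    ∀ J : Ideal (𝓞 (EE K M N χ τ u)), J ≠ ⊥ →
      cls J ∈ splitClasses (EE K M N χ τ u) (LL K M N χ τ u) {r} →
      cls (Ideal.relNorm (𝓞 K) J) ∈ normClasses K M

end Fermat.Agent.S14.Side
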